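import Fermat.Agent.CFT.Global.SecondInequality

/-!
Norms from cubic Kummer extensions, written inside the base field.

Elements close to cubes are local cubes (`exists_cube_root_of_near`), so the local conditions on
`a` and `x` make `x` a local norm from the extension by `∛a` (`embUx_mem_normP_of_local`). The norm
theorem makes it a norm, and the product of the conjugates of `r + sθ + tθ²` turns this into a
representation by the cubic norm form (`exists_cubicForm_of_local`).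
-/

set_option autoImplicit false

noncomputable section

open scoped Classical NumberField
open IsDedekindDomain

namespace FermatAgent.CFT

namespace Local

variable {q : ℕ} [hq : Fact q.Prime] {F : IntermediateField ℚ_[q] (PadicAlgCl q)}
  [FiniteDimensional ℚ_[q] F]

omit [FiniteDimensional ℚ_[q] F] in
/-- Elements very close to one are cubes. -/
lemma exists_cube_root_of_near {ζ : PadicAlgCl q} (hζ : IsPrimitiveRoot ζ 3)
    {u : PadicAlgCl q} (hu : u ∈ F) (h : ‖u - 1‖ < ‖(9 : PadicAlgCl q)‖) :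
    ∃ w ∈ F, w ^ 3 = u := by
  have h1ζ : ‖ζ‖ = 1 := norm_eq_one_of_pow_eq_one (by norm_num) hζ.pow_eq_one
  have hsum : ζ ^ 2 + ζ + 1 = 0 := by
    have h0 := hζ.geom_sum_eq_zero (by norm_num)
    simp only [Finset.sum_range_succ, Finset.sum_range_zero, pow_zero, pow_one, zero_add] at h0
    linear_combination h0
  -- the distance between the roots of unity
  set D := ‖1 - ζ‖
  have hD2 : D ^ 2 = ‖(3 : PadicAlgCl q)‖ := by
    rw [show (3 : PadicAlgCl q) = (1 - ζ) * ((1 - ζ) * (1 + ζ)) by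
      linear_combination (2 - ζ) * hsum,
      norm_mul, norm_mul, sq]
    have h2 : ‖1 + ζ‖ = 1 := by
      rw [show 1 + ζ = -(ζ ^ 2) by linear_combination hsum, norm_neg, norm_pow, h1ζ, one_pow]
    rw [h2, mul_one]
  have hD1 : D ≤ 1 := by
    have h2 := IsUltrametricDist.norm_add_le_max (1 : PadicAlgCl q) (-ζ)
    rw [← sub_eq_add_neg, norm_one, norm_neg, h1ζ, max_self] at h2
    exact h2
  have hD0 : 0 < D := norm_pos_iff.mpr (sub_ne_zero.mpr (hζ.ne_one (by norm_num)).symm)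
  refine exists_root_of_dist hD0 hD1 (fun z hz hz1 => ?_) hu (h.trans_le ?_)
  · have : NeZero (3 : ℕ) := ⟨by norm_num⟩
    obtain ⟨i, hi, rfl⟩ := hζ.eq_pow_of_pow_eq_one hz
    rcases (show i = 0 ∨ i = 1 ∨ i = 2 by omega) with rfl | rfl | rfl
    · exact absurd (pow_zero ζ) hz1
    · rw [pow_one, norm_sub_rev]
    · rw [show ζ ^ 2 - 1 = (1 - ζ) * ζ ^ 2 by linear_combination hζ.pow_eq_one, norm_mul, norm_pow,
        h1ζ, one_pow, mul_one]
  · calc ‖(9 : PadicAlgCl q)‖ = D ^ 2 * D ^ 2 := by rw [hD2, ← norm_mul]; norm_num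
      _ ≤ D ^ 3 := by
        rw [← pow_add]; exact pow_le_pow_of_le_one hD0.le hD1 (by norm_num)

end Local

namespace Global

open Coh Local GaloisBasic

variable {K : IntermediateField ℚ Qbar} [FiniteDimensional ℚ K] {p : ℕ} [hp : Fact p.Prime]
  (χ : CycChar (galLevels ℚ Qbar) K.fixingSubgroup p)

omit [FiniteDimensional ℚ K] in
/-- Multiples of `p` are local norms. -/
lemma nsmul_mem_normP [FiniteDimensional ℚ K] {P : PK K} {y : MM (qOf P)}
    (hy : y ∈ starF (locK P)) :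
    p • y ∈ normP χ P := by
  refine ⟨fun _ => y, fun d hd _ => (hy d hd).symm, ?_⟩
  rw [AddMonoidHom.finsetSum_apply]
  simp [Finset.card_univ, ZMod.card]

/-- A cube root inside the local field from closeness to a cube. -/
lemma exists_local_cube_root {ζ : Qbar} (hζ : IsPrimitiveRoot ζ 3) (P : PK K) {a : GM}
    (ha : a ∈ starK K) {b : Qbar} (hbK : b ∈ K)
    (h : ‖emb (qOf P) (gOf P) (b ^ 3 / a.val - 1)‖ < ‖(9 : PadicAlgCl (qOf P))‖) :
    embUx (qOf P) (gOf P) a ∈ (starF (locK P)).map (nsmulAddMonoidHom 3) := by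
  rw [map_sub, map_div₀, map_pow, map_one] at h
  set e := emb (qOf P) (gOf P)
  have ha' : e a.val ∈ locK P := emb_mem_locField (val_mem_of_mem_starK K ha)
  have ha0 : e a.val ≠ 0 := (_root_.map_ne_zero _).mpr a.val_ne_zero
  have h9 : ‖(9 : PadicAlgCl (qOf P))‖ ≤ 1 := by
    simpa using IsUltrametricDist.norm_natCast_le_one (PadicAlgCl (qOf P)) 9
  obtain ⟨w, hw, hw3⟩ := exists_cube_root_of_near (hζ.map_of_injective (emb_injective (gOf P)))
    (div_mem (pow_mem (emb_mem_locField hbK) 3) ha') h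
  have hu0 : e b ^ 3 / e a.val ≠ 0 := fun h0 => by
    rw [h0, zero_sub, norm_neg, norm_one] at h
    exact absurd h (not_lt.mpr h9)
  have hw0 : w ≠ 0 := fun h0 => hu0 (by rw [← hw3, h0, zero_pow (by norm_num)])
  have hb0 : e b ≠ 0 := fun h0 => hu0 (by rw [h0, zero_pow (by norm_num), zero_div])
  refine ⟨Ux.mk (e b / w) (div_ne_zero hb0 hw0), mem_fixedUx_fixingSubgroup.mpr
    (div_mem (emb_mem_locField hbK) hw), Ux.ext ?_⟩
  show (3 • Ux.mk (e b / w) _ : MM (qOf P)).val = _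
  rw [Ux.val_nsmul, Ux.val_mk, div_pow, hw3, val_embUx, div_div_eq_mul_div,
    mul_div_cancel_left₀ _ (pow_ne_zero 3 hb0)]

/-- The local conditions make `x` a local norm from the Kummer extension by a cube root of `a`. -/
lemma embUx_mem_normP_of_local [Fact (Nat.Prime 3)] [NumberField.IsTotallyComplex K] {ζ : Qbar}
    (hζ : IsPrimitiveRoot ζ 3) (hζK : ζ ∈ K) {a x y : GM} (ha : a ∈ starK K) (hx : x ∈ starK K)
    (hy3 : 3 • y = a) {χ : CycChar (galLevels ℚ Qbar) K.fixingSubgroup 3}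
    (hkum : IsKummer hζ χ y) (P : PK K)
    (hloc : (∃ b ∈ K, ‖emb (qOf P) (gOf P) (b ^ 3 / a.val - 1)‖ < ‖(9 : PadicAlgCl (qOf P))‖) ∨
      (∃ c ∈ K, ‖emb (qOf P) (gOf P) (c ^ 3 / x.val - 1)‖ < ‖(9 : PadicAlgCl (qOf P))‖) ∨
      (qOf P ≠ 3 ∧ (∃ b ∈ K, ‖emb (qOf P) (gOf P) (b ^ 3 / a.val)‖ = 1) ∧
        ∃ c ∈ K, ‖emb (qOf P) (gOf P) (c ^ 3 / x.val)‖ = 1)) :
    embUx (qOf P) (gOf P) x ∈ normP χ P := by
  rcases hloc with ⟨b, hb, h⟩ | ⟨c, hc, h⟩ | ⟨hq3, ⟨b, hb, hb1⟩, ⟨c, hc, hc1⟩⟩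
  · refine starF_le_normP χ ?_ (embUx_mem_starF hx)
    refine (hkum.split_iff hζ hζK).mpr ?_
    rw [hy3]
    exact exists_local_cube_root hζ P ha hb h
  · obtain ⟨w, hw, hwx⟩ := exists_local_cube_root hζ P hx hc h
    rw [← hwx]
    exact nsmul_mem_normP χ hw
  · have hne : ∀ {z : Qbar} {v : GM}, ‖emb (qOf P) (gOf P) (z ^ 3 / v.val)‖ = 1 → z ≠ 0 :=
      fun {z v} h h0 => by simp [h0] at h
    have hord : ∀ {z : Qbar} (hzK : z ∈ K) {v : GM} (hv : v ∈ starK K)
        (h : ‖emb (qOf P) (gOf P) (z ^ 3 / v.val)‖ = 1),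
        ordP P (v - 3 • Ux.mk z (hne h)).val = 0 := fun {z} hzK {v} hv h => by
      rw [← norm_embUx_eq_one
        (sub_mem hv (nsmul_mem (mem_starK_of_mem K (a := Ux.mk z (hne h)) hzK) 3)),
        val_embUx, Ux.val_sub, Ux.val_nsmul, Ux.val_mk, ← inv_div, map_inv₀, norm_inv, h, inv_one]
    set bU : GM := Ux.mk b (hne hb1)
    have hbU : bU ∈ starK K := mem_starK_of_mem K hb
    have hun : UnramAt χ P := (hkum.sub_mem hζ hbU).unramAt hζ hζK hq3
      (by rw [nsmul_sub, hy3]; exact hord hb ha hb1)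
    set cU : GM := Ux.mk c (hne hc1)
    have hcU : cU ∈ starK K := mem_starK_of_mem K hc
    have h1 := embUx_mem_normP_of_unram χ hun (sub_mem hx (nsmul_mem hcU 3)) (hord hc hx hc1)
    have h2 := nsmul_mem_normP χ (P := P) (embUx_mem_starF (q := qOf P) (g := gOf P) hcU)
    rw [← map_nsmul] at h2
    have h3 := add_mem h1 h2
    rwa [← map_add, sub_add_cancel] at h3

/-- The norm form as the product over the three conjugates `r + s θ + t θ ^ 2`. -/
lemma prod_resolvent_eq {F : Type*} [Field F] {ζ θ r s t : F} (hsum : ζ ^ 2 + ζ + 1 = 0) :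
    r ^ 3 + θ ^ 3 * s ^ 3 + (θ ^ 3) ^ 2 * t ^ 3 - 3 * θ ^ 3 * r * s * t =
      (r + s * θ + t * θ ^ 2) * (r + s * (ζ * θ) + t * (ζ * θ) ^ 2) *
        (r + s * (ζ * (ζ * θ)) + t * (ζ * (ζ * θ)) ^ 2) := by
  linear_combination (0 + 1 * t ^ 3 * θ ^ 6 - 1 * t ^ 3 * θ ^ 6 * ζ + 1 * t ^ 3 *
    θ ^ 6 * ζ ^ 3 - 1 * t ^ 3 * θ ^
    6 * ζ ^ 4 - 1 * s * t ^ 2 * θ ^ 5 * ζ ^ 4 - 1 * s ^ 2 * t * θ ^ 4 * ζ ^ 3 + 1 * s ^ 3 * θ ^
    3 - 1 * s ^ 3 * θ ^ 3 * ζ - 1 * r * t ^ 2 * θ ^ 4 * ζ ^ 2 + 1 * r * t ^ 2 * θ ^ 4 * ζ ^ 3 -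
    1 * r * t ^ 2 * θ ^ 4 * ζ ^ 4 - 3 * r * s * t * θ ^ 3 + 2 * r * s * t * θ ^ 3 * ζ - 1 * r *
    s * t * θ ^ 3 * ζ ^ 2 - 1 * r * s * t * θ ^ 3 * ζ ^ 3 - 1 * r * s ^ 2 * θ ^ 2 * ζ - 1 * r ^
    2 * t * θ ^ 2 + 1 * r ^ 2 * t * θ ^ 2 * ζ - 1 * r ^ 2 * t * θ ^ 2 * ζ ^ 2 - 1 * r ^ 2 * s *
    θ) * hsum

/-- The norm form of a cubic Kummer extension represents the locally represented elements. -/
theorem exists_cubicForm_of_local_Qbar [NumberField.IsTotallyComplex K] {ζ : Qbar}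
    (hζ : IsPrimitiveRoot ζ 3) (hζK : ζ ∈ K) {a x : GM} (ha : a ∈ starK K) (hx : x ∈ starK K)
    (hnc : ∀ b ∈ K, b ^ 3 ≠ a.val)
    (hloc : ∀ P : PK K,
      (∃ b ∈ K, ‖emb (qOf P) (gOf P) (b ^ 3 / a.val - 1)‖ < ‖(9 : PadicAlgCl (qOf P))‖) ∨
      (∃ c ∈ K, ‖emb (qOf P) (gOf P) (c ^ 3 / x.val - 1)‖ < ‖(9 : PadicAlgCl (qOf P))‖) ∨
      (qOf P ≠ 3 ∧ (∃ b ∈ K, ‖emb (qOf P) (gOf P) (b ^ 3 / a.val)‖ = 1) ∧
        ∃ c ∈ K, ‖emb (qOf P) (gOf P) (c ^ 3 / x.val)‖ = 1)) :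
    ∃ r ∈ K, ∃ s ∈ K, ∃ t ∈ K,
      r ^ 3 + a.val * s ^ 3 + a.val ^ 2 * t ^ 3 - 3 * a.val * r * s * t = x.val := by
  have : Fact (Nat.Prime 3) := ⟨Nat.prime_three⟩
  obtain ⟨θ, hθ⟩ := IsAlgClosed.exists_pow_nat_eq a.val (n := 3) (by norm_num)
  have hθ0 : θ ≠ 0 := fun h => a.val_ne_zero (by rw [← hθ, h, zero_pow (by norm_num)])
  set y : GM := Ux.mk θ hθ0
  have hy3 : 3 • y = a := Ux.ext (by rw [Ux.val_nsmul, Ux.val_mk, hθ])
  have hy : 3 • y ∈ starK K := hy3.symm ▸ ha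
  set χ := kumChar hζ (smul_zetaUx hζ hζK) y hy
  have hkum : IsKummer hζ χ y := isKummer_kumChar hζ _ y hy
  obtain ⟨g, hg, hgne⟩ : ∃ g ∈ K.fixingSubgroup, χ g ≠ 0 := by
    by_contra hno
    push Not at hno
    refine hnc θ (val_mem_of_mem_starK K (a := y) fun g hg => ?_) hθ
    exact (hkum.eq_zero_iff hζ hg).mp (hno g hg)
  obtain ⟨u, hu⟩ := (IsUnit.mk0 (χ g) hgne).exists_left_inv
  set σ := g ^ u.val
  have hσ : σ ∈ K.fixingSubgroup := pow_mem hg _
  have hσ1 : χ σ = 1 := by rw [χ.map_pow hg, ZMod.natCast_zmod_val, hu]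
  have hnorm : ∀ P : PK K, embUx (qOf P) (gOf P) x ∈ normP χ P := fun P =>
    embUx_mem_normP_of_local hζ hζK ha hx hy3 hkum P (hloc P)
  obtain ⟨v, hv, hvx⟩ := exists_norm_of_forall χ hσ hσ1 hζ hζK hx hnorm
  -- resolvents
  set V := v.val
  have hV3 : σ (σ (σ V)) = V := by
    have h := hv _ (pow_period_mem_ker χ hσ hσ1)
    rw [pow_succ, pow_succ, pow_one, mul_smul, mul_smul] at h
    exact congrArg Ux.val h
  have hσθ : σ θ = ζ * θ := by
    have h := hkum σ hσ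
    have : Fact (1 < 3) := ⟨by norm_num⟩
    rw [hσ1, ZMod.val_one, one_smul, sub_eq_iff_eq_add] at h
    exact congrArg Ux.val h
  have hσζ : σ ζ = ζ := (IntermediateField.mem_fixingSubgroup_iff K σ).mp hσ ζ hζK
  have hζ3 : ζ ^ 3 = 1 := hζ.pow_eq_one
  have hζ0 : ζ ≠ 0 := hζ.ne_zero (by norm_num)
  have hsum : ζ ^ 2 + ζ + 1 = 0 := by
    have h0 := hζ.geom_sum_eq_zero (by norm_num)
    simp only [Finset.sum_range_succ, Finset.sum_range_zero, pow_zero, pow_one, zero_add] at h0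
    linear_combination h0
  -- invariant elements lie in the base
  have hmemK : ∀ z : Qbar, σ z = z → (∀ d ∈ χ.ker, d z = z) → z ∈ K := fun z hz hzk => by
    rcases eq_or_ne z 0 with rfl | h0
    · exact zero_mem K
    refine val_mem_of_mem_starK K (a := Ux.mk z h0) fun d hd => ?_
    rw [smul_eq_pow_smul χ hσ hσ1
      (fun d hd => Ux.ext (by rw [Ux.val_smul, Ux.val_mk]; exact hzk d hd)) hd]
    generalize (χ d).val = i
    induction i with
    | zero => rw [pow_zero, one_smul]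
    | succ i ih => rw [pow_succ, mul_smul, show σ • Ux.mk z h0 = Ux.mk z h0 from Ux.ext hz, ih]
  have hkV : ∀ d ∈ χ.ker, d V = V ∧ d (σ V) = σ V ∧ d (σ (σ V)) = σ (σ V) ∧ d θ = θ ∧ d ζ = ζ :=
    fun d hd => by
    refine ⟨congrArg Ux.val (hv d hd), congrArg Ux.val (smul_ker_fixed χ hv hσ d hd), ?_,
      congrArg Ux.val ((hkum.eq_zero_iff hζ hd.1).mp hd.2),
      (IntermediateField.mem_fixingSubgroup_iff K d).mp hd.1 ζ hζK⟩
    have h := smul_ker_fixed χ hv (mul_mem hσ hσ) d hd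
    rw [mul_smul] at h
    exact congrArg Ux.val h
  set r := (V + σ V + σ (σ V)) / 3
  set s := (V + ζ ^ 2 * σ V + ζ * σ (σ V)) / (3 * θ)
  set t := (V + ζ * σ V + ζ ^ 2 * σ (σ V)) / (3 * θ ^ 2)
  have hr : r ∈ K := hmemK r (by
    simp only [r, map_div₀, map_add, map_ofNat, hV3]; ring) fun d hd => by
    obtain ⟨h1, h2, h3, -, -⟩ := hkV d hd
    simp only [r, map_div₀, map_add, map_ofNat, h1, h2, h3]
  have hs : s ∈ K := hmemK s (by
    simp only [s, map_div₀, map_add, map_mul, map_pow, map_ofNat, hV3, hσθ, hσζ]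
    field_simp
    linear_combination (-(σ V)) * hζ3) fun d hd => by
    obtain ⟨h1, h2, h3, h4, h5⟩ := hkV d hd
    simp only [s, map_div₀, map_add, map_mul, map_pow, map_ofNat, h1, h2, h3, h4, h5]
  have ht : t ∈ K := hmemK t (by
    simp only [t, map_div₀, map_add, map_mul, map_pow, map_ofNat, hV3, hσθ, hσζ]
    field_simp
    linear_combination (-(σ V) - ζ * σ (σ V)) * hζ3) fun d hd => by
    obtain ⟨h1, h2, h3, h4, h5⟩ := hkV d hd
    simp only [t, map_div₀, map_add, map_mul, map_pow, map_ofNat, h1, h2, h3, h4, h5]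
  refine ⟨r, hr, s, hs, t, ht, ?_⟩
  have h3V : V = r + s * θ + t * θ ^ 2 := by
    simp only [r, s, t]
    field_simp
    linear_combination (-(σ V + σ (σ V))) * hsum
  have hσr : ∀ z ∈ K, σ z = z :=
    fun z hz => (IntermediateField.mem_fixingSubgroup_iff K σ).mp hσ z hz
  have hσV : σ V = r + s * (ζ * θ) + t * (ζ * θ) ^ 2 := by
    conv_lhs => rw [h3V]
    simp only [map_add, map_mul, map_pow, hσr r hr, hσr s hs, hσr t ht, hσθ]
  have hσσV : σ (σ V) = r + s * (ζ * (ζ * θ)) + t * (ζ * (ζ * θ)) ^ 2 := by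
    conv_lhs => rw [hσV]
    simp only [map_add, map_mul, map_pow, hσr r hr, hσr s hs, hσr t ht, hσθ, hσζ]
  have hN : V * σ V * σ (σ V) = x.val := by
    rw [← hvx, Ux.val_cycNorm]
    simp only [Finset.prod_range_succ, Finset.prod_range_zero, pow_zero, pow_one, one_mul]
    rfl
  rw [← hN, hσσV, hσV, h3V, ← hθ]
  exact prod_resolvent_eq hsum

section Transport

variable {E : Type*} [Field E] [NumberField E]

/-- The prime of an isomorphic field under a given prime. -/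
def primeBelow (f : E ≃+* K) (P : PK K) : HeightOneSpectrum (𝓞 E) where
  asIdeal := P.asIdeal.comap (NumberField.RingOfIntegers.mapRingEquiv f).toRingHom
  isPrime := Ideal.comap_isPrime _ _
  ne_bot h := P.ne_bot (by
    rw [← Ideal.map_comap_of_surjective (NumberField.RingOfIntegers.mapRingEquiv f).toRingHom
      (NumberField.RingOfIntegers.mapRingEquiv f).surjective P.asIdeal, h, Ideal.map_bot])

omit [FiniteDimensional ℚ K] in
lemma valuation_le_one_iff_exists {F : Type*} [Field F] [NumberField F]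
    (Q : HeightOneSpectrum (𝓞 F)) (w : F) :
    Q.valuation F w ≤ 1 ↔ ∃ c s : 𝓞 F, s ∉ Q.asIdeal ∧ w * (s : F) = (c : F) := by
  constructor
  · intro h
    obtain ⟨c, s, hs⟩ := Q.exists_primeCompl_mul_eq_of_integer w h
    exact ⟨c, s, s.2, hs⟩
  · rintro ⟨c, s, hs, e⟩
    have hs1 : Q.valuation F (algebraMap (𝓞 F) F s) = 1 :=
      (HeightOneSpectrum.valuation_eq_one_iff_notMem (v := Q) (K := F)).mpr hs
    have h2 : Q.valuation F (w * (s : F)) ≤ 1 := by rw [e]; exact Q.valuation_le_one c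
    rw [map_mul, show Q.valuation F (s : F) = 1 from hs1, mul_one] at h2
    exact h2

lemma primeBelow_le_one (f : E ≃+* K) (P : PK K) (w : E) :
    (primeBelow f P).valuation E w ≤ 1 ↔ ‖emb (qOf P) (gOf P) ((f w : K) : Qbar)‖ ≤ 1 := by
  rw [← (isPoint_gOf P).valuation_le_one_iff, valuation_le_one_iff_exists,
    valuation_le_one_iff_exists]
  set m := NumberField.RingOfIntegers.mapRingEquiv f
  constructor
  · rintro ⟨c, s, hs, e⟩
    refine ⟨m c, m s, hs, ?_⟩
    show f w * f (s : E) = f (c : E)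
    rw [← map_mul, e]
  · rintro ⟨c, s, hs, e⟩
    refine ⟨m.symm c, m.symm s, fun h => hs ?_, f.injective ?_⟩
    · have h' : m (m.symm s) ∈ P.asIdeal := h
      rwa [RingEquiv.apply_symm_apply] at h'
    · rw [map_mul, show f ((m.symm s : 𝓞 E) : E) = (s : K) from f.apply_symm_apply _,
        show f ((m.symm c : 𝓞 E) : E) = (c : K) from f.apply_symm_apply _]
      exact e

lemma primeBelow_eq_one (f : E ≃+* K) (P : PK K) (w : E) :
    (primeBelow f P).valuation E w = 1 ↔ ‖emb (qOf P) (gOf P) ((f w : K) : Qbar)‖ = 1 := by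
  rcases eq_or_ne w 0 with rfl | h0
  · simp
  have hv := (Valuation.ne_zero_iff ((primeBelow f P).valuation E)).mpr h0
  have hpos : 0 < ‖emb (qOf P) (gOf P) ((f w : K) : Qbar)‖ := norm_pos_iff.mpr
    ((_root_.map_ne_zero _).mpr fun h => h0 (f.injective (by rw [map_zero]; exact Subtype.ext h)))
  have hi := primeBelow_le_one f P w⁻¹
  rw [map_inv₀, inv_le_one₀ (zero_lt_iff.mpr hv), map_inv₀, IntermediateField.coe_inv, map_inv₀,
    norm_inv, inv_le_one₀ hpos] at hi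
  rw [le_antisymm_iff, le_antisymm_iff, primeBelow_le_one, hi]

lemma primeBelow_lt (f : E ≃+* K) (P : PK K) {w w' : E} (hw' : w' ≠ 0)
    (h : (primeBelow f P).valuation E w < (primeBelow f P).valuation E w') :
    ‖emb (qOf P) (gOf P) ((f w : K) : Qbar)‖ < ‖emb (qOf P) (gOf P) ((f w' : K) : Qbar)‖ := by
  have hpos : 0 < ‖emb (qOf P) (gOf P) ((f w' : K) : Qbar)‖ := norm_pos_iff.mpr
    ((_root_.map_ne_zero _).mpr fun h => hw' (f.injective (by rw [map_zero]; exact Subtype.ext h)))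
  rcases eq_or_ne w 0 with rfl | h0
  · simpa using hpos
  by_contra hle
  rw [not_lt] at hle
  have hv := (Valuation.ne_zero_iff ((primeBelow f P).valuation E)).mpr h0
  have hi := (primeBelow_le_one f P (w' / w)).mpr (by
    rw [map_div₀, IntermediateField.coe_div, map_div₀, norm_div]
    exact div_le_one_of_le₀ hle (norm_nonneg _))
  rw [map_div₀, div_le_one₀ (zero_lt_iff.mpr hv)] at hi
  exact absurd h (not_lt.mpr hi)

/-- An element which is locally a norm from `E(∛a)` is a norm. -/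
theorem exists_cubicForm_of_local {E : Type*} [Field E] [NumberField E] {z : E}
    (hz : IsPrimitiveRoot z 3) {a x : E} (ha : ∀ b : E, b ^ 3 ≠ a) (hx : x ≠ 0)
    (hloc : ∀ P : HeightOneSpectrum (𝓞 E),
      (∃ b : E, P.valuation E (b ^ 3 / a - 1) < P.valuation E 9) ∨
      (∃ c : E, P.valuation E (c ^ 3 / x - 1) < P.valuation E 9) ∨
      (P.valuation E 3 = 1 ∧ (∃ b : E, P.valuation E (b ^ 3 / a) = 1) ∧
        ∃ c : E, P.valuation E (c ^ 3 / x) = 1)) :
    ∃ r s t : E, r ^ 3 + a * s ^ 3 + a ^ 2 * t ^ 3 - 3 * a * r * s * t = x := by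
  set ι : E →ₐ[ℚ] Qbar := IsAlgClosed.lift
  set K := ι.fieldRange
  let fA : E ≃ₐ[ℚ] K := AlgEquiv.ofInjectiveField ι
  have : FiniteDimensional ℚ K := fA.toLinearEquiv.finiteDimensional
  set f : E ≃+* K := fA.toRingEquiv
  have hf : ∀ w, ((f w : K) : Qbar) = ι w := fun _ => rfl
  have hmem : ∀ w, ι w ∈ K := fun w => ⟨w, rfl⟩
  have hζ : IsPrimitiveRoot (ι z) 3 := hz.map_of_injective ι.injective
  have : NumberField.IsTotallyComplex K := by
    refine ⟨fun v => NumberField.InfinitePlace.not_isReal_iff_isComplex.mp fun hv => ?_⟩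
    obtain ⟨φ, hφ, rfl⟩ := hv
    have hre := RingHom.congr_fun (NumberField.ComplexEmbedding.isReal_iff.mp hφ) (f z)
    have him : (φ (f z)).im = 0 := Complex.conj_eq_iff_im.mp hre
    have h1 : φ (f z) ^ 2 + φ (f z) + 1 = 0 := by
      have h0 :=
        (hz.map_of_injective (f := φ.comp f.toRingHom) (RingHom.injective _)).geom_sum_eq_zero
          (by norm_num)
      simp only [Finset.sum_range_succ, Finset.sum_range_zero, pow_zero, pow_one, zero_add] at h0
      have h0' : 1 + φ (f z) + φ (f z) ^ 2 = 0 := h0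
      linear_combination h0'
    have h2 := congrArg Complex.re h1
    simp only [Complex.add_re, sq, Complex.mul_re, him, mul_zero, sub_zero, Complex.one_re,
      Complex.zero_re] at h2
    nlinarith [sq_nonneg ((φ (f z)).re + 1 / 2)]
  have ha0 : a ≠ 0 := fun h => ha 0 (by rw [h]; norm_num)
  have hne : ∀ {w : E}, w ≠ 0 → ι w ≠ 0 := fun h => (_root_.map_ne_zero ι).mpr h
  obtain ⟨r, ⟨r', hr⟩, s, ⟨s', hs⟩, t, ⟨t', ht⟩, h⟩ :=
    exists_cubicForm_of_local_Qbar (K := K) hζ (hmem z)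
      (mem_starK_of_mem K (a := Ux.mk (ι a) (hne ha0)) (hmem a))
      (mem_starK_of_mem K (a := Ux.mk (ι x) (hne hx)) (hmem x))
      (by rintro _ ⟨b, rfl⟩ hb; exact ha b (ι.injective (by rw [map_pow]; exact hb)))
      fun P => by
        have hnine : ‖emb (qOf P) (gOf P) ((f 9 : K) : Qbar)‖ = ‖(9 : PadicAlgCl (qOf P))‖ := by
          rw [hf, map_ofNat, map_ofNat]
        have hnear : ∀ w v : E, (primeBelow f P).valuation E (w ^ 3 / v - 1) <
            (primeBelow f P).valuation E 9 →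
            ‖emb (qOf P) (gOf P) (ι w ^ 3 / ι v - 1)‖ <
              ‖(9 : PadicAlgCl (qOf P))‖ := fun w v h => by
          have h2 := primeBelow_lt f P (by norm_num) h
          rw [hnine, hf, map_sub, map_div₀, map_pow, map_one] at h2
          exact h2
        rcases hloc (primeBelow f P) with ⟨b, h⟩ | ⟨c, h⟩ | ⟨h3, ⟨b, hb⟩, ⟨c, hc⟩⟩
        · exact Or.inl ⟨ι b, hmem b, by simpa using hnear b a h⟩
        · exact Or.inr (Or.inl ⟨ι c, hmem c, by simpa using hnear c x h⟩)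
        · rw [primeBelow_eq_one, hf, map_ofNat, map_ofNat] at h3
          rw [primeBelow_eq_one, hf, map_div₀, map_pow] at hb hc
          refine Or.inr (Or.inr ⟨fun hq3 => ?_, ⟨ι b, hmem b, hb⟩, ⟨ι c, hmem c, hc⟩⟩)
          have hlt : ‖(qOf P : PadicAlgCl (qOf P))‖ < 1 := norm_q_lt_one
          rw [show (qOf P : PadicAlgCl (qOf P)) = ((3 : ℕ) : PadicAlgCl (qOf P)) from
            congrArg Nat.cast hq3] at hlt
          simp only [Nat.cast_ofNat] at hlt
          exact hlt.ne h3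
  refine ⟨r', s', t', ι.injective (show ι _ = ι _ from ?_)⟩
  simp only [map_sub, map_add, map_mul, map_pow, map_ofNat]
  simp only [AlgHom.toRingHom_eq_coe, RingHom.coe_coe] at hr hs ht
  rw [hr, hs, ht]
  exact h

end Transport

end Global

end FermatAgent.CFT
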