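import Fermat.Agent.CFT.Global.SLevels
import Fermat.Agent.CFT.Coh.Conj
import Fermat.Agent.CFT.Local.InvDatum
import Fermat.Prelude.Def_ExtCitation_KummerBridge

/-!
Classes with values in roots of unity: local invariants and their reciprocity.

`sum_locDatum_inv`: for odd `p ∈ S` a degree two class with values in roots of unity, unramified
outside `S`, has local invariants (`locDatum`, `pullMu`) of sum zero over `S`.
The class is read in the multiplicative group over `ℚ(ζ_p)` (`cycK`, `muClass`), where it is trivial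
away from `S` (`pullAt_muClass_mem_B2`), and reciprocity there descends because the local degrees
above each prime add up to the degree (`sum_fibre_index`), which is prime to `p`.
-/

set_option autoImplicit false

noncomputable section

open scoped Classical Pointwise
open IntermediateField

namespace FermatAgent.CFT.Global

open Coh Local GaloisBasic

variable (p : ℕ) [hp : Fact p.Prime]

/-- The cyclotomic character. -/
abbrev chiQ : GQ →* (ZMod p)ˣ := ExtCitation.cycloChar p

/-- A primitive root of unity of order `p`. -/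
def zet : Qbar :=
  haveI : NeZero p := ⟨hp.out.ne_zero⟩
  (HasEnoughRootsOfUnity.exists_primitiveRoot Qbar p).choose

/-- The chosen root of unity is primitive. -/
lemma zet_spec : IsPrimitiveRoot (zet p) p :=
  haveI : NeZero p := ⟨hp.out.ne_zero⟩
  (HasEnoughRootsOfUnity.exists_primitiveRoot Qbar p).choose_spec

/-- The action on the chosen root of unity. -/
lemma apply_zet (g : GQ) : g (zet p) = zet p ^ ((chiQ p g : ZMod p)).val := by
  have : NeZero p := ⟨hp.out.ne_zero⟩
  have h := modularCyclotomicCharacter.spec Qbar (ExtCitation.card_rootsOfUnity_eq_self p)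
    (g : Qbar ≃+* Qbar) (t := Units.mk0 (zet p) ((zet_spec p).ne_zero hp.out.ne_zero))
    ((mem_rootsOfUnity p _).mpr (Units.ext (by simpa using (zet_spec p).pow_eq_one)))
  simpa [chiQ, ExtCitation.cycloChar] using h

/-- A root of unity of order dividing `p` is raised to the power of the cyclotomic character. -/
lemma apply_root_chiQ (g : GQ) {μ : Qbar} (hμ : μ ^ p ^ 1 = 1) :
    g μ = μ ^ ((chiQ p g : ZMod p)).val := by
  have : NeZero p := ⟨hp.out.ne_zero⟩
  rw [pow_one] at hμ
  obtain ⟨i, -, rfl⟩ := (zet_spec p).eq_pow_of_pow_eq_one hμ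
  rw [map_pow, apply_zet, ← pow_mul, ← pow_mul, mul_comm]

/-- Roots of unity in the multiplicative group. -/
abbrev muG : Mu (chiQ p) →+ GM := muToUx (zet_spec p)

/-- The roots of unity form an equivariant copy of the twisted residues. -/
lemma muG_smul (g : GQ) (a : Mu (chiQ p)) : muG p (g • a) = g • muG p a :=
  muToUx_smul (zet_spec p) (apply_zet p) g a

/-- The cyclotomic field. -/
def cycK : IntermediateField ℚ Qbar := ℚ⟮zet p⟯

/-- The root of unity lies in the cyclotomic field. -/
lemma zet_mem_cycK : zet p ∈ cycK p := mem_adjoin_simple_self ℚ _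

instance finiteDimensional_cycK : FiniteDimensional ℚ (cycK p) :=
  adjoin.finiteDimensional (Algebra.IsIntegral.isIntegral _)

/-- The group of the cyclotomic field. -/
lemma fixingSubgroup_cycK : (cycK p).fixingSubgroup = (chiQ p).ker := by
  ext g
  rw [MonoidHom.mem_ker, IntermediateField.mem_fixingSubgroup_iff]
  constructor
  · intro h
    have h1 := (apply_zet p g).symm.trans ((h _ (zet_mem_cycK p)).trans (pow_one _).symm)
    have h2 := (zet_spec p).pow_inj (ZMod.val_lt _) hp.out.one_lt h1
    exact Units.ext (ZMod.val_injective p (by rw [h2, Units.val_one, ZMod.val_one]))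
  · intro h x hx
    induction hx using IntermediateField.adjoin_induction with
    | mem z hz =>
      rw [Set.mem_singleton_iff] at hz
      rw [hz, apply_zet, h, Units.val_one, ZMod.val_one, pow_one]
    | algebraMap z => exact g.commutes z
    | add x y _ _ hx hy => rw [map_add, hx, hy]
    | inv x _ hx => rw [map_inv₀, hx]
    | mul x y _ _ hx hy => rw [map_mul, hx, hy]

lemma isUnramifiedOutside_cycK {S : Finset Nat.Primes} (hpS : ExtCitation.pPrime p ∈ S) :
    (cycK p).IsUnramifiedOutside S := by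
  refine ⟨inferInstance, fun q hq A hA σ hσ => ?_⟩
  have hqp : ¬ (q : ℕ) ∣ p := fun h =>
    hq ((Subtype.ext ((Nat.prime_dvd_prime_iff_eq q.2 hp.out).mp h) : q =
      ExtCitation.pPrime p) ▸ hpS)
  obtain ⟨τ, hτ⟩ := exists_smul_eq q.2 (liesOverPrime_padicPlace (q := (q : ℕ))) hA
  set z : ZBar := ⟨zet p, (zet_spec p).isIntegral hp.out.pos⟩
  have h1 := (mem_inertiaSubgroupIn_iff q.2 hA σ).mp hσ z
  rw [← hτ, center_smul, Ideal.mem_pointwise_smul_iff_inv_smul_mem, mem_center,
    mem_nonunits_padicPlace] at h1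
  have h2 : ‖emb q τ⁻¹ (σ (zet p)) - emb q τ⁻¹ (zet p)‖ < 1 := by
    rw [← map_sub]
    exact h1
  have hr : ∀ x : Qbar, x ^ p = 1 → emb q τ⁻¹ x ^ p = 1 := fun x hx => by
    rw [← map_pow, hx, map_one]
  have e1 := hr _ (zet_spec p).pow_eq_one
  have e2 : emb q τ⁻¹ (σ (zet p)) ^ p = 1 :=
    hr _ (by rw [← map_pow, (zet_spec p).pow_eq_one, map_one])
  have h3 := emb_injective τ⁻¹ (eq_of_res_eq hqp e2 e1
    ((res_eq_res_iff (norm_eq_one_of_pow_eq_one hp.out.ne_zero e2).le
      (norm_eq_one_of_pow_eq_one hp.out.ne_zero e1).le).mpr h2))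
  rw [fixingSubgroup_cycK, MonoidHom.mem_ker]
  have h4 := (apply_zet p σ).symm.trans (h3.trans (pow_one _).symm)
  exact Units.ext (ZMod.val_injective p (by
    rw [(zet_spec p).pow_inj (ZMod.val_lt _) hp.out.one_lt h4, Units.val_one, ZMod.val_one]))

/-- The cyclotomic kernel is a level at a set containing `p`. -/
lemma ker_chiQ_mem_LS {S : Finset Nat.Primes} (hpS : ExtCitation.pPrime p ∈ S) :
    (chiQ p).ker ∈ LS S :=
  fixingSubgroup_cycK p ▸ fixingSubgroup_mem_LS (isUnramifiedOutside_cycK p hpS)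

/-- The cyclotomic field is totally complex for odd `p`. -/
lemma isTotallyComplex_cycK (hp2 : p ≠ 2) : NumberField.IsTotallyComplex (cycK p) := by
  have : IsCyclotomicExtension {p} ℚ (cycK p) :=
    (zet_spec p).intermediateField_adjoin_isCyclotomicExtension ℚ
  exact IsCyclotomicExtension.Rat.isTotallyComplex (n := p) (cycK p)
    (lt_of_le_of_ne hp.out.two_le (Ne.symm hp2))

lemma not_dvd_index_ker {Δ : Type*} [Group Δ] (ψ : Δ →* (ZMod p)ˣ) :
    ¬ p ∣ ψ.ker.index := fun h => by
  have h1 : ψ.ker.index ∣ p - 1 := by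
    rw [Subgroup.index_ker, ← ZMod.card_units p, ← Nat.card_eq_fintype_card]
    exact Subgroup.card_subgroup_dvd_card _
  have h2 := Nat.le_of_dvd (Nat.sub_pos_of_lt hp.out.one_lt) (h.trans h1)
  have := hp.out.pos
  omega

section Local

variable (q : ℕ) [hq : Fact q.Prime]

/-- The cyclotomic character of a local group. -/
abbrev chiL : Gal' q →* (ZMod p)ˣ := (chiQ p).comp (localGaloisToGlobal q)

/-- The local root of unity is primitive. -/
lemma zetL_spec : IsPrimitiveRoot (emb q 1 (zet p)) p :=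
  (zet_spec p).map_of_injective (emb_injective 1)

/-- The local action on the root of unity. -/
lemma apply_zetL (d : Gal' q) :
    d (emb q 1 (zet p)) = emb q 1 (zet p) ^ ((chiL p q d : ZMod p)).val := by
  rw [← emb_locHom, locHom_one, apply_zet, map_pow]
  rfl

/-- The local invariants at a rational prime. -/
def locDatum : InvDatum (chiL p q) (LL q) := invDatum (chiL p q) (zetL_spec p q) (apply_zetL p q)

/-- A cochain with values in roots of unity at a rational prime. -/
abbrev pullMu (f : GQ → GQ → Mu (chiQ p)) : Gal' q → Gal' q → Mu (chiL p q) := fun a b =>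
  Mu.of _ (Mu.val (chiQ p) (f (localGaloisToGlobal q a) (localGaloisToGlobal q b)))

lemma muToUx_pullMu (f : GQ → GQ → Mu (chiQ p)) :
    (fun a b => muToUx (zetL_spec p q) (pullMu p q f a b)) = pullAt q 1 fun g h =>
      muG p (f g h) := by
  funext a b
  refine Ux.ext ?_
  rw [pullAt_apply, val_embUx, val_muToUx, val_muToUx, map_pow, Mu.val_of, locHom_one]

end Local

variable {p} {S : Finset Nat.Primes}

/-- The class of roots of unity in the multiplicative group. -/
abbrev muClass (f : GQ → GQ → Mu (chiQ p)) : GQ → GQ → GM := fun g h => muG p (f g h)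

/-- Cocycles with values in roots of unity give cocycles in units. -/
lemma muClass_mem_Z2 {L : Levels GQ} (hL : ∀ W ∈ L, W ∈ LQ) {W : Subgroup GQ}
    {f : GQ → GQ → Mu (chiQ p)} (hf : f ∈ L.Z2 W (Mu (chiQ p))) : muClass f ∈ LQ.Z2 W GM := by
  refine Levels.map_mem_Z2 _ (fun g _ => muG_smul p g) ?_
  obtain ⟨⟨V, hV, hc⟩, hcoc⟩ := hf
  exact ⟨⟨V, hL V hV, hc⟩, hcoc⟩

variable (hpS : ExtCitation.pPrime p ∈ S)
include hpS

/-- Classes unramified outside `S` are trivial away from `S`. -/
lemma pullAt_muClass_mem_B2 {K : IntermediateField ℚ Qbar} [FiniteDimensional ℚ K]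
    (hK : K.IsUnramifiedOutside S)
    {f : GQ → GQ → Mu (chiQ p)} (hf : f ∈ (LS S).Z2 K.fixingSubgroup (Mu (chiQ p)))
    {q : ℕ} [Fact q.Prime] (hq : (⟨q, Fact.out⟩ : Nat.Primes) ∉ S) (g : GQ) :
    pullAt q g (muClass f) ∈ (LL q).B2 (locField q g K).fixingSubgroup (MM q) := by
  obtain ⟨V, hV, hc⟩ := hf.1
  set M := fixedField (V ⊓ (chiQ p).ker) ⊔ K
  have hVker := (LS S).inf_mem hV (ker_chiQ_mem_LS p hpS)
  have hM : M.IsUnramifiedOutside S := (isUnramifiedOutside_of_mem hVker).sup hK
  obtain ⟨m, hm, hker⟩ := exists_unramChar_ker_le hM hq (le_sup_right : K ≤ M) g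
  have hMV : M.fixingSubgroup ≤ V ⊓ (chiQ p).ker := fun s hs => by
    rw [← fixingSubgroup_fixedField_of_mem (LS_le hVker)]
    exact fixingSubgroup_antitone le_sup_left hs
  have hMK : M.fixingSubgroup ≤ K.fixingSubgroup := fixingSubgroup_antitone le_sup_right
  refine pullAt_mem_B2_of_unramified le_sup_right hker (muClass_mem_Z2 (fun W => LS_le) hf)
    (fun a ha b hb s hs t ht => congrArg (muG p) (hc a ha b hb s ⟨hMK hs, (hMV hs).1⟩ t
      ⟨hMK ht, (hMV ht).1⟩)) fun a _ b _ => ⟨fun s hs => ?_, ?_⟩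
  · rw [← muG_smul]
    refine congrArg _ (Mu.ext _ ?_)
    rw [Mu.val_smul, show chiQ p s = 1 from (hMV hs).2, Units.val_one, one_mul]
  · rw [val_muToUx]
    exact norm_eq_one_of_pow_eq_one hp.out.ne_zero (by
      rw [← map_pow, ← pow_mul, mul_comm, pow_mul, (zet_spec p).pow_eq_one, one_pow, map_one])

omit hpS in
/-- The local degrees above a rational prime add up to the degree. -/
lemma sum_fibre_index {K : IntermediateField ℚ Qbar} [FiniteDimensional ℚ K] {q : ℕ} [Fact q.Prime]
    {T : Finset (PK K)} (hT : ∀ P, P ∈ T ↔ qOf P = q) :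
    ∑ P ∈ T, (locField q (gOf P) K).fixingSubgroup.index = K.fixingSubgroup.index := by
  have := LQ.finiteIndex (fixingSubgroup_mem_galLevels K)
  have : ∀ P : PK K, (locField q (gOf P) K).fixingSubgroup.FiniteIndex :=
    fun P => (LL q).finiteIndex (Local.fix_mem _)
  set b : GM := Ux.mk 2 two_ne_zero
  have hfix : ∀ g : GQ, g • b = b := fun g => Ux.ext (map_ofNat g 2)
  have h := congrArg Ux.val (sum_fibre_eq_norm hT (b := b) (fun g _ => hfix g))
  have e1 : ∀ (P : PK K) (x : Gal' q), (x • embUx q (gOf P) b).val = 2 := fun P x => by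
    rw [Ux.val_smul, val_embUx]
    show x (emb q (gOf P) (2 : Qbar)) = 2
    rw [map_ofNat, map_ofNat]
  have e2 : ∀ g : GQ, (g • b).val = 2 := fun g => congrArg Ux.val (hfix g)
  simp only [Ux.val_sum, e1, val_embUx, Finset.prod_const, Finset.card_univ,
    Finset.prod_pow_eq_pow_sum,
    e2, map_pow, map_ofNat] at h
  rw [← Nat.cast_ofNat, ← Nat.cast_pow, ← Nat.cast_pow, Nat.cast_inj] at h
  have h' := Nat.pow_right_injective le_rfl h
  simpa [Subgroup.index_eq_card, Nat.card_eq_fintype_card] using h'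

/-- Reciprocity for classes with values in roots of unity. -/
theorem sum_locDatum_inv (hp2 : p ≠ 2) {f : GQ → GQ → Mu (chiQ p)}
    (hf : f ∈ (LS S).Z2 ⊤ (Mu (chiQ p))) :
    ∑ v : S, (locDatum p (v : Nat.Primes)).inv ⊤ (pullMu p (v : Nat.Primes) f) = 0 := by
  set K := cycK p
  have := isTotallyComplex_cycK p hp2
  have hF := muClass_mem_Z2 (fun W => LS_le) hf
  have hsum := sum_invAt_eq_zero (K := K) (Levels.Z2_mono le_top hF)
  have hK := isUnramifiedOutside_cycK p hpS
  let fib : Nat.Primes → Finset (PK K) := fun q => (finite_fibre (K := K) (q : ℕ)).toFinset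
  have hfib : ∀ q P, P ∈ fib q ↔ qOf P = (q : ℕ) := fun q P => Set.Finite.mem_toFinset _
  rw [finsum_eq_sum_of_support_subset (s := S.biUnion fib) _ (fun P hP => by
    refine Finset.mem_coe.mpr (Finset.mem_biUnion.mpr ⟨⟨qOf P, (fact_qOf P).out⟩, ?_,
      (hfib _ P).mpr rfl⟩)
    by_contra hq
    exact hP ((inv_eq_zero_iff _ (pullAt_mem_Z2 (Levels.Z2_mono le_top hF))).mpr
      (pullAt_muClass_mem_B2 hpS hK (Levels.Z2_mono le_top hf) hq _)))] at hsum
  replace hsum := (Finset.sum_biUnion fun q _ q' _ hne => Finset.disjoint_left.mpr fun P h1 h2 =>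
      hne (Subtype.ext (((hfib q P).mp h1).symm.trans ((hfib q' P).mp h2)))).symm.trans hsum
  set ι : Nat.Primes → ZMod p := fun q => (locDatum p q).inv ⊤ (pullMu p q f)
  have key : ∀ q : Nat.Primes, ∑ P ∈ fib q, invAt (muClass f) P =
      qz ((K.fixingSubgroup.index * (ι q).val : ℕ) : ℤ) p := fun q => by
    set B := (⊥ : IntermediateField ℚ_[(q : ℕ)] (PadicAlgCl (q : ℕ)))
    have hB : B.fixingSubgroup = ⊤ := IntermediateField.fixingSubgroup_bot
    have hg : ∀ g : GQ,
        pullAt q g (muClass f) ∈ (LL (q : ℕ)).Z2 B.fixingSubgroup (MM q) := fun g => by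
      have := pullAt_mem_Z2 (q := (q : ℕ)) (g := g) (K := (⊥ : IntermediateField ℚ Qbar))
        (IntermediateField.fixingSubgroup_bot (F := ℚ) (E := Qbar) ▸ hF)
      rwa [fixingSubgroup_locField, IntermediateField.fixingSubgroup_bot, Subgroup.comap_top,
        ← hB] at this
    have hconj : ∀ g : GQ, pullAt q g (muClass f) - pullAt q 1 (muClass f) ∈
        (LL (q : ℕ)).B2 B.fixingSubgroup (MM q) := fun g => by
      have := pullAt_mem_B2 (q := (q : ℕ)) (g := 1) (K := (⊥ : IntermediateField ℚ Qbar))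
        (IntermediateField.fixingSubgroup_bot (F := ℚ) (E := Qbar) ▸ conj_sub_mem_B2 g hF)
      rw [fixingSubgroup_locField, IntermediateField.fixingSubgroup_bot, Subgroup.comap_top,
        ← hB, pullAt_sub] at this
      convert this using 2
      funext a b
      rw [pullAt_apply, pullAt_apply, conjCochain, embUx_smul, one_mul, locHom_apply, locHom_apply,
        locHom_one]
    have hi : inv B (pullAt q 1 (muClass f)) = qz ((ι q).val : ℤ) p := by
      have hfq : pullMu p q f ∈ (LL (q : ℕ)).Z2 B.fixingSubgroup (Mu (chiL p q)) := by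
        rw [hB]
        let : DistribMulAction (Gal' (q : ℕ)) (Mu (chiQ p)) :=
          DistribMulAction.compHom _ (localGaloisToGlobal (q : ℕ))
        refine Levels.map_mem_Z2 ((Mu.of (chiL p q)).comp (Mu.val (chiQ p)))
          (fun d _ a => Mu.ext _ (Mu.val_smul (chiQ p) (localGaloisToGlobal (q : ℕ) d) a)) ?_
        refine Levels.Z2_le
          (fun W hW => (comap_levels_eq (1 : GQ) W).mp (locHom_one (q := (q : ℕ)) ▸ hW))
          (Levels.pullback_mem_Z2 (U := ⊤) (localGaloisToGlobal (q : ℕ)) (fun _ _ => rfl)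
            (fun _ _ => Subgroup.mem_top _) ?_)
        obtain ⟨⟨V, hV, hc⟩, hcoc⟩ := hf
        exact ⟨⟨V, LS_le hV, hc⟩, hcoc⟩
      obtain ⟨a, ha, ha'⟩ := exists_inv_muUx (chiL p q) (zetL_spec p q) (apply_zetL p q) B hfq
      rw [muToUx_pullMu] at ha
      rw [hB] at ha'
      rw [ha, ← sub_eq_zero, ← qz_sub, qz_eq_zero_iff, ← ZMod.intCast_zmod_eq_zero_iff_dvd]
      push_cast
      rw [ZMod.natCast_zmod_val, sub_eq_zero, ← ha']
      rfl
    have hP : ∀ P ∈ fib q, invAt (muClass f) P =
        ((locField (q : ℕ) (gOf P) K).fixingSubgroup.index : ℕ) • qz ((ι q).val : ℤ) p :=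
      fun P hP => by
      rw [invAt_eq_of_eq _ ((hfib q P).mp hP),
        inv_restrict (bot_le : B ≤ locField (q : ℕ) (gOf P) K) (hg _), index_eq_relIndex_bot,
        inv_congr B (hg 1) (hconj _), hi]
    rw [Finset.sum_congr rfl hP, ← Finset.sum_smul, sum_fibre_index (hfib q), ← natCast_zsmul,
      ← qz_mul]
    push_cast
    rfl
  replace hsum := (Finset.sum_congr rfl fun q _ => key q).symm.trans hsum
  have hadd : ∀ s : Finset Nat.Primes,
      ∑ q ∈ s, qz ((K.fixingSubgroup.index * (ι q).val : ℕ) : ℤ) p =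
      qz ((∑ q ∈ s, K.fixingSubgroup.index * (ι q).val : ℕ) : ℤ) p := fun s => by
    induction s using Finset.induction with
    | empty => simp [qz_eq_zero_iff.mpr (dvd_zero _)]
    | insert a s ha ih =>
      rw [Finset.sum_insert ha, Finset.sum_insert ha, ih, Nat.cast_add, qz_add]
  rw [hadd, qz_eq_zero_iff, Int.natCast_dvd_natCast, ← ZMod.natCast_eq_zero_iff] at hsum
  push_cast at hsum
  simp only [ZMod.natCast_zmod_val, ← Finset.mul_sum] at hsum
  rw [Finset.sum_coe_sort S ι]
  refine (mul_eq_zero.mp hsum).resolve_left fun h0 => ?_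
  rw [ZMod.natCast_eq_zero_iff, fixingSubgroup_cycK] at h0
  exact not_dvd_index_ker p _ h0

end FermatAgent.CFT.Global
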