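import Fermat.Agent.CFT.Global.SLayer

/-!
Classes with prescribed invariants above `S`.

For a character of order `p` nontrivial on the decomposition groups above `S`,
`exists_invCh_prescribed` gives a field element whose local invariants `invCh` for the character
are any prescribed values of sum zero above `S` and vanish elsewhere: the images of the units at a
good finite set fill the kernel of the sum, by reciprocity (`sum_charFun_unit`) and an index count.
`exists_mu_lift` turns such cyclic classes, up to a multiple prime to `p`, into cocycles with values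
in roots of unity unramified outside `S`, correcting the cyclic class by a coboundary (`corrElt`).
-/

set_option autoImplicit false

noncomputable section

open scoped Classical
open IntermediateField

namespace FermatAgent.CFT.Global

open Coh Local GaloisBasic

variable {p : ℕ} [hp : Fact p.Prime] {S : Finset Nat.Primes} {K : IntermediateField ℚ Qbar}
  [FiniteDimensional ℚ K]

/-- The primes above `S` form a finite set. -/
lemma finite_above (K : IntermediateField ℚ Qbar) [FiniteDimensional ℚ K] (S : Finset Nat.Primes) :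
    {P : PK K | qP P ∈ S}.Finite := by
  refine (Set.Finite.biUnion S.finite_toSet fun q _ =>
    @finite_fibre K _ (q : ℕ) ⟨q.2⟩).subset fun P hP => ?_
  exact Set.mem_biUnion hP rfl

/-- The primes above `S`. -/
def above (K : IntermediateField ℚ Qbar) [FiniteDimensional ℚ K] (S : Finset Nat.Primes) :
    Finset (PK K) := (finite_above K S).toFinset

/-- Membership among the primes above `S`. -/
lemma mem_above {P : PK K} : P ∈ above K S ↔ qP P ∈ S := Set.Finite.mem_toFinset _

/-- Local components of a character of order `p` are killed by `p`. -/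
lemma nsmul_invCh (χ : CycChar LQ K.fixingSubgroup p) (P : PK K) {h : GM} (hh : h ∈ starK K) :
    p • invCh χ P h = 0 := by
  have : NeZero p := ⟨hp.out.ne_zero⟩
  rw [invCh_eq]
  exact nsmul_inv_cyc _ (embUx_mem_starF hh)

lemma invCh_nsmul {n : ℕ} [NeZero n] (χ : CycChar LQ K.fixingSubgroup n) (P : PK K) {h : GM}
    (hh : h ∈ starK K) (m : ℕ) : invCh χ P (m • h) = m • invCh χ P h := by
  induction m with
  | zero => rw [zero_smul, zero_smul, invCh_zero]
  | succ m ih => rw [succ_nsmul, succ_nsmul, invCh_add χ P (nsmul_mem hh m) hh, ih]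

section Radicand

variable [NumberField.IsTotallyComplex K]

omit [NumberField.IsTotallyComplex K] in
/-- The character kills the local norms. -/
private lemma charFun_norm (χ : CycChar LQ K.fixingSubgroup p) (P : PK K) {w : MM (qOf P)}
    (hw0 : w ∈ starF (locK P)) (hwN : w ∈ normP χ P) :
    charFun (charAt χ (qOf P) (gOf P)) ⟨w, hw0⟩ = 0 := by
  have : NeZero p := ⟨hp.out.ne_zero⟩
  show qzRes p (inv (locK P) (cyc (charAt χ (qOf P) (gOf P)) w)) = 0
  refine (qzRes_eq_zero_iff (nsmul_inv_cyc _ hw0)).mpr ?_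
  rcases exists_generator_or_trivial (charP χ P) with h0 | ⟨s, hs, hs1⟩
  · refine (inv_eq_zero_iff _ (cyc_mem_Z2' _ _ hw0)).mpr
      (Levels.B2_congr (zero_mem _) fun g' hg' k _ => ?_)
    exact cyc_eq_zero_of_char_eq_zero (charAt χ (qOf P) (gOf P)) _ (h0 g' hg')
  · have hu' : w ∈ normP χ P := hwN
    rw [normP, map_sum_semi (charP χ P) hs hs1] at hu'
    obtain ⟨c, hc, hcw⟩ := hu'
    rw [← hcw]
    exact inv_cyc_cycNorm (locK P) (charAt χ (qOf P) (gOf P)) hs hs1 hc

/-- The functionals of a unit on a set outside which the character is unramified sum to zero. -/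
private lemma sum_charFun_unit {χ : CycChar LQ K.fixingSubgroup p} {T' : Finset (PK K)}
    (hunram : ∀ P ∉ T', UnramAt χ P) {u : GM} (hu0 : u ∈ tUnits K (T' : Set (PK K))) :
    ∑ P : T', qzRes p (inv (locK P.1) (cyc (charAt χ (qOf P.1) (gOf P.1))
      (embUx (qOf P.1) (gOf P.1) u))) = 0 := by
  have : NeZero p := ⟨hp.out.ne_zero⟩
  simp only [← invCh_eq]
  have hu := tUnits_le K _ hu0
  have hsub : (Function.support fun P : PK K => invCh χ P u) ⊆ T' := fun P h1 => by
    by_contra hPT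
    obtain ⟨c, hc⟩ := isUnramWith_of_unramAt (hunram P hPT)
    refine h1 ?_
    show invCh χ P u = 0
    rw [invCh_of_unram _ hc hu, (mem_tUnits.mp hu0).2 P hPT, mul_zero, qz_zero]
  have hsum := sum_invCh χ hu
  rw [finsum_eq_sum_of_support_subset _ hsub] at hsum
  have hlin : ∀ t : Finset (PK K), p • (∑ P ∈ t, invCh χ P u) = 0 ∧
      qzRes p (∑ P ∈ t, invCh χ P u) = ∑ P ∈ t, qzRes p (invCh χ P u) := fun t => by
    induction t using Finset.induction with
    | empty => simp [qzRes_zero]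
    | insert P t hPt ih =>
      rw [Finset.sum_insert hPt, Finset.sum_insert hPt]
      exact ⟨by rw [nsmul_add, nsmul_invCh χ P hu, ih.1, add_zero],
        by rw [qzRes_add (nsmul_invCh χ P hu) ih.1, ih.2]⟩
  rw [Finset.sum_coe_sort T' fun P => qzRes p (invCh χ P u), ← (hlin T').2, hsum, qzRes_zero]

omit [NumberField.IsTotallyComplex K] in
/-- A character nontrivial on a decomposition group has surjective local functional. -/
private lemma exists_charFun_eq (χ : CycChar LQ K.fixingSubgroup p) {P : PK K} {d : Gal' (qOf P)}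
    (hd : d ∈ (locK P).fixingSubgroup) (hne : χ (locHom (qOf P) (gOf P) d) ≠ 0) (c : ZMod p) :
    ∃ y : ↥(starF (locK P)), charFun (charAt χ (qOf P) (gOf P)) y = c := by
  have : NeZero p := ⟨hp.out.ne_zero⟩
  obtain ⟨b₀, hb₀, hb₀ne⟩ : ∃ b ∈ starF (locK P),
      inv (locK P) (cyc (charAt χ (qOf P) (gOf P)) b) ≠ 0 := by
    by_contra h
    push Not at h
    exact hne (eq_zero_of_inv_eq_zero_prime _ h d hd)
  set v := charFun (charAt χ (qOf P) (gOf P)) ⟨b₀, hb₀⟩
  have hv : v ≠ 0 := fun h => hb₀ne ((qzRes_eq_zero_iff (nsmul_inv_cyc _ hb₀)).mp h)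
  refine ⟨(c * v⁻¹).val • ⟨b₀, hb₀⟩, ?_⟩
  rw [map_nsmul, nsmul_eq_mul, ZMod.natCast_zmod_val]
  exact inv_mul_cancel_right₀ hv c

/-- Elements with prescribed components above `S` and trivial components elsewhere. -/
theorem exists_invCh_prescribed (hpS : ExtCitation.pPrime p ∈ S) (hζK : zet p ∈ K)
    (χ : CycChar LQ K.fixingSubgroup p)
    (hns : ∀ P : PK K, qP P ∈ S → ∃ d ∈ (locK P).fixingSubgroup, χ (locHom (qOf P) (gOf P) d) ≠ 0)
    (a : PK K → ZMod p) (ha : ∑ P ∈ above K S, a P = 0) :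
    ∃ b ∈ starK K, (∀ P, qP P ∈ S → qzRes p (invCh χ P b) = a P) ∧
      ∀ P, qP P ∉ S → invCh χ P b = 0 := by
  have : NeZero p := ⟨hp.out.ne_zero⟩
  set P₀ := primeAt K p 1
  have hP₀ : qP P₀ ∈ S := by
    convert hpS using 1
    exact Subtype.ext ((isPoint_primeAt (K := K) (q := p) (g := 1)).prime_eq (isPoint_gOf _))
  obtain ⟨σ, hσ, hσ1⟩ : ∃ σ ∈ K.fixingSubgroup, χ σ = 1 := by
    obtain ⟨d, hd, hne⟩ := hns P₀ hP₀
    exact ⟨locHom (qOf P₀) (gOf P₀) d ^ (χ (locHom (qOf P₀) (gOf P₀) d))⁻¹.val,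
      pow_mem (locHom_mem hd) _, by
        rw [χ.map_pow (locHom_mem hd), ZMod.natCast_zmod_val, inv_mul_cancel₀ hne]⟩
  obtain ⟨T, hST, hT, hTp⟩ := exists_goodSet χ (zet_spec p) hζK hσ hσ1 (above K S)
  obtain ⟨T', hTT, hT', hdvd⟩ := exists_units_relIndex_dvd χ hσ hσ1 (zet_spec p) hζK hT hTp
  set U := tUnits K (T' : Set (PK K))
  have hval : ∀ P : PK K, qP P ∈ S → ∀ c : ZMod p, ∃ y : ↥(starF (locK P)),
      charFun (charAt χ (qOf P) (gOf P)) y = c := fun P hP =>
    let ⟨_, hd, hne⟩ := hns P hP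
    exists_charFun_eq χ hd hne
  let Φ : ↥(locB T') →+ (T' → ZMod p) := AddMonoidHom.mk'
    (fun x P => charFun (charAt χ (qOf P.1) (gOf P.1)) ⟨x.1 P, x.2 P trivial⟩)
    fun x y => funext fun P => by
      rw [Pi.add_apply, ← map_add]
      rfl
  let di : ↥U →+ ↥(locB T') := AddMonoidHom.mk' (fun u => ⟨diagK T' u.1, fun P _ =>
    embUx_mem_starF (tUnits_le K _ u.2)⟩) fun u v => Subtype.ext (map_add (diagK T') u.1 v.1)
  set g := Φ.comp di
  set R := Φ.range
  let tot : (T' → ZMod p) →+ ZMod p := AddMonoidHom.mk' (fun t => ∑ P, t P) fun t t' =>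
    Finset.sum_add_distrib
  have hgR : g.range ≤ R := by
    rintro _ ⟨u, rfl⟩
    exact ⟨di u, rfl⟩
  have hgT : g.range ≤ tot.ker := by
    rintro _ ⟨u, rfl⟩
    exact sum_charFun_unit hT'.unram u.2
  have hidx : g.range.relIndex R ∣ p := by
    set I := (normB χ T' ⊔ U.map (diagK T')).addSubgroupOf (locB T')
    have hI : I.map Φ ≤ g.range := by
      rintro _ ⟨x, hx, rfl⟩
      obtain ⟨w, hw, _, ⟨u, hu, rfl⟩, hwu⟩ :=
        AddSubgroup.mem_sup.mp (AddSubgroup.mem_addSubgroupOf.mp hx)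
      refine ⟨⟨u, hu⟩, funext fun P => ?_⟩
      show charFun _ _ = charFun (charAt χ (qOf P.1) (gOf P.1)) ⟨x.1 P, x.2 P trivial⟩
      have hw0 : w P ∈ starF (locK P.1) := by
        rw [show w P = x.1 P - diagK T' u P by rw [← hwu, Pi.add_apply, add_sub_cancel_right]]
        exact sub_mem (x.2 P trivial) (embUx_mem_starF (tUnits_le K _ hu))
      have e : (⟨x.1 P, x.2 P trivial⟩ : ↥(starF (locK P.1))) =
          ⟨w P, hw0⟩ + ⟨diagK T' u P, embUx_mem_starF (tUnits_le K _ hu)⟩ :=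
        Subtype.ext (congrFun hwu P).symm
      rw [e, map_add]
      have hz : charFun (charAt χ (qOf P.1) (gOf P.1)) ⟨w P, hw0⟩ = 0 :=
        charFun_norm χ P.1 hw0 (hw P trivial)
      rw [hz, zero_add]
      rfl
    refine (AddSubgroup.relIndex_dvd_of_le_left R hI).trans ?_
    have h1 := AddSubgroup.relIndex_map_map Φ I ⊤
    rw [← AddMonoidHom.range_eq_map, top_sup_eq, AddSubgroup.relIndex_top_right] at h1
    rw [h1]
    exact (AddSubgroup.index_dvd_of_le le_sup_left).trans hdvd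
  have hmemR : ∀ c : PK K → ZMod p,
      (fun P : T' => if qP P.1 ∈ S then c P.1 else 0) ∈ R := fun c => by
    choose y hy using fun P : T' => (show ∃ y : ↥(starF (locK P.1)),
        charFun (charAt χ (qOf P.1) (gOf P.1)) y = if qP P.1 ∈ S then c P.1 else 0 by
      split_ifs with h
      · exact hval P.1 h _
      · exact ⟨0, map_zero _⟩)
    exact ⟨⟨fun P => (y P).1, fun P _ => (y P).2⟩, funext hy⟩
  have hsum' : ∀ c : PK K → ZMod p, tot (fun P : T' => if qP P.1 ∈ S then c P.1 else 0) =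
      ∑ P ∈ above K S, c P := fun c => by
    show ∑ P : T', (if qP P.1 ∈ S then c P.1 else 0) = _
    rw [Finset.sum_coe_sort T' fun P => if qP P ∈ S then c P else 0, ← Finset.sum_filter]
    refine Finset.sum_congr (Finset.ext fun P => ?_) fun _ _ => rfl
    rw [Finset.mem_filter, mem_above]
    exact ⟨fun h => h.2, fun h => ⟨hTT (hST (mem_above.mpr h)), h⟩⟩
  have hne : (tot.ker ⊓ R).relIndex R ≠ 1 := fun h => by
    have h1 := (AddSubgroup.relIndex_eq_one.mp h (hmemR fun P => if P = P₀ then 1 else 0)).1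
    change tot _ = 0 at h1
    rw [hsum' (fun P => if P = P₀ then 1 else 0), Finset.sum_ite_eq' _ _ fun _ => (1 : ZMod p),
      if_pos (mem_above.mpr hP₀)] at h1
    exact one_ne_zero h1
  have hmul :=
    AddSubgroup.relIndex_mul_relIndex g.range (tot.ker ⊓ R) R (le_inf hgT hgR) inf_le_right
  have hone : g.range.relIndex (tot.ker ⊓ R) = 1 := by
    rw [← hmul] at hidx
    rcases hp.out.eq_one_or_self_of_dvd _ ((dvd_mul_left _ _).trans hidx) with h | h
    · exact absurd h hne
    · rw [h] at hidx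
      exact Nat.dvd_one.mp (Nat.dvd_of_mul_dvd_mul_right hp.out.pos (by rwa [one_mul]))
  obtain ⟨u, hu⟩ := AddSubgroup.relIndex_eq_one.mp hone
    (show (fun P : T' => if qP P.1 ∈ S then a P.1 else 0) ∈ tot.ker ⊓ R from
      ⟨(hsum' a).trans ha, hmemR a⟩)
  have hu' := tUnits_le K _ u.2
  refine ⟨u.1, hu', fun P hP => ?_, fun P hP => ?_⟩
  · have h := congrFun hu ⟨P, hTT (hST (mem_above.mpr hP))⟩
    change charFun _ _ = _ at h
    rw [if_pos hP] at h
    rw [invCh_eq]
    exact h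
  · by_cases hPT : P ∈ T'
    · have h := congrFun hu ⟨P, hPT⟩
      change charFun _ _ = _ at h
      rw [if_neg hP] at h
      rw [invCh_eq]
      exact (qzRes_eq_zero_iff (nsmul_inv_cyc _ (embUx_mem_starF hu'))).mp h
    · obtain ⟨c, hc⟩ := isUnramWith_of_unramAt (hT'.unram P hPT)
      rw [invCh_of_unram _ hc hu', (mem_tUnits.mp u.2).2 P hPT, mul_zero, qz_zero]

end Radicand

/-! ### Lifting a cyclic class to roots of unity -/

section MuLift

/-- Off `S` the order of an element without invariants is orthogonal to the character on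
decomposition groups. -/
private lemma ord_mul_char_eq_zero {χ : CycChar LQ K.fixingSubgroup p}
    (hunr : ∀ P : PK K, qP P ∉ S → UnramAt χ P) {b : GM} (hb : b ∈ starK K)
    (hoff : ∀ P : PK K, qP P ∉ S → invCh χ P b = 0) {P : PK K} (hP : qP P ∉ S) (q : ℕ)
    [Fact q.Prime] (e : qOf P = q) (d : Gal' q) (hd : locHom q (gOf P) d ∈ K.fixingSubgroup) :
    (ordP P b.val : ZMod p) * χ (locHom q (gOf P) d) = 0 := by
  have : NeZero p := ⟨hp.out.ne_zero⟩
  subst e
  obtain ⟨c, hc⟩ := isUnramWith_of_unramAt (hunr P hP)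
  have h0 := hoff P hP
  rw [invCh_of_unram _ hc hb, qz_eq_zero_iff, ← ZMod.intCast_zmod_eq_zero_iff_dvd] at h0
  rw [Int.cast_mul, Int.cast_natCast, ZMod.natCast_zmod_val, mul_comm] at h0
  rw [hc d (by rw [fixingSubgroup_locField]; exact hd), ← mul_assoc, h0, zero_mul]

/-- A divisor upstairs whose values are the orders downstairs times the character. -/
private lemma exists_lift_divisor {χ : CycChar LQ K.fixingSubgroup p}
    (hunr : ∀ P : PK K, qP P ∉ S → UnramAt χ P) {b : GM} (hb : b ∈ starK K)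
    (hoff : ∀ P : PK K, qP P ∉ S → invCh χ P b = 0) :
    ∃ D : PK (extField χ) → ℤ, (Function.support D).Finite ∧
      ∀ (q : ℕ) [Fact q.Prime] (g : GQ), (⟨q, Fact.out⟩ : Nat.Primes) ∉ S →
        ∀ (P : PK K), P = primeAt K q g → ∀ (d : Gal' q), ∀ u ∈ K.fixingSubgroup,
          g = localGaloisToGlobal q d * gOf P * u →
            (D (primeAt (extField χ) q g) : ZMod p) = (ordP P b.val : ZMod p) * χ u := by
  have : NeZero p := ⟨hp.out.ne_zero⟩
  have hLW : (extField χ).fixingSubgroup = χ.ker := fixingSubgroup_extField χ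
  have hdec : ∀ Q : PK (extField χ), ∃ w ∈ K.fixingSubgroup, ∃ d : Gal' (qOf Q),
      gOf Q = localGaloisToGlobal (qOf Q) d * gOf (below χ Q) * w := fun Q => by
    have hp1 := isPoint_below χ (isPoint_gOf Q)
    obtain ⟨d, w, hw, e⟩ := (isPoint_of_eq (hp1.prime_eq (isPoint_gOf (below χ Q)))).exists_mul hp1
    refine ⟨w, hw, d, ?_⟩
    conv_lhs => rw [e]
    rw [locHom_apply]
    group
  choose w hw dw hgw using hdec
  refine ⟨fun Q => ordP (below χ Q) b.val * ((χ (w Q)).val : ℤ), ?_, ?_⟩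
  · have hbL : b ∈ starK (extField χ) := fun s hs => hb s (χ.ker_le (hLW ▸ hs))
    refine (finite_ordP_ne_zero (val_mem_of_mem_starK _ hbL) b.val_ne_zero).subset
      fun Q hQ h0 => hQ ?_
    have h1 := ((isPoint_gOf Q).norm_eq_one_iff (val_mem_of_mem_starK _ hbL) b.val_ne_zero).mpr h0
    have h2 := ((isPoint_below χ (isPoint_gOf Q)).norm_eq_one_iff (val_mem_of_mem_starK K hb)
      b.val_ne_zero).mp h1
    show ordP (below χ Q) b.val * _ = 0
    rw [h2, zero_mul]
  intro q _ g hq P hP d u hu hg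
  subst hP
  set P := primeAt K q g
  set Q := primeAt (extField χ) q g
  have hQ : IsPoint Q q g := isPoint_primeAt
  have hPQ : below χ Q = P := below_eq χ hQ
  have eQ : qOf Q = q := hQ.prime_eq (isPoint_gOf Q)
  have eP : qOf P = q := (isPoint_primeAt (K := K)).prime_eq (isPoint_gOf P)
  have hPS : qP P ∉ S := fun h => hq (by
    rwa [show (⟨q, Fact.out⟩ : Nat.Primes) = qP P from Subtype.ext eP.symm])
  have tr : ∀ (r : ℕ) [Fact r.Prime], r = q → ∀ d₁ : Gal' r,
      ∃ d₂ : Gal' q, localGaloisToGlobal q d₂ = localGaloisToGlobal r d₁ := by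
    intro r _ e d₁; subst e; exact ⟨d₁, rfl⟩
  obtain ⟨d₁, hd₁⟩ := tr (qOf Q) eQ (dw Q)
  obtain ⟨d₂, s, hs, e2⟩ := (isPoint_of_eq eQ).exists_mul hQ
  rw [hLW] at hs
  have e3 : g = localGaloisToGlobal q (d₂ * d₁) * gOf P * (w Q * s) := by
    rw [e2, locHom_apply, hgw Q, hPQ, ← hd₁, map_mul]
    group
  have e4 : locHom q (gOf P) ((d₂ * d₁)⁻¹ * d) = w Q * s * u⁻¹ := by
    have e5 := hg.symm.trans e3
    rw [locHom_apply, map_mul, map_inv, eq_mul_inv_iff_mul_eq]
    calc (gOf P)⁻¹ * ((localGaloisToGlobal q (d₂ * d₁))⁻¹ * localGaloisToGlobal q d) * gOf P * u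
        = (gOf P)⁻¹ * (localGaloisToGlobal q (d₂ * d₁))⁻¹ *
            (localGaloisToGlobal q d * gOf P * u) := by group
      _ = _ := by rw [e5]; group
  have hm : w Q * s * u⁻¹ ∈ K.fixingSubgroup := mul_mem (mul_mem (hw Q) hs.1) (inv_mem hu)
  have h1 := ord_mul_char_eq_zero hunr hb hoff hPS q eP ((d₂ * d₁)⁻¹ * d) (e4 ▸ hm)
  rw [e4, χ.map_mul (mul_mem (hw Q) hs.1) (inv_mem hu), χ.eq_of_ker (hw Q) hs, χ.map_inv hu,
    mul_add, mul_neg, ← sub_eq_add_neg, sub_eq_zero] at h1
  rw [← h1]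
  show ((ordP (below χ Q) b.val * ((χ (w Q)).val : ℤ) : ℤ) : ZMod p) = _
  rw [hPQ, Int.cast_mul, Int.cast_natCast, ZMod.natCast_zmod_val]

/-- The correction of the multiples of an element by a coboundary. -/
private def corrElt (χ : CycChar LQ K.fixingSubgroup p) (B C : GM) (a : GQ) : GM :=
  (χ a).val • B - d0 C a

/-- The corrected multiples have orders divisible by `p` off `S`. -/
private lemma hasOrd_corrElt {χ : CycChar LQ K.fixingSubgroup p} (hKu : K.IsUnramifiedOutside S)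
    {b C : GM} (hb : b ∈ starK K) {m : ℕ} {D : PK (extField χ) → ℤ}
    (hCo : ∀ q : Nat.Primes, q ∉ S → ∀ g : GQ,
      HasOrd (q : ℕ) g C (m * D (primeAt (extField χ) (q : ℕ) g)))
    (hkey : ∀ (q : ℕ) [Fact q.Prime] (g : GQ), (⟨q, Fact.out⟩ : Nat.Primes) ∉ S →
      ∀ (P : PK K), P = primeAt K q g → ∀ (d : Gal' q), ∀ u ∈ K.fixingSubgroup,
        g = localGaloisToGlobal q d * gOf P * u →
          (D (primeAt (extField χ) q g) : ZMod p) = (ordP P b.val : ZMod p) * χ u)
    {a : GQ} (ha : a ∈ K.fixingSubgroup) (q : Nat.Primes) (hq : q ∉ S) (g : GQ) :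
    ∃ k : ℤ, HasOrd (q : ℕ) g (corrElt χ (m • b) C a) (p * k) := by
  have : NeZero p := ⟨hp.out.ne_zero⟩
  have : Fact (q : ℕ).Prime := ⟨q.2⟩
  set P := primeAt K (q : ℕ) g
  have eP : qOf P = q := (isPoint_primeAt (K := K)).prime_eq (isPoint_gOf P)
  obtain ⟨d, u, hu, hg⟩ :=
    (isPoint_of_eq eP).exists_mul (isPoint_primeAt (K := K) (q := (q : ℕ)) (g := g))
  have hg' : g = localGaloisToGlobal (q : ℕ) d * gOf P * u := by
    rw [hg, locHom_apply]; group
  have hga : IsPoint P (q : ℕ) (g * a) := by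
    have := isPoint_mul (isPoint_primeAt (K := K) (q := (q : ℕ)) (g := g)) 1 ha
    rwa [map_one, mul_one] at this
  have h1 := hkey (q : ℕ) g hq P rfl d u hu hg'
  have h2 := hkey (q : ℕ) (g * a) hq P hga.eq_primeAt d (u * a) (mul_mem hu ha)
    (by rw [hg']; group)
  have hord : HasOrd (q : ℕ) g (corrElt χ (m • b) C a) ((χ a).val * (m * ordP P b.val) -
      (m * D (primeAt (extField χ) (q : ℕ) (g * a)) - m * D (primeAt (extField χ) (q : ℕ) g))) := by
    refine ((HasOrd.nsmul ?_ m).nsmul _).sub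
      (((hasOrd_smul_iff _).mpr (hCo q hq _)).sub (hCo q hq g))
    exact hasOrd_ordP hKu hq g hb
  obtain ⟨k, hk⟩ : (p : ℤ) ∣ (χ a).val * (m * ordP P b.val) -
      (m * D (primeAt (extField χ) (q : ℕ) (g * a)) - m * D (primeAt (extField χ) (q : ℕ) g)) := by
    rw [← ZMod.intCast_zmod_eq_zero_iff_dvd]
    push_cast
    rw [h1, h2, χ.map_mul hu ha, ZMod.natCast_zmod_val]
    ring
  exact ⟨k, hk ▸ hord⟩

omit [FiniteDimensional ℚ K] in
/-- The cyclic class minus the coboundary of the roots is killed by `p`. -/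
private lemma nsmul_cyc_sub_d1_eq_zero (χ : CycChar LQ K.fixingSubgroup p) {B : GM}
    (hB : B ∈ starK K) (C : GM) {a c : GQ} (ha : a ∈ K.fixingSubgroup)
    (hc : c ∈ K.fixingSubgroup) :
    p • (cyc χ B a c - d1 (fun x => pRoot p (corrElt χ B C x)) a c) = 0 := by
  have : NeZero p := ⟨hp.out.ne_zero⟩
  have key : ((χ c).val : ℤ) • B - ((χ (a * c)).val : ℤ) • B + ((χ a).val : ℤ) • B =
      ((p : ℤ) * carry (χ a) (χ c)) • B := by
    rw [← sub_smul, ← add_smul, χ.map_mul ha hc]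
    congr 1
    linarith [val_add_val (χ a) (χ c)]
  have e1 : ∀ x : GQ, a • ((χ x).val • B) = (χ x).val • B := fun x => by
    rw [smul_nsmul', hB a ha]
  rw [cyc_apply, d1, nsmul_sub, nsmul_add, nsmul_sub,
    ← smul_nsmul' a p (pRoot p (corrElt χ B C c)), nsmul_pRoot, nsmul_pRoot, nsmul_pRoot]
  simp only [corrElt, d0, smul_sub, e1, ← mul_smul a c C]
  rw [← natCast_zsmul B (χ c).val, ← natCast_zsmul B (χ (a * c)).val,
    ← natCast_zsmul B (χ a).val, ← natCast_zsmul _ p, smul_smul, ← key]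
  abel

omit hp [FiniteDimensional ℚ K] in
/-- The cyclic class minus the coboundary of the roots is constant on a deeper level. -/
private lemma cyc_sub_d1_eq (χ : CycChar LQ K.fixingSubgroup p) (B : GM) {e : GQ → GM}
    {M M'' : IntermediateField ℚ Qbar} [M.fixingSubgroup.Normal]
    (hMker : M.fixingSubgroup ≤ χ.ker) (hs' : M''.fixingSubgroup ≤ M.fixingSubgroup)
    (hes : ∀ a ∈ K.fixingSubgroup, ∀ s ∈ M.fixingSubgroup, e (a * s) = e a)
    (hfix : ∀ c ∈ K.fixingSubgroup, ∀ s ∈ M''.fixingSubgroup, s • e c = e c)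
    {a c s t : GQ} (ha : a ∈ K.fixingSubgroup) (hc : c ∈ K.fixingSubgroup)
    (hs : s ∈ M''.fixingSubgroup) (ht : t ∈ M''.fixingSubgroup) :
    cyc χ B (a * s) (c * t) - d1 e (a * s) (c * t) = cyc χ B a c - d1 e a c := by
  have hbt : c⁻¹ * s * c * t ∈ M.fixingSubgroup := by
    refine mul_mem ?_ (hs' ht)
    simpa using ‹M.fixingSubgroup.Normal›.conj_mem s (hs' hs) c⁻¹
  rw [cyc_apply, cyc_apply, χ.eq_of_ker ha (hMker (hs' hs)), χ.eq_of_ker hc (hMker (hs' ht))]
  congr 1
  show (a * s) • e (c * t) - e (a * s * (c * t)) + e (a * s) = a • e c - e (a * c) + e a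
  rw [hes c hc t (hs' ht), hes a ha s (hs' hs), mul_smul, hfix c hc s hs,
    show a * s * (c * t) = a * c * (c⁻¹ * s * c * t) by group, hes _ (mul_mem ha hc) _ hbt]

omit [FiniteDimensional ℚ K] in
/-- A cocycle killed by `p` is a class of roots of unity. -/
private lemma muLift_mem_Z2 (χ : CycChar LQ K.fixingSubgroup p) {B : GM} (hB : B ∈ starK K)
    (e : GQ → GM) {M'' : IntermediateField ℚ Qbar} (hM'' : M''.IsUnramifiedOutside S)
    (hp0 : ∀ a ∈ K.fixingSubgroup, ∀ c ∈ K.fixingSubgroup, p • (cyc χ B a c - d1 e a c) = 0)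
    (hFs : ∀ a ∈ K.fixingSubgroup, ∀ c ∈ K.fixingSubgroup, ∀ s ∈ M''.fixingSubgroup,
      ∀ t ∈ M''.fixingSubgroup,
        cyc χ B (a * s) (c * t) - d1 e (a * s) (c * t) = cyc χ B a c - d1 e a c) :
    ∃ f ∈ (LS S).Z2 K.fixingSubgroup (Mu (chiQ p)), ∀ a ∈ K.fixingSubgroup,
      ∀ c ∈ K.fixingSubgroup, muClass f a c = cyc χ B a c - d1 e a c := by
  have : NeZero p := ⟨hp.out.ne_zero⟩
  set F : GQ → GQ → GM := cyc χ B - d1 e
  have hFapp : ∀ a c, F a c = cyc χ B a c - d1 e a c := fun _ _ => rfl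
  set inv' : GM → Mu (chiQ p) := Function.invFun (muG p)
  have hinv : ∀ a ∈ K.fixingSubgroup, ∀ c ∈ K.fixingSubgroup,
      muG p (inv' (F a c)) = F a c := fun a ha c hc =>
    Function.invFun_eq (exists_muToUx_eq (zet_spec p) (hp0 a ha c hc))
  refine ⟨fun a c => inv' (F a c), ⟨⟨M''.fixingSubgroup, fixingSubgroup_mem_LS hM'',
    fun a ha c hc s hs t ht => congrArg inv' (hFs a ha c hc s hs.2 t ht.2)⟩,
      fun a ha c hc j hj => muToUx_injective (zet_spec p) ?_⟩, hinv⟩
  rw [Levels.map_d2 (muG p) (fun m => muG_smul p a m), map_zero]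
  simp only [d2]
  rw [hinv c hc j hj, hinv _ (mul_mem ha hc) j hj, hinv a ha _ (mul_mem hc hj), hinv a ha c hc]
  simp only [hFapp]
  have h1 := (cyc_mem_Z2 χ (b := B) (L := LQ) hB).2 a ha c hc j hj
  have h2 := d2_d1 e a c j
  rw [d2] at h1 h2
  rw [smul_sub]
  linear_combination (norm := abel) h1 - h2

end MuLift

/-- A cyclic class with trivial components off `S` comes from roots of unity at a finite level. -/
theorem exists_mu_lift (hpS : ExtCitation.pPrime p ∈ S)
    (χ : CycChar LQ K.fixingSubgroup p) (hker : χ.ker ∈ LS S)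
    (hunr : ∀ P : PK K, qP P ∉ S → UnramAt χ P) :
    ∃ (m : ℕ), ¬ p ∣ m ∧ ∀ b ∈ starK K, (∀ P : PK K, qP P ∉ S → invCh χ P b = 0) →
      ∃ f ∈ (LS S).Z2 K.fixingSubgroup (Mu (chiQ p)),
        ∀ P : PK K, invAt (muClass f) P = m • invCh χ P b := by
  have : NeZero p := ⟨hp.out.ne_zero⟩
  set L := extField χ
  have hLW : L.fixingSubgroup = χ.ker := fixingSubgroup_extField χ
  have hL : L.IsUnramifiedOutside S := LS_mem_of_isUnramifiedOutside (hLW.symm ▸ hker)
  have hKu : K.IsUnramifiedOutside S :=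
    LS_mem_of_isUnramifiedOutside (Levels.mem_of_le hker χ.ker_le)
  obtain ⟨m, hm, hcap⟩ := exists_capitulation hpS hL
  refine ⟨m, hm, fun b hb hoff => ?_⟩
  obtain ⟨D, hDfin, hkey⟩ := exists_lift_divisor hunr hb hoff
  obtain ⟨MC, C, hMC, hLMC, hC, hCo⟩ := hcap D hDfin
  have := hMC.1
  obtain ⟨M, hM, hMle, hMn⟩ := exists_normal_field (fixingSubgroup_mem_LS hMC)
  have := hM.1
  have := hMn
  have hMker : M.fixingSubgroup ≤ χ.ker :=
    hMle.trans ((fixingSubgroup_antitone hLMC).trans hLW.le)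
  set B := m • b
  have hB : B ∈ starK K := nsmul_mem hb m
  have hEM : ∀ a, corrElt χ B C a ∈ starK M := fun a n hn => by
    have hCM : n • a • C = a • C := by
      have h1 : a⁻¹ * n * a ∈ M.fixingSubgroup := by simpa using hMn.conj_mem n hn a⁻¹
      rw [← mul_smul, show n * a = a * (a⁻¹ * n * a) by group, mul_smul, hC _ (hMle h1)]
    show n • ((χ a).val • B - (a • C - C)) = _
    rw [smul_sub, smul_nsmul', hB n (χ.ker_le (hMker hn)), smul_sub, hCM, hC n (hMle hn)]
    rfl
  have hEs : ∀ a ∈ K.fixingSubgroup, ∀ s ∈ M.fixingSubgroup,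
      corrElt χ B C (a * s) = corrElt χ B C a := fun a ha s hs => by
    show (χ (a * s)).val • B - ((a * s) • C - C) = _
    rw [χ.eq_of_ker ha (hMker hs), mul_smul, hC s (hMle hs)]
    rfl
  obtain ⟨M', hM', hMM', heM'⟩ := exists_field_of_roots hpS hM (corrElt χ B C) hEM hEs
    fun a ha => hasOrd_corrElt hKu hb hCo hkey ha
  have := hM'.1
  obtain ⟨M'', hM'', hM''le, -⟩ := exists_normal_field (fixingSubgroup_mem_LS hM')
  set e : GQ → GM := fun a => pRoot p (corrElt χ B C a)
  have hes : ∀ a ∈ K.fixingSubgroup, ∀ s ∈ M.fixingSubgroup, e (a * s) = e a :=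
    fun a ha s hs => congrArg (pRoot p) (hEs a ha s hs)
  obtain ⟨f, hf, hfeq⟩ := muLift_mem_Z2 χ hB e hM''
    (fun a ha c hc => nsmul_cyc_sub_d1_eq_zero χ hB C ha hc)
    fun a ha c hc s hs t ht => cyc_sub_d1_eq χ B hMker
      (hM''le.trans (fixingSubgroup_antitone hMM')) hes
      (fun c hc s hs => heM' c hc s (hM''le hs)) ha hc hs ht
  refine ⟨f, hf, fun P => ?_⟩
  have hd1 : d1 e ∈ LQ.B2 K.fixingSubgroup GM := Levels.d1_mem_B2
    ⟨M.fixingSubgroup, fixingSubgroup_mem_galLevels M, fun a ha s hs => hes a ha s hs.2⟩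
  have hcy : cyc χ B ∈ LQ.Z2 K.fixingSubgroup GM := cyc_mem_Z2 χ hB
  rw [invAt_congr hcy (Levels.B2_congr (neg_mem hd1) fun a ha c hc => by
    rw [Pi.sub_apply, Pi.sub_apply, hfeq a ha c hc, Pi.neg_apply, Pi.neg_apply]
    abel)]
  exact invCh_nsmul χ P hb m

end FermatAgent.CFT.Global
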