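import Fermat.Agent.CFT.Global.SRecip

/-!
Local evaluation of classes with values in induced modules of roots of unity.

The cosets of `K` split into orbits of the local group, one for each prime above `q` (`orbitMap`).
Hence locally trivial classes have locally trivial components (`pullAt_mem_B2_of_pullR`), and a
functional evaluates a class to the sum of its invariants at those primes weighted by the
coefficients of the functional (`eval_eq_sum_invAt`); classes trivial in the multiplicative group
evaluate to zero (`eval_eq_zero_of_map_mem_B2`).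
-/

set_option autoImplicit false

noncomputable section

open scoped Classical
open IntermediateField

namespace FermatAgent.CFT.Global

open Coh Local GaloisBasic

variable {p : ℕ} [hp : Fact p.Prime] {q : ℕ} [hq : Fact q.Prime]
  {K : IntermediateField ℚ Qbar} [FiniteDimensional ℚ K]

/-- The localisation of a cochain. -/
abbrev pullR (q : ℕ) [Fact q.Prime] {X : Type} [AddCommGroup X] [DistribMulAction GQ X]
    (F : GQ → GQ → X) : Gal' q → Gal' q → Res (localGaloisToGlobal q) X :=
  fun a b => Res.of _ X (F (localGaloisToGlobal q a) (localGaloisToGlobal q b))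

/-- Cocycles restrict to local cocycles. -/
lemma pullR_mem_Z2 {X : Type} [AddCommGroup X] [DistribMulAction GQ X] {F : GQ → GQ → X}
    (hF : F ∈ LQ.Z2 ⊤ X) : pullR q F ∈ (LL q).Z2 ⊤ (Res (localGaloisToGlobal q) X) :=
  letI : DistribMulAction (Gal' q) X := DistribMulAction.compHom X (localGaloisToGlobal q)
  Levels.Z2_le (fun W hW => (comap_levels_eq (1 : GQ) W).mp (locHom_one (q := q) ▸ hW))
    (Levels.pullback_mem_Z2 (A := X) (U := ⊤) (localGaloisToGlobal q) (fun _ _ => rfl)
      (fun _ _ => Subgroup.mem_top _) hF)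

/-- Coboundaries restrict to local coboundaries. -/
lemma pullR_mem_B2 {X : Type} [AddCommGroup X] [DistribMulAction GQ X] {F : GQ → GQ → X}
    (hF : F ∈ LQ.B2 ⊤ X) : pullR q F ∈ (LL q).B2 ⊤ (Res (localGaloisToGlobal q) X) :=
  letI : DistribMulAction (Gal' q) X := DistribMulAction.compHom X (localGaloisToGlobal q)
  Levels.B2_le (fun W hW => (comap_levels_eq (1 : GQ) W).mp (locHom_one (q := q) ▸ hW))
    (Levels.pullback_mem_B2 (A := X) (U := ⊤) (localGaloisToGlobal q) (fun _ _ => rfl)
      (fun _ _ => Subgroup.mem_top _) hF)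

omit [FiniteDimensional ℚ ↥K] in
lemma locHom_coset (g : GQ) {s : Gal' q} (hs : s ∈ (locField q g K).fixingSubgroup) :
    ((localGaloisToGlobal q s * g : GQ) : GQ ⧸ K.fixingSubgroup) = (g : GQ ⧸ K.fixingSubgroup) := by
  rw [QuotientGroup.eq]
  have h := locHom_mem hs
  rw [locHom_apply] at h
  have := inv_mem h
  rwa [mul_inv_rev, mul_inv_rev, inv_inv, ← mul_assoc] at this

/-- The map of the local cosets at an embedding into the global ones. -/
def orbitMap (q : ℕ) [Fact q.Prime] (K : IntermediateField ℚ Qbar)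
    [FiniteDimensional ℚ K] (g : GQ) :
    Gal' q ⧸ (locField q g K).fixingSubgroup → GQ ⧸ K.fixingSubgroup :=
  Quotient.lift (fun d => ((localGaloisToGlobal q d * g : GQ) : GQ ⧸ K.fixingSubgroup))
    fun a b hab => by
      change (QuotientGroup.leftRel _).r a b at hab
      rw [QuotientGroup.leftRel_apply] at hab
      have h := congrArg (localGaloisToGlobal q a • ·) (locHom_coset (K := K) g hab)
      simp only [MulAction.Quotient.smul_coe, smul_eq_mul, ← mul_assoc, ← map_mul] at h
      rw [mul_inv_cancel, one_mul] at h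
      exact h.symm

lemma orbitMap_coe (g : GQ) (d : Gal' q) :
    orbitMap q K g (d : Gal' q ⧸ (locField q g K).fixingSubgroup) =
      ((localGaloisToGlobal q d * g : GQ) : GQ ⧸ K.fixingSubgroup) := rfl

lemma orbitMap_one (g : GQ) :
    orbitMap q K g ((1 : Gal' q) : Gal' q ⧸ (locField q g K).fixingSubgroup) =
      (g : GQ ⧸ K.fixingSubgroup) := by rw [orbitMap_coe, map_one, one_mul]

lemma orbitMap_smul (g : GQ) (d : Gal' q) (c : Gal' q ⧸ (locField q g K).fixingSubgroup) :
    orbitMap q K g (d • c) = localGaloisToGlobal q d • orbitMap q K g c := by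
  induction c using QuotientGroup.induction_on with
  | _ x =>
    rw [MulAction.Quotient.smul_coe, smul_eq_mul, orbitMap_coe, orbitMap_coe,
      MulAction.Quotient.smul_coe, smul_eq_mul, map_mul, mul_assoc]

lemma orbitMap_injective (g : GQ) : Function.Injective (orbitMap q K g) := fun a b h => by
  induction a using QuotientGroup.induction_on with
  | _ x =>
    induction b using QuotientGroup.induction_on with
    | _ y =>
      rw [orbitMap_coe, orbitMap_coe, QuotientGroup.eq] at h
      rw [QuotientGroup.eq, fixingSubgroup_locField, Subgroup.mem_comap, locHom_apply, map_mul,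
        map_inv]
      convert h using 1
      group

variable (p) in
/-- Restriction of an induced module to a local orbit. -/
def orbitRes (q : ℕ) [Fact q.Prime] (K : IntermediateField ℚ Qbar)
    [FiniteDimensional ℚ K] (g : GQ) :
    Res (localGaloisToGlobal q) (Ind K.fixingSubgroup (Mu (chiQ p))) →+
      Ind (locField q g K).fixingSubgroup (Mu (chiL p q)) where
  toFun φ := Ind.mk _ fun c => Mu.of _ (Mu.val (chiQ p)
    ((show Ind K.fixingSubgroup (Mu (chiQ p)) from φ) (orbitMap q K g c)))
  map_zero' := rfl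
  map_add' _ _ := rfl

lemma orbitRes_smul (g : GQ) (d : Gal' q)
    (φ : Res (localGaloisToGlobal q) (Ind K.fixingSubgroup (Mu (chiQ p)))) :
    orbitRes p q K g (d • φ) = d • orbitRes p q K g φ := by
  refine Ind.ext fun c => Mu.ext _ ?_
  show Mu.val (chiQ p) (localGaloisToGlobal q d •
      (show Ind K.fixingSubgroup (Mu (chiQ p)) from φ)
        ((localGaloisToGlobal q d)⁻¹ • orbitMap q K g c)) =
    Mu.val (chiL p q) (d • Mu.of (chiL p q) (Mu.val (chiQ p)
      ((show Ind K.fixingSubgroup (Mu (chiQ p)) from φ) (orbitMap q K g (d⁻¹ • c)))))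
  rw [Mu.val_smul, Mu.val_smul, Mu.val_of, orbitMap_smul, map_inv]
  rfl

/-- The trivial coset value of a conjugate is the localisation at the embedding. -/
lemma muToUx_orbit_conj {F : GQ → GQ → Ind K.fixingSubgroup (Mu (chiQ p))} (g : GQ) (a b : Gal' q) :
    muToUx (zetL_spec p q) (orbitRes p q K g (pullR q (conjCochain g F) a b)
        ((1 : Gal' q) : Gal' q ⧸ (locField q g K).fixingSubgroup)) =
      pullAt q g (muClass fun u v => F u v ((1 : GQ) : GQ ⧸ K.fixingSubgroup)) a b := by
  set u := g⁻¹ * localGaloisToGlobal q a * g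
  set w := g⁻¹ * localGaloisToGlobal q b * g
  have hcos : g⁻¹ • ((g : GQ) : GQ ⧸ K.fixingSubgroup) = ((1 : GQ) : GQ ⧸ K.fixingSubgroup) := by
    rw [MulAction.Quotient.smul_coe, smul_eq_mul, inv_mul_cancel]
  show muToUx (zetL_spec p q) (Mu.of (chiL p q) (Mu.val (chiQ p)
      (g • F u w (g⁻¹ • orbitMap q K g ((1 : Gal' q) : Gal' q ⧸ _))))) = _
  rw [orbitMap_one, hcos, pullAt_apply, locHom_apply, locHom_apply]
  refine Ux.ext ?_
  rw [val_embUx, val_muToUx, Mu.val_of, ← map_pow, ← val_muToUx (χ := chiQ p) (zet_spec p),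
    muG_smul, Ux.val_smul, ← emb_mul, one_mul]

/-- Locally trivial classes have locally trivial components. -/
theorem pullAt_mem_B2_of_pullR {F : GQ → GQ → Ind K.fixingSubgroup (Mu (chiQ p))}
    (hF : F ∈ LQ.Z2 ⊤ (Ind K.fixingSubgroup (Mu (chiQ p))))
    (hloc : pullR q F ∈ (LL q).B2 ⊤ (Res (localGaloisToGlobal q)
      (Ind K.fixingSubgroup (Mu (chiQ p))))) (g : GQ) :
    pullAt q g (muClass fun u v => F u v ((1 : GQ) : GQ ⧸ K.fixingSubgroup)) ∈
      (LL q).B2 (locField q g K).fixingSubgroup (MM q) := by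
  have h1 : pullR q (conjCochain g F) ∈ (LL q).B2 ⊤ (Res (localGaloisToGlobal q)
      (Ind K.fixingSubgroup (Mu (chiQ p)))) := by
    refine Levels.B2_congr (add_mem (pullR_mem_B2 (q := q) (conj_sub_mem_B2 g hF)) hloc)
      fun a _ b _ => ?_
    show Res.of _ _ _ = Res.of _ _ (conjCochain g F _ _ - F _ _) + Res.of _ _ (F _ _)
    rw [← map_add, sub_add_cancel]
  have h2 := Levels.map_mem_B2 (orbitRes p q K g) (fun d _ φ => orbitRes_smul g d φ) h1
  have h3 := Levels.map_mem_B2 (Ind.eval ((1 : Gal' q) : Gal' q ⧸ (locField q g K).fixingSubgroup))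
    (fun s hs => Ind.eval_one_smul hs)
    (Levels.B2_mono (le_top (a := (locField q g K).fixingSubgroup)) h2)
  refine Levels.B2_congr (Levels.map_mem_B2 (muToUx (zetL_spec p q))
    (fun s _ m => muToUx_smul (zetL_spec p q) (apply_zetL p q) s m) h3) fun a _ b _ => ?_
  exact (muToUx_orbit_conj g a b).symm

section Functional

variable (n : Ind K.fixingSubgroup (Mu (chiQ p)) →+ ZMod p)

/-- The coefficient of a functional at a coset. -/
def coefAt (x : GQ ⧸ K.fixingSubgroup) : ZMod p := n (indSingle x (Mu.of (chiQ p) 1))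

omit [FiniteDimensional ℚ ↥K] in
lemma apply_indSingle (x : GQ ⧸ K.fixingSubgroup) (a : Mu (chiQ p)) :
    n (indSingle x a) = Mu.val (chiQ p) a * coefAt n x := by
  have h : a = (Mu.val (chiQ p) a).val • Mu.of (chiQ p) 1 := Mu.ext _ (by
    rw [map_nsmul, Mu.val_of, nsmul_eq_mul, mul_one, ZMod.natCast_zmod_val])
  conv_lhs => rw [h, map_nsmul, map_nsmul]
  rw [nsmul_eq_mul, ZMod.natCast_zmod_val]
  rfl

variable [K.fixingSubgroup.FiniteIndex]

section
omit [FiniteDimensional ℚ K]

/-- An induced functional through its coefficients. -/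
lemma apply_eq_sum (φ : Ind K.fixingSubgroup (Mu (chiQ p))) :
    n φ = ∑ x, Mu.val (chiQ p) (φ x) * coefAt n x := by
  conv_lhs => rw [← sum_indSingle φ, map_sum]
  exact Finset.sum_congr rfl fun x _ => apply_indSingle n x _

omit [K.fixingSubgroup.FiniteIndex] in
/-- Coefficients of an equivariant functional are constant on local orbits. -/
lemma coefAt_smul (hn : n ∈ eqHom (chiQ p) (localGaloisToGlobal q)
    (Ind K.fixingSubgroup (Mu (chiQ p))))
    (d : Gal' q) (x : GQ ⧸ K.fixingSubgroup) :
    coefAt n (localGaloisToGlobal q d • x) = coefAt n x := by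
  have h := hn d (indSingle x (Mu.of (chiQ p) 1))
  rw [smul_indSingle, apply_indSingle, apply_indSingle, Mu.val_smul, Mu.val_of,
    mul_one, one_mul] at h
  exact mul_left_cancel₀ (Units.ne_zero _) h

/-- Classes trivial in the multiplicative group are invisible locally. -/
theorem eval_eq_zero_of_map_mem_B2
    {F : GQ → GQ → Ind K.fixingSubgroup (Mu (chiQ p))}
    (hF : F ∈ LQ.Z2 ⊤ (Ind K.fixingSubgroup (Mu (chiQ p))))
    (hB : (fun a b => Ind.map (muG p) (F a b)) ∈ LQ.B2 ⊤ (Ind K.fixingSubgroup GM))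
    (hn : n ∈ eqHom (chiQ p) (localGaloisToGlobal q) (Ind K.fixingSubgroup (Mu (chiQ p)))) :
    (locDatum p q).eval (M := Res (localGaloisToGlobal q) (Ind K.fixingSubgroup (Mu (chiQ p))))
      (pullR q F) n = 0 := by
  have hn' : (show Res (localGaloisToGlobal q)
      (Ind K.fixingSubgroup (Mu (chiQ p))) →+ ZMod p from n) ∈
      eqHom (chiL p q) (MonoidHom.id (Gal' q)) (Res (localGaloisToGlobal q)
        (Ind K.fixingSubgroup (Mu (chiQ p)))) := hn
  let ext : Res (localGaloisToGlobal q) (Ind K.fixingSubgroup GM) →+ MM q :=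
    AddMonoidHom.mk' (fun φ => ∑ x, (coefAt n x).val •
        embUx q 1 ((show Ind K.fixingSubgroup GM from φ) x)) fun φ ψ => by
      rw [← Finset.sum_add_distrib]
      refine Finset.sum_congr rfl fun x _ => ?_
      rw [← nsmul_add, ← map_add]
      rfl
  have hext : ∀ (d : Gal' q) φ, ext (d • φ) = d • ext φ := fun d φ => by
    show ∑ x, (coefAt n x).val • embUx q 1 (localGaloisToGlobal q d •
        (show Ind K.fixingSubgroup GM from φ) ((localGaloisToGlobal q d)⁻¹ • x)) =
      d • ∑ x, (coefAt n x).val • embUx q 1 ((show Ind K.fixingSubgroup GM from φ) x)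
    rw [Finset.smul_sum]
    refine (Fintype.sum_equiv (MulAction.toPerm (localGaloisToGlobal q d)) _ _ fun x => ?_).symm
    rw [MulAction.toPerm_apply, inv_smul_smul, coefAt_smul n hn, ← locHom_one, embUx_locHom_smul,
      smul_nsmul']
  have key : (fun a b => muToUx (zetL_spec p q) (Mu.of (chiL p q) (n (F (localGaloisToGlobal q a)
      (localGaloisToGlobal q b))))) ∈ (LL q).B2 ⊤ (MM q) := by
    refine Levels.B2_congr (Levels.map_mem_B2 ext (fun d _ φ => hext d φ)
      (pullR_mem_B2 (q := q) hB))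
      fun a _ b _ => ?_
    show _ = ∑ x, (coefAt n x).val •
      embUx q 1 (muG p (F (localGaloisToGlobal q a) (localGaloisToGlobal q b) x))
    rw [apply_eq_sum, map_sum, map_sum]
    refine Finset.sum_congr rfl fun x _ => ?_
    have e : Mu.of (chiL p q)
        (Mu.val (chiQ p) (F (localGaloisToGlobal q a) (localGaloisToGlobal q b) x) *
        coefAt n x) = (coefAt n x).val •
          Mu.of (chiL p q)
            (Mu.val (chiQ p) (F (localGaloisToGlobal q a) (localGaloisToGlobal q b) x)) := by
      rw [← map_nsmul, nsmul_eq_mul, ZMod.natCast_zmod_val, mul_comm]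
    rw [e, map_nsmul]
    congr 1
    refine Ux.ext ?_
    rw [val_embUx, val_muToUx, val_muToUx, Mu.val_of, map_pow]
  exact ((locDatum p q).inv_eq_zero_iff ⊤ (LL q).top_mem _
    ((locDatum p q).smooth_mu |> fun _ => InvDatum.eval_comp_mem (pullR_mem_Z2 hF) hn')).mpr
    (mem_B2_of_muToUx (zetL_spec p q) (apply_zetL p q) (LL q).top_mem key)

end

/-- The invariant of the component of a class at the orbit of a prime is its invariant there. -/
lemma inv_total_orbitRes [∀ g : GQ, (locField q g K).fixingSubgroup.FiniteIndex]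
    (hWn : K.fixingSubgroup.Normal) (hKχ : K.fixingSubgroup ≤ (chiQ p).ker)
    {F : GQ → GQ → Ind K.fixingSubgroup (Mu (chiQ p))}
    (hF : F ∈ LQ.Z2 ⊤ (Ind K.fixingSubgroup (Mu (chiQ p)))) {P : PK K} (hP : qOf P = q)
    {a : ZMod p} (ha : invAt (muClass fun u v => F u v ((1 : GQ) : GQ ⧸ K.fixingSubgroup)) P =
      qz ((a.val : ℤ)) p) :
    (locDatum p q).inv ⊤
      (fun u v => Ind.total (orbitRes p q K (gOf P) (pullR q F u v))) = a := by
  let G : Gal' q → Gal' q → Mu (chiL p q) := fun u v =>
    Ind.total (orbitRes p q K (gOf P) (pullR q F u v))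
  have hG : G ∈ (LL q).Z2 ⊤ (Mu (chiL p q)) :=
    Levels.map_mem_Z2 Ind.total (fun d _ φ => Ind.total_smul d φ)
      (Levels.map_mem_Z2 (orbitRes p q K (gOf P)) (fun d _ φ => orbitRes_smul (gOf P) d φ)
        (pullR_mem_Z2 hF))
  show (locDatum p q).inv ⊤ G = a
  set g := gOf P
  set W' := (locField q g K).fixingSubgroup
  have hW'n : W'.Normal := by
    show (locField q g K).fixingSubgroup.Normal
    rw [fixingSubgroup_locField]
    exact hWn.comap _
  have hW'χ : W' ≤ (chiL p q).ker := fun d hd => by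
    have h := hKχ (locHom_mem hd)
    rw [MonoidHom.mem_ker, locHom_apply, map_mul, map_mul, map_inv, mul_comm, ← mul_assoc,
      mul_inv_cancel, one_mul] at h
    exact h
  set H : Gal' q → Gal' q → Ind W' (Mu (chiL p q)) :=
    fun u v => orbitRes p q K g (pullR q (conjCochain g F) u v)
  have hcF : conjCochain g F ∈ LQ.Z2 ⊤ (Ind K.fixingSubgroup (Mu (chiQ p))) := by
    have := add_mem (Levels.B2_le_Z2 (smooth_ind (fixingSubgroup_mem_galLevels K)
      (fun a => ⟨(chiQ p).ker, fixingSubgroup_cycK p ▸ fixingSubgroup_mem_galLevels (cycK p),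
        fun s hs => Mu.ext _
          (by rw [Mu.val_smul, MonoidHom.mem_ker.mp hs, Units.val_one, one_mul])⟩))
      (conj_sub_mem_B2 g hF)) hF
    rwa [sub_add_cancel] at this
  have hH : H ∈ (LL q).Z2 ⊤ (Ind W' (Mu (chiL p q))) :=
    Levels.map_mem_Z2 (orbitRes p q K g) (fun d _ φ => orbitRes_smul g d φ) (pullR_mem_Z2 hcF)
  have hsm : (LL q).Smooth (Ind W' (Mu (chiL p q))) :=
    smooth_ind (Local.fix_mem _) (locDatum p q).smooth_mu
  have hdiff : G - (fun u v => Ind.total (indFun2 W'
      (fun x y => H x y ((1 : Gal' q) : Gal' q ⧸ W')) u v)) ∈ (LL q).B2 ⊤ (Mu (chiL p q)) := by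
    refine Levels.B2_congr (sub_mem
      (Levels.map_mem_B2 Ind.total (fun d _ φ => Ind.total_smul d φ)
        (sub_indFun2_mem_B2 (Local.fix_mem (locField q g K)) hsm hH))
      (Levels.map_mem_B2 Ind.total (fun d _ φ => Ind.total_smul d φ)
        (Levels.map_mem_B2 (orbitRes p q K g) (fun d _ φ => orbitRes_smul g d φ)
          (pullR_mem_B2 (q := q) (conj_sub_mem_B2 g hF))))) fun u _ v _ => ?_
    show Ind.total (orbitRes p q K g (pullR q F u v)) - Ind.total (indFun2 W' _ u v) =
      Ind.total (H u v - indFun2 W' _ u v) -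
        Ind.total (orbitRes p q K g (Res.of _ _ (conjCochain g F _ _ - F _ _)))
    rw [map_sub, map_sub, map_sub, map_sub]
    simp only [H]
    abel
  have hev := eval_mem_Z2 hH
  rw [(locDatum p q).inv_congr (LL q).top_mem hG
    (Levels.map_mem_Z2 Ind.total (fun d _ φ => Ind.total_smul d φ)
      (indFun2_mem_Z2 (Local.fix_mem _) hev)) hdiff,
    (locDatum p q).inv_cor W' hW'n (Local.fix_mem _) hW'χ _ hev]
  show muInv (chiL p q) (zetL_spec p q) W' _ = _
  rw [muInv_eq, show (fun x y => muToUx (zetL_spec p q) (H x y ((1 : Gal' q) : Gal' q ⧸ W'))) =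
    pullAt q g (muClass fun u v => F u v ((1 : GQ) : GQ ⧸ K.fixingSubgroup)) from
      funext fun x => funext fun y => muToUx_orbit_conj g x y,
    ← invAt_eq_of_eq _ hP, ha, qzRes_qz, Int.cast_natCast, ZMod.natCast_zmod_val]

/-- The functional of a class is the weighted sum of its invariants at the primes above. -/
theorem eval_eq_sum_invAt (hWn : K.fixingSubgroup.Normal) (hKχ : K.fixingSubgroup ≤ (chiQ p).ker)
    {F : GQ → GQ → Ind K.fixingSubgroup (Mu (chiQ p))}
    (hF : F ∈ LQ.Z2 ⊤ (Ind K.fixingSubgroup (Mu (chiQ p))))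
    {T : Finset (PK K)} (hT : ∀ P, P ∈ T ↔ qOf P = q) (a : PK K → ZMod p)
    (ha : ∀ P ∈ T, invAt (muClass fun u v => F u v ((1 : GQ) : GQ ⧸ K.fixingSubgroup)) P =
      qz ((a P).val : ℤ) p)
    (hn : n ∈ eqHom (chiQ p) (localGaloisToGlobal q) (Ind K.fixingSubgroup (Mu (chiQ p)))) :
    (locDatum p q).eval (M := Res (localGaloisToGlobal q) (Ind K.fixingSubgroup (Mu (chiQ p))))
      (pullR q F) n =
      ∑ P ∈ T, coefAt n ((gOf P : GQ) : GQ ⧸ K.fixingSubgroup) * a P := by
  have : ∀ g : GQ, (locField q g K).fixingSubgroup.FiniteIndex :=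
    fun g => (LL q).finiteIndex (Local.fix_mem _)
  let π : GQ ⧸ K.fixingSubgroup → PK K := fun x => primeAt K q (sec K.fixingSubgroup x)
  have hπ : ∀ g : GQ, π (g : GQ ⧸ K.fixingSubgroup) = primeAt K q g := fun g => by
    have hw := QuotientGroup.eq.mp (mk_sec K.fixingSubgroup (g : GQ ⧸ K.fixingSubgroup)).symm
    have h1 := isPoint_mul (isPoint_primeAt (K := K) (q := q) (g := g)) 1 hw
    rw [map_one, mul_one, mul_inv_cancel_left] at h1
    exact h1.eq_primeAt.symm
  have hmaps : ∀ x ∈ (Finset.univ : Finset (GQ ⧸ K.fixingSubgroup)), π x ∈ T := fun x _ =>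
    (hT _).mpr ((isPoint_primeAt (K := K) (q := q)).prime_eq (isPoint_gOf _))
  have hfib : ∀ P ∈ T, (Finset.univ.filter fun x => π x = P) =
      Finset.univ.image (orbitMap q K (gOf P)) := fun P hP => by
    have hpt := isPoint_of_eq ((hT P).mp hP)
    ext x
    simp only [Finset.mem_filter, Finset.mem_univ, true_and, Finset.mem_image]
    constructor
    · intro hx
      have hx' : IsPoint P q (sec K.fixingSubgroup x) := hx ▸ isPoint_primeAt
      obtain ⟨d, w, hw, e⟩ := hpt.exists_mul hx'
      refine ⟨(d : Gal' q ⧸ _), ?_⟩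
      rw [orbitMap_coe, ← mk_sec K.fixingSubgroup x, e, QuotientGroup.eq,
        show (localGaloisToGlobal q d * gOf P)⁻¹ * (gOf P * locHom q (gOf P) d * w) = w by
          rw [locHom_apply]; group]
      exact hw
    · rintro ⟨c, rfl⟩
      induction c using QuotientGroup.induction_on with
      | _ d =>
        rw [orbitMap_coe, hπ]
        have := isPoint_mul hpt d (one_mem K.fixingSubgroup)
        rw [mul_one, locHom_apply, ← mul_assoc, ← mul_assoc, mul_inv_cancel, one_mul] at this
        exact this.eq_primeAt.symm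
  let cP : PK K → ZMod p := fun P => coefAt n ((gOf P : GQ) : GQ ⧸ K.fixingSubgroup)
  let G : PK K → Gal' q → Gal' q → Mu (chiL p q) := fun P u v =>
    Ind.total (orbitRes p q K (gOf P) (pullR q F u v))
  have hG : ∀ P, G P ∈ (LL q).Z2 ⊤ (Mu (chiL p q)) := fun P =>
    Levels.map_mem_Z2 Ind.total (fun d _ φ => Ind.total_smul d φ)
      (Levels.map_mem_Z2 (orbitRes p q K (gOf P)) (fun d _ φ => orbitRes_smul (gOf P) d φ)
        (pullR_mem_Z2 hF))
  have hsum : (fun u v => Mu.of (chiL p q) ((show Res (localGaloisToGlobal q)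
      (Ind K.fixingSubgroup (Mu (chiQ p))) →+ ZMod p from n) (pullR q F u v))) =
      ∑ P ∈ T, (cP P).val • G P := by
    funext u v
    rw [Finset.sum_apply, Finset.sum_apply]
    refine Mu.ext _ ?_
    rw [Mu.val_of, map_sum]
    show n (F (localGaloisToGlobal q u) (localGaloisToGlobal q v)) = _
    rw [apply_eq_sum, ← Finset.sum_fiberwise_of_maps_to hmaps]
    refine Finset.sum_congr rfl fun P hP => ?_
    rw [Pi.smul_apply, Pi.smul_apply, map_nsmul, nsmul_eq_mul, ZMod.natCast_zmod_val, hfib P hP,
      Finset.sum_image fun x _ y _ h => orbitMap_injective (gOf P) h]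
    simp only [G, Ind.total_apply, map_sum, Finset.mul_sum]
    refine Finset.sum_congr rfl fun c _ => ?_
    show _ * coefAt n (orbitMap q K (gOf P) c) = cP P * _
    induction c using QuotientGroup.induction_on with
    | _ d =>
      rw [show orbitMap q K (gOf P) (d : Gal' q ⧸ _) =
          localGaloisToGlobal q d • ((gOf P : GQ) : GQ ⧸ K.fixingSubgroup) from rfl,
        coefAt_smul n hn, mul_comm]
      rfl
  have hinv : ∀ P ∈ T, (locDatum p q).inv ⊤ (G P) = a P := fun P hP =>
    inv_total_orbitRes hWn hKχ hF ((hT P).mp hP) (ha P hP)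
  show (locDatum p q).inv ⊤ _ = _
  rw [hsum]
  have hlin : ∀ s : Finset (PK K), s ⊆ T →
      (locDatum p q).inv ⊤ (∑ P ∈ s, (cP P).val • G P) = ∑ P ∈ s, cP P * a P := fun s => by
    induction s using Finset.induction with
    | empty =>
      intro _
      rw [Finset.sum_empty, Finset.sum_empty, InvDatum.inv_zero _ (LL q).top_mem]
    | insert P s hP ih =>
      intro hs
      rw [Finset.insert_subset_iff] at hs
      rw [Finset.sum_insert hP, Finset.sum_insert hP,
        (locDatum p q).inv_add _ (LL q).top_mem _ (nsmul_mem (hG P) _) _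
          (sum_mem fun P _ => nsmul_mem (hG P) _), ih hs.2]
      congr 1
      have h := map_nsmul ((locDatum p q).invHom (LL q).top_mem) (cP P).val ⟨G P, hG P⟩
      simp only [InvDatum.invHom, AddMonoidHom.mk'_apply, hinv P hs.1, nsmul_eq_mul,
        ZMod.natCast_zmod_val] at h
      exact h
  exact hlin T subset_rfl

end Functional

/-- Inducing a class trivial in the multiplicative group. -/
lemma map_indFun2_mem_B2 {f : GQ → GQ → Mu (chiQ p)}
    (h : muClass f ∈ LQ.B2 K.fixingSubgroup GM) :
    (fun a b => Ind.map (muG p) (indFun2 K.fixingSubgroup f a b)) ∈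
      LQ.B2 ⊤ (Ind K.fixingSubgroup GM) := by
  refine Levels.B2_congr (indFun2_mem_B2 (fixingSubgroup_mem_galLevels K) h) fun a _ b _ =>
    Ind.ext fun x => ?_
  show muG p (sec K.fixingSubgroup x • f _ _) = sec K.fixingSubgroup x • muG p (f _ _)
  rw [muG_smul]

end FermatAgent.CFT.Global
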