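import Fermat.Agent.CFT.Global.SDuality
import Fermat.Agent.CFT.Global.IndEval

/-!
Locally trivial classes die after projection from a deep enough level.

`exists_kill_level`: below a level `U` there is a normal level `U'`, unramified outside `S`, from
which every class in degree two of the induced module of roots of unity which is locally trivial on
`S` maps to a coboundary under the projection to `U`.
`U'` is chosen so that every split character of the field vanishes on it (`exists_split_level`).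
Projection pushes obstructions down (`isObs_pushDiv`), and the pushed divisor vanishes at primes
moved by split characters (`pushDiv_eq_zero`).
-/

set_option autoImplicit false

noncomputable section

open scoped Classical
open IntermediateField

namespace FermatAgent.CFT.Global

open Coh Local GaloisBasic

variable {p : ℕ} [hp : Fact p.Prime] {S : Finset Nat.Primes} {K : IntermediateField ℚ Qbar}
  [FiniteDimensional ℚ K]

/-- Unramified characters give no new absolute values. -/
lemma unramAt_of_isUnramWith {α : CycChar LQ K.fixingSubgroup p} {P : PK K} {c : ZMod p}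
    (hc : IsUnramWith α P c) : UnramAt α P := fun y hy => by
  have : NeZero p := ⟨hp.out.ne_zero⟩
  have hmem : y.val ∈ unramField (locK P) p := exists_apply_eq_of_mem _ fun d hd => by
    rw [← ker_unramChar] at hd
    refine congrArg Ux.val (hy d ⟨hd.1, ?_⟩)
    show α (locHom (qOf P) (gOf P) d) = 0
    rw [hc d hd.1, ← unramChar_apply, hd.2, mul_zero]
  obtain ⟨t, ht, htn⟩ := exists_norm_eq_of_unramField (locK P) p hmem
  have ht0 : t ≠ 0 := fun h => y.val_ne_zero (norm_eq_zero.mp (by rw [← htn, h, norm_zero]))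
  exact ⟨Ux.mk t ht0, mem_fixedUx_fixingSubgroup.mpr ht, htn⟩

/-- A level on which every split character vanishes. -/
theorem exists_split_level (hpS : ExtCitation.pPrime p ∈ S) (hK : K.IsUnramifiedOutside S)
    (hζK : zet p ∈ K) :
    ∃ U' : Subgroup GQ, U' ∈ LS S ∧ U'.Normal ∧ U' ≤ K.fixingSubgroup ∧
      ∀ α : CycChar LQ K.fixingSubgroup p, IsSplitChar S α → ∀ g ∈ U', α g = 0 := by
  have : NeZero p := ⟨hp.out.ne_zero⟩
  obtain ⟨T₀, hT₀⟩ := exists_generator (K := K)
  set T := insert (primeAt K p 1) T₀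
  have hgen : PrincipalOutside T := fun P hP => by
    obtain ⟨c, hc, hc0, h1, h2⟩ := hT₀ P fun h => hP (Finset.mem_insert_of_mem h)
    exact ⟨c, hc, hc0, h1, fun P' hP' => h2 P' fun h => hP' (Finset.mem_insert_of_mem h)⟩
  set U := tUnits K (T : Set (PK K))
  set pU : AddSubgroup U := (U.map (nsmulAddMonoidHom p)).addSubgroupOf U
  have : pU.FiniteIndex := ⟨by
    rw [show pU.index = _ from pIndex_tUnits_eq (zet_spec p) hζK T]
    exact pow_ne_zero _ hp.out.ne_zero⟩
  have : Fintype (U ⧸ pU) := Fintype.ofFinite _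
  let G : GM → Prop := fun a => ∀ q : Nat.Primes, q ∉ S → ∀ g : GQ,
    ∃ k : ℤ, HasOrd (q : ℕ) g a (p * k)
  have hfield : ∀ x : U ⧸ pU, ∃ M : IntermediateField ℚ Qbar, M.IsUnramifiedOutside S ∧ K ≤ M ∧
      (G (Quotient.out x).1 → pRoot p (Quotient.out x).1 ∈ starK M) := fun x => by
    by_cases hx : G (Quotient.out x).1
    · obtain ⟨M, h1, h2, h3⟩ := exists_field_of_pth hpS hK (y := pRoot p (Quotient.out x).1)
        (by rw [nsmul_pRoot]; exact tUnits_le K _ (Quotient.out x).2)
        fun q hq g => by rw [nsmul_pRoot]; exact hx q hq g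
      exact ⟨M, h1, h2, fun _ => h3⟩
    · exact ⟨K, hK, le_rfl, fun h => absurd h hx⟩
  choose M hM hKM hyM using hfield
  have hlev : K.fixingSubgroup ⊓ Finset.univ.inf (fun x => (M x).fixingSubgroup) ∈ LS S :=
    (LS S).inf_mem (fixingSubgroup_mem_LS hK)
      ((LS S).finset_inf_mem _ _ fun x _ => fixingSubgroup_mem_LS (hM x))
  obtain ⟨U', hU', hU'n, hle⟩ := (LS S).exists_normal hlev
  refine ⟨U', hU', hU'n, hle.trans inf_le_left, fun α hα g hg => ?_⟩
  have hgW : g ∈ K.fixingSubgroup := (hle hg).1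
  by_cases h0 : ∀ s ∈ K.fixingSubgroup, α s = 0
  · exact h0 g hgW
  push Not at h0
  obtain ⟨σ₀, hσ₀, hne⟩ := h0
  obtain ⟨σ, hσ, hσ1⟩ : ∃ σ ∈ K.fixingSubgroup, α σ = 1 :=
    ⟨σ₀ ^ (α σ₀)⁻¹.val, pow_mem hσ₀ _, by
      rw [α.map_pow hσ₀, ZMod.natCast_zmod_val, inv_mul_cancel₀ hne]⟩
  have hgood : GoodSet α T := ⟨⟨_, Finset.mem_insert_self _ _⟩, hgen, fun P _ => by
    obtain ⟨c, hc⟩ := (hα P).1
    exact unramAt_of_isUnramWith hc⟩
  obtain ⟨y, hy, hyT⟩ := exists_isKummer_tUnit (zet_spec p) hζK hσ hσ1 hgood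
  have hG : ∀ z : U, QuotientAddGroup.mk (s := pU) z = QuotientAddGroup.mk (⟨p • y, hyT⟩ : U) →
      G z.1 := fun z hz q hq g => by
    have : Fact (q : ℕ).Prime := ⟨q.2⟩
    obtain ⟨c', hc'⟩ := (hα (primeAt K (q : ℕ) g)).1
    obtain ⟨k, hk⟩ := hy.dvd_ordP (zet_spec p) (unramAt_of_isUnramWith hc')
    have h1 := (QuotientAddGroup.eq).mp hz
    obtain ⟨c, hc, hcz⟩ := AddSubgroup.mem_addSubgroupOf.mp h1
    have hc2 : p • c = -z.1 + p • y := hcz
    have h2 := (hasOrd_ordP hK hq g (tUnits_le K _ hyT)).sub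
      ((hasOrd_ordP hK hq g (tUnits_le K _ hc)).nsmul p)
    rw [hk, hc2, show p • y - (-z.1 + p • y) = z.1 by abel, ← mul_sub] at h2
    exact ⟨_, h2⟩
  set x : U ⧸ pU := QuotientAddGroup.mk (⟨p • y, hyT⟩ : U)
  have hx := hyM x (hG (Quotient.out x) (Quotient.out_eq x))
  have h1 := (QuotientAddGroup.eq).mp
    (show QuotientAddGroup.mk (s := pU) (Quotient.out x) =
        QuotientAddGroup.mk (⟨p • y, hyT⟩ : U) from
      Quotient.out_eq x)
  obtain ⟨c, hc, hcz⟩ := AddSubgroup.mem_addSubgroupOf.mp h1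
  obtain ⟨i, -, hi⟩ := exists_nsmul_root (zet_spec p) (x := y - c - pRoot p (Quotient.out x).1) (by
    rw [nsmul_sub, nsmul_sub, nsmul_pRoot, show p • c = -(Quotient.out x).1 + p • y from hcz]
    abel)
  have hgM : g ∈ (M x).fixingSubgroup := SetLike.le_def.mp
    (Finset.inf_le (f := fun x => (M x).fixingSubgroup) (Finset.mem_univ x)) (hle hg).2
  refine (hy.eq_zero_iff (zet_spec p) hgW).mpr ?_
  have e : y = i • zetaUx (zet_spec p) + pRoot p (Quotient.out x).1 + c := by rw [← hi]; abel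
  rw [e, smul_add, smul_add, smul_nsmul', smul_zetaUx (zet_spec p) hζK hgW, hx g hgM,
    tUnits_le K _ hc g hgW]

section Push

variable {K' : IntermediateField ℚ Qbar} [FiniteDimensional ℚ K']
  (h : K'.fixingSubgroup ≤ K.fixingSubgroup) [K'.fixingSubgroup.FiniteIndex]

/-- The cosets above the trivial coset. -/
def overOne : Finset (GQ ⧸ K'.fixingSubgroup) :=
  Finset.univ.filter fun x => Ind.proj h x = ((1 : GQ) : GQ ⧸ K.fixingSubgroup)

omit [FiniteDimensional ℚ ↥K] [FiniteDimensional ℚ ↥K'] in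
/-- Representatives over the trivial coset lie in the group of the base. -/
lemma sec_mem_of_overOne {x : GQ ⧸ K'.fixingSubgroup} (hx : x ∈ overOne h) :
    sec K'.fixingSubgroup x ∈ K.fixingSubgroup := by
  have h1 := (Finset.mem_filter.mp hx).2
  rw [← mk_sec K'.fixingSubgroup x, Ind.proj_coe, QuotientGroup.eq, mul_one] at h1
  simpa using inv_mem h1

omit [FiniteDimensional ℚ ↥K] [FiniteDimensional ℚ ↥K'] in
lemma smul_mem_overOne {w : GQ} (hw : w ∈ K.fixingSubgroup) {x : GQ ⧸ K'.fixingSubgroup} :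
    w • x ∈ overOne h ↔ x ∈ overOne h := by
  simp only [overOne, Finset.mem_filter, Finset.mem_univ, true_and, Ind.proj_smul]
  constructor
  · intro hx
    rw [← inv_smul_smul w (Ind.proj h x), hx, Ind.smul_one_coset (inv_mem hw)]
  · intro hx
    rw [hx, Ind.smul_one_coset hw]

/-- The divisor pushed down along the fibre. -/
def pushDiv (D : PK K' → ZMod p) (q : ℕ) [Fact q.Prime] (g : GQ) : ZMod p :=
  ∑ x ∈ overOne h, D (primeAt K' q (g * sec K'.fixingSubgroup x))

omit [K'.fixingSubgroup.FiniteIndex] in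
/-- The prime at a place is invariant under the two sided action. -/
lemma primeAt_mul_left {q : ℕ} [Fact q.Prime] (d : Gal' q) (g : GQ) {u : GQ}
    (hu : u ∈ K'.fixingSubgroup) :
    primeAt K' q (localGaloisToGlobal q d * g * u) = primeAt K' q g := by
  have h1 := isPoint_mul (isPoint_primeAt (K := K') (q := q) (g := g)) d hu
  rw [locHom_apply, ← mul_assoc, ← mul_assoc, mul_inv_cancel, one_mul] at h1
  exact h1.eq_primeAt.symm

omit [FiniteDimensional ℚ ↥K'] [K'.fixingSubgroup.FiniteIndex] in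
/-- The representatives transform under the group up to the subgroup. -/
lemma exists_sec_smul (w : GQ) (x : GQ ⧸ K'.fixingSubgroup) :
    ∃ u ∈ K'.fixingSubgroup, w * sec K'.fixingSubgroup x = sec K'.fixingSubgroup (w • x) * u := by
  refine ⟨secCocycle K'.fixingSubgroup w (w • x), secCocycle_mem _ _ _, ?_⟩
  rw [← mul_sec, inv_smul_smul]

omit [FiniteDimensional ℚ ↥K] in
lemma pushDiv_eq_of_mul (D : PK K' → ZMod p) {q : ℕ} [Fact q.Prime] (d : Gal' q) (g : GQ) {w : GQ}
    (hw : w ∈ K.fixingSubgroup) :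
    pushDiv h D q (localGaloisToGlobal q d * g * w) = pushDiv h D q g := by
  refine Finset.sum_equiv (MulAction.toPerm w) (fun x => (smul_mem_overOne h hw).symm) fun x _ => ?_
  obtain ⟨u, hu, e⟩ := exists_sec_smul w x
  rw [MulAction.toPerm_apply, mul_assoc (localGaloisToGlobal q d * g), e, ← mul_assoc,
    mul_assoc (localGaloisToGlobal q d) g, primeAt_mul_left d _ hu]

omit [FiniteDimensional ℚ ↥K] in
lemma pushDiv_congr (D : PK K' → ZMod p) {r q : ℕ} [Fact r.Prime] [Fact q.Prime]
    (e : r = q) (g : GQ) :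
    pushDiv h D r g = pushDiv h D q g := by
  subst e; rfl

/-- The pushed divisor only depends on the prime. -/
lemma pushDiv_isPoint (D : PK K' → ZMod p) {P : PK K} {q : ℕ} [Fact q.Prime] {g : GQ}
    (hP : IsPoint P q g) : pushDiv h D q g = pushDiv h D (qOf P) (gOf P) := by
  have e : qOf P = q := hP.prime_eq (isPoint_gOf P)
  obtain ⟨d, w, hw, rfl⟩ := (isPoint_of_eq e).exists_mul hP
  rw [locHom_apply, ← mul_assoc, ← mul_assoc, mul_inv_cancel, one_mul, pushDiv_eq_of_mul h D d _ hw,
    pushDiv_congr h D e]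

/-- At a prime moved by a split character the pushed divisor vanishes. -/
lemma pushDiv_eq_zero (D : PK K' → ZMod p) (α : CycChar LQ K.fixingSubgroup p)
    (hα : ∀ g ∈ K'.fixingSubgroup, α g = 0) {P : PK K}
    (hc : α (locHom (qOf P) (gOf P) (frob (locK P) p)) ≠ 0) :
    pushDiv h D (qOf P) (gOf P) = 0 := by
  have : NeZero p := ⟨hp.out.ne_zero⟩
  set φ := locHom (qOf P) (gOf P) (frob (locK P) p)
  have hφ : φ ∈ K.fixingSubgroup := locHom_mem (frob_mem _ _)
  set F : GQ ⧸ K'.fixingSubgroup → ZMod p :=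
    fun x => D (primeAt K' (qOf P) (gOf P * sec K'.fixingSubgroup x))
  set lam : GQ ⧸ K'.fixingSubgroup → ZMod p := fun x => α (sec K'.fixingSubgroup x)
  have hstep : ∀ x ∈ overOne h, F (φ • x) = F x ∧ lam (φ • x) = α φ + lam x := fun x hx => by
    obtain ⟨u, hu, e⟩ := exists_sec_smul φ x
    constructor
    · have e1 : gOf P * sec K'.fixingSubgroup (φ • x) =
          localGaloisToGlobal (qOf P) (frob (locK P) p) *
          (gOf P * sec K'.fixingSubgroup x) * u⁻¹ := by
        rw [eq_mul_inv_iff_mul_eq.mpr e.symm]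
        simp only [φ, locHom_apply]
        group
      show D _ = D _
      rw [e1, primeAt_mul_left _ _ (inv_mem hu)]
    · have h1 := congrArg α e
      rw [α.map_mul hφ (sec_mem_of_overOne h hx),
        α.map_mul (sec_mem_of_overOne h ((smul_mem_overOne h hφ).mpr hx)) (h hu), hα u hu,
        add_zero] at h1
      exact h1.symm
  set s : ZMod p → ZMod p := fun i => ∑ x ∈ (overOne h).filter (fun x => lam x = i), F x
  have hshift : ∀ i, s (i + α φ) = s i := fun i => by
    refine (Finset.sum_equiv (MulAction.toPerm φ) (fun x => ?_) fun x hx => ?_).symm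
    · simp only [Finset.mem_filter, MulAction.toPerm_apply, smul_mem_overOne h hφ]
      refine and_congr_right fun hx => ?_
      rw [(hstep x hx).2, add_comm i, add_left_cancel_iff]
    · exact (hstep x (Finset.mem_filter.mp hx).1).1.symm
  have hall : ∀ i, s i = s 0 := fun i => by
    have hk : ∀ k : ℕ, s ((k : ZMod p) * α φ) = s 0 := fun k => by
      induction k with
      | zero => simp
      | succ k ih => rw [Nat.cast_succ, add_mul, one_mul, hshift, ih]
    have := hk (i * (α φ)⁻¹).val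
    rwa [ZMod.natCast_zmod_val, mul_assoc, inv_mul_cancel₀ hc, mul_one] at this
  show ∑ x ∈ overOne h, F x = 0
  rw [← Finset.sum_fiberwise (overOne h) lam F]
  show ∑ i, s i = 0
  rw [Finset.sum_congr rfl fun i _ => hall i, Finset.sum_const, Finset.card_univ, ZMod.card,
    nsmul_eq_mul, ZMod.natCast_self, zero_mul]

end Push

/-- An order of finite support at every embedding. -/
lemma finite_hasOrd_ne_zero {M : IntermediateField ℚ Qbar} [FiniteDimensional ℚ M]
    (hKM : K ≤ M) (hM : M.IsUnramifiedOutside S) {β : GM} (hβ : β ∈ starK M) :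
    ∃ s : Finset (PK K), ∀ P, qP P ∉ S → P ∉ s → HasOrd (qOf P) (gOf P) β 0 := by
  refine ⟨(finite_ordP_ne_zero (val_mem_of_mem_starK M hβ) β.val_ne_zero).toFinset.image
    fun Q => primeAt K (qOf Q) (gOf Q), fun P hPS hPs => ?_⟩
  have h1 := hasOrd_ordP hM hPS (gOf P) hβ
  by_contra h0
  refine hPs (Finset.mem_image.mpr ⟨primeAt M (qOf P) (gOf P), (Set.Finite.mem_toFinset _).mpr
    fun hz => h0 (by rwa [hz] at h1), ?_⟩)
  set Q := primeAt M (qOf P) (gOf P)
  have hQ : IsPoint Q (qOf P) (gOf P) := isPoint_primeAt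
  have e : qOf Q = qOf P := hQ.prime_eq (isPoint_gOf Q)
  obtain ⟨d, w, hw, hg⟩ := hQ.exists_mul (isPoint_of_eq e)
  rw [primeAt_congr e, hg]
  exact (isPoint_mul (isPoint_gOf P) d (fixingSubgroup_antitone hKM hw)).eq_primeAt.symm

omit [FiniteDimensional ℚ K] in
/-- Corestriction pushes obstructions down. -/
theorem isObs_pushDiv {K : IntermediateField ℚ Qbar} [FiniteDimensional ℚ K]
    {K' : IntermediateField ℚ Qbar} [FiniteDimensional ℚ K'] [K'.fixingSubgroup.FiniteIndex]
    (hle : K'.fixingSubgroup ≤ K.fixingSubgroup) {f : GQ → GQ → Mu (chiQ p)} {D' : PK K' → ZMod p}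
    (hf : IsObs S K' f D') :
    IsObs S K (fun a b => ∑ x ∈ overOne hle, indFun2 K'.fixingSubgroup f a b x)
      (fun P => pushDiv hle D' (qOf P) (gOf P)) := by
  obtain ⟨M, β, c, hM, hKM, hβ, hcM, hcs, hfc, hpc, hord⟩ := hf
  obtain ⟨M', hM', hM'le, hM'n⟩ := exists_normal_field (fixingSubgroup_mem_LS hM)
  have := hM'.1
  have := hM'n
  set W' := K'.fixingSubgroup
  have hM'K : M'.fixingSubgroup ≤ W' := hM'le.trans (fixingSubgroup_antitone hKM)
  have hfix : ∀ (g : GQ) {z : GM}, z ∈ starK M → g • z ∈ starK M' := fun g z hz s hs => by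
    have h1 : g⁻¹ * s * g ∈ M'.fixingSubgroup := by
      simpa using hM'n.conj_mem s hs g⁻¹
    rw [← mul_smul, show s * g = g * (g⁻¹ * s * g) by group, mul_smul, hz _ (hM'le h1)]
  -- the pushed obstruction
  set β'' := ∑ x ∈ overOne hle, sec W' x • β
  set c'' : GQ → GM := fun a => ∑ x ∈ overOne hle, indFun1 W' c a x
  set G : GQ → GQ → Mu (chiQ p) := fun a b => ∑ x ∈ overOne hle, indFun2 W' f a b x
  set D : PK K → ZMod p := fun P => pushDiv hle D' (qOf P) (gOf P)
  have hord' : ∀ q : Nat.Primes, q ∉ S → ∀ g : GQ,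
      ∃ n : ℤ, HasOrd (q : ℕ) g β'' n ∧ (n : ZMod p) = D (primeAt K (q : ℕ) g) := fun q hq g => by
    have : Fact (q : ℕ).Prime := ⟨q.2⟩
    choose n hn hnD using fun x : GQ ⧸ W' => hord q hq (g * sec W' x)
    refine ⟨∑ x ∈ overOne hle, n x, ?_, ?_⟩
    · have : ∀ t : Finset (GQ ⧸ W'),
          HasOrd (q : ℕ) g (∑ x ∈ t, sec W' x • β) (∑ x ∈ t, n x) := fun t => by
        induction t using Finset.induction with
        | empty => simpa using hasOrd_zero
        | insert x t hx ih =>
          rw [Finset.sum_insert hx, Finset.sum_insert hx]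
          exact ((hasOrd_smul_iff _).mpr (hn x)).add ih
      exact this _
    · rw [Int.cast_sum, Finset.sum_congr rfl fun x _ => hnD x]
      exact pushDiv_isPoint hle D' isPoint_primeAt
  have hobs : IsObs S K G D := by
    refine ⟨M', β'', c'', hM', le_of_fixingSubgroup_le (hM'K.trans hle),
      sum_mem fun x _ => hfix _ hβ,
      fun a _ => sum_mem fun x _ => hfix _ (hcM _ (secCocycle_mem _ _ _)),
      fun a _ s hs => Finset.sum_congr rfl fun x _ => ?_, fun a ha b hb => ?_,
      fun a ha => ?_, hord'⟩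
    · obtain ⟨s', hs', e⟩ := exists_secCocycle_mul W' hM'n hM'K hs a x
      show sec W' x • c _ = sec W' x • c _
      rw [e, hcs _ (secCocycle_mem _ _ _) s' (hM'le hs')]
    · show muG p (∑ x ∈ overOne hle, _) = _
      have hd1 : d1 c'' a b = ∑ x ∈ overOne hle, d1 (indFun1 W' c) a b x := by
        simp only [d1, c'', Ind.add_apply, Ind.sub_apply, Ind.smul_apply, Finset.sum_add_distrib,
          Finset.sum_sub_distrib, Finset.smul_sum]
        congr 2
        exact (Finset.sum_equiv (MulAction.toPerm a) (fun x => (smul_mem_overOne hle ha).symm)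
          fun x _ => by rw [MulAction.toPerm_apply, inv_smul_smul])
      rw [hd1, map_sum]
      refine Finset.sum_congr rfl fun x _ => ?_
      rw [← indFun2_d1]
      show muG p (sec W' x • f _ _) = sec W' x • d1 c _ _
      rw [muG_smul, ← hfc _ (secCocycle_mem _ _ _) _ (secCocycle_mem _ _ _)]
    · show p • ∑ x ∈ overOne hle, _ = a • β'' - β''
      have hre : a • β'' = ∑ x ∈ overOne hle, a • sec W' (a⁻¹ • x) • β := by
        rw [show β'' = ∑ x ∈ overOne hle, sec W' x • β from rfl, Finset.smul_sum]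
        exact (Finset.sum_equiv (MulAction.toPerm a⁻¹)
          (fun x => (smul_mem_overOne hle (inv_mem ha)).symm) fun x _ => rfl).symm
      rw [hre, Finset.smul_sum, ← Finset.sum_sub_distrib]
      refine Finset.sum_congr rfl fun x _ => ?_
      show p • (sec W' x • c _) = _
      rw [← smul_nsmul', hpc _ (secCocycle_mem _ _ _), d0, smul_sub, ← mul_smul,
        ← mul_smul, mul_sec]
  exact hobs

/-- Locally trivial classes die after projection from a deep enough level. -/
theorem exists_kill_level (hpS : ExtCitation.pPrime p ∈ S) (hp2 : p ≠ 2) (U : Subgroup GQ)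
    [U.FiniteIndex] (hU : U ∈ LS S) (hUχ : U ≤ (chiQ p).ker) :
    ∃ (U' : Subgroup GQ) (_ : U'.FiniteIndex) (h : U' ≤ U), U'.Normal ∧ U' ∈ LS S ∧
      ∀ F ∈ (LS S).Z2 ⊤ (Ind U' (Mu (chiQ p))),
        (∀ q : S, pullR ((q : Nat.Primes) : ℕ) F ∈ (LL ((q : Nat.Primes) : ℕ)).B2 ⊤
          (Res (localGaloisToGlobal ((q : Nat.Primes) : ℕ)) (Ind U' (Mu (chiQ p))))) →
        (fun g k => Ind.fibreSum h (F g k)) ∈ (LS S).B2 ⊤ (Ind U (Mu (chiQ p))) := by
  have : NeZero p := ⟨hp.out.ne_zero⟩
  obtain ⟨K, hK, rfl⟩ : ∃ K : IntermediateField ℚ Qbar, K.IsUnramifiedOutside S ∧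
      K.fixingSubgroup = U :=
    ⟨fixedField U, isUnramifiedOutside_of_mem hU, fixingSubgroup_fixedField_of_mem (LS_le hU)⟩
  have := hK.1
  have hcK : cycK p ≤ K := le_of_fixingSubgroup_le (by rw [fixingSubgroup_cycK]; exact hUχ)
  have hζK : zet p ∈ K := hcK (zet_mem_cycK p)
  have := isTotallyComplex_cycK p hp2
  have : NumberField.IsTotallyComplex K := isTotallyComplex_of_le hcK
  obtain ⟨U', hU', hU'n, hle, hV⟩ := exists_split_level hpS hK hζK
  obtain ⟨K', hK', rfl⟩ : ∃ K' : IntermediateField ℚ Qbar, K'.IsUnramifiedOutside S ∧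
      K'.fixingSubgroup = U' :=
    ⟨fixedField U', isUnramifiedOutside_of_mem hU', fixingSubgroup_fixedField_of_mem (LS_le hU')⟩
  have := hK'.1
  have := (LS S).finiteIndex hU'
  have hcK' : cycK p ≤ K' := hcK.trans (le_of_fixingSubgroup_le hle)
  have hζK' : zet p ∈ K' := hcK' (zet_mem_cycK p)
  have : NumberField.IsTotallyComplex K' := isTotallyComplex_of_le hcK'
  refine ⟨K'.fixingSubgroup, inferInstance, hle, hU'n, hU', fun F hF hloc => ?_⟩
  set f : GQ → GQ → Mu (chiQ p) := fun u v => F u v ((1 : GQ) : GQ ⧸ K'.fixingSubgroup)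
  have hf : f ∈ (LS S).Z2 K'.fixingSubgroup (Mu (chiQ p)) := eval_mem_Z2 hF
  have hsm : (LS S).Smooth (Mu (chiQ p)) := fun a => ⟨(chiQ p).ker, ker_chiQ_mem_LS p hpS,
    fun g hg => Mu.ext _ (by rw [Mu.val_smul, MonoidHom.mem_ker.mp hg, Units.val_one, one_mul])⟩
  -- the class is invisible in the multiplicative group
  have hB : muClass f ∈ LQ.B2 K'.fixingSubgroup GM := by
    refine mem_B2_of_locTriv_prime (p := p) (muClass_mem_Z2 (fun W => LS_le) hf)
      (Levels.B2_congr (zero_mem _) fun a _ b _ => nsmul_muG _) fun q _ g => ?_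
    by_cases hq : (⟨q, Fact.out⟩ : Nat.Primes) ∈ S
    · exact pullAt_mem_B2_of_pullR (Levels.Z2_le (fun W => LS_le) hF) (hloc ⟨_, hq⟩) g
    · exact pullAt_muClass_mem_B2 hpS hK' hf hq g
  obtain ⟨D', hD'⟩ := exists_isObs hpS hK' hζK' hf hB
  set W' := K'.fixingSubgroup
  set G : GQ → GQ → Mu (chiQ p) := fun a b => ∑ x ∈ overOne hle, indFun2 W' f a b x
  set D : PK K → ZMod p := fun P => pushDiv hle D' (qOf P) (gOf P)
  have hobs : IsObs S K G D := isObs_pushDiv hle hD'
  obtain ⟨M, β'', c'', hM', hKM', hβ'', -, -, -, -, hord'⟩ := id hobs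
  have := hM'.1
  obtain ⟨t, ht⟩ := finite_hasOrd_ne_zero (K := K) hKM' hM' hβ''
  obtain ⟨a, ha, haD⟩ := exists_ord_of_orthogonal hζK hpS (D := D) (t.filter fun P => qP P ∉ S)
    (fun P hP => (Finset.mem_filter.mp hP).2)
    (fun P hPS hD0 => Finset.mem_filter.mpr ⟨by
      by_contra hPt
      obtain ⟨n, hn, hnD⟩ := hord' (qP P) hPS (gOf P)
      rw [hn.unique (ht P hPS hPt), Int.cast_zero] at hnD
      exact hD0 (by rw [(isPoint_gOf P).eq_primeAt]; exact hnD.symm), hPS⟩)
    fun α hα => Finset.sum_eq_zero fun P _ => by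
      by_cases hc : α (locHom (qOf P) (gOf P) (frob (locK P) p)) = 0
      · rw [hc, mul_zero]
      · rw [show D P = 0 from pushDiv_eq_zero hle D' α (hV α hα) hc, zero_mul]
  have hGB := mem_B2_of_isObs hpS hK hobs ha fun q hq g => by
    have : Fact (q : ℕ).Prime := ⟨q.2⟩
    refine (haD _ ?_).symm
    rwa [show qP (primeAt K (q : ℕ) g) = q from
      Subtype.ext ((isPoint_primeAt (K := K)).prime_eq (isPoint_gOf _))]
  -- back to the induced module
  have hfib : ∀ φ g, Ind.fibreSum hle (g • φ) = g • Ind.fibreSum (M := Mu (chiQ p)) hle φ :=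
    fun φ g => Ind.fibreSum_smul hle g φ
  have h1 := Levels.map_mem_B2 (Ind.fibreSum (M := Mu (chiQ p)) hle) (fun g _ φ => hfib φ g)
    (sub_indFun2_mem_B2 hU' (smooth_ind hU' hsm) hF)
  have h2 : (fun g k => Ind.fibreSum hle (indFun2 W' f g k)) ∈
      (LS S).B2 ⊤ (Ind K.fixingSubgroup (Mu (chiQ p))) :=
    mem_B2_of_eval_mem_B2 hU (smooth_ind hU hsm)
      (Levels.map_mem_Z2 _ (fun g _ φ => hfib φ g) (indFun2_mem_Z2 hU' hf)) hGB
  refine Levels.B2_congr (add_mem h1 h2) fun g _ k _ => ?_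
  rw [Pi.add_apply, Pi.add_apply, ← map_add]
  exact congrArg _ (sub_add_cancel _ _).symm

end FermatAgent.CFT.Global
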