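import Fermat.Agent.CFT.Global.Primes
import Fermat.Agent.CFT.Coh.PIndex

/-!
The index of `p`-th powers in the groups of `T`-units.
-/

set_option autoImplicit false
set_option maxSynthPendingDepth 3

noncomputable section

open scoped Classical NumberField
open IsDedekindDomain

namespace FermatAgent.CFT.Global

open Coh Local GaloisBasic AddSubgroup

/-- The module of nonzero elements of `ℚ̄`. -/
abbrev GM : Type := Ux Qbar

variable (K : IntermediateField ℚ Qbar)

/-- The multiplicative group of a number field. -/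
abbrev starK : AddSubgroup GM := fixedUx K.fixingSubgroup

/-- Units of the field have values in the field. -/
lemma val_mem_of_mem_starK {a : GM} (ha : a ∈ starK K) : a.val ∈ K :=
  mem_fixedUx_fixingSubgroup.mp ha

/-- Elements with values in the field belong to it. -/
lemma mem_starK_of_mem {a : GM} (ha : a.val ∈ K) : a ∈ starK K :=
  mem_fixedUx_fixingSubgroup.mpr ha

variable [FiniteDimensional ℚ K]

lemma ordP_add {a b : GM} (ha : a ∈ starK K) (hb : b ∈ starK K) (P : PK K) :
    ordP P (a + b).val = ordP P a.val + ordP P b.val := by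
  rw [Ux.val_add, ordP_mul P (val_mem_of_mem_starK K ha) (val_mem_of_mem_starK K hb) a.val_ne_zero
    b.val_ne_zero]

/-- All valuations at once. -/
def ordHom : ↥(starK K) →+ (PK K → ℤ) :=
  AddMonoidHom.mk' (fun a P => ordP P a.1.val) fun a b => funext fun P => ordP_add K a.2 b.2 P

/-- The order map. -/
lemma ordHom_apply (a : ↥(starK K)) (P : PK K) : ordHom K a P = ordP P a.1.val := rfl

/-- The `T`-units. -/
def tUnits (T : Set (PK K)) : AddSubgroup GM :=
  (⨅ P ∈ Tᶜ, ((Pi.evalAddMonoidHom (fun _ : PK K => ℤ) P).comp (ordHom K)).ker).map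
    (starK K).subtype

variable {K} in
/-- Membership in the `T`-units. -/
lemma mem_tUnits {T : Set (PK K)} {a : GM} :
    a ∈ tUnits K T ↔ a ∈ starK K ∧ ∀ P ∉ T, ordP P a.val = 0 := by
  simp only [tUnits, AddSubgroup.mem_map, AddSubgroup.mem_iInf, AddMonoidHom.mem_ker,
    AddMonoidHom.comp_apply, Pi.evalAddMonoidHom_apply, ordHom_apply, Set.mem_compl_iff]
  constructor
  · rintro ⟨⟨x, hx⟩, h, rfl⟩; exact ⟨hx, h⟩
  · rintro ⟨hx, h⟩; exact ⟨⟨a, hx⟩, h, rfl⟩

/-- The `T`-units lie in the field. -/
lemma tUnits_le (T : Set (PK K)) : tUnits K T ≤ starK K := fun _ h => (mem_tUnits.mp h).1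

/-- The units of the ring of integers inside the module. -/
def unitEmb : Additive (𝓞 K)ˣ →+ GM where
  toFun u := Ux.ofUnit (Units.map ((algebraMap K Qbar).comp (algebraMap (𝓞 K) K)).toMonoidHom
    (Additive.toMul u))
  map_zero' := congrArg Ux.ofUnit (map_one _)
  map_add' _ _ := congrArg Ux.ofUnit (map_mul _ _ _)

omit [FiniteDimensional ℚ ↥K] in
lemma val_unitEmb (u : Additive (𝓞 K)ˣ) :
    (unitEmb K u).val = (((Additive.toMul u : (𝓞 K)ˣ) : 𝓞 K) : K) := rfl

omit [FiniteDimensional ℚ ↥K] in
/-- The embedding of the units is injective. -/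
lemma unitEmb_injective : Function.Injective (unitEmb K) := fun u v h => by
  have h1 := congrArg Ux.val h
  rw [val_unitEmb, val_unitEmb] at h1
  exact Additive.toMul.injective
    (Units.ext (NumberField.RingOfIntegers.coe_injective (Subtype.ext h1)))

/-- The image of the units is the units at the empty set. -/
lemma range_unitEmb : (unitEmb K).range = tUnits K ∅ := by
  ext a
  constructor
  · rintro ⟨u, rfl⟩
    refine mem_tUnits.mpr ⟨mem_starK_of_mem K ?_, fun P _ => ordP_unit P _⟩
    rw [val_unitEmb]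
    exact SetLike.coe_mem _
  · intro h
    rw [mem_tUnits] at h
    obtain ⟨u, hu⟩ := exists_unit_eq (val_mem_of_mem_starK K h.1) a.val_ne_zero fun P => h.2 P id
    exact ⟨Additive.ofMul u, Ux.ext (by rw [val_unitEmb, toMul_ofMul, hu])⟩

variable (p : ℕ) [hp : Fact p.Prime]

/-- The index of `p`-th powers in the units. -/
lemma pIndex_units : pIndex p (⊤ : AddSubgroup (Additive (𝓞 K)ˣ)) =
    p ^ NumberField.Units.rank K * pTors p (⊤ : AddSubgroup (Additive (𝓞 K)ˣ)) := by
  set π : Additive (𝓞 K)ˣ →+ (Fin (NumberField.Units.rank K) → ℤ) :=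
    ((NumberField.Units.basisModTorsion K).equivFun.toLinearMap.toAddMonoidHom).comp
      (MonoidHom.toAdditive (QuotientGroup.mk' (NumberField.Units.torsion K)))
  have hker : ∀ u, π u = 0 → Additive.toMul u ∈ NumberField.Units.torsion K := fun u hu => by
    have := (NumberField.Units.basisModTorsion K).equivFun.map_eq_zero_iff.mp hu
    exact (QuotientGroup.eq_one_iff _).mp this
  have hfin : Finite ↥((⊤ : AddSubgroup (Additive (𝓞 K)ˣ)) ⊓ π.ker) := by
    let e : ↥((⊤ : AddSubgroup (Additive (𝓞 K)ˣ)) ⊓ π.ker) → NumberField.Units.torsion K :=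
      fun u => ⟨Additive.toMul u.1, hker _ u.2.2⟩
    refine Finite.of_injective e fun u v huv => ?_
    have h1 : Additive.toMul u.1 = Additive.toMul v.1 :=
      congrArg (fun t : NumberField.Units.torsion K => (t : (𝓞 K)ˣ)) huv
    exact Subtype.ext (Additive.toMul.injective h1)
  have h := pIndex_mul p π (⊤ : AddSubgroup (Additive (𝓞 K)ˣ))
  have hsurj : (⊤ : AddSubgroup (Additive (𝓞 K)ˣ)).map π = ⊤ := by
    rw [← AddMonoidHom.range_eq_map, AddMonoidHom.range_eq_top]
    exact (NumberField.Units.basisModTorsion K).equivFun.surjective.comp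
      (QuotientGroup.mk'_surjective (NumberField.Units.torsion K))
  have := hfin
  rw [hsurj, pTors_pi, pIndex_pi_top, pTors_of_finite p ((⊤ : AddSubgroup _) ⊓ π.ker), mul_one,
    Fintype.card_fin, mul_assoc] at h
  refine Nat.eq_of_mul_eq_mul_left ?_ h
  have : Finite ↥((⊤ : AddSubgroup (Additive (𝓞 K)ˣ)) ⊓ π.ker ⊓
      (nsmulAddMonoidHom p : Additive (𝓞 K)ˣ →+ _).ker) :=
    Finite.of_injective _ (AddSubgroup.inclusion_injective inf_le_left)
  exact Nat.card_pos

/-- The index of `p`-th powers in the `T`-units. -/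
theorem pIndex_tUnits (T : Finset (PK K)) :
    pIndex p (tUnits K T) = p ^ (NumberField.Units.rank K + T.card) * pTors p (tUnits K T) := by
  set A := ↥(starK K)
  set X : AddSubgroup A := (tUnits K T).comap (starK K).subtype
  set π : A →+ (T → ℤ) := AddMonoidHom.pi fun P : T =>
    (Pi.evalAddMonoidHom (fun _ : PK K => ℤ) P.1).comp (ordHom K)
  have hinj : Function.Injective (starK K).subtype := Subtype.val_injective
  have hmap : ∀ S : Set (PK K), ((tUnits K S).comap (starK K).subtype).map (starK K).subtype =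
      tUnits K S := fun S => map_comap_eq_self (by
    rw [AddSubgroup.range_subtype]; exact tUnits_le K S)
  have hker : X ⊓ π.ker = (tUnits K ∅).comap (starK K).subtype := by
    ext a
    simp only [X, AddSubgroup.mem_inf, AddSubgroup.mem_comap, mem_tUnits, AddMonoidHom.mem_ker,
      funext_iff, Set.mem_empty_iff_false, not_false_eq_true, forall_true_left]
    constructor
    · rintro ⟨⟨ha, h1⟩, h2⟩
      refine ⟨ha, fun P => ?_⟩
      by_cases hP : P ∈ T
      · exact h2 ⟨P, hP⟩
      · exact h1 P (by exact_mod_cast hP)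
    · rintro ⟨ha, h⟩
      exact ⟨⟨ha, fun P _ => h P⟩, fun P => h P.1⟩
  have hidx : (X.map π).index ≠ 0 := by
    choose c hc hc0 hpos hne using fun P : T => exists_pos_ordP P.1
    refine fun h0 => ?_
    set Z : AddSubgroup (T → ℤ) := AddSubgroup.pi Set.univ fun P : T => zmultiples (ordP P.1 (c P))
    have hZ : Z ≤ X.map π := by
      intro f hf
      choose k hk using fun P => mem_zmultiples_iff.mp (hf P trivial)
      refine ⟨∑ P, k P • ⟨Ux.mk (c P) (hc0 P),
          mem_starK_of_mem K (a := Ux.mk (c P) (hc0 P)) (hc P)⟩, sum_mem fun P _ =>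
        zsmul_mem (mem_tUnits.mpr ⟨mem_starK_of_mem K (a := Ux.mk (c P) (hc0 P)) (hc P),
          fun P' hP' => ?_⟩) _, ?_⟩
      · exact hne P P' fun he => hP' (by rw [he]; exact_mod_cast P.2)
      · funext Q
        rw [map_sum, Finset.sum_apply, Finset.sum_eq_single Q]
        · rw [map_zsmul, Pi.smul_apply, ← hk Q]
          rfl
        · intro P _ hPQ
          rw [map_zsmul, Pi.smul_apply]
          show k P • ordP Q.1 (c P) = 0
          rw [hne P Q.1 fun he => hPQ (Subtype.ext he).symm, smul_zero]
        · simp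
    have hz : Z.index ≠ 0 := by
      rw [index_pi, Finset.prod_ne_zero_iff]
      intro P _
      rw [Int.index_zmultiples]
      exact Int.natAbs_ne_zero.mpr (hpos P).ne'
    exact hz (Nat.eq_zero_of_zero_dvd (h0 ▸ index_dvd_of_le hZ))
  have h := pIndex_mul p π X
  rw [hker, pTors_pi, pIndex_of_finiteIndex_pi p hidx, mul_one, Fintype.card_coe] at h
  have e0 : pIndex p ((tUnits K ∅).comap (starK K).subtype) =
      p ^ NumberField.Units.rank K * pTors p ((tUnits K ∅).comap (starK K).subtype) := by
    rw [← pIndex_map p hinj, ← pTors_map p hinj, hmap, ← range_unitEmb, AddMonoidHom.range_eq_map,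
      pIndex_map p (unitEmb_injective K), pTors_map p (unitEmb_injective K), pIndex_units]
  rw [e0] at h
  rw [← hmap T, pIndex_map p hinj, pTors_map p hinj, pow_add]
  refine Nat.eq_of_mul_eq_mul_left ?_ (h.trans ?_)
  · rw [← pTors_map p hinj, hmap]
    have : Finite ↥(tUnits K ∅ ⊓ (nsmulAddMonoidHom p : GM →+ GM).ker) := finite_pTorsion _
    exact Nat.card_pos
  · ring

end FermatAgent.CFT.Global
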