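import Fermat.Agent.CFT.Global.Reciprocity
import Fermat.Agent.CFT.Local.CharDuality

/-!
The local components of a character of the absolute Galois group of a number field, and their
product formula.
-/

set_option autoImplicit false

noncomputable section

open scoped Classical

namespace FermatAgent.CFT

namespace Local

variable {q : ℕ} [hq : Fact q.Prime] {F : IntermediateField ℚ_[q] (PadicAlgCl q)} {n : ℕ} [NeZero n]

/-- Away from the exponent, elements congruent to one are powers. -/
lemma exists_root_of_near (hn : ¬ q ∣ n) {e : PadicAlgCl q} (he : e ∈ F) (h : ‖e - 1‖ < 1) :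
    ∃ w ∈ F, w ^ n = e := by
  refine exists_root_of_dist one_pos le_rfl (fun z hz hz1 => not_lt.mp fun hlt => hz1 ?_) he
    (by rwa [one_pow])
  have hzn := norm_eq_one_of_pow_eq_one (NeZero.ne n) hz
  exact eq_of_res_eq hn hz (one_pow n) ((res_eq_res_iff hzn.le norm_one.le).mpr hlt)

variable (n) in
/-- Elements close enough to one are powers. -/
lemma exists_root_radius :
    ∃ ε > (0 : ℝ), ε ≤ 1 ∧ ∀ e ∈ F, ‖e - 1‖ < ε → ∃ w ∈ F, w ^ n = e := by
  set R := (Polynomial.nthRootsFinset n (1 : PadicAlgCl q)).erase 1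
  obtain ⟨D, hD0, hD1, hD⟩ : ∃ D : ℝ, 0 < D ∧ D ≤ 1 ∧ ∀ z ∈ R, D ≤ ‖z - 1‖ := by
    rcases R.eq_empty_or_nonempty with h | h
    · exact ⟨1, one_pos, le_rfl, fun z hz => by rw [h] at hz; simp at hz⟩
    · obtain ⟨z₀, hz₀, hmin⟩ := R.exists_min_image (fun z => ‖z - 1‖) h
      exact ⟨min ‖z₀ - 1‖ 1,
        lt_min (norm_pos_iff.mpr (sub_ne_zero.mpr (Finset.ne_of_mem_erase hz₀)))
        one_pos, min_le_right _ _, fun z hz => (min_le_left _ _).trans (hmin z hz)⟩
  refine ⟨D ^ n, pow_pos hD0 n, pow_le_one₀ hD0.le hD1, fun e he h =>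
    exists_root_of_dist hD0 hD1 (fun z hz hz1 => hD z (Finset.mem_erase.mpr ⟨hz1, ?_⟩)) he h⟩
  exact (Polynomial.mem_nthRootsFinset (Nat.pos_of_ne_zero (NeZero.ne n)) 1).mpr hz

end Local

namespace Global

open Coh Local GaloisBasic

variable {K : IntermediateField ℚ Qbar} {n : ℕ}

variable [FiniteDimensional ℚ K]

variable [NeZero n] (χ : CycChar LQ K.fixingSubgroup n)

/-- The local component of a character at a prime. -/
def invCh (P : PK K) (h : GM) : QZ := invAt (cyc χ h) P

omit [NeZero n] in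
/-- The local component as an invariant of the localised cyclic cocycle. -/
lemma invCh_eq (P : PK K) (h : GM) :
    invCh χ P h = inv (locK P) (cyc (charAt χ (qOf P) (gOf P)) (embUx (qOf P) (gOf P) h)) :=
  congrArg (inv (locK P)) (funext fun _ => funext fun _ => map_zsmul _ _ _)

/-- The local component is additive. -/
lemma invCh_add (P : PK K) {a b : GM} (ha : a ∈ starK K) (hb : b ∈ starK K) :
    invCh χ P (a + b) = invCh χ P a + invCh χ P b := by
  rw [invCh, cyc_add]
  exact invAt_add (cyc_mem_Z2 χ ha) (cyc_mem_Z2 χ hb) P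

omit [NeZero n] in
/-- The local component of zero is zero. -/
@[simp] lemma invCh_zero (P : PK K) : invCh χ P 0 = 0 := by
  rw [invCh_eq, map_zero, cyc_zero, (inv_eq_zero_iff _ (zero_mem _)).mpr (zero_mem _)]

/-- Only finitely many components see a given element. -/
lemma finite_invCh_support {h : GM} (hh : h ∈ starK K) :
    (Function.support fun P : PK K => invCh χ P h).Finite :=
  finite_invAt_support (cyc_mem_Z2 χ hh)

/-- The product formula. -/
theorem sum_invCh [NumberField.IsTotallyComplex K] {h : GM} (hh : h ∈ starK K) :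
    ∑ᶠ P : PK K, invCh χ P h = 0 :=
  sum_invAt_eq_zero (cyc_mem_Z2 χ hh)

/-- A character is unramified at a prime, with the given value at Frobenius. -/
def IsUnramWith (P : PK K) (c : ZMod n) : Prop :=
  ∀ d ∈ (locK P).fixingSubgroup, χ (locHom (qOf P) (gOf P) d) = c * frobExp (locK P) n d

/-- The component at an unramified prime. -/
theorem invCh_of_unram {P : PK K} {c : ZMod n} (hc : IsUnramWith χ P c) {h : GM}
    (hh : h ∈ starK K) :
    invCh χ P h = qz (c.val * ordP P h.val) n := by
  rw [invCh_eq, inv_cyc_of_unram (locK P) (charAt χ (qOf P) (gOf P)) c.val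
    (fun d hd => by rw [Int.cast_natCast, ZMod.natCast_zmod_val]; exact hc d hd)
    (embUx_mem_starF hh),
    ordUx, val_embUx, (isPoint_gOf P).ord_eq (val_mem_of_mem_starK K hh) h.val_ne_zero]

/-- A Frobenius element at an unramified prime gives the value. -/
lemma IsUnramWith.eq_of_frob {P : PK K} {c : ZMod n} (hc : IsUnramWith χ P c) :
    χ (locHom (qOf P) (gOf P) (frob (locK P) n)) = c := by
  rw [hc _ (frob_mem _ _), frobExp_frob, mul_one]

/-- The component at a prime is trivial on units congruent to one, away from the order. -/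
theorem invCh_of_principal {P : PK K} (hn : ¬ qOf P ∣ n) {h : GM} (hh : h ∈ starK K)
    (hlt : ‖emb (qOf P) (gOf P) h.val - 1‖ < 1) : invCh χ P h = 0 := by
  set F := locK P
  set e := emb (qOf P) (gOf P) h.val
  have he : e ∈ F := emb_mem_locField (val_mem_of_mem_starK K hh)
  have he1 : ‖e‖ = 1 := by
    have := IsUltrametricDist.norm_add_eq_max_of_norm_ne_norm (x := e - 1) (y := 1)
      (by rw [norm_one]; exact hlt.ne)
    rwa [sub_add_cancel, norm_one, max_eq_right hlt.le] at this
  obtain ⟨w, hw, hwn⟩ := exists_root_of_near (F := F) hn he hlt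
  have hw0 : w ≠ 0 := fun h0 => by
    rw [h0, zero_pow (NeZero.ne n)] at hwn
    rw [← hwn, norm_zero] at he1
    exact zero_ne_one he1
  rw [invCh_eq, show embUx (qOf P) (gOf P) h = n • Ux.mk w hw0 from Ux.ext (by
    rw [Ux.val_nsmul, Ux.val_mk, hwn]; rfl)]
  exact inv_cyc_nsmul _ _ (mem_fixedUx_fixingSubgroup.mpr hw)

/-- Local units are seen by global elements. -/
lemma exists_near_class (P : PK K) {u : MM (qOf P)} (hu : u ∈ starF (locK P)) (hu1 : ‖u.val‖ = 1) :
    ∃ a, (a ∈ starK K ∧ ordP P a.val = 0) ∧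
      invCh χ P a = inv (locK P) (cyc (charAt χ (qOf P) (gOf P)) u) := by
  obtain ⟨ε, hε, hε1, hroot⟩ := exists_root_radius (F := locK P) n
  obtain ⟨x, hx, hxu⟩ := exists_emb_near (mem_fixedUx_fixingSubgroup.mp hu) hε
  set e := emb (qOf P) (gOf P) x
  have he1 : ‖e‖ = 1 := by
    have := IsUltrametricDist.norm_add_eq_max_of_norm_ne_norm (x := e - u.val) (y := u.val)
      (by rw [hu1, norm_sub_rev]; exact (hxu.trans_le hε1).ne)
    rwa [sub_add_cancel, hu1, norm_sub_rev, max_eq_right (hxu.le.trans hε1)] at this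
  have hx0 : x ≠ 0 := fun h0 => by simp [e, h0] at he1
  set a : GM := Ux.mk x hx0
  have ha : a ∈ starK K := mem_starK_of_mem K hx
  have he : e ∈ locK P := emb_mem_locField hx
  obtain ⟨w, hw, hwn⟩ := hroot (u.val / e) (div_mem (mem_fixedUx_fixingSubgroup.mp hu) he) (by
    rw [div_sub_one ((_root_.map_ne_zero _).mpr hx0), norm_div, he1, div_one]; exact hxu)
  have hw0 : w ≠ 0 := fun h0 => by
    rw [h0, zero_pow (NeZero.ne n), eq_comm, div_eq_zero_iff] at hwn
    exact hwn.elim u.val_ne_zero ((_root_.map_ne_zero _).mpr hx0)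
  refine ⟨a, ⟨ha, ?_⟩, ?_⟩
  · show ordP P x = 0
    rw [← (isPoint_gOf P).norm_eq_one_iff hx hx0]; exact he1
  have hwF : Ux.mk w hw0 ∈ starF (locK P) := mem_fixedUx_fixingSubgroup.mpr hw
  rw [invCh_eq, show u = embUx (qOf P) (gOf P) a + n • Ux.mk w hw0 from Ux.ext (by
      rw [Ux.val_add, Ux.val_nsmul, Ux.val_mk, val_embUx, hwn, Ux.val_mk,
        mul_div_cancel₀ _ ((_root_.map_ne_zero _).mpr hx0)]),
    inv_cyc_add _ _ (embUx_mem_starF ha) (nsmul_mem hwF n), inv_cyc_nsmul _ _ hwF, add_zero]

section Ram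

variable {p : ℕ} [hp : Fact p.Prime]

/-- At a ramified prime the component is nontrivial on units. -/
theorem exists_invCh_ne_zero_of_ram {k : ℕ} [NeZero (p ^ k)]
    (χ : CycChar LQ K.fixingSubgroup (p ^ k)) {P : PK K} (hram : ∀ c, ¬ IsUnramWith χ P c) :
    ∃ u ∈ starK K, ordP P u.val = 0 ∧ invCh χ P u ≠ 0 := by
  by_contra hno
  push Not at hno
  obtain ⟨c, hc⟩ := exists_unram_of_units (charAt χ (qOf P) (gOf P)) fun u hu hu1 => by
    obtain ⟨a, ha, hnear⟩ := exists_near_class χ P hu hu1
    rw [← hnear]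
    exact hno a ha.1 ha.2
  exact hram c hc

end Ram

/-- The inclusion of `ℚ/ℤ` into `ℝ/ℤ`. -/
def qzReal : QZ →+ AddCircle (1 : ℝ) :=
  QuotientAddGroup.map _ _ (Rat.castHom ℝ).toAddMonoidHom (by
    rw [AddSubgroup.zmultiples_le]
    show ((1 : ℚ) : ℝ) ∈ AddSubgroup.zmultiples (1 : ℝ)
    rw [Rat.cast_one]
    exact AddSubgroup.mem_zmultiples _)

/-- The component as a complex number. -/
def circCh (P : PK K) (h : GM) : ℂ := (AddCircle.toCircle (qzReal (invCh χ P h)) : Circle)

omit [NeZero n] in
lemma circCh_zero (P : PK K) : circCh χ P 0 = 1 := by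
  show ((AddCircle.toCircle (qzReal (invCh χ P 0)) : Circle) : ℂ) = 1
  rw [invCh_zero, map_zero, AddCircle.toCircle_zero]
  exact Circle.coe_one

lemma circCh_add (P : PK K) {a b : GM} (ha : a ∈ starK K) (hb : b ∈ starK K) :
    circCh χ P (a + b) = circCh χ P a * circCh χ P b := by
  show ((AddCircle.toCircle (qzReal (invCh χ P (a + b))) : Circle) : ℂ) = _
  rw [invCh_add χ P ha hb, map_add, AddCircle.toCircle_add]
  exact Circle.coe_mul _ _

/-- The component as a multiplicative character. -/
def charC (P : PK K) : K →* ℂ where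
  toFun x := if h : (x : Qbar) = 0 then 0 else circCh χ P (Ux.mk (x : Qbar) h)
  map_one' := by
    have h1 : ((1 : K) : Qbar) ≠ 0 := by simp
    rw [dif_neg h1, show Ux.mk ((1 : K) : Qbar) h1 = 0 from Ux.ext (by simp)]
    exact circCh_zero χ P
  map_mul' x y := by
    by_cases hx : (x : Qbar) = 0
    · rw [dif_pos hx, dif_pos (by simp [hx]), zero_mul]
    by_cases hy : (y : Qbar) = 0
    · rw [dif_pos hy, dif_pos (by simp [hy]), mul_zero]
    have hxy : ((x * y : K) : Qbar) ≠ 0 := by simpa using mul_ne_zero hx hy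
    rw [dif_neg hx, dif_neg hy, dif_neg hxy,
      show Ux.mk ((x * y : K) : Qbar) hxy = Ux.mk (x : Qbar) hx + Ux.mk (y : Qbar) hy from
        Ux.ext (by simp)]
    exact circCh_add χ P (mem_starK_of_mem K (a := Ux.mk (x : Qbar) hx) x.2)
      (mem_starK_of_mem K (a := Ux.mk (y : Qbar) hy) y.2)

/-- The complex character on nonzero elements. -/
lemma charC_apply (P : PK K) {x : K} (hx : (x : Qbar) ≠ 0) :
    charC χ P x = circCh χ P (Ux.mk (x : Qbar) hx) := dif_neg hx

/-- The complex character has absolute value one. -/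
lemma norm_charC (P : PK K) {x : K} (hx : x ≠ 0) : ‖charC χ P x‖ = 1 := by
  rw [charC_apply χ P (x := x) (by simpa using hx)]
  exact Circle.norm_coe _

/-- The product formula for the multiplicative components. -/
theorem prod_charC [NumberField.IsTotallyComplex K] {x : K} (hx : x ≠ 0) :
    ∏ᶠ P : PK K, charC χ P x = 1 := by
  have hx' : (x : Qbar) ≠ 0 := by simpa using hx
  set h := Ux.mk (x : Qbar) hx'
  have hh : h ∈ starK K := mem_starK_of_mem K x.2
  have hfin := finite_invCh_support χ hh
  rw [finprod_congr fun P => charC_apply χ P hx',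
    finprod_eq_prod_of_mulSupport_subset _ (s := hfin.toFinset) (fun P hP => by
      rw [Finset.mem_coe, Set.Finite.mem_toFinset]
      refine fun h0 => hP ?_
      show ((AddCircle.toCircle (qzReal (invCh χ P h)) : Circle) : ℂ) = 1
      rw [show invCh χ P h = 0 from h0, map_zero, AddCircle.toCircle_zero]
      exact Circle.coe_one)]
  have hsum := sum_invCh χ hh
  rw [finsum_eq_sum_of_support_subset _ (s := hfin.toFinset)
    (fun P hP => by rwa [Finset.mem_coe, Set.Finite.mem_toFinset])] at hsum
  have key : ∀ s : Finset (PK K), ∏ P ∈ s, circCh χ P h =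
      ((AddCircle.toCircle (qzReal (∑ P ∈ s, invCh χ P h)) : Circle) : ℂ) := fun s => by
    induction s using Finset.induction with
    | empty =>
      rw [Finset.prod_empty, Finset.sum_empty, map_zero, AddCircle.toCircle_zero]
      exact Circle.coe_one.symm
    | insert a s ha ih =>
      rw [Finset.prod_insert ha, Finset.sum_insert ha, ih, map_add, AddCircle.toCircle_add]
      exact (Circle.coe_mul _ _).symm
  refine (key hfin.toFinset).trans ?_
  rw [hsum, map_zero, AddCircle.toCircle_zero]
  exact Circle.coe_one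

end Global

end FermatAgent.CFT
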