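import Fermat.Agent.CFT.Global.Local

/-!
The local degrees above a rational prime add up to the global degree.
-/

set_option autoImplicit false

noncomputable section

open scoped Classical NumberField
open IsDedekindDomain

namespace FermatAgent.CFT.Global

open Coh Local GaloisBasic

variable {K : IntermediateField ℚ Qbar} [FiniteDimensional ℚ K]

/-- The residue field at an embedding has the norm of the prime as cardinality. -/
theorem resCard_eq_absNorm {q : ℕ} [Fact q.Prime] {g : GQ} {P : PK K} (h : IsPoint P q g) :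
    resCard (locField q g K) = P.asIdeal.absNorm := by
  let φ : 𝓞 K →+* Res' q :=
    { toFun := fun a => res (emb q g ((a : K) : Qbar))
      map_one' := by simp [res_one]
      map_zero' := by simp [res_zero]
      map_mul' := fun a b => by
        simp only [map_mul, IntermediateField.coe_mul]
        exact res_mul (norm_emb_int g a) (norm_emb_int g b)
      map_add' := fun a b => by
        simp only [map_add, IntermediateField.coe_add]
        exact res_add (norm_emb_int g a) (norm_emb_int g b) }
  have hker : RingHom.ker φ = P.asIdeal := Ideal.ext fun a => by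
    rw [RingHom.mem_ker, h a]
    exact res_eq_zero_iff (norm_emb_int g a)
  have : P.asIdeal.IsMaximal := P.isMaximal
  have hrange : (φ.range : Set (Res' q)) = (resField (locField q g K) : Set (Res' q)) := by
    refine Set.Subset.antisymm ?_ ?_
    · rintro _ ⟨a, rfl⟩
      exact res_mem_resField _ (emb_mem_locField (a : K).2) (norm_emb_int g a)
    rintro c ⟨x, hx, hx1, rfl⟩
    obtain ⟨a, ha, hax⟩ := exists_emb_near hx one_pos
    have ha1 : ‖emb q g a‖ ≤ 1 := by
      have := IsUltrametricDist.norm_add_le_max (-(x - emb q g a)) x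
      rw [neg_sub, sub_add_cancel, norm_sub_rev] at this
      exact this.trans (max_le hax.le hx1)
    rw [(res_eq_res_iff hx1 ha1).2 hax]
    obtain ⟨n, s, hs⟩ := P.exists_primeCompl_mul_eq_of_integer (⟨a, ha⟩ : K)
      ((h.valuation_le_one_iff _).2 ha1)
    have hs' : (⟨a, ha⟩ : K) * ((s : 𝓞 K) : K) = (n : K) := hs
    have hmem : ((s : 𝓞 K)) ∉ P.asIdeal := s.2
    obtain ⟨t, i, hi, hti⟩ := (P.isMaximal).exists_inv hmem
    have hφ : φ t * φ (s : 𝓞 K) = 1 := by
      have hi0 : φ i = 0 := by rw [← RingHom.mem_ker, hker]; exact hi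
      have := congrArg φ hti
      rwa [map_add, map_mul, map_one, hi0, add_zero] at this
    refine ⟨n * t, ?_⟩
    have hn : φ n = res (emb q g a) * φ (s : 𝓞 K) := by
      show res (emb q g ((n : K) : Qbar)) = _
      rw [← hs', IntermediateField.coe_mul, map_mul, res_mul ha1 (norm_emb_int g (s : 𝓞 K))]
      rfl
    rw [map_mul, hn, mul_assoc, mul_comm (φ (s : 𝓞 K)), hφ, mul_one]
  rw [Ideal.absNorm_apply, Submodule.cardQuot_apply, resCard,
    Nat.card_congr (RingHom.quotientKerEquivRange φ |>.toEquiv.symm.trans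
      (Ideal.quotEquivOfEq hker).toEquiv).symm]
  exact Nat.card_congr (Equiv.setCongr hrange).symm

variable {p : ℕ} [hp : Fact p.Prime]

lemma absNorm_maxPowDividing (P : PK K) :
    Ideal.absNorm (P.maxPowDividing (Ideal.span {(p : 𝓞 K)})) = pIdx (locK P) p := by
  have hp0 : (p : 𝓞 K) ≠ 0 := Nat.cast_ne_zero.mpr hp.out.ne_zero
  have hpQ : ((((p : 𝓞 K) : K)) : Qbar) = (p : Qbar) := by simp
  set n := (Associates.mk P.asIdeal).count (Associates.mk (Ideal.span {(p : 𝓞 K)})).factors
  have hn : ordP P (p : Qbar) = n := by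
    rw [← hpQ, ordP_coe, P.valuation_of_algebraMap, P.intValuation_if_neg hp0, WithZero.log_exp,
      neg_neg]
  have hloc := (isPoint_gOf P).ord_eq (x := (p : Qbar)) (_root_.natCast_mem K p)
    (Nat.cast_ne_zero.mpr hp.out.ne_zero)
  rw [map_natCast, hn] at hloc
  show Ideal.absNorm (P.asIdeal ^ n) = _
  rw [map_pow, ← resCard_eq_absNorm (isPoint_gOf P), pIdx]
  split_ifs with h
  · rw [finrank_eq, resCard_eq, ← pow_mul, mul_comm]
    have h1 := ord_q (locK P)
    have h2 : (p : PadicAlgCl (qOf P)) = (qOf P : PadicAlgCl (qOf P)) := by exact_mod_cast h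
    rw [h2, h1] at hloc
    rw [show n = ramIdx (locK P) by exact_mod_cast hloc.symm]
  · have h1 : ‖(p : PadicAlgCl (qOf P))‖ = 1 := by
      refine le_antisymm (IsUltrametricDist.norm_natCast_le_one _ p) (not_lt.mp fun hlt => ?_)
      have h3 := (res_eq_zero_iff (q := qOf P) (IsUltrametricDist.norm_natCast_le_one _ p)).mpr hlt
      rw [res_natCast, CharP.cast_eq_zero_iff (Res' (qOf P)) (qOf P)] at h3
      exact h ((Nat.prime_dvd_prime_iff_eq (Fact.out : (qOf P).Prime) hp.out).mp h3).symm
    rw [← ord_eq_zero_iff (locK P) (natCast_mem _ p) (Nat.cast_ne_zero.mpr hp.out.ne_zero),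
      hloc] at h1
    rw [show n = 0 by exact_mod_cast h1, pow_zero]

/-- The product of the indices at the primes above `p`. -/
theorem prod_pIdx {T : Finset (PK K)} (hT : ∀ P ∉ T, qOf P ≠ p) :
    ∏ P ∈ T, pIdx (locK P) p = p ^ Module.finrank ℚ K := by
  have hI : Ideal.span {(p : 𝓞 K)} ≠ 0 := by
    rw [Ne, Ideal.zero_eq_bot, Ideal.span_singleton_eq_bot]
    exact Nat.cast_ne_zero.mpr hp.out.ne_zero
  have h := congrArg Ideal.absNorm (Ideal.finprod_heightOneSpectrum_factorization hI)
  have h2 := (Ideal.absNorm (S := 𝓞 K)).toMonoidHom.map_finprod (Ideal.hasFiniteMulSupport hI)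
  change Ideal.absNorm _ = ∏ᶠ P : PK K, Ideal.absNorm (P.maxPowDividing _) at h2
  rw [h2, Ideal.absNorm_span_natCast, NumberField.RingOfIntegers.rank] at h
  rw [← h]
  simp only [absNorm_maxPowDividing]
  refine (finprod_eq_prod_of_mulSupport_subset _ fun P hP => ?_).symm
  by_contra hPT
  exact hP (if_neg (Ne.symm (hT P fun h' => hPT (by exact_mod_cast h'))))

end FermatAgent.CFT.Global
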