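import Fermat.Agent.CFT.Global.FirstInequality
import Fermat.Agent.CFT.Local.Kummer
import Fermat.Agent.GaloisBasic.Density

/-!
Kummer theory of cyclic characters over a number field containing the roots of unity.

A character is trivial at a point exactly when its radicand is a power there (`IsKummer.split_iff`).
For a good set `T` the radicand can be chosen as a `T`-unit (`exists_isKummer_tUnit`). A
Frobenius generating the group of a prescribed automorphism, from the Frobenius density theorem,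
gives a prime where one radicand is a power and another is not (`exists_prime_separating`).
-/

set_option autoImplicit false

noncomputable section

open scoped Classical Pointwise

namespace FermatAgent.CFT.Global

open Coh Local GaloisBasic

variable {K : IntermediateField ℚ Qbar} [FiniteDimensional ℚ K] {p : ℕ} [hp : Fact p.Prime]
  {ζ : Qbar}

omit [FiniteDimensional ℚ K] hp in
/-- The action commutes with natural multiples. -/
lemma smul_nsmul' {G A : Type*} [Monoid G] [AddCommMonoid A] [DistribMulAction G A] (g : G) (n : ℕ)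
    (a : A) : g • (n • a) = n • (g • a) :=
  map_nsmul (DistribSMul.toAddMonoidHom A g) n a

variable (hζ : IsPrimitiveRoot ζ p) (hζK : ζ ∈ K)

include hζK

omit [FiniteDimensional ℚ K] in
/-- The root of unity is fixed by the field containing it. -/
lemma smul_zetaUx {g : GQ} (hg : g ∈ K.fixingSubgroup) : g • zetaUx hζ = zetaUx hζ :=
  Ux.ext (by
    rw [Ux.val_smul, Ux.val_mk]; exact (IntermediateField.mem_fixingSubgroup_iff K g).mp hg ζ hζK)

omit [FiniteDimensional ℚ ↥K] in
/-- The root of unity lies in the field. -/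
lemma zetaUx_mem_starK : zetaUx hζ ∈ starK K := fun _ hg => smul_zetaUx hζ hζK hg

variable {χ : CycChar (galLevels ℚ Qbar) K.fixingSubgroup p}

omit [FiniteDimensional ℚ K] in
lemma _root_.FermatAgent.CFT.IsKummer.not_mem {σ : GQ} (hσ : σ ∈ K.fixingSubgroup) (hσ1 : χ σ = 1)
    {y : GM} (h : IsKummer hζ χ y) : p • y ∉ (starK K).map (nsmulAddMonoidHom p) := by
  rintro ⟨c, hc, hcy⟩
  obtain ⟨i, -, hi⟩ := exists_nsmul_root hζ (x := y - c) (by
    rw [nsmul_sub, sub_eq_zero]; exact hcy.symm)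
  have hfix : σ • y = y := by
    rw [sub_eq_iff_eq_add.mp hi, smul_add, hc σ hσ, smul_nsmul', smul_zetaUx hζ hζK hσ]
  rw [← h.eq_zero_iff hζ hσ, hσ1] at hfix
  exact one_ne_zero hfix

omit [FiniteDimensional ℚ ↥K] hζK in
/-- An element outside the line of the radicand is moved by the kernel. -/
lemma _root_.FermatAgent.CFT.IsKummer.exists_move {σ : GQ} (hσ : σ ∈ K.fixingSubgroup)
    (hσ1 : χ σ = 1) {y : GM} (h : IsKummer hζ χ y) {y' : GM} (hy' : p • y' ∈ starK K)
    (hne : ∀ i : ℤ, p • y' - i • (p • y) ∉ (starK K).map (nsmulAddMonoidHom p)) :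
    ∃ g ∈ K.fixingSubgroup, g • y = y ∧ g • y' ≠ y' := by
  by_contra hno
  push Not at hno
  set i := kumVal hζ y' σ
  set d := y' - i.val • y
  have hker : ∀ s ∈ χ.ker, s • d = d := fun s hs => by
    have hsy := (h.eq_zero_iff hζ hs.1).mp hs.2
    simp only [d, smul_sub, smul_nsmul', hsy, hno s hs.1 hsy]
  have hσd : σ • d = d := by
    have e1 := kumVal_spec hζ hy' hσ
    have e2 := h σ hσ
    have : Fact (1 < p) := ⟨hp.out.one_lt⟩
    rw [hσ1, ZMod.val_one, one_smul] at e2
    simp only [d, smul_sub, smul_nsmul']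
    rw [sub_eq_iff_eq_add.mp e1, sub_eq_iff_eq_add.mp e2, nsmul_add]
    simp only [i]
    abel
  have hd : d ∈ starK K := fun g hg => by
    rw [smul_eq_pow_smul χ hσ hσ1 hker hg, ← iterate_actG]
    exact Function.iterate_fixed hσd _
  refine hne i.val ⟨d, hd, ?_⟩
  show p • d = _
  simp only [d, nsmul_sub, natCast_zsmul, ← mul_nsmul, mul_comm]

section Local

variable {q : ℕ} [hq : Fact q.Prime] {g : GQ}

include hζ in
omit [FiniteDimensional ℚ K] hζK hp in
/-- Embeddings preserve primitivity. -/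
lemma emb_primitive : IsPrimitiveRoot (emb q g ζ) p := hζ.map_of_injective (emb_injective g)

omit hζK [FiniteDimensional ℚ ↥K] in
lemma _root_.FermatAgent.CFT.IsKummer.local_spec {y : GM} (h : IsKummer hζ χ y) :
    ∀ d ∈ (locField q g K).fixingSubgroup, d • embUx q g y - embUx q g y =
      (charAt χ q g d).val • Ux.mk (emb q g ζ)
        ((emb_primitive hζ (q := q) (g := g)).ne_zero hp.out.ne_zero) := by
  intro d hd
  rw [smul_embUx, ← embUx_smul, ← map_sub, h _ (locHom_mem hd), map_nsmul, charAt_apply]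
  rfl

omit [FiniteDimensional ℚ ↥K] in
/-- The character is trivial at a point exactly when the radicand is a power there. -/
lemma _root_.FermatAgent.CFT.IsKummer.split_iff {y : GM} (h : IsKummer hζ χ y) :
    (∀ d ∈ (locField q g K).fixingSubgroup, charAt χ q g d = 0) ↔
      embUx q g (p • y) ∈ (starF (locField q g K)).map (nsmulAddMonoidHom p) := by
  have hl := h.local_spec hζ (q := q) (g := g)
  have hz := emb_primitive hζ (q := q) (g := g)
  constructor
  · intro h0
    exact ⟨embUx q g y, fun d hd =>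
      (char_eq_zero_iff hz (charAt χ q g) hl hd).mp (h0 d hd), (map_nsmul _ _ _).symm⟩
  · rintro ⟨c, hc, hcy⟩ d hd
    refine (char_eq_zero_iff hz (charAt χ q g) hl hd).mpr ?_
    obtain ⟨i, -, hi⟩ := exists_nsmul_root hz (x := embUx q g y - c) (by
      rw [nsmul_sub, sub_eq_zero, ← map_nsmul]; exact hcy.symm)
    have hζF : d • Ux.mk (emb q g ζ) (hz.ne_zero hp.out.ne_zero) = Ux.mk (emb q g ζ) _ :=
      Ux.ext ((IntermediateField.mem_fixingSubgroup_iff _ d).mp hd _ (emb_mem_locField hζK))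
    rw [sub_eq_iff_eq_add.mp hi, smul_add, smul_nsmul', hζF, hc d hd]

end Local

omit hp hζK in
/-- Local units are elements of order zero. -/
lemma norm_embUx_eq_one {P : PK K} {a : GM} (ha : a ∈ starK K) :
    ‖(embUx (qOf P) (gOf P) a).val‖ = 1 ↔ ordP P a.val = 0 := by
  rw [val_embUx]
  exact (isPoint_gOf P).norm_eq_one_iff (val_mem_of_mem_starK K ha) a.val_ne_zero

/-- Unit radicands give unramified characters. -/
lemma _root_.FermatAgent.CFT.IsKummer.unramAt {y : GM} (h : IsKummer hζ χ y) {P : PK K}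
    (hP : qOf P ≠ p) (hord : ordP P (p • y).val = 0) : UnramAt χ P := by
  have hn := (norm_embUx_eq_one (h.nsmul_mem hζ)).mpr hord
  rw [map_nsmul, Ux.val_nsmul, norm_pow] at hn
  refine unram_of_unit (emb_primitive hζ) (emb_mem_locField hζK) (charP χ P)
    (h.local_spec hζ) hP.symm ((pow_eq_one_iff_of_nonneg (norm_nonneg _) hp.out.ne_zero).mp hn) ?_
  rw [← map_nsmul]
  exact embUx_mem_starF (h.nsmul_mem hζ)

omit hζK in
lemma _root_.FermatAgent.CFT.IsKummer.dvd_ordP {y : GM} (h : IsKummer hζ χ y) {P : PK K}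
    (hP : UnramAt χ P) :
    (p : ℤ) ∣ ordP P (p • y).val := by
  have hy : embUx (qOf P) (gOf P) y ∈ fixedUx (charP χ P).ker := fun d hd =>
    (char_eq_zero_iff (emb_primitive hζ) (charP χ P) (h.local_spec hζ) hd.1).mp hd.2
  obtain ⟨b, hb, hbn⟩ := hP _ hy
  have hα := h.nsmul_mem hζ
  rw [← (isPoint_gOf P).ord_eq (val_mem_of_mem_starK K hα) (p • y).val_ne_zero]
  have hbm : b.val ∈ locK P := mem_fixedUx_fixingSubgroup.mp hb
  refine ⟨ord (locK P) b.val, ord_unique _ (emb_mem_locField (val_mem_of_mem_starK K hα))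
    ((_root_.map_ne_zero _).mpr (p • y).val_ne_zero) ?_⟩
  rw [Ux.val_nsmul, map_pow, norm_pow, ← val_embUx, ← hbn, norm_eq_zpow_ord _ hbm b.val_ne_zero,
    ← zpow_natCast, ← zpow_mul, mul_comm]

/-- The radicand can be taken among the `T`-units. -/
theorem exists_isKummer_tUnit {σ : GQ} (hσ : σ ∈ K.fixingSubgroup) (hσ1 : χ σ = 1)
    {T : Finset (PK K)} (hT : GoodSet χ T) :
    ∃ y, IsKummer hζ χ y ∧ p • y ∈ tUnits K T := by
  obtain ⟨y, hy⟩ := exists_isKummer hζ (fixingSubgroup_mem_galLevels K)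
    (smul_zetaUx hζ hζK) hσ hσ1
  have hα := hy.nsmul_mem hζ
  let n : PK K → ℤ := fun P => if P ∈ T then 0 else ordP P (p • y).val / p
  have hfin : {P | n P ≠ 0}.Finite := by
    refine (finite_ordP_ne_zero (val_mem_of_mem_starK K hα) (p • y).val_ne_zero).subset
      fun P hP h0 => ?_
    refine hP ?_
    show (if P ∈ T then 0 else ordP P (p • y).val / p) = (0 : ℤ)
    rw [h0, Int.zero_ediv, ite_self]
  obtain ⟨c, hc, hcn⟩ := hT.gen.exists_ord_eq n hfin
  refine ⟨y - c, hy.sub_mem hζ hc, ?_⟩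
  rw [nsmul_sub]
  refine mem_tUnits.mpr ⟨sub_mem hα (nsmul_mem hc p), fun P hP => ?_⟩
  have hP' : P ∉ T := fun h => hP (by exact_mod_cast h)
  have h1 := congrFun (map_sub (ordHom K) ⟨_, hα⟩ (p • ⟨c, hc⟩)) P
  rw [map_nsmul, Pi.sub_apply, Pi.smul_apply, ordHom_apply, ordHom_apply, ordHom_apply,
    nsmul_eq_mul] at h1
  have hd := Int.mul_ediv_cancel' (hy.dvd_ordP hζ (hT.unram P hP'))
  simp only [hcn P hP', n, if_neg hP', hd, sub_self] at h1
  exact h1

omit hp hζK in
lemma norm_frob_sub {q : ℕ} [hq : Fact q.Prime] {σ₀ φ : GQ}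
    (hA : (σ₀ • padicPlace q).LiesOverPrime q)
    (hφ : (σ₀ • padicPlace q).IsFrobeniusAt φ q) {x : Qbar}
    (hx : ‖emb q σ₀⁻¹ x‖ ≤ 1) : ‖emb q σ₀⁻¹ (φ x) - emb q σ₀⁻¹ x ^ q‖ < 1 := by
  set A := σ₀ • padicPlace q
  set e := emb q σ₀⁻¹
  have hc : ∀ b : ZBar, b ∈ center A ↔ ‖e (b : Qbar)‖ < 1 := fun b => by
    rw [center_smul, Ideal.mem_pointwise_smul_iff_inv_smul_mem, mem_center, mem_nonunits_padicPlace]
    rfl
  have hint : ∀ b : ZBar, ‖e (b : Qbar)‖ ≤ 1 := fun b => norm_emb_integral _ b.2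
  have hfrob : ∀ b : ZBar, ‖e (φ (b : Qbar)) - e (b : Qbar) ^ q‖ < 1 := fun b => by
    have h1 := (hc _).mp ((isFrobeniusAt_iff hq.out hA φ).mp hφ b)
    rwa [Subalgebra.coe_sub, coe_smul_zbar, Subalgebra.coe_pow, map_sub, map_pow] at h1
  have hxA : x ∈ A := by
    rw [ValuationSubring.mem_pointwise_smul_iff_inv_smul_mem, mem_padicPlace_iff,
      ← NNReal.coe_le_coe,
      coe_nnnorm, NNReal.coe_one]
    exact hx
  obtain ⟨b, s, hs, hxs⟩ := (mem_iff_exists_mul_eq hq.out hA x).mp hxA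
  have hs1 : ‖e (s : Qbar)‖ = 1 := le_antisymm (hint s) (not_lt.mp fun h => hs ((hc s).mpr h))
  have hφs : ‖e (φ (s : Qbar))‖ = 1 := by
    have h := hfrob s
    have hne : ‖e (φ (s : Qbar)) - e (s : Qbar) ^ q‖ ≠ ‖e (s : Qbar) ^ q‖ := by
      rw [norm_pow, hs1, one_pow]; exact h.ne
    have := IsUltrametricDist.norm_add_eq_max_of_norm_ne_norm hne
    rwa [sub_add_cancel, norm_pow, hs1, one_pow, max_eq_right h.le] at this
  have e1 : e (φ x) * e (φ (s : Qbar)) = e (φ (b : Qbar)) := by rw [← map_mul, ← map_mul, hxs]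
  have e2 : e x * e (s : Qbar) = e (b : Qbar) := by rw [← map_mul, hxs]
  have hφx : ‖e (φ x)‖ ≤ 1 := by
    have := norm_emb_integral (q := q) σ₀⁻¹ ((φ • b).2)
    rw [coe_smul_zbar] at this
    calc ‖e (φ x)‖ = ‖e (φ x) * e (φ (s : Qbar))‖ := by rw [norm_mul, hφs, mul_one]
      _ ≤ 1 := by rw [e1]; exact this
  have key : (e (φ x) - e x ^ q) * e (s : Qbar) ^ q =
      e (φ x) * (e (s : Qbar) ^ q - e (φ (s : Qbar))) +
        (e (φ (b : Qbar)) - e (b : Qbar) ^ q) := by
    rw [← e1, ← e2, mul_pow]; ring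
  have hn : ‖(e (φ x) - e x ^ q) * e (s : Qbar) ^ q‖ < 1 := by
    rw [key]
    refine (IsUltrametricDist.norm_add_le_max _ _).trans_lt (max_lt ?_ (hfrob b))
    rw [norm_mul, norm_sub_rev]
    exact (mul_le_of_le_one_left (norm_nonneg _) hφx).trans_lt (hfrob s)
  rwa [norm_mul, norm_pow, hs1, one_pow, mul_one] at hn

omit hp hζK [FiniteDimensional ℚ ↥K] in
lemma smul_mem_starF_of_isPoint {q : ℕ} [Fact q.Prime] {g g' : GQ} {d : Gal' q} {w : GQ}
    (hw : w ∈ K.fixingSubgroup) (hg : g' = g * locHom q g d * w) {c : MM q}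
    (hc : c ∈ starF (locField q g K)) : d • c ∈ starF (locField q g' K) := by
  intro d' hd'
  have he : d⁻¹ * d' * d ∈ (locField q g K).fixingSubgroup := by
    rw [fixingSubgroup_locField, Subgroup.mem_comap, IntermediateField.mem_fixingSubgroup_iff]
    intro x hx
    refine emb_injective (q := q) g ?_
    have h1 : emb q g' x = d (emb q g x) := by
      rw [hg, emb_mul, (IntermediateField.mem_fixingSubgroup_iff K w).mp hw x hx,
        emb_mul, emb_locHom]
    have h2 := (IntermediateField.mem_fixingSubgroup_iff _ d').mp hd' _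
      (emb_mem_locField (q := q) (g := g') hx)
    rw [h1] at h2
    rw [emb_locHom, AlgEquiv.mul_apply, AlgEquiv.mul_apply, h2, ← AlgEquiv.mul_apply,
      inv_mul_cancel,
      AlgEquiv.one_apply]
  have h3 := congrArg (d • ·) (hc _ he)
  simp only [← mul_smul, mul_assoc, mul_inv_cancel_left] at h3
  rw [← mul_smul, h3]

omit hp hζK in
/-- Being a power at a prime does not depend on the point. -/
lemma mem_pth_of_isPoint {P : PK K} {q : ℕ} [Fact q.Prime] {g g' : GQ} (h : IsPoint P q g)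
    (h' : IsPoint P q g') {a : GM} (ha : a ∈ starK K)
    (hm : embUx q g a ∈ (starF (locField q g K)).map (nsmulAddMonoidHom p)) :
    embUx q g' a ∈ (starF (locField q g' K)).map (nsmulAddMonoidHom p) := by
  obtain ⟨d, w, hw, hg⟩ := h.exists_mul h'
  obtain ⟨c, hc, hca⟩ := hm
  refine ⟨d • c, smul_mem_starF_of_isPoint hw hg hc, ?_⟩
  show p • d • c = _
  rw [← smul_nsmul', show p • c = embUx q g a from hca, smul_embUx, hg, ← embUx_smul _ w, ha w hw]

omit hp hζK in
lemma mem_pth_iff_of_isPoint {P : PK K} {q : ℕ} [Fact q.Prime] {g : GQ} (h : IsPoint P q g)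
    {a : GM} (ha : a ∈ starK K) :
    embUx q g a ∈ (starF (locField q g K)).map (nsmulAddMonoidHom p) ↔
      embUx (qOf P) (gOf P) a ∈ (starF (locK P)).map (nsmulAddMonoidHom p) := by
  obtain rfl : qOf P = q := h.prime_eq (isPoint_gOf P)
  exact ⟨mem_pth_of_isPoint h (isPoint_gOf P) ha, mem_pth_of_isPoint (isPoint_gOf P) h ha⟩

omit hζ hζK [FiniteDimensional ℚ ↥K] in
/-- An automorphism whose restriction is a power of that of `b` fixes what `b` fixes. -/
lemma apply_eq_of_restrict_mem_zpowers {M : IntermediateField ℚ Qbar} [Normal ℚ M] (a b : GQ)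
    (hab : AlgEquiv.restrictNormalHom M a ∈
      Subgroup.zpowers (AlgEquiv.restrictNormalHom M b)) (x : Qbar) (hx : x ∈ M) (hbx : b x = x) :
    a x = x := by
  obtain ⟨k, hk⟩ := Subgroup.mem_zpowers_iff.mp hab
  rw [← map_zpow] at hk
  have h1 : (b ^ k) x = x := by
    have : b ^ k ∈ MulAction.stabilizer GQ x :=
      zpow_mem (show b ∈ MulAction.stabilizer GQ x from hbx) k
    exact this
  have h2 := congrArg Subtype.val (DFunLike.congr_fun hk (⟨x, hx⟩ : M))
  have hc : ∀ t : GQ, ((AlgEquiv.restrictNormalHom M t ⟨x, hx⟩ : M) : Qbar) = t x := fun t =>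
    AlgEquiv.restrictNormal_commutes t M ⟨x, hx⟩
  rw [hc, hc] at h2
  rw [← h2, h1]

omit hζ hζK [FiniteDimensional ℚ ↥K] in
/-- A `p`-th root of unity quotient of units with equal residues is one. -/
lemma eq_of_res_eq_of_pow {q : ℕ} [Fact q.Prime] {u v : PadicAlgCl q} (hn : ¬ q ∣ p) (hv1 : ‖v‖ = 1)
    (ht : (u / v) ^ p = 1) (hres' : res u = res v) : u = v := by
  have hv0 : v ≠ 0 := norm_pos_iff.mp (hv1.symm ▸ one_pos)
  have ht1 : ‖u / v‖ = 1 := norm_eq_one_of_pow_eq_one hp.out.ne_zero ht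
  have hu1 : ‖u‖ = 1 := by rw [norm_div, hv1, div_one] at ht1; exact ht1
  have hrt : res (u / v) = res 1 := by
    rw [res_eq_res_iff ht1.le norm_one.le, div_sub_one hv0, norm_div, hv1, div_one]
    exact (res_eq_res_iff hu1.le hv1.le).mp hres'
  exact (div_eq_one_iff_eq hv0).mp (eq_of_res_eq hn ht (one_pow p) hrt)

include hζ in
/-- A prime where one radicand is a power and another is not. -/
theorem exists_prime_separating {y y' : GM} (hy : p • y ∈ starK K) (hy' : p • y' ∈ starK K)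
    {g : GQ} (hg : g ∈ K.fixingSubgroup) (hgy : g • y = y) (hgy' : g • y' ≠ y')
    {S : Finset (PK K)}
    (hS : ∀ P ∉ S, qOf P ≠ p ∧ ordP P (p • y).val = 0 ∧ ordP P (p • y').val = 0) :
    ∃ P ∉ S,
      embUx (qOf P) (gOf P) (p • y) ∈ (starF (locK P)).map (nsmulAddMonoidHom p) ∧
      embUx (qOf P) (gOf P) (p • y') ∉ (starF (locK P)).map (nsmulAddMonoidHom p) := by
  set M₀ := K ⊔ IntermediateField.adjoin ℚ {y.val, y'.val}
  have : FiniteDimensional ℚ (IntermediateField.adjoin ℚ {y.val, y'.val}) :=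
    IntermediateField.finiteDimensional_adjoin fun x _ => Algebra.IsIntegral.isIntegral x
  have : FiniteDimensional ℚ M₀ := IntermediateField.finiteDimensional_sup _ _
  set M := IntermediateField.normalClosure ℚ M₀ Qbar
  have : FiniteDimensional ℚ M := normalClosure.is_finiteDimensional ℚ M₀ Qbar
  have : IsGalois ℚ M := by
    have : Normal ℚ M := normalClosure.normal ℚ M₀ Qbar
    exact ⟨⟩
  have hM : M₀ ≤ M := M₀.le_normalClosure
  have hyM : y.val ∈ M :=
    hM ((le_sup_right : _ ≤ M₀) (IntermediateField.subset_adjoin ℚ _ (Or.inl rfl)))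
  have hy'M : y'.val ∈ M :=
    hM ((le_sup_right : _ ≤ M₀) (IntermediateField.subset_adjoin ℚ _ (Or.inr rfl)))
  obtain ⟨q, A, φ, hqp, hqS, hA, hφ, -, hgen⟩ :=
    exists_frobenius_generating M (AlgEquiv.restrictNormalHom M g) (S.image qOf)
  have : Fact q.Prime := ⟨hqp⟩
  obtain ⟨σ₀, hσ₀⟩ := exists_smul_eq hqp (liesOverPrime_padicPlace (q := q)) hA
  subst hσ₀
  set g₀ := σ₀⁻¹
  -- the powers relating the two restrictions
  have hres := apply_eq_of_restrict_mem_zpowers (M := M)
  have hφg : AlgEquiv.restrictNormalHom M φ ∈ Subgroup.zpowers (AlgEquiv.restrictNormalHom M g) :=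
    hgen ▸ Subgroup.mem_zpowers _
  have hgφ : AlgEquiv.restrictNormalHom M g ∈ Subgroup.zpowers (AlgEquiv.restrictNormalHom M φ) :=
    hgen.symm ▸ Subgroup.mem_zpowers _
  have hφy : φ y.val = y.val := hres φ g hφg _ hyM (by rw [← Ux.val_smul, hgy])
  have hφy' : φ y'.val ≠ y'.val := fun h => hgy' (Ux.ext (by
    rw [Ux.val_smul]; exact hres g φ hgφ _ hy'M h))
  have hφK : ∀ x ∈ K, φ x = x := fun x hx =>
    hres φ g hφg x (hM (le_sup_left (b := IntermediateField.adjoin ℚ {y.val, y'.val}) hx))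
    ((IntermediateField.mem_fixingSubgroup_iff K g).mp hg x hx)
  -- the prime
  set P := primeAt K q g₀
  have hP : IsPoint P q g₀ := isPoint_primeAt
  have hPq : qOf P = q := hP.prime_eq (isPoint_gOf P)
  have hPS : P ∉ S := fun h => hqS (hPq ▸ Finset.mem_image_of_mem _ h)
  obtain ⟨hqp', ho, ho'⟩ := hS P hPS
  rw [hPq] at hqp'
  set F := locField q g₀ K
  have hunit : ∀ z : GM, p • z ∈ starK K → ordP P (p • z).val = 0 →
      ‖(embUx q g₀ z).val‖ = 1 := fun z hz h0 => by
    have h1 := (hP.norm_eq_one_iff (val_mem_of_mem_starK K hz) (p • z).val_ne_zero).mpr h0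
    rw [Ux.val_nsmul, map_pow, norm_pow] at h1
    exact (pow_eq_one_iff_of_nonneg (norm_nonneg _) hp.out.ne_zero).mp h1
  have hfr : ∀ x, ‖emb q g₀ x‖ ≤ 1 →
      res (emb q g₀ (φ x)) = res (emb q g₀ x) ^ q := fun x hx => by
    have h := norm_frob_sub hA hφ hx
    have hp1 : ‖emb q g₀ x ^ q‖ ≤ 1 := by
      rw [norm_pow]; exact pow_le_one₀ (norm_nonneg _) hx
    have hn : ‖emb q g₀ (φ x)‖ ≤ 1 := by
      have := IsUltrametricDist.norm_add_le_max (emb q g₀ (φ x) - emb q g₀ x ^ q)
        (emb q g₀ x ^ q)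
      rw [sub_add_cancel] at this
      exact this.trans (max_le h.le hp1)
    rw [← res_pow hx]
    exact (res_eq_res_iff hn hp1).mpr h
  have hfield : ∀ c ∈ resField F, c ^ q = c := by
    rintro _ ⟨c, hc, hc1, rfl⟩
    obtain ⟨a, ha, hca⟩ := exists_emb_near hc one_pos
    have ha1 : ‖emb q g₀ a‖ ≤ 1 := by
      have := IsUltrametricDist.norm_add_le_max (emb q g₀ a - c) c
      rw [sub_add_cancel, norm_sub_rev] at this
      exact this.trans (max_le hca.le hc1)
    rw [(res_eq_res_iff hc1 ha1).mpr hca, ← hfr a ha1, hφK a ha]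
  have hFy : embUx q g₀ y ∈ starF F := fun d hd => by
    have hz := hunit y hy ho
    refine smul_eq_of_res_mem hqp'.symm hz (by rw [← map_nsmul]; exact embUx_mem_starF hy) ?_ hd
    have h1 : res (embUx q g₀ y).val ^ q = res (embUx q g₀ y).val := by
      rw [val_embUx, ← hfr _ hz.le, hφy]
    obtain ⟨f, -, hf⟩ := exists_resCard_eq_pow F
    rw [mem_resField_iff, hf]
    clear hf
    induction f with
    | zero => rw [pow_zero, pow_one]
    | succ f ih => rw [pow_succ, pow_mul, ih, h1]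
  refine ⟨P, hPS, (mem_pth_iff_of_isPoint hP hy).mp ⟨_, hFy, (map_nsmul _ _ _).symm⟩,
    fun hm => ?_⟩
  obtain ⟨c, hc, hcy⟩ := (mem_pth_iff_of_isPoint hP hy').mpr hm
  have hz' := hunit y' hy' ho'
  obtain ⟨i, -, hi⟩ := exists_nsmul_root (emb_primitive hζ (q := q) (g := g₀))
    (x := embUx q g₀ y' - c) (by rw [nsmul_sub, sub_eq_zero, ← map_nsmul]; exact hcy.symm)
  have hmem : (embUx q g₀ y').val ∈ F := by
    refine mem_fixedUx_fixingSubgroup.mp ?_
    rw [sub_eq_iff_eq_add.mp hi]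
    exact add_mem (nsmul_mem (mem_fixedUx_fixingSubgroup.mpr (emb_mem_locField hζK)) i) hc
  have hres' : res (emb q g₀ (φ y'.val)) = res (emb q g₀ y'.val) := by
    rw [hfr _ hz'.le, ← val_embUx, hfield _ (res_mem_resField F hmem hz'.le)]
  have hn : ¬ q ∣ p := fun h =>
    hqp' ((Nat.prime_dvd_prime_iff_eq hqp hp.out).mp h)
  have ht : (emb q g₀ (φ y'.val) / emb q g₀ y'.val) ^ p = 1 := by
    rw [div_pow, ← map_pow, ← map_pow, ← map_pow, ← Ux.val_nsmul,
      hφK _ (val_mem_of_mem_starK K hy'),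
      div_self ((_root_.map_ne_zero _).mpr (p • y').val_ne_zero)]
  exact hφy' (emb_injective g₀ (eq_of_res_eq_of_pow hn hz' ht hres'))

end FermatAgent.CFT.Global
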