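import Fermat.Agent.CFT.Global.Kummer
import Fermat.Agent.CFT.Global.DegreeSum

/-!
The second inequality for cyclic extensions of prime degree of a field containing the roots of
unity, and the norm theorem.
-/

set_option autoImplicit false

noncomputable section

open scoped Classical

namespace FermatAgent.CFT.Global

open Coh Local GaloisBasic

variable {K : IntermediateField ℚ Qbar} [FiniteDimensional ℚ K] {p : ℕ} [hp : Fact p.Prime]
  {ζ : Qbar}

/-- The product of the local modules at a finite set of primes. -/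
abbrev AmbK (T : Finset (PK K)) : Type := ∀ P : T, MM (qOf P.1)

/-- The product of the local multiplicative groups. -/
def locB (T : Finset (PK K)) : AddSubgroup (AmbK T) :=
  AddSubgroup.pi Set.univ fun P : T => starF (locK P.1)

/-- The product of the local units. -/
def unitB (T : Finset (PK K)) : AddSubgroup (AmbK T) :=
  AddSubgroup.pi Set.univ fun P : T => unitsF (locK P.1)

/-- The product of the local multiples of `p` in the units. -/
def pUnitB (p : ℕ) (T : Finset (PK K)) : AddSubgroup (AmbK T) :=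
  AddSubgroup.pi Set.univ fun P : T => (unitsF (locK P.1)).map (nsmulAddMonoidHom p)

/-- The diagonal map into the base. -/
def diagK (T : Finset (PK K)) : GM →+ AmbK T :=
  AddMonoidHom.pi fun P : T => embUx (qOf P.1) (gOf P.1)

@[simp] lemma diagK_apply (T : Finset (PK K)) (a : GM) (P : T) :
    diagK T a P = embUx (qOf P.1) (gOf P.1) a := rfl

/-- The constant map into the semilocal product. -/
def constT (p : ℕ) (T : Finset (PK K)) : AmbK T →+ AmbT p T where
  toFun x P _ := x P
  map_zero' := rfl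
  map_add' _ _ := rfl

lemma constT_injective (T : Finset (PK K)) : Function.Injective (constT p T) := fun _ _ h =>
  funext fun P => congrFun (congrFun h P) 0

section Units

/-- An index equal to a prime. -/
lemma relIndex_zmultiples_eq_prime {A : Type*} [AddCommGroup A] {H : AddSubgroup A} {a : A}
    (hpa : p • a ∈ H) (ha : a ∉ H) : H.relIndex (AddSubgroup.zmultiples a) = p := by
  have hmem : ∀ n : ℤ, n • a ∈ H ↔ (p : ℤ) ∣ n := fun n => by
    refine ⟨fun h => ?_, fun ⟨m, hm⟩ => ?_⟩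
    · by_contra hn
      obtain ⟨u, v, huv⟩ := (Nat.prime_iff_prime_int.mp hp.out).coprime_iff_not_dvd.mpr hn
      refine ha ?_
      have e := congrArg (· • a) huv
      simp only [add_smul, one_smul, mul_smul, natCast_zsmul] at e
      rw [← e]
      exact add_mem (zsmul_mem hpa u) (zsmul_mem h v)
    · rw [hm, mul_comm, mul_smul, natCast_zsmul]; exact zsmul_mem hpa m
  have e : H.comap (zmultiplesHom A a) = AddSubgroup.zmultiples (p : ℤ) := by
    ext n
    rw [AddSubgroup.mem_comap, zmultiplesHom_apply, hmem, Int.mem_zmultiples_iff]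
  rw [← AddSubgroup.range_zmultiplesHom, AddMonoidHom.range_eq_map, ← AddSubgroup.relIndex_comap,
    AddSubgroup.relIndex_top_right, e, Int.index_zmultiples, Int.natAbs_natCast]

section
omit hp

lemma mem_tUnits_of_nsmul [Fact p.Prime] {T : Set (PK K)} {c : GM} (hc : c ∈ starK K)
    (h : p • c ∈ tUnits K T) : c ∈ tUnits K T := by
  refine mem_tUnits.mpr ⟨hc, fun P hP => ?_⟩
  have h1 := congrFun (map_nsmul (ordHom K) p ⟨c, hc⟩) P
  rw [Pi.smul_apply, ordHom_apply, ordHom_apply, nsmul_eq_mul] at h1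
  change ordP P (p • c).val = _ at h1
  rw [(mem_tUnits.mp h).2 P hP] at h1
  exact (mul_eq_zero.mp h1.symm).resolve_left (Nat.cast_ne_zero.mpr (Fact.out : p.Prime).ne_zero)

/-- The units are monotone in the set of primes. -/
lemma tUnits_mono {S T : Set (PK K)} (h : S ⊆ T) : tUnits K S ≤ tUnits K T := fun a ha => by
  obtain ⟨h1, h2⟩ := mem_tUnits.mp ha
  exact mem_tUnits.mpr ⟨h1, fun P hP => h2 P fun hS => hP (h hS)⟩

lemma embUx_mem_unitsF {T : Set (PK K)} {a : GM} (ha : a ∈ tUnits K T) {P : PK K} (hP : P ∉ T) :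
    embUx (qOf P) (gOf P) a ∈ unitsF (locK P) := by
  rw [mem_unitsF]
  exact ⟨emb_mem_locField (val_mem_of_mem_starK K (tUnits_le K _ ha)),
    (norm_embUx_eq_one (tUnits_le K _ ha)).mpr ((mem_tUnits.mp ha).2 P hP)⟩

end

variable (hζ : IsPrimitiveRoot ζ p) (hζK : ζ ∈ K)

include hζ hζK

lemma pTors_tUnits (T : Set (PK K)) : pTors p (tUnits K T) = p := by
  have hz : zetaUx hζ ∈ tUnits K T := by
    refine mem_tUnits.mpr ⟨zetaUx_mem_starK hζ hζK, fun P _ => ?_⟩
    rw [← norm_embUx_eq_one (zetaUx_mem_starK hζ hζK)]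
    exact norm_eq_one_of_pow_eq_one hp.out.ne_zero (by
      rw [val_embUx, ← map_pow, Ux.val_mk, hζ.pow_eq_one, map_one])
  have e : tUnits K T ⊓ (nsmulAddMonoidHom p : GM →+ GM).ker =
      AddSubgroup.zmultiples (zetaUx hζ) := by
    refine le_antisymm (fun x hx => ?_) (AddSubgroup.zmultiples_le.mpr ⟨hz, nsmul_zetaUx hζ⟩)
    obtain ⟨i, -, rfl⟩ := exists_nsmul_root hζ (show p • x = 0 from hx.2)
    exact nsmul_mem (AddSubgroup.mem_zmultiples _) i
  rw [pTors, e, Nat.card_zmultiples]
  exact addOrderOf_eq_prime (nsmul_zetaUx hζ) fun h => hζ.ne_one hp.out.one_lt (congrArg Ux.val h)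

/-- The index of `p`-th powers of `T`-units. -/
lemma pIndex_tUnits_eq (T : Finset (PK K)) :
    ((tUnits K (T : Set (PK K))).map (nsmulAddMonoidHom p)).relIndex (tUnits K (T : Set (PK K))) =
      p ^ (NumberField.Units.rank K + T.card + 1) := by
  have h := pIndex_tUnits K p T
  rw [pTors_tUnits hζ hζK, ← pow_succ] at h
  exact h

/-- The units that are `p`-th powers at a set of primes. -/
def kerW (p : ℕ) (T W : Finset (PK K)) : AddSubgroup GM :=
  tUnits K (T : Set (PK K)) ⊓ ⨅ P ∈ W, ((unitsF (locK P)).map (nsmulAddMonoidHom p)).comap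
    (embUx (qOf P) (gOf P))

omit hp hζ hζK in
/-- Membership in the local-power kernel. -/
lemma mem_kerW {T W : Finset (PK K)} {a : GM} :
    a ∈ kerW p T W ↔ a ∈ tUnits K (T : Set (PK K)) ∧
      ∀ P ∈ W, embUx (qOf P) (gOf P) a ∈ (unitsF (locK P)).map (nsmulAddMonoidHom p) := by
  simp only [kerW, AddSubgroup.mem_inf, AddSubgroup.mem_iInf, AddSubgroup.mem_comap]

variable {T : Finset (PK K)} {W : Finset (PK K)}

/-- Adding a prime where a unit is not a power divides the index by `p`. -/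
lemma relIndex_kerW_insert {P : PK K} (hPT : P ∉ T) (hPp : qOf P ≠ p) {u : GM}
    (hu : u ∈ kerW p T W)
    (hnot : embUx (qOf P) (gOf P) u ∉ (starF (locK P)).map (nsmulAddMonoidHom p)) :
    (kerW p T (insert P W)).relIndex (kerW p T W) = p := by
  set f := embUx (qOf P) (gOf P)
  set C := (unitsF (locK P)).map (nsmulAddMonoidHom p)
  have e : kerW p T (insert P W) = C.comap f ⊓ kerW p T W := by
    ext a
    simp only [AddSubgroup.mem_inf, AddSubgroup.mem_comap, mem_kerW, Finset.forall_mem_insert, C, f]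
    tauto
  rw [e, AddSubgroup.inf_relIndex_right, AddSubgroup.relIndex_comap,
    ← AddSubgroup.relIndex_sup_left]
  have hle : (kerW p T W).map f ≤ unitsF (locK P) := by
    rintro _ ⟨a, ha, rfl⟩
    exact embUx_mem_unitsF (mem_kerW.mp ha).1 (by exact_mod_cast hPT)
  have hCle : C ≤ unitsF (locK P) := by
    rintro _ ⟨a, ha, rfl⟩
    exact nsmul_mem ha p
  have h := AddSubgroup.relIndex_mul_relIndex C (C ⊔ (kerW p T W).map f)
    (unitsF (locK P)) le_sup_left
    (sup_le hCle hle)
  rw [show C.relIndex (unitsF (locK P)) = p from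
    relIndex_pth_unitsF_eq (emb_primitive hζ) (emb_mem_locField hζK) hPp.symm] at h
  rcases hp.out.eq_one_or_self_of_dvd _ ⟨_, h.symm⟩ with h1 | h1
  · refine absurd ?_ hnot
    exact AddSubgroup.map_mono inf_le_left ((le_sup_right.trans (AddSubgroup.relIndex_eq_one.mp h1))
      (AddSubgroup.mem_map_of_mem f hu))
  · exact h1

/-- The units reach every class of units at the auxiliary primes. -/
lemma exists_sub_mem_pUnitB (hWT : ∀ P ∈ W, P ∉ T) (hWp : ∀ P ∈ W, qOf P ≠ p)
    (hker : (kerW p T W).relIndex (tUnits K (T : Set (PK K))) = p ^ W.card)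
    {x : AmbK W} (hx : x ∈ unitB W) :
    ∃ u ∈ tUnits K (T : Set (PK K)), x - diagK W u ∈ pUnitB p W := by
  set U := tUnits K (T : Set (PK K))
  set I := U.map (diagK W)
  have hI : I ≤ unitB W := by
    rintro _ ⟨a, ha, rfl⟩ P _
    exact embUx_mem_unitsF ha (by exact_mod_cast hWT P.1 P.2)
  have hC : pUnitB p W ≤ unitB W := fun y hy P _ => by
    obtain ⟨a, ha, hay⟩ := hy P trivial
    rw [← hay]
    exact nsmul_mem ha p
  have h1 : (pUnitB p W).relIndex (unitB W) = p ^ W.card := by
    rw [pUnitB, unitB, relIndex_pi, Finset.prod_congr rfl fun (P : W) _ =>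
      relIndex_pth_unitsF_eq (emb_primitive hζ) (emb_mem_locField hζK) (hWp P.1 P.2).symm,
      Finset.prod_const, Finset.card_univ, Fintype.card_coe]
  have h2 : (pUnitB p W).relIndex (pUnitB p W ⊔ I) = p ^ W.card := by
    rw [AddSubgroup.relIndex_sup_left, ← AddSubgroup.relIndex_comap,
      ← AddSubgroup.inf_relIndex_right]
    rw [← hker]
    congr 1
    ext a
    simp only [AddSubgroup.mem_inf, AddSubgroup.mem_comap, mem_kerW, pUnitB, AddSubgroup.mem_pi,
      Set.mem_univ, true_imp_iff, diagK_apply, Subtype.forall]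
    tauto
  have h3 := AddSubgroup.relIndex_mul_relIndex (pUnitB p W) (pUnitB p W ⊔ I) (unitB W) le_sup_left
    (sup_le hC hI)
  rw [h1, h2] at h3
  have h4 :=
    AddSubgroup.relIndex_eq_one.mp ((Nat.mul_eq_left (pow_ne_zero _ hp.out.ne_zero)).mp h3) hx
  obtain ⟨c, hc, _, ⟨u, hu, rfl⟩, hsum⟩ := AddSubgroup.mem_sup.mp h4
  exact ⟨u, hu, by rw [← hsum, add_sub_cancel_right]; exact hc⟩

end Units

variable (χ : CycChar (galLevels ℚ Qbar) K.fixingSubgroup p)

/-- The local norms at a prime. -/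
abbrev normP (P : PK K) : AddSubgroup (MM (qOf P)) :=
  (semi (charP χ P)).map (∑ j, Pi.evalAddMonoidHom (fun _ : ZMod p => MM (qOf P)) j)

/-- The product of the local norms. -/
def normB (T : Finset (PK K)) : AddSubgroup (AmbK T) :=
  AddSubgroup.pi Set.univ fun P : T => normP χ P.1

lemma map_nsmul_le_normP (P : PK K) :
    (starF (locK P)).map (nsmulAddMonoidHom p) ≤ normP χ P := by
  rintro _ ⟨y, hy, rfl⟩
  refine ⟨fun _ => y, (const_mem_semi_iff _).mpr hy, ?_⟩
  simp [AddMonoidHom.finsetSum_apply]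

/-- Where the character is trivial every element is a norm. -/
lemma starF_le_normP {P : PK K} (h : ∀ d ∈ (locK P).fixingSubgroup, charP χ P d = 0) :
    starF (locK P) ≤ normP χ P := fun y hy => by
  refine ⟨Pi.single 0 y,
    (mem_semi_split _ h).mpr fun i => ?_, by simp [AddMonoidHom.finsetSum_apply]⟩
  by_cases hi : i = 0
  · rw [hi, Pi.single_eq_same]; exact hy
  · rw [Pi.single_eq_of_ne hi]; exact zero_mem _

variable {σ : GQ} (hσ : σ ∈ K.fixingSubgroup) (hσ1 : χ σ = 1)

include hσ hσ1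

/-- The index of norms and units is bounded by that in the base. -/
lemma normClassIdx_le {T : Finset (PK K)} (hT : GoodSet χ T)
    (h0 : (normB χ T ⊔ (tUnits K (T : Set (PK K))).map (diagK T)).relIndex (locB T) ≠ 0) :
    normClassIdx χ σ T ≤ (normB χ T ⊔ (tUnits K (T : Set (PK K))).map (diagK T)).relIndex
      (locB T) := by
  set A := semiT χ T
  set DA := diffEnd (shiftT p T)
  set NA := traceEnd (shiftT p T) p
  set UA := diagUnits χ σ T
  set I := normB χ T ⊔ (tUnits K (T : Set (PK K))).map (diagK T)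
  have hI : I.map (constT p T) ≤ A.map NA ⊔ UA := by
    rw [AddSubgroup.map_sup, sup_le_iff]
    constructor
    · rintro _ ⟨x, hx, rfl⟩
      choose φ hφ hφx using fun P : T => hx P trivial
      refine AddSubgroup.mem_sup_left ⟨fun P => φ P, fun P _ => hφ P,
        funext fun P => funext fun i => ?_⟩
      show traceEnd (shiftT p T) p (fun P => φ P) P i = x P
      rw [traceEnd_shiftT, piEnd_apply, traceEnd_shift, ← hφx P, AddMonoidHom.finsetSum_apply]
      rfl
    · rintro _ ⟨_, ⟨a, ha, rfl⟩, rfl⟩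
      refine AddSubgroup.mem_sup_right ⟨a, tUnits_le_unitsL χ hσ hσ1 ha,
        funext fun P => funext fun i => ?_⟩
      show diagAt σ (qOf P.1) (gOf P.1) a i = diagK T a P
      rw [diagAt_apply, ← embUx_smul, (tUnits_le K _ ha) _ (pow_mem hσ _)]
      rfl
  have hX : A ⊓ UA.comap DA ≤ (locB T).map (constT p T) ⊔ UA := by
    rintro x ⟨hx, hxu⟩
    obtain ⟨u, hu, hux⟩ := hxu
    have hd : diagT (p := p) σ T u = DA x := hux
    have hu' := ((mem_tUnits_extField χ hσ hσ1).mp hu).1
    -- the trace of `u` vanishes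
    have htr : traceEnd (shiftT p T) p (DA x) = 0 := by
      rw [traceEnd_diffEnd,
        show (shiftT p T)^[p] x = x from funext fun P => by rw [iterate_shiftT, shift_period],
        sub_self]
    obtain ⟨P₀, hP₀⟩ := hT.nonempty
    have hn : traceEnd (actG σ) p u = 0 := by
      rw [← hd, ← diagT_trace χ hσ hσ1 hu'] at htr
      refine embUx_injective (q := qOf P₀) (gOf P₀ * σ ^ (0 : ZMod p).val) ?_
      rw [map_zero]
      exact congrFun (congrFun htr ⟨P₀, hP₀⟩) 0
    obtain ⟨b, hb, hbu⟩ := AddSubgroup.relIndex_eq_one.mp (hIdx_unitsL_swap χ hσ hσ1 hT)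
      (show u ∈ unitsL χ σ T ⊓ (traceEnd (actG σ) p).ker from ⟨hu, hn⟩)
    have hb' := ((mem_tUnits_extField χ hσ hσ1).mp hb).1
    have hd0 : DA (x - diagT σ T b) = 0 := by
      rw [map_sub, ← diagT_diff χ hσ hσ1 hb', hbu, hd, sub_self]
    rw [← sub_add_cancel x (diagT σ T b)]
    refine AddSubgroup.add_mem_sup ?_ ⟨b, hb, rfl⟩
    have hxb : x - diagT σ T b ∈ A := A.sub_mem hx (diagT_mem_semiT χ hσ hσ1 hb')
    have hP : ∀ P : T, (x - diagT σ T b : AmbT p T) P ∈ (starF (locK P.1)).map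
        (Pi.constAddMonoidHom (ZMod p) (MM (qOf P.1))) := fun P => by
      rw [← semi_inf_ker_diff (charP χ P.1)]
      exact ⟨hxb P trivial, congrFun hd0 P⟩
    choose y hy hyx using hP
    exact ⟨fun P => y P, fun P _ => hy P, funext fun P => hyx P⟩
  have h1 : I.relIndex (locB T) = (I.map (constT p T)).relIndex ((locB T).map (constT p T)) :=
    (AddSubgroup.relIndex_map_map_of_injective _ _ (constT_injective T)).symm
  have h2 := AddSubgroup.relIndex_dvd_of_le_left ((locB T).map (constT p T)) hI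
  rw [← h1] at h2
  have h3 : (A.map NA ⊔ UA).relIndex ((locB T).map (constT p T) ⊔ UA) =
      (A.map NA ⊔ UA).relIndex ((locB T).map (constT p T)) := by
    rw [← AddSubgroup.relIndex_sup_left (K := A.map NA ⊔ UA) (H := (locB T).map (constT p T)),
      ← AddSubgroup.relIndex_sup_left (K := A.map NA ⊔ UA) (H := (locB T).map (constT p T) ⊔ UA)]
    congr 1
    rw [sup_assoc, sup_comm ((locB T).map (constT p T)) UA, sup_left_idem, ← sup_assoc]
  exact (AddSubgroup.relIndex_le_of_le_right hX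
    (by rw [h3]; exact ne_zero_of_dvd_ne_zero h0 h2)).trans
    (by rw [h3]; exact Nat.le_of_dvd (Nat.pos_of_ne_zero h0) h2)

omit hσ hσ1 in
/-- A unit that is a power at the given primes is a power. -/
theorem mem_pth_of_local [NumberField.IsTotallyComplex K] (hζ : IsPrimitiveRoot ζ p) (hζK : ζ ∈ K)
    {T W : Finset (PK K)} (hne : T.Nonempty) (hgen : PrincipalOutside T)
    (hTp : ∀ P ∉ T, qOf P ≠ p) (hWT : ∀ P ∈ W, P ∉ T)
    (hker : (kerW p T W).relIndex (tUnits K (T : Set (PK K))) = p ^ W.card)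
    {b : GM} (hb : b ∈ tUnits K ((T ∪ W : Finset (PK K)) : Set (PK K)))
    (hloc : ∀ P ∈ T, embUx (qOf P) (gOf P) b ∈ (starF (locK P)).map (nsmulAddMonoidHom p)) :
    b ∈ (tUnits K ((T ∪ W : Finset (PK K)) : Set (PK K))).map (nsmulAddMonoidHom p) := by
  set T' := T ∪ W
  obtain ⟨z, hz⟩ := IsAlgClosed.exists_pow_nat_eq b.val hp.out.pos
  have hz0 : z ≠ 0 := fun h => b.val_ne_zero (by rw [← hz, h, zero_pow hp.out.ne_zero])
  set y : GM := Ux.mk z hz0
  have hy : p • y = b := Ux.ext (by rw [Ux.val_nsmul, Ux.val_mk, hz])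
  by_contra hnot
  have hyK : p • y ∈ starK K := hy ▸ tUnits_le K _ hb
  set χ' := kumChar hζ (smul_zetaUx hζ hζK) y hyK
  have hk : IsKummer hζ χ' y := isKummer_kumChar hζ _ y hyK
  -- the character is non trivial
  obtain ⟨σ', hσ', hσ'1⟩ : ∃ σ' ∈ K.fixingSubgroup, χ' σ' = 1 := by
    by_cases h : ∀ g ∈ K.fixingSubgroup, χ' g = 0
    · refine absurd ⟨y,
        mem_tUnits_of_nsmul (p := p) (fun g hg => (hk.eq_zero_iff hζ hg).mp (h g hg))
          (by rwa [hy]), hy⟩ hnot
    · push Not at h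
      obtain ⟨d, hd, hne'⟩ := h
      exact ⟨d ^ (χ' d)⁻¹.val, pow_mem hd _, by
        rw [χ'.map_pow hd, ZMod.natCast_zmod_val, inv_mul_cancel₀ hne']⟩
  have hgood : GoodSet χ' T' := by
    refine ⟨hne.mono Finset.subset_union_left, fun P hP => ?_, fun P hP => ?_⟩
    · obtain ⟨c, hc, hc0, h1, h2⟩ := hgen P fun h => hP (Finset.mem_union_left _ h)
      exact ⟨c, hc, hc0, h1, fun P' hP' => h2 P' fun h => hP' (Finset.mem_union_left _ h)⟩
    · refine hk.unramAt hζ hζK (hTp P fun h => hP (Finset.mem_union_left _ h)) ?_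
      rw [hy]
      exact (mem_tUnits.mp hb).2 P (by exact_mod_cast hP)
  obtain ⟨h1, h2⟩ := normClassIdx_eq χ' hσ' hσ'1 hgood
  have hone : (normB χ' T' ⊔ (tUnits K (T' : Set (PK K))).map (diagK T')).relIndex
      (locB T') = 1 := by
    rw [AddSubgroup.relIndex_eq_one]
    intro x hx
    -- make the entries at the auxiliary primes units
    let n : PK K → ℤ := fun P =>
      if h : P ∈ W then ord (locK P) (x ⟨P, Finset.mem_union_right _ h⟩).val else 0
    obtain ⟨c, hc, hcn⟩ := hgen.exists_ord_eq n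
      ((W.finite_toSet).subset fun P hP => by
        by_contra h
        exact hP (dif_neg h))
    have hcU : c ∈ tUnits K (T' : Set (PK K)) := mem_tUnits.mpr ⟨hc, fun P hP => by
      have hP' : P ∉ T' := fun h => hP (by exact_mod_cast h)
      rw [hcn P fun h => hP' (Finset.mem_union_left _ h)]
      exact dif_neg fun h => hP' (Finset.mem_union_right _ h)⟩
    set x₁ : AmbK W := fun P => x ⟨P.1, Finset.mem_union_right _ P.2⟩ - embUx (qOf P.1) (gOf P.1) c
    have hx₁ : x₁ ∈ unitB W := fun P _ => by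
      have hxm := mem_fixedUx_fixingSubgroup.mp (hx ⟨P.1, Finset.mem_union_right _ P.2⟩ trivial)
      have hcm := val_mem_of_mem_starK K hc
      show x₁ P ∈ unitsF (locK P.1)
      rw [mem_unitsF]
      refine ⟨?_, ?_⟩
      · rw [Ux.val_sub]; exact div_mem hxm (emb_mem_locField hcm)
      · rw [Ux.val_sub, norm_div, val_embUx,
          norm_eq_zpow_ord (locK P.1) hxm (Ux.val_ne_zero _),
          norm_eq_zpow_ord (locK P.1) (emb_mem_locField hcm)
            ((_root_.map_ne_zero _).mpr c.val_ne_zero),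
          (isPoint_gOf P.1).ord_eq hcm c.val_ne_zero, hcn P.1 (hWT P.1 P.2)]
        simp only [n, dif_pos P.2]
        exact div_self (zpow_ne_zero _ (norm_unif_pos _).ne')
    obtain ⟨u, hu, hxu⟩ := exists_sub_mem_pUnitB hζ hζK hWT (fun P hP => hTp P (hWT P hP)) hker hx₁
    rw [← sub_add_cancel x (diagK T' (c + u))]
    refine AddSubgroup.add_mem_sup (fun P _ => ?_)
      ⟨c + u, add_mem hcU (tUnits_mono (Finset.coe_subset.mpr Finset.subset_union_left) hu), rfl⟩
    show x P - embUx (qOf P.1) (gOf P.1) (c + u) ∈ normP χ' P.1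
    by_cases hPW : P.1 ∈ W
    · refine map_nsmul_le_normP χ' P.1 ?_
      have h := hxu ⟨P.1, hPW⟩ trivial
      rw [map_add, ← sub_sub]
      exact AddSubgroup.map_mono inf_le_left h
    · have hPT : P.1 ∈ T := (Finset.mem_union.mp P.2).resolve_right hPW
      refine starF_le_normP χ' ((hk.split_iff hζ hζK).mpr (by rw [hy]; exact hloc P.1 hPT)) ?_
      exact sub_mem (hx P trivial) (embUx_mem_starF (add_mem hc (tUnits_le K _ hu)))
  have h3 := normClassIdx_le χ' hσ' hσ'1 hgood (by rw [hone]; exact one_ne_zero)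
  rw [hone, h1] at h3
  have h4 : 1 ≤ normOneIdx χ' σ' T' := Nat.one_le_iff_ne_zero.mpr fun h =>
    h2 (by rw [h1, h, mul_zero])
  have := hp.out.two_le
  nlinarith

omit hσ hσ1 in
/-- Auxiliary primes. -/
theorem exists_aux (hζ : IsPrimitiveRoot ζ p) (hζK : ζ ∈ K) (hσ : σ ∈ K.fixingSubgroup)
    (hσ1 : χ σ = 1)
    {T : Finset (PK K)} (hTp : ∀ P ∉ T, qOf P ≠ p) {y : GM} (hy : IsKummer hζ χ y)
    (hyT : p • y ∈ tUnits K (T : Set (PK K))) (k : ℕ) (hk : k ≤ NumberField.Units.rank K + T.card) :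
    ∃ W : Finset (PK K), W.card = k ∧ (∀ P ∈ W, P ∉ T) ∧
      (∀ P ∈ W, ∀ d ∈ (locK P).fixingSubgroup, charP χ P d = 0) ∧
      (kerW p T W).relIndex (tUnits K (T : Set (PK K))) = p ^ k := by
  induction k with
  | zero =>
    refine ⟨∅, rfl, by simp, by simp, ?_⟩
    rw [pow_zero, AddSubgroup.relIndex_eq_one]
    exact fun a ha => mem_kerW.mpr ⟨ha, by simp⟩
  | succ k ih =>
    obtain ⟨W, hWc, hWT, hWs, hWk⟩ := ih (by omega)
    set U := tUnits K (T : Set (PK K))
    set α := p • y
    set L := U.map (nsmulAddMonoidHom p) ⊔ AddSubgroup.zmultiples α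
    have hα : α ∉ U.map (nsmulAddMonoidHom p) := fun h => hy.not_mem hζ hζK hσ hσ1
      (AddSubgroup.map_mono (tUnits_le K _) h)
    have hLU : L ≤ U := sup_le (by rintro _ ⟨a, ha, rfl⟩; exact nsmul_mem ha p)
      (AddSubgroup.zmultiples_le.mpr hyT)
    have hLi : L.relIndex U = p ^ (NumberField.Units.rank K + T.card) := by
      have h := AddSubgroup.relIndex_mul_relIndex (U.map (nsmulAddMonoidHom p)) L U
        (le_sup_left (a := U.map (nsmulAddMonoidHom p)) (b := AddSubgroup.zmultiples α)) hLU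
      have e1 : (U.map (nsmulAddMonoidHom p)).relIndex (AddSubgroup.zmultiples α) = p :=
        relIndex_zmultiples_eq_prime (AddSubgroup.mem_map_of_mem _ hyT) hα
      have e2 : (U.map (nsmulAddMonoidHom p)).relIndex U =
          p ^ (NumberField.Units.rank K + T.card + 1) := pIndex_tUnits_eq hζ hζK T
      rw [AddSubgroup.relIndex_sup_left, e1, e2, pow_succ'] at h
      exact Nat.eq_of_mul_eq_mul_left hp.out.pos h
    obtain ⟨u, hu, huL⟩ : ∃ u ∈ kerW p T W, u ∉ L := by
      by_contra hno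
      push Not at hno
      have h := AddSubgroup.relIndex_mul_relIndex (kerW p T W) L U hno hLU
      rw [hWk, hLi] at h
      have h' := Nat.le_of_dvd (pow_pos hp.out.pos k) ⟨_, ((mul_comm _ _).trans h).symm⟩
      have := (Nat.pow_le_pow_iff_right hp.out.one_lt).mp h'
      omega
    obtain ⟨z, hz⟩ := IsAlgClosed.exists_pow_nat_eq u.val hp.out.pos
    have hz0 : z ≠ 0 := fun h => u.val_ne_zero (by rw [← hz, h, zero_pow hp.out.ne_zero])
    set y' : GM := Ux.mk z hz0
    have hy' : p • y' = u := Ux.ext (by rw [Ux.val_nsmul, Ux.val_mk, hz])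
    have huU := (mem_kerW.mp hu).1
    obtain ⟨g, hg, hgy, hgy'⟩ := hy.exists_move hζ hσ hσ1 (y' := y')
      (by rw [hy']; exact tUnits_le K _ huU) (by
      rintro i ⟨c, hc, hci⟩
      rw [hy'] at hci
      refine huL ?_
      have hci' : p • c = u - i • α := hci
      have hcU : c ∈ U := mem_tUnits_of_nsmul (p := p) hc (by
        rw [hci']; exact sub_mem huU (zsmul_mem hyT i))
      rw [← sub_add_cancel u (i • α)]
      exact AddSubgroup.add_mem_sup ⟨c, hcU, hci⟩ (zsmul_mem (AddSubgroup.mem_zmultiples α) i))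
    obtain ⟨P, hP, hPy, hPy'⟩ := exists_prime_separating hζ hζK (hy.nsmul_mem hζ)
      (hy' ▸ tUnits_le K _ huU) hg hgy hgy' (S := T) fun P hP =>
      ⟨hTp P hP, (mem_tUnits.mp hyT).2 P (by exact_mod_cast hP), by
        rw [hy']; exact (mem_tUnits.mp huU).2 P (by exact_mod_cast hP)⟩
    rw [hy'] at hPy'
    have hPW : P ∉ W := fun h => hPy' (AddSubgroup.map_mono inf_le_left ((mem_kerW.mp hu).2 P h))
    refine ⟨insert P W, by rw [Finset.card_insert_of_notMem hPW, hWc],
      fun P' hP' => (Finset.mem_insert.mp hP').elim (fun e => e ▸ hP) (hWT P'),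
      fun P' hP' => (Finset.mem_insert.mp hP').elim
        (fun e => by subst e; exact (hy.split_iff hζ hζK).mpr hPy) (hWs P'), ?_⟩
    rw [← AddSubgroup.relIndex_mul_relIndex (kerW p T (insert P W)) (kerW p T W) U
      (fun a ha => mem_kerW.mpr ⟨(mem_kerW.mp ha).1, fun P' hP' =>
        (mem_kerW.mp ha).2 P' (Finset.mem_insert_of_mem hP')⟩)
      (fun a ha => (mem_kerW.mp ha).1),
      relIndex_kerW_insert hζ hζK hP (hTp P hP) hu hPy', hWk, ← pow_succ']

/-- Units reach a subgroup of index dividing `p` in the classes modulo norms. -/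
theorem exists_units_relIndex_dvd [NumberField.IsTotallyComplex K] (hζ : IsPrimitiveRoot ζ p)
    (hζK : ζ ∈ K) {T : Finset (PK K)} (hT : GoodSet χ T) (hTp : ∀ P ∉ T, qOf P ≠ p) :
    ∃ T' : Finset (PK K), T ⊆ T' ∧ GoodSet χ T' ∧
      (normB χ T' ⊔ (tUnits K (T' : Set (PK K))).map (diagK T')).relIndex (locB T') ∣ p := by
  obtain ⟨y, hy, hyT⟩ := exists_isKummer_tUnit hζ hζK hσ hσ1 hT
  obtain ⟨W, hWc, hWT, hWs, hWk⟩ := exists_aux χ hζ hζK hσ hσ1 hTp hy hyT _ le_rfl
  set T' := T ∪ W
  have hTT : T ⊆ T' := Finset.subset_union_left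
  refine ⟨T', hTT, hT.mono χ hTT, ?_⟩
  set U' := tUnits K (T' : Set (PK K))
  set J : AddSubgroup (AmbK T') := AddSubgroup.pi Set.univ fun P : T' =>
    if P.1 ∈ W then starF (locK P.1) else (starF (locK P.1)).map (nsmulAddMonoidHom p)
  have hJN : J ≤ normB χ T' := fun x hx P _ => by
    have h := hx P trivial
    simp only at h
    split_ifs at h with hPW
    · exact starF_le_normP χ (hWs P.1 hPW) h
    · exact map_nsmul_le_normP χ P.1 h
  have hJB : J ≤ locB T' := fun x hx P _ => by
    have h := hx P trivial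
    simp only at h
    split_ifs at h with hPW
    · exact h
    · obtain ⟨c, hc, hcx⟩ := h
      rw [← hcx]; exact nsmul_mem hc p
  have hdisj : Disjoint T W := Finset.disjoint_right.mpr hWT
  have hJ1 : J.relIndex (locB T') = p ^ (2 * T.card + Module.finrank ℚ K) := by
    rw [locB, relIndex_pi, Finset.prod_coe_sort T' fun P =>
      (if P ∈ W then starF (locK P) else (starF (locK P)).map (nsmulAddMonoidHom p)).relIndex
        (starF (locK P)), Finset.prod_union hdisj,
      Finset.prod_congr rfl (fun P hP => show _ = p ^ 2 * pIdx (locK P) p by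
        rw [if_neg fun h => hWT P h hP,
          relIndex_pth_starF_eq (emb_primitive hζ) (emb_mem_locField hζK)]),
      Finset.prod_eq_one (s := W) (fun P hP => by rw [if_pos hP, AddSubgroup.relIndex_self]),
      mul_one, Finset.prod_mul_distrib, Finset.prod_const, prod_pIdx hTp, ← pow_mul, ← pow_add]
  have hJ2 : J.relIndex (J ⊔ U'.map (diagK T')) =
      p ^ (NumberField.Units.rank K + T'.card + 1) := by
    rw [AddSubgroup.relIndex_sup_left, ← AddSubgroup.relIndex_comap,
      ← AddSubgroup.inf_relIndex_right,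
      ← pIndex_tUnits_eq hζ hζK]
    congr 1
    refine le_antisymm (fun b hb => ?_) ?_
    · refine mem_pth_of_local hζ hζK hT.nonempty hT.gen hTp hWT
        (by rw [hWk, hWc]) hb.2 fun P hP => ?_
      have h := hb.1 ⟨P, hTT hP⟩ trivial
      simp only [diagK_apply, if_neg fun h => hWT P h hP] at h
      exact h
    · rintro _ ⟨c, hc, rfl⟩
      refine ⟨fun P _ => ?_, nsmul_mem hc p⟩
      simp only [diagK_apply]
      split_ifs
      · exact embUx_mem_starF (nsmul_mem (tUnits_le K _ hc) p)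
      · exact ⟨_, embUx_mem_starF (tUnits_le K _ hc), (map_nsmul _ _ _).symm⟩
  have hUB : U'.map (diagK T') ≤ locB T' := by
    rintro _ ⟨a, ha, rfl⟩ P _
    exact embUx_mem_starF (tUnits_le K _ ha)
  have h := AddSubgroup.relIndex_mul_relIndex J (J ⊔ U'.map (diagK T')) (locB T') le_sup_left
    (sup_le hJB hUB)
  rw [hJ1, hJ2] at h
  have hcard : T'.card = T.card + W.card := Finset.card_union_of_disjoint hdisj
  have e : 2 * T.card + Module.finrank ℚ K = (NumberField.Units.rank K + T'.card + 1) + 1 := by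
    rw [hcard, hWc, finrank_eq_rank]; ring
  rw [e, pow_succ p (NumberField.Units.rank K + T'.card + 1)] at h
  have hidx := Nat.eq_of_mul_eq_mul_left (pow_pos hp.out.pos _) h
  have hdvd := AddSubgroup.relIndex_dvd_of_le_left (locB T')
    (sup_le_sup_right hJN (U'.map (diagK T')))
  rwa [hidx] at hdvd

/-- The second inequality, after enlarging the set of primes. -/
theorem exists_normClassIdx_le [NumberField.IsTotallyComplex K] (hζ : IsPrimitiveRoot ζ p)
    (hζK : ζ ∈ K) {T : Finset (PK K)} (hT : GoodSet χ T) (hTp : ∀ P ∉ T, qOf P ≠ p) :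
    ∃ T' : Finset (PK K), T ⊆ T' ∧ GoodSet χ T' ∧ normClassIdx χ σ T' ≤ p := by
  obtain ⟨T', hTT, hT', hdvd⟩ := exists_units_relIndex_dvd χ hσ hσ1 hζ hζK hT hTp
  exact ⟨T', hTT, hT',
    (normClassIdx_le χ hσ hσ1 hT' (ne_zero_of_dvd_ne_zero hp.out.ne_zero hdvd)).trans
    (Nat.le_of_dvd hp.out.pos hdvd)⟩

omit hσ hσ1 in
/-- A suitable finite set of primes. -/
lemma exists_goodSet (hζ : IsPrimitiveRoot ζ p) (hζK : ζ ∈ K) (hσ : σ ∈ K.fixingSubgroup)
    (hσ1 : χ σ = 1) (S : Finset (PK K)) :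
    ∃ T : Finset (PK K), S ⊆ T ∧ GoodSet χ T ∧ ∀ P ∉ T, qOf P ≠ p := by
  obtain ⟨T₀, hT₀⟩ := exists_generator K
  obtain ⟨y, hy⟩ := exists_isKummer hζ (fixingSubgroup_mem_galLevels K) (smul_zetaUx hζ hζK) hσ hσ1
  have hα := hy.nsmul_mem hζ
  have hp0 : (p : Qbar) ≠ 0 := Nat.cast_ne_zero.mpr hp.out.ne_zero
  have hpK : (p : Qbar) ∈ K := _root_.natCast_mem K p
  set B₁ := (finite_ordP_ne_zero (val_mem_of_mem_starK K hα) (p • y).val_ne_zero).toFinset
  set B₂ := (finite_ordP_ne_zero hpK hp0).toFinset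
  obtain ⟨c₀, hc₀⟩ : ∃ P : PK K, True := ⟨primeAt K p 1, trivial⟩
  set T := insert c₀ (S ∪ T₀ ∪ B₁ ∪ B₂)
  have hTp : ∀ P ∉ T, qOf P ≠ p := fun P hP hq => by
    have hB : P ∉ B₂ := fun h => hP (Finset.mem_insert_of_mem (Finset.mem_union_right _ h))
    simp only [B₂, Set.Finite.mem_toFinset, Set.mem_ofPred_eq, ne_eq, not_not] at hB
    have h1 := ((isPoint_gOf P).norm_eq_one_iff hpK hp0).mpr hB
    rw [map_natCast] at h1
    have h2 : ‖(qOf P : PadicAlgCl (qOf P))‖ = 1 := by
      rw [← h1, show ((qOf P : PadicAlgCl (qOf P))) = (p : PadicAlgCl (qOf P)) by exact_mod_cast hq]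
    exact absurd h2 norm_q_lt_one.ne
  refine ⟨T, fun P hP => Finset.mem_insert_of_mem (Finset.mem_union_left _ (Finset.mem_union_left _
    (Finset.mem_union_left _ hP))), ⟨⟨c₀, Finset.mem_insert_self _ _⟩, fun P hP => ?_,
      fun P hP => ?_⟩, hTp⟩
  · obtain ⟨c, hc, hc0, h1, h2⟩ := hT₀ P fun h => hP (Finset.mem_insert_of_mem
      (Finset.mem_union_left _ (Finset.mem_union_left _ (Finset.mem_union_right _ h))))
    exact ⟨c, hc, hc0, h1, fun P' hP' => h2 P' fun h => hP' (Finset.mem_insert_of_mem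
      (Finset.mem_union_left _ (Finset.mem_union_left _ (Finset.mem_union_right _ h))))⟩
  · refine hy.unramAt hζ hζK (hTp P hP) ?_
    have hB : P ∉ B₁ := fun h =>
      hP (Finset.mem_insert_of_mem (Finset.mem_union_left _ (Finset.mem_union_right _ h)))
    simpa [B₁] using hB

/-- The norm theorem: an element that is a norm at every prime is a norm. -/
theorem exists_norm_of_forall [NumberField.IsTotallyComplex K] (hζ : IsPrimitiveRoot ζ p)
    (hζK : ζ ∈ K) {a : GM} (ha : a ∈ starK K)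
    (hloc : ∀ P : PK K, embUx (qOf P) (gOf P) a ∈ normP χ P) :
    ∃ y ∈ fixedUx χ.ker, cycNorm σ p y = a := by
  obtain ⟨T, hST, hT, hTp⟩ := exists_goodSet χ hζ hζK hσ hσ1
    (finite_ordP_ne_zero (val_mem_of_mem_starK K ha) a.val_ne_zero).toFinset
  obtain ⟨T', hTT, hT', hle⟩ := exists_normClassIdx_le χ hσ hσ1 hζ hζK hT hTp
  refine exists_norm_of_le χ hσ hσ1 hT' hle (mem_tUnits.mpr ⟨ha, fun P hP => ?_⟩) fun P => hloc P.1
  by_contra h
  exact hP (by exact_mod_cast hTT (hST ((Set.Finite.mem_toFinset _).mpr h)))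

omit hσ hσ1 in
/-- Units are local norms at unramified primes. -/
lemma embUx_mem_normP_of_unram {P : PK K} (h : UnramAt χ P) {a : GM} (ha : a ∈ starK K)
    (hord : ordP P a.val = 0) : embUx (qOf P) (gOf P) a ∈ normP χ P :=
  unitsF_le_norms_of_unram (charP χ P) h
    ((mem_unitsF _).mpr ⟨emb_mem_locField (val_mem_of_mem_starK K ha),
      (norm_embUx_eq_one ha).mpr hord⟩)

end FermatAgent.CFT.Global
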