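import Fermat.Agent.CFT.Global.Obstruction
import Fermat.Agent.CFT.Global.Character
import Fermat.Agent.CFT.Global.Kummer
import Fermat.Agent.CFT.Global.SecondInequality
import Fermat.Agent.CFT.Global.DegreeSum

/-!
Duality between divisors away from `S` and everywhere unramified characters split above `S`.

`exists_ord_of_orthogonal`: if `p ∈ S` and a divisor mod `p` supported off `S` is orthogonal to
every character unramified everywhere and split above `S` (`IsSplitChar`), some element of the field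
has the same orders mod `p` off `S`.
On a finite set of primes with principal complement, units (`unitChar`) and local classes modulo
`p`-th powers are paired by `pairU`. The diagonal image is isotropic (`pairU_diagQ_eq_zero`) and of
complementary size (`card_range_pairU_mul_card_range_diagQ`), so linear algebra
(`mem_sup_of_pairing`) finds the element.
-/

set_option autoImplicit false

noncomputable section

open scoped Classical
open IntermediateField

namespace FermatAgent.CFT.Global

open Coh Local GaloisBasic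

section Pairing

variable {p : ℕ} [hp : Fact p.Prime] {A : Type*} [AddCommGroup A]

lemma exists_hom_ne_zero_aux [Module (ZMod p) A] {d : A} (hd : d ≠ 0) :
    ∃ φ : A →+ ZMod p, φ d ≠ 0 := by
  by_contra h
  push Not at h
  exact hd ((Module.forall_dual_apply_eq_zero_iff (ZMod p) d).mp fun φ => h φ.toAddMonoidHom)

/-- Functionals separate the points of a finite elementary group. -/
lemma exists_hom_ne_zero (hA : ∀ a : A, p • a = 0) {d : A} (hd : d ≠ 0) :
    ∃ φ : A →+ ZMod p, φ d ≠ 0 :=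
  @exists_hom_ne_zero_aux p _ A _ (AddCommGroup.zmodModule hA) _ hd

/-- A self-orthogonal image of half size meets every class orthogonal to the relevant part. -/
theorem mem_sup_of_pairing [Finite A] (hA : ∀ a : A, p • a = 0) {U : Type*} [AddCommGroup U]
    (B : U →+ A →+ ZMod p) (x : U →+ A) (hsq : Nat.card B.range * Nat.card x.range = Nat.card A)
    (hiso : ∀ a b, B a (x b) = 0) (Z : AddSubgroup A) {d : A}
    (hd : ∀ a, (∀ z ∈ Z, B a z = 0) → B a d = 0) : d ∈ x.range ⊔ Z := by
  have : Finite (A →+ ZMod p) := Finite.of_injective _ DFunLike.coe_injective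
  set X := x.range
  set S : AddSubgroup (A →+ ZMod p) :=
    (AddMonoidHom.compHom' X.subtype : (A →+ ZMod p) →+ (X →+ ZMod p)).ker
  have hS : ∀ φ : A →+ ZMod p, φ ∈ S ↔ ∀ a ∈ X, φ a = 0 := fun φ => by
    constructor
    · intro h a ha
      exact DFunLike.congr_fun h ⟨a, ha⟩
    · exact fun h => AddMonoidHom.ext fun a => h a.1 a.2
  have hq : ∀ y : A ⧸ X, p • y = 0 := fun y => by
    obtain ⟨a, rfl⟩ := QuotientAddGroup.mk_surjective y
    rw [← QuotientAddGroup.mk_nsmul, hA, QuotientAddGroup.mk_zero]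
  let e : S ≃ (A ⧸ X →+ ZMod p) :=
    { toFun := fun φ => QuotientAddGroup.lift X φ.1 fun a ha => (hS φ.1).mp φ.2 a ha
      invFun := fun ψ => ⟨ψ.comp (QuotientAddGroup.mk' X), (hS _).mpr fun a ha => by
        show ψ (a : A ⧸ X) = 0
        rw [(QuotientAddGroup.eq_zero_iff a).mpr ha, map_zero]⟩
      left_inv := fun φ => Subtype.ext (AddMonoidHom.ext fun a => rfl)
      right_inv := fun ψ => AddMonoidHom.ext fun y => by
        obtain ⟨a, rfl⟩ := QuotientAddGroup.mk_surjective y
        rfl }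
  have hle : B.range ≤ S := by
    rintro _ ⟨a, rfl⟩
    exact (hS _).mpr (by rintro _ ⟨b, rfl⟩; exact hiso a b)
  have hcard : Nat.card S = Nat.card B.range := by
    rw [Nat.card_congr e, card_homZMod hq]
    have h := AddSubgroup.card_eq_card_quotient_mul_card_addSubgroup X
    rw [← hsq] at h
    exact (Nat.eq_of_mul_eq_mul_right Nat.card_pos h).symm
  have heq : B.range = S := AddSubgroup.eq_of_le_of_card_ge hle hcard.le
  by_contra hd'
  have hW : ∀ y : A ⧸ (X ⊔ Z), p • y = 0 := fun y => by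
    obtain ⟨a, rfl⟩ := QuotientAddGroup.mk_surjective y
    rw [← QuotientAddGroup.mk_nsmul, hA, QuotientAddGroup.mk_zero]
  obtain ⟨ψ, hψ⟩ := exists_hom_ne_zero hW (d := (d : A ⧸ (X ⊔ Z)))
    (fun h => hd' ((QuotientAddGroup.eq_zero_iff d).mp h))
  set φ := ψ.comp (QuotientAddGroup.mk' (X ⊔ Z))
  have hφ : ∀ a ∈ X ⊔ Z, φ a = 0 := fun a ha => by
    show ψ (a : A ⧸ (X ⊔ Z)) = 0
    rw [(QuotientAddGroup.eq_zero_iff a).mpr ha, map_zero]
  have hmem : φ ∈ B.range := heq ▸ (hS φ).mpr fun a ha => hφ a (AddSubgroup.mem_sup_left ha)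
  obtain ⟨a, ha⟩ := hmem
  refine hψ ?_
  show φ d = 0
  rw [← ha]
  exact hd a fun z hz => by rw [ha]; exact hφ z (AddSubgroup.mem_sup_right hz)

end Pairing

variable {p : ℕ} [hp : Fact p.Prime] {K : IntermediateField ℚ Qbar} [FiniteDimensional ℚ K]

/-- The residue of the invariant is additive on classes killed by `p`. -/
lemma qzRes_add {x y : QZ} (hx : p • x = 0) (hy : p • y = 0) :
    qzRes p (x + y) = qzRes p x + qzRes p y := by
  obtain ⟨a, rfl⟩ := exists_qz hx
  obtain ⟨b, rfl⟩ := exists_qz hy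
  rw [← qz_add, qzRes_qz, qzRes_qz, qzRes_qz, Int.cast_add]

/-- The residue of zero. -/
lemma qzRes_zero : qzRes p (0 : QZ) = 0 := by
  rw [← qz_zero (m := p), qzRes_qz, Int.cast_zero]

/-- The residue is injective on elements killed by `p`. -/
lemma qzRes_eq_zero_iff {x : QZ} (hx : p • x = 0) : qzRes p x = 0 ↔ x = 0 := by
  have : NeZero p := ⟨hp.out.ne_zero⟩
  obtain ⟨a, rfl⟩ := exists_qz hx
  rw [qzRes_qz, ZMod.intCast_zmod_eq_zero_iff_dvd, qz_eq_zero_iff]

section Loc

variable {q : ℕ} [hq : Fact q.Prime] {F : IntermediateField ℚ_[q] (PadicAlgCl q)}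
  [FiniteDimensional ℚ_[q] F]

/-- Invariants of cyclic classes are killed by the period. -/
lemma nsmul_inv_cyc {n : ℕ} [NeZero n] (χ : CycChar (LL q) F.fixingSubgroup n) {b : MM q}
    (hb : b ∈ starF F) : n • inv F (cyc χ b) = 0 := by
  rw [← inv_nsmul F (cyc_mem_Z2' F χ hb), show n • cyc χ b = cyc χ (n • b) by
    rw [← natCast_zsmul, ← cyc_zsmul, natCast_zsmul]]
  exact inv_cyc_nsmul F χ hb

/-- The functional of a character on classes modulo `p`-th powers. -/
def charFun (χ : CycChar (LL q) F.fixingSubgroup p) : ↥(starF F) →+ ZMod p :=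
  AddMonoidHom.mk' (fun b => qzRes p (inv F (cyc χ b.1))) fun a b => by
    rw [AddSubgroup.coe_add, inv_cyc_add F χ a.2 b.2,
      qzRes_add (nsmul_inv_cyc χ a.2) (nsmul_inv_cyc χ b.2)]

/-- The functional is additive in the character. -/
lemma charFun_add {χ₁ χ₂ χ₃ : CycChar (LL q) F.fixingSubgroup p}
    (h : ∀ d ∈ F.fixingSubgroup, χ₃ d = χ₁ d + χ₂ d) :
    charFun χ₃ = charFun χ₁ + charFun χ₂ := AddMonoidHom.ext fun b => by
  have : NeZero p := ⟨hp.out.ne_zero⟩
  show qzRes p _ = qzRes p _ + qzRes p _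
  rw [← qzRes_add (nsmul_inv_cyc χ₁ b.2) (nsmul_inv_cyc χ₂ b.2),
    ← inv_add F (cyc_mem_Z2' F χ₁ b.2) (cyc_mem_Z2' F χ₂ b.2)]
  congr 1
  refine inv_congr F (add_mem (cyc_mem_Z2' F χ₁ b.2) (cyc_mem_Z2' F χ₂ b.2)) ?_
  refine Levels.B2_congr (cyc_addChar_mem_B2 χ₁ χ₂ b.2) fun g hg k hk => ?_
  simp only [Pi.sub_apply, cyc_apply, CycChar.addChar_apply, h g hg, h k hk]

end Loc

lemma ordUx_zero' {q : ℕ} [Fact q.Prime] (F : IntermediateField ℚ_[q] (PadicAlgCl q))
    [FiniteDimensional ℚ_[q] F] : ordUx F (0 : MM q) = 0 := by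
  simpa using ordUx_zsmul F (zero_mem (starF F)) 0

lemma ordUx_neg' {q : ℕ} [Fact q.Prime] (F : IntermediateField ℚ_[q] (PadicAlgCl q))
    [FiniteDimensional ℚ_[q] F] {a : MM q} (ha : a ∈ starF F) : ordUx F (-a) = -ordUx F a := by
  simpa using ordUx_zsmul F ha (-1)

/-- The prime below, as an element of `Nat.Primes`. -/
def qP (P : PK K) : Nat.Primes := ⟨qOf P, (fact_qOf P).out⟩

/-- A character unramified everywhere and split above `S`. -/
def IsSplitChar (S : Finset Nat.Primes) (α : CycChar LQ K.fixingSubgroup p) : Prop :=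
  ∀ P : PK K, (∃ c, IsUnramWith α P c) ∧ (qP P ∈ S → IsUnramWith α P 0)

/-- A character whose classes vanish on units is unramified. -/
lemma isUnramWith_of_units {n : ℕ} [NeZero n] (hn : n = p ^ 1) (α : CycChar LQ K.fixingSubgroup n)
    {P : PK K}
    (h : ∀ u ∈ starF (locK P), ‖u.val‖ = 1 →
      inv (locK P) (cyc (charAt α (qOf P) (gOf P)) u) = 0) : ∃ c, IsUnramWith α P c := by
  subst hn
  exact exists_unram_of_units (charAt α (qOf P) (gOf P)) h

/-- A character without new absolute values is unramified. -/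
lemma isUnramWith_of_unramAt {α : CycChar LQ K.fixingSubgroup p} {P : PK K}
    (h : UnramAt α P) : ∃ c, IsUnramWith α P c := by
  have : NeZero p := ⟨hp.out.ne_zero⟩
  refine isUnramWith_of_units (pow_one p).symm α fun u hu hu1 => ?_
  have hle := unitsF_le_norms_of_unram (charP α P) h
  have hum : u ∈ unitsF (locK P) := (mem_unitsF _).mpr ⟨mem_fixedUx_fixingSubgroup.mp hu, hu1⟩
  rcases exists_generator_or_trivial (charP α P) with h0 | ⟨s, hs, hs1⟩
  · refine (inv_eq_zero_iff _ (cyc_mem_Z2' _ _ hu)).mpr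
      (Levels.B2_congr (zero_mem _) fun g hg k _ => ?_)
    exact cyc_eq_zero_of_char_eq_zero (charAt α (qOf P) (gOf P)) u (h0 g hg)
  · have hu' := hle hum
    rw [map_sum_semi (charP α P) hs hs1] at hu'
    obtain ⟨a, ha, rfl⟩ := hu'
    exact inv_cyc_cycNorm (locK P) (charAt α (qOf P) (gOf P)) hs hs1 ha

section Duality

variable (p) (T : Finset (PK K))

/-- Local classes modulo `p`-th powers. -/
abbrev locCl (P : PK K) : Type :=
  ↥(starF (locK P)) ⧸
    ((starF (locK P)).map (nsmulAddMonoidHom p)).addSubgroupOf (starF (locK P))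

/-- The product of the local classes. -/
abbrev locPi : Type := ∀ P : T, locCl p P.1

omit hp in
lemma nsmul_locCl {P : PK K} (y : locCl p P) : p • y = 0 := by
  obtain ⟨a, rfl⟩ := QuotientAddGroup.mk_surjective y
  rw [← QuotientAddGroup.mk_nsmul, QuotientAddGroup.eq_zero_iff, AddSubgroup.mem_addSubgroupOf]
  exact ⟨a.1, a.2, by simp⟩

variable (hζK : zet p ∈ K)
include hζK

lemma card_locCl (P : PK K) : Nat.card (locCl p P) = p ^ 2 * pIdx (locK P) p :=
  relIndex_pth_starF_eq (emb_primitive (zet_spec p)) (emb_mem_locField hζK)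

omit hζK in
/-- The diagonal map. -/
def diagQ : ↥(tUnits K (T : Set (PK K))) →+ locPi p T :=
  AddMonoidHom.pi fun P : T => (QuotientAddGroup.mk' _).comp
    (AddMonoidHom.mk' (fun a => ⟨embUx (qOf P.1) (gOf P.1) a.1,
      embUx_mem_starF (tUnits_le K _ a.2)⟩) fun _ _ => Subtype.ext (map_add _ _ _))

/-- The Kummer character of a unit. -/
def unitChar (a : ↥(tUnits K (T : Set (PK K)))) : CycChar LQ K.fixingSubgroup p :=
  kumChar (zet_spec p) (smul_zetaUx _ hζK) (pRoot p a.1)
    (by rw [nsmul_pRoot]; exact tUnits_le K _ a.2)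

lemma isKummer_unitChar (a : ↥(tUnits K (T : Set (PK K)))) :
    IsKummer (zet_spec p) (unitChar p T hζK a) (pRoot p a.1) :=
  isKummer_kumChar _ (smul_zetaUx _ hζK) _ _

lemma unitChar_add (a b : ↥(tUnits K (T : Set (PK K)))) {g : GQ} (hg : g ∈ K.fixingSubgroup) :
    unitChar p T hζK (a + b) g = unitChar p T hζK a g + unitChar p T hζK b g := by
  obtain ⟨i, -, hi⟩ := exists_nsmul_root (zet_spec p)
    (x := pRoot p (a + b : ↥(tUnits K (T : Set (PK K)))).1 - (pRoot p a.1 + pRoot p b.1)) (by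
    rw [nsmul_sub, nsmul_add, nsmul_pRoot, nsmul_pRoot, nsmul_pRoot, AddSubgroup.coe_add, sub_self])
  refine zetaUx_val_injective (zet_spec p) ?_
  rw [val_add_zetaUx, ← isKummer_unitChar p T hζK (a + b) g hg, ← isKummer_unitChar p T hζK a g hg,
    ← isKummer_unitChar p T hζK b g hg, sub_eq_iff_eq_add.mp hi, smul_add, smul_nsmul',
    smul_zetaUx (zet_spec p) hζK hg, smul_add]
  abel

/-- The functional of a unit at a prime. -/
def unitFun (a : ↥(tUnits K (T : Set (PK K)))) (P : PK K) : locCl p P →+ ZMod p :=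
  QuotientAddGroup.lift _ (charFun (charAt (unitChar p T hζK a) (qOf P) (gOf P))) fun b hb => by
    rw [AddSubgroup.mem_addSubgroupOf] at hb
    obtain ⟨c, hc, hcb⟩ := hb
    have : NeZero p := ⟨hp.out.ne_zero⟩
    show qzRes p _ = 0
    rw [← hcb]
    show qzRes p (inv _ (cyc _ (p • c))) = 0
    rw [inv_cyc_nsmul _ _ hc, qzRes_zero]

/-- The pairing of units with the local classes. -/
def pairU : ↥(tUnits K (T : Set (PK K))) →+ locPi p T →+ ZMod p :=
  AddMonoidHom.mk' (fun a => ∑ P : T, (unitFun p T hζK a P.1).comp (Pi.evalAddMonoidHom _ P))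
    fun a b => by
    rw [← Finset.sum_add_distrib]
    refine Finset.sum_congr rfl fun P _ => ?_
    rw [← AddMonoidHom.add_comp]
    congr 1
    refine QuotientAddGroup.addMonoidHom_ext _ (AddMonoidHom.ext fun y => ?_)
    exact DFunLike.congr_fun (charFun_add fun d hd =>
      unitChar_add p T hζK a b (locHom_mem hd)) y

lemma pairU_single (a : ↥(tUnits K (T : Set (PK K)))) (P : T) (b : ↥(starF (locK P.1))) :
    pairU p T hζK a (Pi.single P (QuotientAddGroup.mk b)) =
      qzRes p (inv (locK P.1) (cyc (charAt (unitChar p T hζK a) (qOf P.1) (gOf P.1)) b.1)) := by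
  show (∑ Q : T, (unitFun p T hζK a Q.1).comp (Pi.evalAddMonoidHom _ Q)) _ = _
  rw [AddMonoidHom.finsetSum_apply, Finset.sum_eq_single P (fun Q _ hQ => by
    show unitFun p T hζK a Q.1 ((Pi.single P (QuotientAddGroup.mk b) : locPi p T) Q) = 0
    rw [Pi.single_eq_of_ne hQ, map_zero]) (fun h => absurd (Finset.mem_univ P) h)]
  show unitFun p T hζK a P.1 ((Pi.single P (QuotientAddGroup.mk b) : locPi p T) P) = _
  rw [Pi.single_eq_same]
  rfl

lemma pairU_apply (a : ↥(tUnits K (T : Set (PK K)))) (b : ∀ P : T, ↥(starF (locK P.1))) :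
    pairU p T hζK a (fun P => QuotientAddGroup.mk (b P)) =
      ∑ P : T, qzRes p (inv (locK P.1)
        (cyc (charAt (unitChar p T hζK a) (qOf P.1) (gOf P.1)) (b P).1)) := by
  show (∑ Q : T, (unitFun p T hζK a Q.1).comp (Pi.evalAddMonoidHom _ Q)) _ = _
  rw [AddMonoidHom.finsetSum_apply]
  rfl

variable {p} {T}
variable [NumberField.IsTotallyComplex K]

omit hζK [NumberField.IsTotallyComplex K] in
/-- A set of primes containing those above `S` and a given set, with principal complement. -/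
private lemma exists_prime_set {S : Finset Nat.Primes} (hpS : ExtCitation.pPrime p ∈ S)
    (s : Finset (PK K)) :
    ∃ T : Finset (PK K), (∀ P, qP P ∈ S → P ∈ T) ∧ s ⊆ T ∧ PrincipalOutside T ∧ T.Nonempty ∧
      ∀ P ∉ T, qOf P ≠ p := by
  have hSfin : {P : PK K | qP P ∈ S}.Finite := by
    refine (Set.Finite.biUnion S.finite_toSet fun q _ =>
      @finite_fibre K _ (q : ℕ) ⟨q.2⟩).subset fun P hP => ?_
    exact Set.mem_biUnion hP rfl
  obtain ⟨T₀, hT₀⟩ := exists_generator (K := K)
  obtain ⟨P₀, hP₀⟩ : ∃ P₀ : PK K, qOf P₀ = p :=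
    ⟨primeAt K p 1, ((isPoint_primeAt (K := K) (q := p) (g := 1)).prime_eq (isPoint_gOf _))⟩
  have hST : ∀ P, qP P ∈ S → P ∈ T₀ ∪ s ∪ hSfin.toFinset ∪ {P₀} := fun P hP =>
    Finset.mem_union_left _ (Finset.mem_union_right _ ((Set.Finite.mem_toFinset _).mpr hP))
  refine ⟨T₀ ∪ s ∪ hSfin.toFinset ∪ {P₀}, hST, fun P hP => Finset.mem_union_left _
    (Finset.mem_union_left _ (Finset.mem_union_right _ hP)), fun P hP => ?_,
    ⟨P₀, Finset.mem_union_right _ (Finset.mem_singleton_self _)⟩,
    fun P hP hq => hP (hST P (by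
      convert hpS using 1
      exact Subtype.ext hq))⟩
  obtain ⟨c, hc, hc0, h1, h2⟩ := hT₀ P fun h => hP (Finset.mem_union_left _
    (Finset.mem_union_left _ (Finset.mem_union_left _ h)))
  exact ⟨c, hc, hc0, h1, fun P' hP' => h2 P' fun h => hP' (Finset.mem_union_left _
    (Finset.mem_union_left _ (Finset.mem_union_left _ h)))⟩

section Pairing

variable (hgen : PrincipalOutside T) (hne : T.Nonempty) (hTp : ∀ P ∉ T, qOf P ≠ p)

omit [NumberField.IsTotallyComplex K] in
include hTp in
/-- The character of a unit is unramified away from the set. -/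
private lemma isUnramWith_unitChar (a : ↥(tUnits K (T : Set (PK K)))) {P : PK K} (hP : P ∉ T) :
    ∃ c, IsUnramWith (unitChar p T hζK a) P c :=
  isUnramWith_of_unramAt ((isKummer_unitChar p T hζK a).unramAt (zet_spec p) hζK (hTp P hP)
    (by rw [nsmul_pRoot]; exact (mem_tUnits.mp a.2).2 P (by exact_mod_cast hP)))

include hgen hne hTp in
/-- Units locally `p`-th powers on the set are `p`-th powers, so both maps have that kernel. -/
private lemma ker_diagQ_and_pairU :
    (diagQ p T).ker = ((tUnits K (T : Set (PK K))).map (nsmulAddMonoidHom p)).addSubgroupOf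
        (tUnits K (T : Set (PK K))) ∧
      (pairU p T hζK).ker = ((tUnits K (T : Set (PK K))).map (nsmulAddMonoidHom p)).addSubgroupOf
        (tUnits K (T : Set (PK K))) := by
  have : NeZero p := ⟨hp.out.ne_zero⟩
  set U := tUnits K (T : Set (PK K))
  set pU : AddSubgroup U := (U.map (nsmulAddMonoidHom p)).addSubgroupOf U
  have hlocal : ∀ a : U, (∀ P ∈ T,
      embUx (qOf P) (gOf P) a.1 ∈ (starF (locK P)).map (nsmulAddMonoidHom p)) → a ∈ pU :=
    fun a ha => by
    have h1 := mem_pth_of_local (zet_spec p) hζK (W := ∅) hne hgen hTp (by simp)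
      (by
        rw [Finset.card_empty, pow_zero, AddSubgroup.relIndex_eq_one]
        exact fun b hb => mem_kerW.mpr ⟨hb, by simp⟩)
      (b := a.1) (by rw [Finset.union_empty]; exact a.2) ha
    rw [Finset.union_empty] at h1
    exact AddSubgroup.mem_addSubgroupOf.mpr h1
  refine ⟨le_antisymm (fun a ha => hlocal a fun P hP => ?_) fun a ha => funext fun P => ?_,
    le_antisymm (fun a ha => hlocal a fun P hP => ?_) fun a ha => ?_⟩
  · have h1 := congrFun (ha : diagQ p T a = 0) ⟨P, hP⟩
    exact AddSubgroup.mem_addSubgroupOf.mp ((QuotientAddGroup.eq_zero_iff _).mp h1)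
  · obtain ⟨c, hc, hca⟩ := AddSubgroup.mem_addSubgroupOf.mp ha
    refine (QuotientAddGroup.eq_zero_iff _).mpr (AddSubgroup.mem_addSubgroupOf.mpr ?_)
    exact ⟨embUx (qOf P.1) (gOf P.1) c, embUx_mem_starF (tUnits_le K _ hc), by
      show p • embUx _ _ c = embUx _ _ a.1
      rw [← map_nsmul, show p • c = a.1 from hca]⟩
  · have hz : ∀ b ∈ starF (locK P),
        inv (locK P) (cyc (charAt (unitChar p T hζK a) (qOf P) (gOf P)) b) = 0 := fun b hb => by
      have h1 := DFunLike.congr_fun (ha : pairU p T hζK a = 0)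
        (Pi.single (⟨P, hP⟩ : T) (QuotientAddGroup.mk ⟨b, hb⟩))
      rw [pairU_single] at h1
      exact (qzRes_eq_zero_iff (nsmul_inv_cyc _ hb)).mp h1
    have h2 := eq_zero_of_inv_eq_zero_prime _ hz
    have h3 := ((isKummer_unitChar p T hζK a).split_iff (zet_spec p) hζK (q := qOf P)
      (g := gOf P)).mp h2
    rwa [nsmul_pRoot] at h3
  · obtain ⟨c, hc, hca⟩ := AddSubgroup.mem_addSubgroupOf.mp ha
    have e : a = p • (⟨c, hc⟩ : U) := Subtype.ext hca.symm
    rw [AddMonoidHom.mem_ker, e, map_nsmul]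
    exact AddMonoidHom.ext fun y => by
      rw [AddMonoidHom.smul_apply, ← map_nsmul,
        show p • y = 0 from funext fun Q => nsmul_locCl p (y Q), map_zero, AddMonoidHom.zero_apply]

include hgen hne hTp in
/-- The images of the two maps have complementary sizes. -/
private lemma card_range_pairU_mul_card_range_diagQ :
    Nat.card (pairU p T hζK).range * Nat.card (diagQ p T).range = Nat.card (locPi p T) := by
  obtain ⟨hker1, hker2⟩ := ker_diagQ_and_pairU hζK hgen hne hTp
  rw [← AddSubgroup.index_ker, ← AddSubgroup.index_ker, hker1, hker2, Nat.card_pi,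
    Finset.prod_congr rfl (fun P : T => fun _ => card_locCl p hζK P.1),
    Finset.prod_coe_sort T fun P => p ^ 2 * pIdx (locK P) p,
    Finset.prod_mul_distrib, Finset.prod_const, prod_pIdx hTp, ← pow_mul, ← pow_add,
    show (((tUnits K (T : Set (PK K))).map (nsmulAddMonoidHom p)).addSubgroupOf
      (tUnits K (T : Set (PK K)))).index = _ from pIndex_tUnits_eq (zet_spec p) hζK T,
    ← pow_add, finrank_eq_rank]
  congr 1
  ring

include hTp in
/-- The diagonal image is isotropic. -/
private lemma pairU_diagQ_eq_zero (a b : ↥(tUnits K (T : Set (PK K)))) :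
    pairU p T hζK a (diagQ p T b) = 0 := by
  have : NeZero p := ⟨hp.out.ne_zero⟩
  set χ := unitChar p T hζK a
  show pairU p T hζK a (fun P : T => QuotientAddGroup.mk (⟨embUx (qOf P.1) (gOf P.1) b.1,
    embUx_mem_starF (tUnits_le K _ b.2)⟩ : ↥(starF (locK P.1)))) = 0
  rw [pairU_apply]
  have hb := tUnits_le K _ b.2
  have hP : ∀ P : PK K, p • invCh χ P b.1 = 0 := fun P => by
    rw [invCh_eq]; exact nsmul_inv_cyc _ (embUx_mem_starF hb)
  have hsub : (Function.support fun P : PK K => invCh χ P b.1) ⊆ T := fun P h1 => by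
    by_contra hPT
    obtain ⟨c, hc⟩ := isUnramWith_unitChar hζK hTp a hPT
    refine h1 ?_
    show invCh χ P b.1 = 0
    rw [invCh_of_unram _ hc hb, (mem_tUnits.mp b.2).2 P hPT, mul_zero, qz_zero]
  have hsum := sum_invCh χ hb
  rw [finsum_eq_sum_of_support_subset _ hsub] at hsum
  have hlin : ∀ t : Finset (PK K), p • (∑ P ∈ t, invCh χ P b.1) = 0 ∧
      qzRes p (∑ P ∈ t, invCh χ P b.1) = ∑ P ∈ t, qzRes p (invCh χ P b.1) := fun t => by
    induction t using Finset.induction with
    | empty => simp [qzRes_zero]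
    | insert P t hPt ih =>
      rw [Finset.sum_insert hPt, Finset.sum_insert hPt]
      exact ⟨by rw [nsmul_add, hP, ih.1, add_zero], by rw [qzRes_add (hP P) ih.1, ih.2]⟩
  have h2 := (hlin T).2
  rw [hsum, qzRes_zero, ← Finset.sum_coe_sort] at h2
  rw [h2]
  exact Finset.sum_congr rfl fun P _ => by rw [invCh_eq]

end Pairing

variable (p T) in
omit hζK [NumberField.IsTotallyComplex K] in
/-- The local classes of divisors off `S` with orders divisible by `p`. -/
private def offClasses (S : Finset Nat.Primes) : AddSubgroup (locPi p T) where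
  carrier := {y | ∀ P : T, qP P.1 ∉ S → ∃ u : ↥(starF (locK P.1)),
    (p : ℤ) ∣ ordUx (locK P.1) u.1 ∧ QuotientAddGroup.mk u = y P}
  zero_mem' := fun P _ => ⟨0, by simp [ordUx_zero'], rfl⟩
  add_mem' := fun {x y} hx hy P hP => by
    obtain ⟨u, hu, hux⟩ := hx P hP
    obtain ⟨w, hw, hwy⟩ := hy P hP
    exact ⟨u + w, by rw [AddSubgroup.coe_add, ordUx_add _ u.2 w.2]; exact dvd_add hu hw,
      by rw [QuotientAddGroup.mk_add, hux, hwy]; rfl⟩
  neg_mem' := fun {x} hx P hP => by
    obtain ⟨u, hu, hux⟩ := hx P hP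
    exact ⟨-u, by rw [NegMemClass.coe_neg, ordUx_neg' _ u.2]; exact dvd_neg.mpr hu,
      by rw [QuotientAddGroup.mk_neg, hux]; rfl⟩

variable (p T) in
/-- The local classes of the divisor off `S`. -/
private def divClass (S : Finset Nat.Primes) (D : PK K → ZMod p) : locPi p T := fun P =>
  if qP P.1 ∈ S then 0 else
    QuotientAddGroup.mk ((D P.1).val • (⟨unifUx (locK P.1), unifUx_mem _⟩ : ↥(starF (locK P.1))))

omit [NumberField.IsTotallyComplex K] in
/-- A unit pairing to zero with the classes of `S` has a character unramified and split above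
`S`. -/
private lemma isSplitChar_unitChar {S : Finset Nat.Primes} (hST : ∀ P, qP P ∈ S → P ∈ T)
    (hTp : ∀ P ∉ T, qOf P ≠ p) (a : ↥(tUnits K (T : Set (PK K))))
    (ha : ∀ z ∈ offClasses p T S, pairU p T hζK a z = 0) :
    IsSplitChar S (unitChar p T hζK a) := by
  have : NeZero p := ⟨hp.out.ne_zero⟩
  set χ := unitChar p T hζK a
  have hloc : ∀ P : T, ∀ b : ↥(starF (locK P.1)),
      (qP P.1 ∉ S → ‖(b.1 : MM (qOf P.1)).val‖ = 1) →
      inv (locK P.1) (cyc (charAt χ (qOf P.1) (gOf P.1)) b.1) = 0 := fun P b hb => by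
    refine (qzRes_eq_zero_iff (nsmul_inv_cyc _ b.2)).mp ?_
    rw [← pairU_single p T hζK a P b]
    refine ha _ fun Q hQ => ?_
    rcases eq_or_ne Q P with rfl | hne
    · refine ⟨b, ?_, (Pi.single_eq_same (M := fun Q : T => locCl p Q.1) Q
        (QuotientAddGroup.mk b)).symm⟩
      rw [show ordUx (locK Q.1) b.1 = 0 from (ord_eq_zero_iff _
        (mem_fixedUx_fixingSubgroup.mp b.2) (Ux.val_ne_zero _)).mpr (hb hQ)]
      exact dvd_zero _
    · exact ⟨0, by simp [ordUx_zero'], by rw [Pi.single_eq_of_ne hne]; rfl⟩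
  have hsplit : ∀ P : T, qP P.1 ∈ S → IsUnramWith χ P.1 0 := fun P hP d hd => by
    rw [zero_mul]
    exact eq_zero_of_inv_eq_zero_prime _ (fun b hb => hloc P ⟨b, hb⟩ fun h => absurd hP h) d hd
  intro P
  refine ⟨?_, fun hP => hsplit ⟨P, hST P hP⟩ hP⟩
  by_cases hPT : P ∈ T
  · by_cases hPS : qP P ∈ S
    · exact ⟨0, hsplit ⟨P, hPT⟩ hPS⟩
    · exact isUnramWith_of_units (pow_one p).symm χ fun u hu hu1 =>
        hloc ⟨P, hPT⟩ ⟨u, hu⟩ fun _ => hu1
  · exact isUnramWith_unitChar hζK hTp a hPT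

omit [NumberField.IsTotallyComplex K] in
/-- The pairing with the classes of the divisor is the sum over Frobenius elements. -/
private lemma pairU_divClass {S : Finset Nat.Primes} {D : PK K → ZMod p} {s : Finset (PK K)}
    (hs : ∀ P ∈ s, qP P ∉ S) (hsupp : ∀ P, qP P ∉ S → D P ≠ 0 → P ∈ s) (hsT : s ⊆ T)
    (a : ↥(tUnits K (T : Set (PK K)))) (hV : IsSplitChar S (unitChar p T hζK a)) :
    pairU p T hζK a (divClass p T S D) =
      ∑ P ∈ s, D P * unitChar p T hζK a (locHom (qOf P) (gOf P) (frob (locK P) p)) := by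
  have : NeZero p := ⟨hp.out.ne_zero⟩
  set χ := unitChar p T hζK a
  have key : ∀ P : T, unitFun p T hζK a P.1 (divClass p T S D P) = if P.1 ∈ s then
      D P.1 * χ (locHom (qOf P.1) (gOf P.1) (frob (locK P.1) p)) else 0 := fun P => by
    by_cases hPS : qP P.1 ∈ S
    · rw [show divClass p T S D P = 0 from if_pos hPS, map_zero,
        if_neg fun h => hs _ h hPS]
    rw [show divClass p T S D P = _ from if_neg hPS]
    show charFun (charAt χ (qOf P.1) (gOf P.1))
      ((D P.1).val • ⟨unifUx (locK P.1), unifUx_mem _⟩) = _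
    obtain ⟨c, hc⟩ := (hV P.1).1
    have e1 : inv (locK P.1) (cyc (charAt χ (qOf P.1) (gOf P.1)) (unifUx (locK P.1))) =
        qz ((c.val : ℤ) * 1) p := by
      rw [inv_cyc_of_unram (locK P.1) (charAt χ (qOf P.1) (gOf P.1)) c.val
        (fun d hd => by rw [Int.cast_natCast, ZMod.natCast_zmod_val]; exact hc d hd) (unifUx_mem _),
        ordUx_unif]
    rw [map_nsmul]
    show (D P.1).val • qzRes p (inv _ (cyc _ (unifUx (locK P.1)))) = _
    rw [e1, qzRes_qz, nsmul_eq_mul, ZMod.natCast_zmod_val, mul_one, Int.cast_natCast,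
      ZMod.natCast_zmod_val, hc.eq_of_frob]
    by_cases hPs : P.1 ∈ s
    · rw [if_pos hPs]
    · rw [if_neg hPs, not_not.mp fun h => hPs (hsupp _ hPS h), zero_mul]
  show (∑ P : T, (unitFun p T hζK a P.1).comp (Pi.evalAddMonoidHom _ P)) (divClass p T S D) = _
  rw [AddMonoidHom.finsetSum_apply]
  refine (Finset.sum_congr rfl fun P _ => key P).trans ?_
  rw [Finset.sum_coe_sort T fun P => if P ∈ s then
      D P * χ (locHom (qOf P) (gOf P) (frob (locK P) p)) else 0,
    Finset.sum_ite_mem, Finset.inter_eq_right.mpr hsT]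

omit hζK [NumberField.IsTotallyComplex K] in
/-- A unit whose classes differ from those of the divisor by one of `offClasses` has the orders
of the divisor. -/
private lemma ord_eq_of_divClass {S : Finset Nat.Primes} {D : PK K → ZMod p}
    (a : ↥(tUnits K (T : Set (PK K)))) {z : locPi p T} (hz : z ∈ offClasses p T S)
    (hyz : diagQ p T a + z = divClass p T S D) {P : PK K} (hPT : P ∈ T) (hPS : qP P ∉ S) :
    (ordP P a.1.val : ZMod p) = D P := by
  have : NeZero p := ⟨hp.out.ne_zero⟩
  obtain ⟨u, hu, huz⟩ := hz ⟨P, hPT⟩ hPS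
  have h1 : _ = divClass p T S D ⟨P, hPT⟩ := congrFun hyz ⟨P, hPT⟩
  rw [show divClass p T S D ⟨P, hPT⟩ = _ from if_neg hPS, Pi.add_apply, ← huz] at h1
  have h2 := (QuotientAddGroup.eq).mp h1
  rw [AddSubgroup.mem_addSubgroupOf] at h2
  obtain ⟨c, hc, hcv⟩ := h2
  have h3 := congrArg (ordUx (locK P)) hcv
  have ha' := embUx_mem_starF (q := qOf P) (g := gOf P) (tUnits_le K _ a.2)
  change ordUx (locK P) _ = ordUx (locK P) (-(embUx (qOf P) (gOf P) a.1 + u.1) +
    (D P).val • unifUx (locK P)) at h3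
  rw [← natCast_zsmul (unifUx (locK P)), nsmulAddMonoidHom_apply, ← natCast_zsmul c,
    ordUx_zsmul _ hc, ordUx_add _ (neg_mem (add_mem ha' u.2)) (zsmul_mem (unifUx_mem _) _),
    ordUx_neg' _ (add_mem ha' u.2), ordUx_add _ ha' u.2, ordUx_zsmul _ (unifUx_mem _), ordUx_unif,
    show ordUx (locField (qOf P) (gOf P) K) (embUx (qOf P) (gOf P) a.1) = ordP P a.1.val from
      (isPoint_gOf P).ord_eq (val_mem_of_mem_starK K (tUnits_le K _ a.2)) a.1.val_ne_zero] at h3
  have h4 := congrArg (Int.cast : ℤ → ZMod p) h3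
  simp only [Int.cast_add, Int.cast_neg, Int.cast_mul, Int.cast_natCast, ZMod.natCast_self,
    zero_mul, mul_one, ZMod.natCast_zmod_val] at h4
  rw [(ZMod.intCast_zmod_eq_zero_iff_dvd _ p).mpr hu, add_zero] at h4
  rw [← sub_eq_zero]
  linear_combination h4

/-- Divisors orthogonal to the split characters are congruent to principal divisors off `S`. -/
theorem exists_ord_of_orthogonal {S : Finset Nat.Primes} (hpS : ExtCitation.pPrime p ∈ S)
    {D : PK K → ZMod p} (s : Finset (PK K)) (hs : ∀ P ∈ s, qP P ∉ S)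
    (hsupp : ∀ P, qP P ∉ S → D P ≠ 0 → P ∈ s)
    (h : ∀ α : CycChar LQ K.fixingSubgroup p, IsSplitChar S α →
      ∑ P ∈ s, D P * α (locHom (qOf P) (gOf P) (frob (locK P) p)) = 0) :
    ∃ a ∈ starK K, ∀ P, qP P ∉ S → (ordP P a.val : ZMod p) = D P := by
  have : NeZero p := ⟨hp.out.ne_zero⟩
  obtain ⟨T, hST, hsT, hgen, hne, hTp⟩ := exists_prime_set hpS s
  -- the pairing
  have : ∀ P : T, Finite (locCl p P.1) := fun P => Nat.finite_of_card_ne_zero (by
    rw [card_locCl p hζK]
    exact mul_ne_zero (pow_ne_zero _ hp.out.ne_zero) (pIdx_ne_zero _))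
  have hA : ∀ y : locPi p T, p • y = 0 := fun y => funext fun P => nsmul_locCl p (y P)
  have hd : ∀ a, (∀ z ∈ offClasses p T S, pairU p T hζK a z = 0) →
      pairU p T hζK a (divClass p T S D) = 0 := fun a ha => by
    have hV := isSplitChar_unitChar hζK hST hTp a ha
    rw [pairU_divClass hζK hs hsupp hsT a hV]
    exact h _ hV
  obtain ⟨y, ⟨a, rfl⟩, z, hz, hyz⟩ := AddSubgroup.mem_sup.mp
    (mem_sup_of_pairing hA (pairU p T hζK) (diagQ p T)
      (card_range_pairU_mul_card_range_diagQ hζK hgen hne hTp)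
      (pairU_diagQ_eq_zero hζK hTp) (offClasses p T S) hd)
  refine ⟨a.1, tUnits_le K _ a.2, fun P hPS => ?_⟩
  by_cases hPT : P ∈ T
  · exact ord_eq_of_divClass a hz hyz hPT hPS
  · rw [(mem_tUnits.mp a.2).2 P (by exact_mod_cast hPT), Int.cast_zero]
    by_contra h0
    exact hPT (hsT (hsupp P hPS (Ne.symm h0)))

end Duality

end FermatAgent.CFT.Global
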