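import Fermat.Agent.CFT.Global.SCorStep
import Fermat.Agent.CFT.Coh.Duality

/-!
The global duality datum of the levels unramified outside `S`.
-/

set_option autoImplicit false

noncomputable section

open scoped Classical

namespace FermatAgent.CFT.Global

open Coh Local GaloisBasic

variable {p : ℕ} [hp : Fact p.Prime] {S : Finset Nat.Primes}

/-- Levels of the local group induced by global ones. -/
lemma mem_LL_of_comap (q : ℕ) [Fact q.Prime] {U : Subgroup (Gal' q)}
    (hU : U ∈ LQ.comap (localGaloisToGlobal q)) : U ∈ LL q :=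
  (comap_levels_eq (1 : GQ) U).mp (locHom_one (q := q) ▸ hU)

/-- Levels of the local group come from global ones. -/
lemma exists_comap_le (q : ℕ) [Fact q.Prime] {U : Subgroup (Gal' q)} (hU : U ∈ LL q) :
    ∃ F : IntermediateField ℚ Qbar, FiniteDimensional ℚ F ∧
      F.fixingSubgroup.comap (localGaloisToGlobal q) ≤ U := by
  obtain ⟨W, ⟨F, hF, hFW⟩, hW, -⟩ :=
    (locHom_one (q := q) ▸ (comap_levels_eq (1 : GQ) U).mpr hU : U ∈
      LQ.comap (localGaloisToGlobal q))
  exact ⟨F, hF, (Subgroup.comap_mono hFW).trans hW⟩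

/-- The duality datum of the levels unramified outside `S`. -/
def sDatum (hp2 : p ≠ 2) (hpS : ExtCitation.pPrime p ∈ S) : GlobalDatum (chiQ p) (LS S) :=
  haveI : Nonempty S := ⟨⟨_, hpS⟩⟩
  { ι := S
    Δ := fun v => Gal' ((v : Nat.Primes) : ℕ)
    r := fun v => localGaloisToGlobal ((v : Nat.Primes) : ℕ)
    Lv := fun v => LL ((v : Nat.Primes) : ℕ)
    hLv := fun v W hW => mem_LL_of_comap _ (by
      obtain ⟨V, hV, hle, hf⟩ := hW
      exact ⟨V, LS_le hV, hle, hf⟩)
    loc := fun v => locDatum p ((v : Nat.Primes) : ℕ)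
    ker_mem := ker_chiQ_mem_LS p hpS
    recip := fun f hf => sum_locDatum_inv hpS hp2 hf
    corSurj := fun W _ hWn hW hWχ M _ _ _ _ h => corSurj_LS hpS hp2 W hWn hW hWχ M h
    realize := fun U _ _ hU hUχ θ hθ => exists_realize hpS hp2 U hU hUχ θ hθ
    kill := fun U _ _ hU hUχ => exists_kill_level hpS hp2 U hU hUχ }

end FermatAgent.CFT.Global
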