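import Fermat.Agent.CFT.Global.Infinite
import Fermat.Prelude.Def_GroupCohomology_ContinuousUnramified

/-!
The duality between locally trivial classes for representations unramified outside `S`.

`exists_sha_pairing`: the groups `sha₁` of the twisted dual and `sha₂` of a representation smooth
for the levels unramified outside `S` are in perfect pairing.
The representation is read as a module with an action (`RM`) and its dual through `ofD` and `toD`.
Locally trivial cocycles map onto the locally trivial classes in degrees one and two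
(`exists_sha1_map`, `exists_sha2_map`), so the pairing of cocycles descends
(`exists_descended_pairing`).
-/

set_option autoImplicit false

noncomputable section

open scoped Classical
open CategoryTheory groupCohomology ExtCitation

namespace FermatAgent.CFT.Global

open Coh Local GaloisBasic

variable {p : ℕ} [hp : Fact p.Prime]

/-- The carrier of a representation as a module with an action. -/
def RM (M : Rep.{0, 0, 0} (ZMod p) GQ) : Type := M.V

namespace RM

variable (M : Rep.{0, 0, 0} (ZMod p) GQ)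

instance : AddCommGroup (RM M) := inferInstanceAs (AddCommGroup M.V)

instance : Module (ZMod p) (RM M) := inferInstanceAs (Module (ZMod p) M.V)

instance : DistribMulAction GQ (RM M) where
  smul g m := M.ρ g m
  one_smul m := by
    show M.ρ 1 m = m
    rw [map_one]; rfl
  mul_smul g h m := by
    show M.ρ (g * h) m = M.ρ g (M.ρ h m)
    rw [map_mul]; rfl
  smul_zero g := map_zero (M.ρ g)
  smul_add g m n := map_add (M.ρ g) m n

instance [FiniteDimensional (ZMod p) M] : Finite (RM M) :=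
  haveI : Finite M.V := Module.finite_of_finite (ZMod p)
  inferInstanceAs (Finite M.V)

/-- A dual element as an element of the twisted dual. -/
def ofD : Dual (chiQ p) (RM M) →+ (M.dualTwist (cycloChar p)).V where
  toFun n := AddMonoidHom.toZModLinearMap p (M := M.V) (Dual.hom (chiQ p) (RM M) n)
  map_zero' := rfl
  map_add' _ _ := rfl

/-- An element of the twisted dual as a dual element. -/
def toD : (M.dualTwist (cycloChar p)).V →+ Dual (chiQ p) (RM M) where
  toFun f := Dual.mk (chiQ p) (RM M) (LinearMap.toAddMonoidHom (show M.V →ₗ[ZMod p] ZMod p from f))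
  map_zero' := rfl
  map_add' _ _ := rfl

lemma ofD_toD (f : (M.dualTwist (cycloChar p)).V) : ofD M (toD M f) = f :=
  LinearMap.ext (fun _ => rfl : ∀ _ : M.V, _)

lemma toD_ofD (n : Dual (chiQ p) (RM M)) : toD M (ofD M n) = n := rfl

lemma ofD_smul (g : GQ) (n : Dual (chiQ p) (RM M)) :
    ofD M (g • n) = (M.dualTwist (cycloChar p)).ρ g (ofD M n) :=
  LinearMap.ext (fun _ => rfl : ∀ _ : M.V, _)

end RM

variable {S : Finset Nat.Primes} {M : Rep.{0, 0, 0} (ZMod p) GQ}

/-- The action is smooth for the levels unramified outside `S`. -/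
lemma smooth_RM [FiniteDimensional (ZMod p) M]
    (hsm : ∀ m : M, ∃ F : IntermediateField ℚ Qbar, FiniteDimensional ℚ F ∧
      ∀ s ∈ F.fixingSubgroup, M.ρ s m = m)
    (hMur : ∀ q : Nat.Primes, q ∉ S → ∀ A : ValuationSubring Qbar,
      A.LiesOverPrime (q : ℕ) → ∀ g ∈ A.inertiaSubgroupIn ℚ, M.ρ g = 1) :
    (LS S).Smooth (RM M) := by
  have hsmQ : LQ.Smooth (RM M) := fun m => by
    obtain ⟨F, hF, h⟩ := hsm m
    exact ⟨F.fixingSubgroup, ⟨F, hF, le_rfl⟩, h⟩
  have : Fintype (RM M) := Fintype.ofFinite _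
  obtain ⟨V, hV, hfix⟩ := hsmQ.exists_finset Finset.univ
  set N := M.ρ.ker
  have hN : N ∈ LQ := Levels.mem_of_le hV fun g hg => LinearMap.ext fun m =>
    hfix g hg m (Finset.mem_univ _)
  have := finiteDimensional_fixedField hN
  refine fun m => ⟨N, ⟨IntermediateField.fixedField N, ⟨inferInstance, fun q hq A hA σ hσ => ?_⟩,
    (fixingSubgroup_fixedField_of_mem hN).le⟩, fun s hs => LinearMap.congr_fun hs m⟩
  rw [fixingSubgroup_fixedField_of_mem hN]
  exact hMur q hq A hA σ hσ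

lemma levelS₁_of_const1 {X : Type} {y : GQ → X} (h : (LS S).Const1 ⊤ y) :
    IsLevelConstantS₁ S y := by
  obtain ⟨V, ⟨F, hF, hFV⟩, h⟩ := h
  exact ⟨F, hF, fun g s hs => h g trivial s ⟨trivial, hFV hs⟩⟩

lemma const1_of_levelS₁ {X : Type} {y : GQ → X} (h : IsLevelConstantS₁ S y) :
    (LS S).Const1 ⊤ y := by
  obtain ⟨F, hF, h⟩ := h
  exact ⟨_, fixingSubgroup_mem_LS hF, fun g _ s hs => h g s hs.2⟩

lemma levelS₂_of_const2 {X : Type} {f : GQ → GQ → X} (h : (LS S).Const2 ⊤ f) :
    IsLevelConstantS₂ S (fun a => f a.1 a.2) := by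
  obtain ⟨V, ⟨F, hF, hFV⟩, h⟩ := h
  exact ⟨F, hF, fun g g' s s' hs hs' =>
    h g trivial g' trivial s ⟨trivial, hFV hs⟩ s' ⟨trivial, hFV hs'⟩⟩

lemma const2_of_levelS₂ {X : Type} {f : GQ × GQ → X} (h : IsLevelConstantS₂ S f) :
    (LS S).Const2 ⊤ (fun a b => f (a, b)) := by
  obtain ⟨F, hF, h⟩ := h
  exact ⟨_, fixingSubgroup_mem_LS hF, fun g _ g' _ s hs s' hs' => h g g' s s' hs.2 hs'.2⟩

lemma uncurry_mem_cocycles₂ (f : GQ → GQ → M.V)
    (hf : ∀ g h j : GQ, M.ρ g (f h j) - f (g * h) j + f g (h * j) - f g h = 0) :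
    (fun a : GQ × GQ => f a.1 a.2) ∈ cocycles₂ M :=
  (mem_cocycles₂_iff _).mpr fun g h j => by
    linear_combination (norm := abel) (-1 : ℤ) • hf g h j

section Localisation

variable {G : Type} [Group G] (r : G →* GQ)

/-- Triviality of a localised class of degree one. -/
lemma map_H1π_eq_zero_iff (A : Rep.{0, 0, 0} (ZMod p) GQ) (c : cocycles₁ A) :
    (groupCohomology.map r (𝟙 (Rep.res r A)) 1).hom ((H1π A).hom c) = 0 ↔
      ∃ n : A.V, ∀ d : G, c (r d) = A.ρ (r d) n - n := by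
  rw [H1π_comp_map_apply, H1π_eq_zero_iff]
  constructor
  · rintro ⟨n, hn⟩
    refine ⟨n, fun d => ?_⟩
    have h := congrFun hn d
    rw [d₀₁_hom_apply] at h
    exact h.symm
  · rintro ⟨n, hn⟩
    refine ⟨n, funext fun d => ?_⟩
    rw [d₀₁_hom_apply]
    exact (hn d).symm

/-- Triviality of a localised class of degree two. -/
lemma mem_levelCoboundaries₂_res_iff {f : G × G → M.V} :
    f ∈ levelCoboundaries₂ r (Rep.res r M) ↔
      ∃ c : G → M.V, IsLevelConstant₁ r c ∧
        ∀ a b, f (a, b) = M.ρ (r a) (c b) - c (a * b) + c a := by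
  rw [mem_levelCoboundaries₂_iff]
  constructor
  · rintro ⟨c, hc, h⟩
    refine ⟨c, hc, fun a b => ?_⟩
    have h2 := congrFun h (a, b)
    rw [d₁₂_hom_apply] at h2
    exact h2.symm
  · rintro ⟨c, hc, h⟩
    refine ⟨c, hc, funext fun a => ?_⟩
    rw [d₁₂_hom_apply]
    exact (h a.1 a.2).symm

end Localisation

section Descend

variable {A₁ A₂ B₁ B₂ : Type} [AddCommGroup A₁] [AddCommGroup A₂] [AddCommGroup B₁]
  [AddCommGroup B₂] [Module (ZMod p) B₁] [Module (ZMod p) B₂]

/-- A pairing of representatives descends to a perfect pairing of classes. -/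
lemma exists_descended_pairing (π₁ : A₁ →+ B₁) (hπ₁ : Function.Surjective π₁) (π₂ : A₂ →+ B₂)
    (hπ₂ : Function.Surjective π₂) (P : A₁ →+ A₂ →+ ZMod p)
    (h₁ : ∀ y, π₁ y = 0 → ∀ f, P y f = 0) (h₂ : ∀ f, π₂ f = 0 → ∀ y, P y f = 0)
    (n₁ : ∀ y, (∀ f, P y f = 0) → π₁ y = 0) (n₂ : ∀ f, (∀ y, P y f = 0) → π₂ f = 0) :
    ∃ B : B₁ →ₗ[ZMod p] B₂ →ₗ[ZMod p] ZMod p,
      (∀ y, (∀ x, B y x = 0) → y = 0) ∧ (∀ x, (∀ y, B y x = 0) → x = 0) := by
  obtain ⟨P', hP, hP'⟩ := exists_descended π₁ hπ₁ π₂ hπ₂ P h₁ h₂ n₁ n₂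
  exact ⟨AddMonoidHom.toZModLinearMap p (AddMonoidHom.mk'
    (fun y => AddMonoidHom.toZModLinearMap p (P' y))
    fun y y' => LinearMap.ext fun x => DFunLike.congr_fun (map_add P' y y') x),
    fun y hy => (injective_iff_map_eq_zero P').mp hP y (AddMonoidHom.ext hy),
    fun x hx => (injective_iff_map_eq_zero P'.flip).mp hP' x (AddMonoidHom.ext hx)⟩

end Descend

section Maps

variable (hp2 : p ≠ 2) (hpS : ExtCitation.pPrime p ∈ S) [FiniteDimensional (ZMod p) M]

omit [FiniteDimensional (ZMod p) ↑M] in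
/-- The class of a locally trivial cocycle of degree one. -/
def sha1Class : (sDatum hp2 hpS).sha1 (RM M) →+ H1 (M.dualTwist (cycloChar p)) :=
  let A := M.dualTwist (cycloChar p)
  ((H1π A).hom.toAddMonoidHom).comp (AddMonoidHom.mk'
    (fun y => (⟨fun g => RM.ofD M (y.1 g), (mem_cocycles₁_iff (A := A) _).mpr fun g h => by
      have := y.2.1.2 g trivial h trivial
      simp only [Coh.d1, sub_add_eq_add_sub, sub_eq_zero] at this
      rw [← this, map_add, RM.ofD_smul]⟩ : cocycles₁ A))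
    fun y y' => Subtype.ext (funext fun g => map_add (RM.ofD M) (y.1 g) (y'.1 g)))

omit [FiniteDimensional (ZMod p) ↑M] in
/-- The class has trivial localisations. -/
lemma sha1Class_mem (y : (sDatum hp2 hpS).sha1 (RM M)) :
    sha1Class hp2 hpS y ∈ sha₁ S (M.dualTwist (cycloChar p)) := by
  set A := M.dualTwist (cycloChar p)
  refine ⟨(mem_continuousH1S_iff S A _).mpr
    ⟨_, (levelS₁_of_const1 y.2.1.1).comp (RM.ofD M), rfl⟩, ?_⟩
  show locTotal (extArithLoc S) A (sha1Class hp2 hpS y) = 0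
  funext v
  refine (map_H1π_eq_zero_iff (extArithLoc S v) A _).mpr ?_
  rcases v with u | q
  · exact (map_H1π_eq_zero_iff archimedeanLoc A _).mp ((H1π_comp_map_apply _ _ _).trans
      ((H1π_eq_zero_iff _).mpr (archimedean_H1 hp2 _ _)))
  · obtain ⟨n, hn⟩ := y.2.2 q
    refine ⟨RM.ofD M n, fun d => ?_⟩
    show RM.ofD M (y.1 _) = A.ρ _ (RM.ofD M n) - RM.ofD M n
    rw [← RM.ofD_smul, ← map_sub]
    exact congrArg _ (hn d)

omit [FiniteDimensional (ZMod p) ↑M] in
/-- A class with trivial localisations is that of a locally trivial cocycle. -/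
lemma exists_sha1Class_eq {x : H1 (M.dualTwist (cycloChar p))}
    (hx : x ∈ sha₁ S (M.dualTwist (cycloChar p))) :
    ∃ y, sha1Class hp2 hpS y = x := by
  set A := M.dualTwist (cycloChar p)
  obtain ⟨hxS, hx⟩ := hx
  obtain ⟨c, hc, rfl⟩ := (mem_continuousH1S_iff S A _).mp hxS
  refine ⟨⟨fun g => RM.toD M (c g), ⟨const1_of_levelS₁ (hc.comp (RM.toD M)), fun g _ h _ => ?_⟩,
    fun v => ?_⟩,
    congrArg (H1π A).hom (Subtype.ext (funext fun g => RM.ofD_toD M _))⟩
  · have h1 := congrArg (RM.toD M) ((mem_cocycles₁_iff (c : GQ → A)).mp c.2 g h)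
    rw [map_add] at h1
    show g • RM.toD M (c h) - RM.toD M (c (g * h)) + RM.toD M (c g) = 0
    rw [h1, show g • RM.toD M (c h) = RM.toD M (A.ρ g (c h)) by
      conv_rhs => rw [← RM.ofD_toD M (c h), ← RM.ofD_smul, RM.toD_ofD]]
    abel
  · change locTotal (extArithLoc S) A _ = 0 at hx
    have hloc : ∀ w : extArithIndex S, ∃ n : A.V, ∀ d : extArithLocalGroups S w,
        c (extArithLoc S w d) = A.ρ (extArithLoc S w d) n - n := fun w =>
      (map_H1π_eq_zero_iff (extArithLoc S w) A c).mp (congrFun hx w)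
    obtain ⟨n, hn⟩ := hloc (Sum.inr (v : S))
    refine ⟨RM.toD M n, fun d => ?_⟩
    show RM.toD M (c _) = _
    refine (congrArg (RM.toD M) (hn d)).trans ?_
    rw [map_sub]
    congr 1

omit [FiniteDimensional (ZMod p) ↑M] in
/-- The classes of zero come from coboundaries. -/
lemma sha1Class_eq_zero_iff (y : (sDatum hp2 hpS).sha1 (RM M)) :
    sha1Class hp2 hpS y = 0 ↔ y.1 ∈ Levels.B1 ⊤ (Dual (chiQ p) (RM M)) := by
  set A := M.dualTwist (cycloChar p)
  refine (H1π_eq_zero_iff _).trans ⟨fun ⟨x, hx⟩ => ⟨RM.toD M x, fun g _ => ?_⟩,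
    fun ⟨m, hm⟩ => ⟨RM.ofD M m, funext fun g => ?_⟩⟩
  · have h1 := congrArg (RM.toD M) (congrFun hx g)
    rw [d₀₁_hom_apply, map_sub] at h1
    refine h1.symm.trans ?_
    show _ = g • RM.toD M x - RM.toD M x
    congr 1
  · refine (d₀₁_hom_apply A (RM.ofD M m) g).trans ?_
    show A.ρ g (RM.ofD M m) - RM.ofD M m = RM.ofD M (y.1 g)
    rw [← RM.ofD_smul M g m]
    exact ((RM.ofD M).map_sub (g • m) m).symm.trans (congrArg (RM.ofD M) (hm g trivial).symm)

omit [FiniteDimensional (ZMod p) ↑M] in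
/-- Locally trivial cocycles of degree one map onto the locally trivial classes. -/
lemma exists_sha1_map :
    ∃ π : (sDatum hp2 hpS).sha1 (RM M) →+ sha₁ S (M.dualTwist (cycloChar p)),
      Function.Surjective π ∧ ∀ y, π y = 0 ↔ y.1 ∈ Levels.B1 ⊤ (Dual (chiQ p) (RM M)) :=
  ⟨(sha1Class hp2 hpS).codRestrict (sha₁ S _).toAddSubgroup (sha1Class_mem hp2 hpS),
    fun x => (exists_sha1Class_eq hp2 hpS x.2).imp fun _ h => Subtype.ext h,
    fun y => Subtype.ext_iff.trans (sha1Class_eq_zero_iff hp2 hpS y)⟩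

omit [FiniteDimensional (ZMod p) ↑M] in
/-- The class of a locally trivial cocycle of degree two. -/
def sha2Class : (sDatum hp2 hpS).sha2 (RM M) →+ continuousH2S S M :=
  (continuousH2Sπ S M).toAddMonoidHom.comp (AddMonoidHom.mk'
    (fun f => (⟨fun a => f.1 a.1 a.2,
      uncurry_mem_cocycles₂ f.1 fun g h j => f.2.1.2 g trivial h trivial j trivial,
      levelS₂_of_const2 f.2.1.1⟩ : levelCocyclesS₂ S M))
    fun _ _ => rfl)

omit [FiniteDimensional (ZMod p) ↑M] in
/-- The class has trivial localisations. -/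
lemma sha2Class_mem (f : (sDatum hp2 hpS).sha2 (RM M)) : sha2Class hp2 hpS f ∈ sha₂ S M := by
  rw [sha₂, LinearMap.mem_ker]
  funext v
  rw [locTotal₂S_apply]
  refine (continuousH2π_eq_zero_iff _ _ _).mpr ?_
  refine (mem_levelCoboundaries₂_res_iff (extArithLoc S v)).mpr ?_
  rcases v with u | q
  · exact (mem_levelCoboundaries₂_res_iff archimedeanLoc).mp
      (archimedean_H2 hp2 (Rep.res archimedeanLoc M)
        (cochainsPullPush₂_mem_cocycles₂ (A := M) (B := Rep.res archimedeanLoc M) archimedeanLoc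
          LinearMap.id (fun _ _ => rfl)
          (uncurry_mem_cocycles₂ f.1 fun g h j => f.2.1.2 g trivial h trivial j trivial)))
  · obtain ⟨c, ⟨V, hV, hc⟩, hfc⟩ := f.2.2 q
    obtain ⟨F, hF, hFV⟩ := exists_comap_le _ hV
    exact ⟨fun d => c d, ⟨F, hF, fun g s hs => hc g trivial s ⟨trivial, hFV hs⟩⟩,
        fun a b => hfc a trivial b trivial⟩

omit [FiniteDimensional (ZMod p) ↑M] in
/-- A class with trivial localisations is that of a locally trivial cocycle. -/
lemma exists_sha2Class_eq {x : continuousH2S S M} (hx : x ∈ sha₂ S M) :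
    ∃ f, sha2Class hp2 hpS f = x := by
  obtain ⟨⟨f, hfc, hfS⟩, rfl⟩ := Submodule.mkQ_surjective _ x
  refine ⟨⟨fun a b => f (a, b), ⟨const2_of_levelS₂ hfS, fun g _ h _ j _ => ?_⟩, fun v => ?_⟩,
    rfl⟩
  · have h1 := (mem_cocycles₂_iff f).mp hfc g h j
    show M.ρ g (f (h, j)) - f (g * h, j) + f (g, h * j) - f (g, h) = (0 : M.V)
    linear_combination (norm := abel) (-1 : ℤ) • h1
  · rw [sha₂, LinearMap.mem_ker] at hx
    have hloc : ∀ w : extArithIndex S, ∃ c : extArithLocalGroups S w → M.V,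
        IsLevelConstant₁ (extArithLoc S w) c ∧ ∀ a b, f (extArithLoc S w a, extArithLoc S w b) =
          M.ρ (extArithLoc S w a) (c b) - c (a * b) + c a := fun w =>
      (mem_levelCoboundaries₂_res_iff (extArithLoc S w)).mp
        ((continuousH2π_eq_zero_iff _ _ _).mp (congrFun hx w))
    obtain ⟨c, ⟨F, hF, hc⟩, hfc'⟩ := hloc (Sum.inr (v : S))
    exact ⟨fun d => c d, ⟨_, mem_LL_of_comap _ (LQ.comap_mem _ (fixingSubgroup_mem_galLevels F)),
      fun g _ s hs => hc g s hs.2⟩, fun a _ b _ => hfc' a b⟩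

omit [FiniteDimensional (ZMod p) ↑M] in
/-- The classes of zero come from coboundaries. -/
lemma sha2Class_eq_zero_iff (f : (sDatum hp2 hpS).sha2 (RM M)) :
    sha2Class hp2 hpS f = 0 ↔ f.1 ∈ (LS S).B2 ⊤ (RM M) := by
  refine (continuousH2Sπ_eq_zero_iff S M _).trans ((mem_levelCoboundariesS₂_iff S M _).trans
    ⟨fun ⟨x, hxS, hx⟩ => ⟨x, const1_of_levelS₁ hxS, fun g _ h _ => ?_⟩,
      fun ⟨c, hc, hfc⟩ => ⟨c, levelS₁_of_const1 hc, funext fun a => ?_⟩⟩)
  · have h2 := congrFun hx (g, h)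
    rw [d₁₂_hom_apply] at h2
    exact h2.symm
  · refine (d₁₂_hom_apply M (fun g => c g) a).trans ?_
    exact (hfc a.1 trivial a.2 trivial).symm

omit [FiniteDimensional (ZMod p) ↑M] in
/-- Locally trivial cocycles of degree two map onto the locally trivial classes. -/
lemma exists_sha2_map :
    ∃ π : (sDatum hp2 hpS).sha2 (RM M) →+ sha₂ S M,
      Function.Surjective π ∧ ∀ f, π f = 0 ↔ f.1 ∈ (LS S).B2 ⊤ (RM M) :=
  ⟨(sha2Class hp2 hpS).codRestrict (sha₂ S M).toAddSubgroup (sha2Class_mem hp2 hpS),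
    fun x => (exists_sha2Class_eq hp2 hpS x.2).imp fun _ h => Subtype.ext h,
    fun f => Subtype.ext_iff.trans (sha2Class_eq_zero_iff hp2 hpS f)⟩

-- the types of the classes are expensive to compare
include hp2 hpS in
/-- The pairing between locally trivial classes is perfect. -/
theorem exists_sha_pairing (hM : (LS S).Smooth (RM M)) :
    ∃ B : sha₁ S (M.dualTwist (cycloChar p)) →ₗ[ZMod p] sha₂ S M →ₗ[ZMod p] ZMod p,
      (∀ y, (∀ x, B y x = 0) → y = 0) ∧ (∀ x, (∀ y, B y x = 0) → x = 0) := by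
  obtain ⟨π₁, hπ₁, hk₁⟩ := exists_sha1_map (M := M) hp2 hpS
  obtain ⟨π₂, hπ₂, hk₂⟩ := exists_sha2_map (M := M) hp2 hpS
  exact exists_descended_pairing π₁ hπ₁ π₂ hπ₂ ((sDatum hp2 hpS).pairing hM)
    (fun y hy f => (sDatum hp2 hpS).pairing_eq_zero_of_mem_B1 hM y f ((hk₁ y).mp hy))
    (fun f hf y => (sDatum hp2 hpS).pairing_eq_zero_of_mem_B2 hM y f ((hk₂ f).mp hf))
    (fun y hy => (hk₁ y).mpr ((sDatum hp2 hpS).mem_B1_of_pairing hM y hy))
    (fun f hf => (hk₂ f).mpr ((sDatum hp2 hpS).mem_B2_of_pairing hM f hf))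

end Maps

end FermatAgent.CFT.Global
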