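import Fermat.Agent.CFT.Global.SecondInequality
import Fermat.Agent.CFT.Coh.Restrict
import Fermat.Agent.CFT.Coh.Datum

/-!
Classes in the multiplicative group of `ℚ̄` which are trivial at every place are trivial.
-/

set_option autoImplicit false

noncomputable section

open scoped Classical

namespace FermatAgent.CFT.Global

open Coh Local GaloisBasic

variable {K : IntermediateField ℚ Qbar}

/-- The levels of the absolute Galois group of `ℚ`. -/
abbrev LQ : Levels GQ := galLevels ℚ Qbar

/-- The localisation of a cochain at an embedding. -/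
def pullAt (q : ℕ) [Fact q.Prime] (g : GQ) (f : GQ → GQ → GM) : Gal' q → Gal' q → MM q :=
  fun d e => embUx q g (f (locHom q g d) (locHom q g e))

section Pull

variable {q : ℕ} [hq : Fact q.Prime] {g : GQ}

/-- The values of a localised cochain. -/
@[simp] lemma pullAt_apply (f : GQ → GQ → GM) (d e : Gal' q) :
    pullAt q g f d e = embUx q g (f (locHom q g d) (locHom q g e)) := rfl

/-- Localisation is additive. -/
lemma pullAt_add (f f' : GQ → GQ → GM) : pullAt q g (f + f') = pullAt q g f + pullAt q g f' :=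
  funext fun _ => funext fun _ => map_add _ _ _

/-- Localisation commutes with differences. -/
lemma pullAt_sub (f f' : GQ → GQ → GM) : pullAt q g (f - f') = pullAt q g f - pullAt q g f' :=
  funext fun _ => funext fun _ => map_sub _ _ _

/-- Localisation commutes with multiples. -/
lemma pullAt_nsmul (n : ℕ) (f : GQ → GQ → GM) : pullAt q g (n • f) = n • pullAt q g f :=
  funext fun _ => funext fun _ => map_nsmul _ _ _

/-- The embedding is equivariant. -/
lemma embUx_locHom_smul (d : Gal' q) (a : GM) :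
    embUx q g (locHom q g d • a) = d • embUx q g a := by
  rw [embUx_smul, smul_embUx]

lemma fix_le_comap : (locField q g K).fixingSubgroup ≤ K.fixingSubgroup.comap (locHom q g) :=
  (fixingSubgroup_locField (q := q) (g := g) (K := K)).le

/-- Cocycles localise to cocycles. -/
lemma pullAt_mem_Z2 {f : GQ → GQ → GM} (hf : f ∈ LQ.Z2 K.fixingSubgroup GM) :
    pullAt q g f ∈ (LL q).Z2 (locField q g K).fixingSubgroup (MM q) := by
  let : DistribMulAction (Gal' q) GM := DistribMulAction.compHom GM (locHom q g)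
  exact Levels.map_mem_Z2 (embUx q g) (fun d _ a => embUx_locHom_smul d a)
    (Levels.Z2_le (fun W hW => (comap_levels_eq g W).mp hW)
      (Levels.pullback_mem_Z2 (locHom q g) (fun _ _ => rfl) fix_le_comap hf))

/-- Coboundaries localise to coboundaries. -/
lemma pullAt_mem_B2 {f : GQ → GQ → GM} (hf : f ∈ LQ.B2 K.fixingSubgroup GM) :
    pullAt q g f ∈ (LL q).B2 (locField q g K).fixingSubgroup (MM q) := by
  let : DistribMulAction (Gal' q) GM := DistribMulAction.compHom GM (locHom q g)
  exact Levels.map_mem_B2 (embUx q g) (fun d _ a => embUx_locHom_smul d a)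
    (Levels.B2_le (fun W hW => (comap_levels_eq g W).mp hW)
      (Levels.pullback_mem_B2 (locHom q g) (fun _ _ => rfl) fix_le_comap hf))

end Pull

/-- A class is trivial at every embedding. -/
def LocTriv (K : IntermediateField ℚ Qbar) (f : GQ → GQ → GM) : Prop :=
  ∀ (q : ℕ) [Fact q.Prime] (g : GQ),
    pullAt q g f ∈ (LL q).B2 (locField q g K).fixingSubgroup (MM q)

lemma LocTriv.mono {K' : IntermediateField ℚ Qbar} (h : K ≤ K') {f : GQ → GQ → GM}
    (hf : LocTriv K f) : LocTriv K' f := fun q _ g =>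
  Levels.B2_mono (IntermediateField.fixingSubgroup_antitone (locField_mono h)) (hf q g)

lemma LocTriv.sub_of_mem_B2 {f f' : GQ → GQ → GM} (hf : LocTriv K f)
    (h : f - f' ∈ LQ.B2 K.fixingSubgroup GM) : LocTriv K f' := fun q _ g => by
  have := sub_mem (hf q g) (pullAt_mem_B2 (q := q) (g := g) h)
  rwa [pullAt_sub, sub_sub_cancel] at this

variable {p : ℕ} [hp : Fact p.Prime]

omit hp in
lemma pullAt_cyc {q : ℕ} [Fact q.Prime] {g : GQ} (χ : CycChar LQ K.fixingSubgroup p) (a : GM) :
    pullAt q g (cyc χ a) = cyc (charAt χ q g) (embUx q g a) :=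
  funext fun _ => funext fun _ => map_zsmul _ _ _

variable {ζ : Qbar}

/-- A locally trivial class split by a cyclic extension of degree `p` is trivial. -/
lemma mem_B2_of_cyclic [FiniteDimensional ℚ K] [NumberField.IsTotallyComplex K]
    (hζ : IsPrimitiveRoot ζ p) (hζK : ζ ∈ K) {N : Subgroup GQ} (hN : N ≤ K.fixingSubgroup)
    (hNL : N ∈ LQ) [(N.subgroupOf K.fixingSubgroup).Normal]
    (hidx : N.relIndex K.fixingSubgroup = p) {f : GQ → GQ → GM}
    (hf : f ∈ LQ.Z2 K.fixingSubgroup GM) (hfN : f ∈ LQ.B2 N GM) (hloc : LocTriv K f) :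
    f ∈ LQ.B2 K.fixingSubgroup GM := by
  obtain ⟨χ, σ, hσ, hσ1, hker⟩ := exists_cycChar_of_index_prime hN hNL hidx
  subst hker
  have hW := fixingSubgroup_mem_galLevels K
  obtain ⟨b, hb, hfb⟩ := exists_cyc χ hW smooth_ux hσ hσ1 (Ux.hilbert90 χ hW) hf hfN
  have hbl := hloc.sub_of_mem_B2 hfb
  have hnorm : ∀ P : PK K, embUx (qOf P) (gOf P) b ∈ normP χ P := fun P => by
    have h := hbl (qOf P) (gOf P)
    rw [pullAt_cyc] at h
    have hbF : embUx (qOf P) (gOf P) b ∈ starF (locK P) := embUx_mem_starF hb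
    rcases exists_generator_or_trivial (charP χ P) with h0 | ⟨s, hs, hs1⟩
    · exact starF_le_normP χ h0 hbF
    · obtain ⟨a, ha, hab⟩ := exists_norm_of_cyc_mem_B2 (charP χ P) hs hs1
        (Ux.hilbert90 _ (fix_mem _)) hbF h
      rw [normP, map_sum_semi (charP χ P) hs hs1]
      exact ⟨a, ha, hab⟩
  obtain ⟨y, hy, hyb⟩ := exists_norm_of_forall χ hσ hσ1 hζ hζK hb hnorm
  have h := add_mem hfb (cyc_cycNorm_mem_B2 χ hσ hσ1 hy)
  rwa [hyb, sub_add_cancel] at h

omit hp in
/-- A subgroup inside the group of a field fixes it. -/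
lemma le_fixedField {P : Subgroup GQ} (hP : P ≤ K.fixingSubgroup) :
    K ≤ IntermediateField.fixedField P := fun y hy g =>
  (IntermediateField.mem_fixingSubgroup_iff K g.1).mp (hP g.2) y hy

/-- A locally trivial class split by a normal subgroup of `p`-power index is trivial. -/
lemma mem_B2_of_pGroup (hζ : IsPrimitiveRoot ζ p) : ∀ (a : ℕ) (K : IntermediateField ℚ Qbar)
    [FiniteDimensional ℚ K] [NumberField.IsTotallyComplex K], ζ ∈ K → ∀ (N : Subgroup GQ),
    N ≤ K.fixingSubgroup → N ∈ LQ → (N.subgroupOf K.fixingSubgroup).Normal →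
    N.relIndex K.fixingSubgroup = p ^ a → ∀ f ∈ LQ.Z2 K.fixingSubgroup GM, f ∈ LQ.B2 N GM →
      LocTriv K f → f ∈ LQ.B2 K.fixingSubgroup GM := by
  intro a
  induction a with
  | zero =>
    intro K _ _ _ N hN _ _ hidx f _ hfN _
    rw [pow_zero, Subgroup.relIndex_eq_one] at hidx
    exact Levels.B2_mono hidx hfN
  | succ a ih =>
    intro K _ _ hζK N hN hNL hNn hidx f hf hfN hloc
    set W := K.fixingSubgroup
    have := hNn
    obtain ⟨P, hNP, hPW, hPn, hPidx, hrel, hNnP⟩ := exists_relIndex_eq_prime hN hidx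
    have := hPn
    have hPL : P ∈ LQ := Levels.mem_of_le hNL hNP
    set K' := IntermediateField.fixedField P
    have : FiniteDimensional ℚ K' := finiteDimensional_fixedField hPL
    have hK' : K'.fixingSubgroup = P := fixingSubgroup_fixedField_of_mem hPL
    have hle : K ≤ K' := le_fixedField hPW
    have := isTotallyComplex_of_le hle
    have hfP : f ∈ LQ.B2 P GM := hK' ▸ ih K' (hle hζK) N (hK'.symm ▸ hNP) hNL
      (hK'.symm ▸ hNnP) (hK'.symm ▸ hrel) f
      (hK'.symm ▸ Levels.Z2_mono hPW hf) hfN (hloc.mono hle)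
    exact mem_B2_of_cyclic hζ hζK hPW hPL hPidx hf hfP hloc

/-- A class killed by `p` and by a number prime to `p` is trivial. -/
lemma mem_B2_of_coprime {W : Subgroup GQ} {f : GQ → GQ → GM} (hpf : p • f ∈ LQ.B2 W GM) {n : ℕ}
    (hn : ¬ p ∣ n) (hnf : n • f ∈ LQ.B2 W GM) : f ∈ LQ.B2 W GM := by
  obtain ⟨u, v, huv⟩ := Int.isCoprime_iff_gcd_eq_one.mpr
    (show Int.gcd (p : ℤ) n = 1 from (Nat.Prime.coprime_iff_not_dvd hp.out).mpr hn)
  have := add_mem (zsmul_mem hpf u) (zsmul_mem hnf v)
  rwa [← natCast_zsmul f p, ← natCast_zsmul f n, ← mul_smul, ← mul_smul, ← add_smul, huv, one_smul]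
    at this

/-- The theorem when the roots of unity are in the field. -/
lemma mem_B2_of_locTriv_zeta [FiniteDimensional ℚ K] [NumberField.IsTotallyComplex K]
    (hζ : IsPrimitiveRoot ζ p) (hζK : ζ ∈ K) {f : GQ → GQ → GM}
    (hf : f ∈ LQ.Z2 K.fixingSubgroup GM) (hpf : p • f ∈ LQ.B2 K.fixingSubgroup GM)
    (hloc : LocTriv K f) : f ∈ LQ.B2 K.fixingSubgroup GM := by
  set W := K.fixingSubgroup
  obtain ⟨N, hN, hNn, hNW, hfN⟩ :=
    exists_normal_mem_B2 (fixingSubgroup_mem_galLevels K) smooth_ux hf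
  have := hNn
  have : (N.subgroupOf W).Normal := inferInstanceAs (N.comap W.subtype).Normal
  have := LQ.finiteIndex hN
  obtain ⟨P, a, hNP, hPW, hdvd, hrel⟩ := exists_relIndex_primePow hNW p
  have hPL : P ∈ LQ := Levels.mem_of_le hN hNP
  set K' := IntermediateField.fixedField P
  have : FiniteDimensional ℚ K' := finiteDimensional_fixedField hPL
  have hK' : K'.fixingSubgroup = P := fixingSubgroup_fixedField_of_mem hPL
  have hle : K ≤ K' := le_fixedField hPW
  have := isTotallyComplex_of_le hle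
  have hfP : f ∈ LQ.B2 P GM := hK' ▸ mem_B2_of_pGroup hζ a K' (hle hζK) N (hK'.symm ▸ hNP) hN
    (hK'.symm ▸ inferInstanceAs (N.comap P.subtype).Normal) (hK'.symm ▸ hrel) f
    (hK'.symm ▸ Levels.Z2_mono hPW hf) hfN (hloc.mono hle)
  exact mem_B2_of_coprime hpf (n := P.relIndex W) hdvd
    (relIndex_nsmul_mem_B2 hPL smooth_ux hf hfP)

/-- A locally trivial class of exponent `p` is trivial. -/
theorem mem_B2_of_locTriv_prime [FiniteDimensional ℚ K] [NumberField.IsTotallyComplex K]
    {f : GQ → GQ → GM} (hf : f ∈ LQ.Z2 K.fixingSubgroup GM)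
    (hpf : p • f ∈ LQ.B2 K.fixingSubgroup GM) (hloc : LocTriv K f) :
    f ∈ LQ.B2 K.fixingSubgroup GM := by
  have : NeZero p := ⟨hp.out.ne_zero⟩
  obtain ⟨ζ, hζ⟩ : ∃ ζ : Qbar, IsPrimitiveRoot ζ p :=
    HasEnoughRootsOfUnity.exists_primitiveRoot Qbar p
  set C := IntermediateField.adjoin ℚ {ζ}
  have : FiniteDimensional ℚ C :=
    IntermediateField.adjoin.finiteDimensional (Algebra.IsIntegral.isIntegral ζ)
  have : FiniteDimensional ℚ ↥(K ⊔ C) := IntermediateField.finiteDimensional_sup _ _
  have := isTotallyComplex_of_le (le_sup_left : K ≤ K ⊔ C)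
  have hle : (K ⊔ C).fixingSubgroup ≤ K.fixingSubgroup :=
    IntermediateField.fixingSubgroup_antitone le_sup_left
  have h := mem_B2_of_locTriv_zeta hζ ((le_sup_right : C ≤ K ⊔ C)
      (IntermediateField.mem_adjoin_simple_self ℚ ζ)) (Levels.Z2_mono hle hf)
    (Levels.B2_mono hle hpf) (hloc.mono le_sup_left)
  refine mem_B2_of_coprime hpf (n := (K ⊔ C).fixingSubgroup.relIndex K.fixingSubgroup) ?_
    (relIndex_nsmul_mem_B2 (fixingSubgroup_mem_galLevels _) smooth_ux hf h)
  -- the index is smaller than `p`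
  rw [IntermediateField.fixingSubgroup_sup, Subgroup.inf_relIndex_left]
  have hC : C.fixingSubgroup.relIndex K.fixingSubgroup ≤ C.fixingSubgroup.index := by
    rw [← Subgroup.relIndex_top_right]
    exact Subgroup.relIndex_le_of_le_right le_top (by
      rw [Subgroup.relIndex_top_right]
      have := LQ.finiteIndex (fixingSubgroup_mem_galLevels C)
      exact Subgroup.FiniteIndex.index_ne_zero)
  have hdeg : C.fixingSubgroup.index < p := by
    rw [← IntermediateField.finrank_eq_fixingSubgroup_index,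
      IntermediateField.adjoin.finrank (Algebra.IsIntegral.isIntegral ζ)]
    refine lt_of_le_of_lt (Polynomial.natDegree_le_of_dvd
      (minpoly.dvd ℚ ζ (p := Polynomial.cyclotomic p ℚ) ?_) (Polynomial.cyclotomic_ne_zero p ℚ)) ?_
    · rw [Polynomial.aeval_def, Polynomial.eval₂_eq_eval_map, Polynomial.map_cyclotomic]
      exact hζ.isRoot_cyclotomic hp.out.pos
    · rw [Polynomial.natDegree_cyclotomic, Nat.totient_prime hp.out]
      exact Nat.sub_lt hp.out.pos one_pos
  intro hd
  rcases Nat.eq_zero_or_pos (C.fixingSubgroup.relIndex K.fixingSubgroup) with h0 | h0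
  · have := LQ.finiteIndex (fixingSubgroup_mem_galLevels C)
    exact Subgroup.FiniteIndex.index_ne_zero (H := C.fixingSubgroup)
      (by rw [← Subgroup.relIndex_top_right]
          exact Subgroup.relIndex_eq_zero_of_le_right le_top h0)
  · exact absurd (Nat.le_of_dvd h0 hd) (by omega)

/-- A locally trivial class of `p`-power exponent is trivial. -/
theorem mem_B2_of_locTriv [FiniteDimensional ℚ K] [NumberField.IsTotallyComplex K] {k : ℕ}
    {f : GQ → GQ → GM} (hf : f ∈ LQ.Z2 K.fixingSubgroup GM)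
    (hkf : p ^ k • f ∈ LQ.B2 K.fixingSubgroup GM) (hloc : LocTriv K f) :
    f ∈ LQ.B2 K.fixingSubgroup GM := by
  induction k generalizing f with
  | zero => rwa [pow_zero, one_smul] at hkf
  | succ k ih =>
    refine mem_B2_of_locTriv_prime (p := p) hf (ih (nsmul_mem hf p) ?_ fun q _ g => ?_) hloc
    · rwa [← mul_smul, ← pow_succ]
    · rw [pullAt_nsmul]; exact nsmul_mem (hloc q g) p

end FermatAgent.CFT.Global
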