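import Fermat.Agent.CFT.Global.SRecip

/-!
Orders away from a finite set of primes, roots with divisible order, and capitulation.

`HasOrd` is the order of an element at an embedding; at a prime outside `S`, on a field unramified
outside `S`, it is the valuation (`hasOrd_ordP`). Inertia fixes a `p`-th root of an element with
orders divisible by `p`, so it stays in such a field (`exists_field_of_pth`). Killing the divisor by
the class number and taking repeated roots gives capitulation up to a factor prime to `p`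
(`exists_capitulation`).
-/

set_option autoImplicit false

noncomputable section

open scoped Classical Pointwise
open IntermediateField

namespace FermatAgent.CFT.Global

open Coh Local GaloisBasic

section Ord

variable {q : ℕ} [hq : Fact q.Prime] {g : GQ}

variable (q) in
/-- The norm at an embedding is an integral power of the norm of the prime. -/
def HasOrd (g : GQ) (a : GM) (n : ℤ) : Prop :=
  ‖emb q g a.val‖ = ‖(q : PadicAlgCl q)‖ ^ n

/-- Orders add. -/
lemma HasOrd.add {a b : GM} {m n : ℤ} (ha : HasOrd q g a m) (hb : HasOrd q g b n) :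
    HasOrd q g (a + b) (m + n) := by
  unfold HasOrd at *
  rw [Ux.val_add, map_mul, norm_mul, ha, hb, zpow_add₀ norm_q_pos.ne']

/-- Orders subtract. -/
lemma HasOrd.sub {a b : GM} {m n : ℤ} (ha : HasOrd q g a m) (hb : HasOrd q g b n) :
    HasOrd q g (a - b) (m - n) := by
  unfold HasOrd at *
  rw [Ux.val_sub, map_div₀, norm_div, ha, hb, zpow_sub₀ norm_q_pos.ne']

/-- Zero has order zero. -/
lemma hasOrd_zero : HasOrd q g 0 0 := by simp [HasOrd]

lemma HasOrd.zsmul {a : GM} {m : ℤ} (ha : HasOrd q g a m) (k : ℤ) :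
    HasOrd q g (k • a) (k * m) := by
  unfold HasOrd at *
  rw [Ux.val_zsmul, map_zpow₀, norm_zpow, ha, ← zpow_mul, mul_comm]

/-- Orders of multiples. -/
lemma HasOrd.nsmul {a : GM} {m : ℤ} (ha : HasOrd q g a m) (k : ℕ) :
    HasOrd q g (k • a) (k * m) := by
  rw [← natCast_zsmul]; exact ha.zsmul k

/-- The order is unique. -/
lemma HasOrd.unique {a : GM} {m n : ℤ} (ha : HasOrd q g a m) (hb : HasOrd q g a n) : m = n :=
  zpow_right_injective₀ norm_q_pos norm_q_lt_one.ne (ha.symm.trans hb)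

/-- Orders of conjugates. -/
lemma hasOrd_smul_iff (h : GQ) {a : GM} {n : ℤ} : HasOrd q g (h • a) n ↔ HasOrd q (g * h) a n := by
  unfold HasOrd
  rw [Ux.val_smul, ← emb_mul]

/-- Order zero means being a unit at the place. -/
lemma hasOrd_zero_iff {a : GM} : HasOrd q g a 0 ↔ ‖emb q g a.val‖ = 1 := by
  rw [HasOrd, zpow_zero]

lemma HasOrd.of_nsmul {a : GM} {k : ℕ} (hk : k ≠ 0) {m : ℤ} (h : HasOrd q g (k • a) (k * m)) :
    HasOrd q g a m := by
  unfold HasOrd at *
  rw [Ux.val_nsmul, map_pow, norm_pow, mul_comm, zpow_mul, zpow_natCast] at h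
  exact (pow_left_inj₀ (norm_nonneg _) (zpow_nonneg (norm_nonneg _) _) hk).mp h

end Ord

variable {S : Finset Nat.Primes}

section Unram

variable {M : IntermediateField ℚ Qbar} (hM : M.IsUnramifiedOutside S) {q : ℕ} [hq : Fact q.Prime]
  (hqS : (⟨q, hq.out⟩ : Nat.Primes) ∉ S) (g : GQ)

include hM hqS

lemma exists_zpow_norm_emb {x : Qbar} (hx : x ∈ M) (h0 : x ≠ 0) :
    ∃ n : ℤ, ‖emb q g x‖ = ‖(q : PadicAlgCl q)‖ ^ n := by
  obtain ⟨m, hm, hker⟩ :=
    exists_unramChar_ker_le hM hqS (bot_le : (⊥ : IntermediateField ℚ Qbar) ≤ M) g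
  set F₀ := locField q g (⊥ : IntermediateField ℚ Qbar)
  have hmem : emb q g x ∈ unramField F₀ m := exists_apply_eq_of_mem _ fun d hd =>
    (IntermediateField.mem_fixingSubgroup_iff _ d).mp (hker (ker_unramChar F₀ m ▸ hd)) _
      (emb_mem_locField hx)
  obtain ⟨t, ht, htn⟩ := exists_norm_eq_of_unramField F₀ m hmem
  have hle : F₀ ≤ ⊥ := by
    rw [show F₀ = adjoin ℚ_[q] (emb q g '' (⊥ : IntermediateField ℚ Qbar)) from rfl, adjoin_le_iff]
    rintro _ ⟨y, hy, rfl⟩
    obtain ⟨r, rfl⟩ := IntermediateField.mem_bot.mp hy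
    rw [AlgHom.commutes, IsScalarTower.algebraMap_apply ℚ ℚ_[q] (PadicAlgCl q)]
    exact IntermediateField.algebraMap_mem _ _
  obtain ⟨c, rfl⟩ := IntermediateField.mem_bot.mp (hle ht)
  have hc : c ≠ 0 := fun h => by
    rw [h, map_zero, norm_zero, eq_comm, norm_eq_zero, _root_.map_eq_zero] at htn
    exact h0 htn
  refine ⟨c.valuation, ?_⟩
  rw [← htn, norm_algebraMap', Padic.norm_eq_zpow_neg_valuation hc, norm_q, inv_zpow', zpow_neg]

variable [FiniteDimensional ℚ M]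

/-- In a field unramified outside `S` the order is the valuation. -/
theorem hasOrd_ordP {a : GM} (ha : a ∈ starK M) : HasOrd q g a (ordP (primeAt M q g) a.val) := by
  set F := locField q g M
  obtain ⟨π, hπ, hπ0, hπn⟩ := exists_emb_norm_eq (unif_mem F) (unif_ne_zero F)
  obtain ⟨n, hn⟩ := exists_zpow_norm_emb hM hqS g hπ hπ0
  rw [hπn, norm_q_eq F, ← zpow_natCast, ← zpow_mul] at hn
  have he : (ramIdx F : ℤ) * n = 1 :=
    (zpow_right_injective₀ (norm_unif_pos F) (norm_unif_lt_one F).ne ((zpow_one _).trans hn)).symm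
  have he1 : ramIdx F = 1 := by
    have := Int.eq_one_of_mul_eq_one_right (by positivity) he
    exact_mod_cast this
  show ‖emb q g a.val‖ = _
  rw [norm_eq_zpow_ord F (emb_mem_locField (val_mem_of_mem_starK M ha))
    ((_root_.map_ne_zero _).mpr a.val_ne_zero), (isPoint_primeAt (K := M)).ord_eq
    (val_mem_of_mem_starK M ha) a.val_ne_zero, norm_q_eq F, he1, pow_one]

end Unram

/-- Inertia moves integral elements by little. -/
lemma norm_inertia_sub_lt {q : ℕ} [hq : Fact q.Prime] {A : ValuationSubring Qbar} {τ : GQ}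
    (hτ : τ • padicPlace q = A) {σ : GQ} (hσ : σ ∈ A.inertiaSubgroupIn ℚ) {x : Qbar}
    (hx : ‖emb q τ⁻¹ x‖ ≤ 1) : ‖emb q τ⁻¹ (σ x) - emb q τ⁻¹ x‖ < 1 := by
  have hA : A.LiesOverPrime q := hτ ▸ liesOverPrime_smul τ liesOverPrime_padicPlace
  have hxA : x ∈ A := by
    rw [← hτ, ValuationSubring.mem_pointwise_smul_iff_inv_smul_mem, mem_padicPlace_iff,
      ← NNReal.coe_le_coe, coe_nnnorm, NNReal.coe_one]
    exact hx
  obtain ⟨b, s, hs, hbs⟩ := (mem_iff_exists_mul_eq hq.out hA x).mp hxA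
  have hc : ∀ z : ZBar, z ∈ center A ↔ ‖emb q τ⁻¹ (z : Qbar)‖ < 1 := fun z => by
    rw [← hτ, center_smul, Ideal.mem_pointwise_smul_iff_inv_smul_mem, mem_center,
      mem_nonunits_padicPlace]
    rfl
  have hmove : ∀ z : ZBar, ‖emb q τ⁻¹ (σ (z : Qbar)) - emb q τ⁻¹ (z : Qbar)‖ < 1 := fun z => by
    have h1 := (hc _).mp ((mem_inertiaSubgroupIn_iff hq.out hA σ).mp hσ z)
    rw [AddSubgroupClass.coe_sub, coe_smul_zbar, map_sub] at h1
    exact h1
  have hS : ‖emb q τ⁻¹ (s : Qbar)‖ = 1 :=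
    le_antisymm (norm_emb_integral _ s.2) (not_lt.mp fun h => hs ((hc s).mpr h))
  have hS' : ‖emb q τ⁻¹ (σ (s : Qbar))‖ = 1 := by
    refine le_antisymm (coe_smul_zbar σ s ▸ norm_emb_integral (q := q) τ⁻¹ (σ • s).2)
      (not_lt.mp fun h => ?_)
    have h1 := hmove s
    rw [norm_sub_rev] at h1
    have h2 := IsUltrametricDist.norm_add_le_max (emb q τ⁻¹ (s : Qbar) - emb q τ⁻¹ (σ (s : Qbar)))
      (emb q τ⁻¹ (σ (s : Qbar)))
    rw [sub_add_cancel, hS] at h2
    exact absurd (h2.trans_lt (max_lt h1 h)) (lt_irrefl 1)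
  have e1 : emb q τ⁻¹ x * emb q τ⁻¹ (s : Qbar) = emb q τ⁻¹ (b : Qbar) := by rw [← map_mul, hbs]
  have e2 : emb q τ⁻¹ (σ x) * emb q τ⁻¹ (σ (s : Qbar)) = emb q τ⁻¹ (σ (b : Qbar)) := by
    rw [← map_mul, ← map_mul, hbs]
  have key : (emb q τ⁻¹ (σ x) - emb q τ⁻¹ x) * emb q τ⁻¹ (σ (s : Qbar)) =
      (emb q τ⁻¹ (σ (b : Qbar)) - emb q τ⁻¹ (b : Qbar)) +
        -(emb q τ⁻¹ x * (emb q τ⁻¹ (σ (s : Qbar)) - emb q τ⁻¹ (s : Qbar))) := by
    linear_combination e2 - e1
  suffices h4 : ‖(emb q τ⁻¹ (σ x) - emb q τ⁻¹ x) * emb q τ⁻¹ (σ (s : Qbar))‖ < 1 by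
    rwa [norm_mul, hS', mul_one] at h4
  rw [key]
  refine (IsUltrametricDist.norm_add_le_max _ _).trans_lt (max_lt (hmove b) ?_)
  rw [norm_neg, norm_mul]
  exact mul_lt_one_of_nonneg_of_lt_one_right hx (norm_nonneg _) (hmove s)

variable {p : ℕ} [hp : Fact p.Prime] (hpS : ExtCitation.pPrime p ∈ S)
include hpS

/-- Roots with divisible order stay unramified outside `S`. -/
theorem exists_field_of_pth {M : IntermediateField ℚ Qbar} (hM : M.IsUnramifiedOutside S) {y : GM}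
    (hy : p • y ∈ starK M)
    (h : ∀ q : Nat.Primes, q ∉ S → ∀ g : GQ, ∃ k : ℤ, HasOrd (q : ℕ) g (p • y) (p * k)) :
    ∃ M' : IntermediateField ℚ Qbar, M'.IsUnramifiedOutside S ∧ M ≤ M' ∧ y ∈ starK M' := by
  have := hM.1
  have : FiniteDimensional ℚ ℚ⟮y.val⟯ :=
    adjoin.finiteDimensional (Algebra.IsIntegral.isIntegral y.val)
  refine ⟨M ⊔ ℚ⟮y.val⟯, ⟨IntermediateField.finiteDimensional_sup _ _, fun q hq A hA σ hσ => ?_⟩,
    le_sup_left, mem_starK_of_mem _ ((le_sup_right : ℚ⟮y.val⟯ ≤ _) (mem_adjoin_simple_self ℚ _))⟩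
  have hσM := hM.2 q hq A hA hσ
  rw [IntermediateField.fixingSubgroup_sup]
  refine Subgroup.mem_inf.mpr ⟨hσM, ?_⟩
  suffices hy' : σ y.val = y.val by
    rw [IntermediateField.mem_fixingSubgroup_iff]
    intro x hx
    induction hx using IntermediateField.adjoin_induction with
    | mem z hz => rw [Set.mem_singleton_iff] at hz; rw [hz, hy']
    | algebraMap z => exact σ.commutes z
    | add x y _ _ hx hy => rw [map_add, hx, hy]
    | inv x _ hx => rw [map_inv₀, hx]
    | mul x y _ _ hx hy => rw [map_mul, hx, hy]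
  obtain ⟨τ, hτ⟩ := exists_smul_eq q.2 (liesOverPrime_padicPlace (q := (q : ℕ))) hA
  obtain ⟨k, hk⟩ := h q hq τ⁻¹
  have hk' : ‖emb q τ⁻¹ y.val‖ = ‖((q : ℕ) : PadicAlgCl (q : ℕ))‖ ^ k :=
    hk.of_nsmul hp.out.ne_zero
  set w : Qbar := y.val / ((q : ℕ) : Qbar) ^ k
  have hw : ‖emb q τ⁻¹ w‖ = 1 := by
    rw [map_div₀, map_zpow₀, map_natCast, norm_div, norm_zpow, hk',
      div_self (zpow_ne_zero _ norm_q_pos.ne')]
  have hσw : σ w = σ y.val / ((q : ℕ) : Qbar) ^ k := by rw [map_div₀, map_zpow₀, map_natCast]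
  have h1 := norm_inertia_sub_lt hτ hσ hw.le
  have hwp : σ w ^ p = w ^ p := by
    rw [hσw, div_pow, div_pow, ← map_pow, ← Ux.val_nsmul, ← Ux.val_smul, hy σ hσM]
  have hw0 : emb q τ⁻¹ w ≠ 0 := norm_pos_iff.mp (hw.symm ▸ one_pos)
  set ε := emb q τ⁻¹ (σ w) / emb q τ⁻¹ w
  have hεp : ε ^ p = 1 := by
    rw [div_pow, ← map_pow, hwp, map_pow, div_self (pow_ne_zero _ hw0)]
  have hεn := norm_eq_one_of_pow_eq_one hp.out.ne_zero hεp
  have hqp : ¬ (q : ℕ) ∣ p := fun h => hq ((Subtype.ext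
    ((Nat.prime_dvd_prime_iff_eq q.2 hp.out).mp h) : q = ExtCitation.pPrime p) ▸ hpS)
  have hε : ε = 1 := eq_of_res_eq hqp hεp (one_pow p) ((res_eq_res_iff hεn.le norm_one.le).mpr (by
    rw [div_sub_one hw0, norm_div, hw, div_one]
    exact h1))
  have := emb_injective τ⁻¹ ((div_eq_one_iff_eq hw0).mp hε)
  rw [hσw, div_left_inj' (zpow_ne_zero _ (Nat.cast_ne_zero.mpr q.2.ne_zero))] at this
  exact this

/-- Repeated roots. -/
lemma exists_field_of_pow (r : ℕ) : ∀ {M : IntermediateField ℚ Qbar}, M.IsUnramifiedOutside S →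
    ∀ {c : GM}, c ∈ starK M → ∀ n : Nat.Primes → GQ → ℤ,
      (∀ q : Nat.Primes, q ∉ S → ∀ g : GQ, HasOrd (q : ℕ) g c (p ^ r * n q g)) →
      ∃ (M' : IntermediateField ℚ Qbar) (C : GM), M'.IsUnramifiedOutside S ∧ M ≤ M' ∧ C ∈ starK M' ∧
        ∀ q : Nat.Primes, q ∉ S → ∀ g : GQ, HasOrd (q : ℕ) g C (n q g) := by
  induction r with
  | zero =>
    intro M hM c hc n h
    exact ⟨M, c, hM, le_rfl, hc, fun q hq g => by simpa using h q hq g⟩
  | succ r ih =>
    intro M hM c hc n h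
    set y := pRoot p c
    have hy : p • y = c := nsmul_pRoot c
    have h' : ∀ q : Nat.Primes, q ∉ S → ∀ g : GQ,
        HasOrd (q : ℕ) g (p • y) (p * ((p : ℤ) ^ r * n q g)) := fun q hq g => by
      rw [hy, ← mul_assoc, ← pow_succ']
      exact h q hq g
    obtain ⟨M₁, hM₁, hle, hyM⟩ := exists_field_of_pth hpS hM (y := y) (by rwa [hy])
      fun q hq g => ⟨_, h' q hq g⟩
    obtain ⟨M', C, hM', hle', hC, hCn⟩ :=
      ih hM₁ hyM n fun q hq g => (h' q hq g).of_nsmul hp.out.ne_zero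
    exact ⟨M', C, hM', hle.trans hle', hC, hCn⟩

omit hpS hp in
/-- The class number kills every divisor. -/
lemma exists_ordP_card (E : IntermediateField ℚ Qbar) [FiniteDimensional ℚ E] {D : PK E → ℤ}
    (hD : (Function.support D).Finite) :
    ∃ c ∈ starK E, ∀ P : PK E,
      ordP P c.val = (Fintype.card (ClassGroup (NumberField.RingOfIntegers E)) : ℤ) * D P := by
  set h := Fintype.card (ClassGroup (NumberField.RingOfIntegers E))
  have hgen : ∀ P : PK E, ∃ c ∈ starK E, ∀ P' : PK E,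
      ordP P' c.val = if P' = P then (h : ℤ) else 0 := fun P => by
    set I : nonZeroDivisors (Ideal (NumberField.RingOfIntegers E)) :=
      ⟨P.asIdeal, mem_nonZeroDivisors_of_ne_zero P.ne_bot⟩
    have hpow : ClassGroup.mk0 (I ^ h) = 1 := by rw [map_pow, pow_card_eq_one]
    obtain ⟨c, hc⟩ := (ClassGroup.mk0_eq_one_iff (I ^ h).2).mp hpow
    change P.asIdeal ^ h = Ideal.span {c} at hc
    have hc0 : c ≠ 0 := fun h0 => by
      rw [h0, Ideal.span_singleton_eq_bot.mpr rfl] at hc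
      exact pow_ne_zero h P.ne_bot hc
    have hc0' : ((c : E) : Qbar) ≠ 0 := by simpa using hc0
    refine ⟨Ux.mk _ hc0', mem_starK_of_mem E (a := Ux.mk _ hc0') (c : E).2, fun P' => ?_⟩
    rw [Ux.val_mk]
    split_ifs with hP
    · subst hP
      refine ordP_int_eq P' hc0 (n := h) (by rw [← hc]) fun h' => ?_
      rw [← hc] at h'
      exact absurd ((pow_dvd_pow_iff P'.ne_bot (fun hu => P'.isPrime.ne_top
        (Ideal.isUnit_iff.mp hu))).mp h') (by omega)
    · refine ordP_eq_zero_of_not_dvd P' hc0 fun h' => hP ?_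
      rw [← hc] at h'
      exact asIdeal_dvd_iff.mp ((Ideal.prime_of_isPrime P'.ne_bot P'.isPrime).dvd_of_dvd_pow h')
  choose c hc hco using hgen
  refine ⟨∑ P ∈ hD.toFinset, D P • c P, sum_mem fun P _ => zsmul_mem (hc P) _, fun P' => ?_⟩
  have key : ordHom E ⟨∑ P ∈ hD.toFinset, D P • c P, sum_mem fun P _ => zsmul_mem (hc P) _⟩ =
      ∑ P ∈ hD.toFinset, D P • ordHom E ⟨c P, hc P⟩ := by
    rw [← Finset.sum_congr rfl fun P _ => map_zsmul (ordHom E) (D P) ⟨c P, hc P⟩, ← map_sum]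
    exact congrArg _ (Subtype.ext (by simp))
  have := congrFun key P'
  rw [ordHom_apply, Finset.sum_apply] at this
  rw [this, Finset.sum_eq_single P']
  · rw [Pi.smul_apply, ordHom_apply, hco, if_pos rfl, smul_eq_mul, mul_comm]
  · intro P _ hne
    rw [Pi.smul_apply, ordHom_apply, hco, if_neg (Ne.symm hne), smul_zero]
  · intro hP
    rw [Set.Finite.mem_toFinset, Function.mem_support, not_not] at hP
    rw [hP, zero_smul]
    rfl

/-- Capitulation: up to a factor prime to `p`, every divisor becomes principal outside `S` in a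
field unramified outside `S`. -/
theorem exists_capitulation {E : IntermediateField ℚ Qbar} [FiniteDimensional ℚ E]
    (hE : E.IsUnramifiedOutside S) :
    ∃ m : ℕ, ¬ p ∣ m ∧ ∀ D : PK E → ℤ, (Function.support D).Finite →
      ∃ (M : IntermediateField ℚ Qbar) (C : GM), M.IsUnramifiedOutside S ∧ E ≤ M ∧ C ∈ starK M ∧
        ∀ q : Nat.Primes, q ∉ S → ∀ g : GQ,
          HasOrd (q : ℕ) g C (m * D (primeAt E (q : ℕ) g)) := by
  obtain ⟨r, m, hm, hrm⟩ := Nat.exists_eq_pow_mul_and_not_dvd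
    (Fintype.card_ne_zero (α := ClassGroup (NumberField.RingOfIntegers E))) p hp.out.ne_one
  refine ⟨m, hm, fun D hD => ?_⟩
  obtain ⟨c, hc, hco⟩ := exists_ordP_card E hD
  refine exists_field_of_pow hpS r hE hc (fun q g => m * D (primeAt E (q : ℕ) g)) fun q hq g => ?_
  have := hasOrd_ordP hE (q := (q : ℕ)) hq g hc
  rw [hco, hrm] at this
  push_cast at this
  rwa [mul_assoc] at this

end FermatAgent.CFT.Global
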