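import Fermat.Agent.CFT.Local.Brauer
import Fermat.Agent.GaloisBasic.Frobenius
import Fermat.Prelude.Def_GaloisRep_CompletionBridge
import Mathlib.Analysis.Normed.Field.Krasner
import Mathlib.Analysis.Normed.Field.Approximation

/-!
Embeddings of `ℚ̄` into the algebraic closures of `ℚ_q`, their local fields and local groups.

`emb q g` is the embedding attached to `g`, `locHom` the local group inside the global one and
`locField` the local field of a subfield, in which the subfield is dense. By Krasner's lemma every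
finite extension of `ℚ_q` lies in such a field (`exists_le_locField`), so local levels are traces of
global ones (`comap_levels_eq`); embeddings with one unit ball on a number field differ by the
local and global groups (`exists_locHom_mul`).
-/

set_option autoImplicit false

noncomputable section

open scoped Classical
open IntermediateField Polynomial

namespace FermatAgent.CFT.Global

open Coh Local GaloisBasic

variable {q : ℕ} [hq : Fact q.Prime]

variable (q) in
/-- The embedding attached to an element of the Galois group. -/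
def emb (g : GQ) : Qbar →ₐ[ℚ] PadicAlgCl q := (padicEmbedding q).comp (g : Qbar →ₐ[ℚ] Qbar)

/-- The embedding at a product. -/
lemma emb_mul (g h : GQ) (x : Qbar) : emb q (g * h) x = emb q g (h x) := rfl

/-- The embeddings are injective. -/
lemma emb_injective (g : GQ) : Function.Injective (emb q g) := (emb q g).toRingHom.injective

variable (q) in
/-- The local group seen in the global one through an embedding. -/
def locHom (g : GQ) : Gal' q →* GQ :=
  (MulAut.conj g⁻¹).toMonoidHom.comp (localGaloisToGlobal q)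

/-- The localisation map is a conjugate of the standard one. -/
lemma locHom_apply (g : GQ) (d : Gal' q) : locHom q g d = g⁻¹ * localGaloisToGlobal q d * g := by
  show g⁻¹ * localGaloisToGlobal q d * g⁻¹⁻¹ = _
  rw [inv_inv]

/-- The standard localisation map. -/
lemma locHom_one : locHom q (1 : GQ) = localGaloisToGlobal q :=
  MonoidHom.ext fun d => by rw [locHom_apply, inv_one, one_mul, mul_one]

/-- The embedding intertwines localisation. -/
lemma emb_locHom (g : GQ) (d : Gal' q) (x : Qbar) : emb q g (locHom q g d x) = d (emb q g x) := by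
  show padicEmbedding q (g (locHom q g d x)) = d (padicEmbedding q (g x))
  rw [← padicEmbedding_localGaloisToGlobal]
  congr 1
  rw [← AlgEquiv.mul_apply, ← AlgEquiv.mul_apply, locHom_apply, mul_assoc g⁻¹,
    mul_inv_cancel_left]

/-- Elements of the local algebraic closure that are algebraic over `ℚ` come from `ℚ̄`. -/
lemma exists_emb_eq_of_root (g : GQ) {P : ℚ[X]} (hP : P.Monic) {y : PadicAlgCl q}
    (hy : aeval y P = 0) : ∃ x : Qbar, emb q g x = y := by
  have hs : (P.map (algebraMap ℚ Qbar)).Splits := IsAlgClosed.splits _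
  have hmem : y ∈ P.rootSet (PadicAlgCl q) := (mem_rootSet_of_ne hP.ne_zero).mpr hy
  rw [← hs.image_rootSet (emb q g)] at hmem
  obtain ⟨x, -, hx⟩ := hmem
  exact ⟨x, hx⟩

variable (q) in
/-- The local field generated by a subfield of `ℚ̄`. -/
def locField (g : GQ) (K : IntermediateField ℚ Qbar) : IntermediateField ℚ_[q] (PadicAlgCl q) :=
  adjoin ℚ_[q] (emb q g '' K)

variable {g : GQ} {K : IntermediateField ℚ Qbar}

/-- The embedding lands in the local field. -/
lemma emb_mem_locField {x : Qbar} (hx : x ∈ K) : emb q g x ∈ locField q g K :=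
  subset_adjoin _ _ ⟨x, hx, rfl⟩

/-- Local fields are monotone. -/
lemma locField_mono {K' : IntermediateField ℚ Qbar} (h : K ≤ K') :
    locField q g K ≤ locField q g K' :=
  adjoin.mono _ _ _ (Set.image_mono h)

instance finiteDimensional_locField [FiniteDimensional ℚ K] :
    FiniteDimensional ℚ_[q] (locField q g K) := by
  let b := Module.finBasis ℚ K
  set s := Set.range fun i => emb q g (b i)
  have : FiniteDimensional ℚ_[q] (adjoin ℚ_[q] s) :=
    finiteDimensional_adjoin (S := s) fun x _ => Algebra.IsIntegral.isIntegral x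
  have hle : locField q g K ≤ adjoin ℚ_[q] s := by
    rw [locField, adjoin_le_iff]
    rintro _ ⟨x, hx, rfl⟩
    have e : (x : Qbar) = ∑ i, (b.repr ⟨x, hx⟩ i : ℚ) • (b i : Qbar) := by
      have := congrArg K.val (b.sum_repr ⟨x, hx⟩)
      simp only [map_sum] at this
      exact this.symm
    rw [SetLike.mem_coe, e, map_sum]
    refine sum_mem fun i _ => ?_
    rw [Algebra.smul_def, map_mul, AlgHom.commutes]
    refine mul_mem ?_ (subset_adjoin _ _ ⟨i, rfl⟩)
    rw [IsScalarTower.algebraMap_apply ℚ ℚ_[q] (PadicAlgCl q)]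
    exact IntermediateField.algebraMap_mem _ _
  exact FiniteDimensional.of_injective (inclusion hle).toLinearMap (inclusion_injective hle)

/-- The group of the local field is the preimage. -/
lemma fixingSubgroup_locField :
    (locField q g K).fixingSubgroup = K.fixingSubgroup.comap (locHom q g) := by
  ext d
  rw [Subgroup.mem_comap, IntermediateField.mem_fixingSubgroup_iff,
    IntermediateField.mem_fixingSubgroup_iff]
  refine ⟨fun h x hx => emb_injective (q := q) g ?_, fun h y hy => ?_⟩
  · rw [emb_locHom]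
    exact h _ (emb_mem_locField hx)
  · induction hy using adjoin_induction with
    | mem z hz =>
      obtain ⟨x, hx, rfl⟩ := hz
      rw [← emb_locHom, h x hx]
    | algebraMap z => exact d.commutes z
    | add x y _ _ hx hy => rw [map_add, hx, hy]
    | inv x _ hx => rw [map_inv₀, hx]
    | mul x y _ _ hx hy => rw [map_mul, hx, hy]

/-- A subfield is dense in its local field. -/
lemma mem_closure_of_mem_locField {x : PadicAlgCl q} (hx : x ∈ locField q g K) :
    x ∈ closure (emb q g '' K) := by
  set S : Subfield (PadicAlgCl q) := (K.toSubfield.map (emb q g).toRingHom)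
  have hS : (S : Set (PadicAlgCl q)) = emb q g '' K := rfl
  rw [← hS]
  show x ∈ S.topologicalClosure
  induction hx using adjoin_induction with
  | mem z hz => exact S.le_topologicalClosure hz
  | algebraMap z =>
    have hd := Padic.denseRange_ratCast q z
    refine map_mem_closure (continuous_algebraMap ℚ_[q] (PadicAlgCl q)) hd ?_
    rintro _ ⟨r, rfl⟩
    show algebraMap ℚ_[q] (PadicAlgCl q) (r : ℚ_[q]) ∈ S
    rw [map_ratCast]
    exact SubfieldClass.ratCast_mem S r
  | add x y _ _ hx hy => exact add_mem hx hy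
  | inv x _ hx => exact inv_mem hx
  | mul x y _ _ hx hy => exact mul_mem hx hy

/-- Approximation in the local field. -/
lemma exists_emb_near {x : PadicAlgCl q} (hx : x ∈ locField q g K) {ε : ℝ} (hε : 0 < ε) :
    ∃ a ∈ K, ‖x - emb q g a‖ < ε := by
  obtain ⟨_, ⟨a, ha, rfl⟩, h⟩ := Metric.mem_closure_iff.mp (mem_closure_of_mem_locField hx) ε hε
  exact ⟨a, ha, by rwa [← dist_eq_norm]⟩

/-- Global elements realise all local norms. -/
lemma exists_emb_norm_eq {x : PadicAlgCl q} (hx : x ∈ locField q g K) (h0 : x ≠ 0) :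
    ∃ a ∈ K, a ≠ 0 ∧ ‖emb q g a‖ = ‖x‖ := by
  obtain ⟨a, ha, h⟩ := exists_emb_near hx (norm_pos_iff.mpr h0)
  have hn : ‖emb q g a‖ = ‖x‖ := by
    rw [norm_sub_rev] at h
    have := IsUltrametricDist.norm_add_eq_max_of_norm_ne_norm h.ne
    rw [sub_add_cancel, max_eq_right h.le] at this
    exact this
  refine ⟨a, ha, fun ha0 => ?_, hn⟩
  rw [ha0, map_zero, norm_zero, eq_comm, norm_eq_zero] at hn
  exact h0 hn

variable (g) in
/-- Every finite extension of `ℚ_q` lies in the local field of a number field. -/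
theorem exists_le_locField (F : IntermediateField ℚ_[q] (PadicAlgCl q))
    [FiniteDimensional ℚ_[q] F] :
    ∃ K : IntermediateField ℚ Qbar, FiniteDimensional ℚ K ∧ F ≤ locField q g K := by
  obtain ⟨α, hα⟩ := Field.exists_primitive_element ℚ_[q] F
  set a : PadicAlgCl q := (α : PadicAlgCl q)
  have ha : IsIntegral ℚ_[q] a := Algebra.IsIntegral.isIntegral a
  set f := minpoly ℚ_[q] a
  have hfm : f.Monic := minpoly.monic ha
  -- a lower bound for the distance to the other conjugates
  obtain ⟨δ, hδ, hδle⟩ : ∃ δ : ℝ, 0 < δ ∧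
      ∀ a' : PadicAlgCl q, IsConjRoot ℚ_[q] a a' → a ≠ a' → δ ≤ ‖a - a'‖ := by
    set S := (f.rootSet (PadicAlgCl q)).toFinset.filter (fun x => a ≠ x)
    rcases S.eq_empty_or_nonempty with hS | hS
    · refine ⟨1, one_pos, fun a' h' hne => absurd hS ?_⟩
      refine Finset.ne_empty_of_mem (a := a') (Finset.mem_filter.mpr ⟨?_, hne⟩)
      rw [Set.mem_toFinset]
      exact (isConjRoot_iff_mem_minpoly_rootSet ha).mp h'
    · obtain ⟨x, hx, hmin⟩ := S.exists_min_image (fun x => ‖a - x‖) hS
      refine ⟨‖a - x‖, norm_pos_iff.mpr (sub_ne_zero.mpr (Finset.mem_filter.mp hx).2),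
        fun a' h' hne => hmin a' (Finset.mem_filter.mpr ⟨?_, hne⟩)⟩
      rw [Set.mem_toFinset]
      exact (isConjRoot_iff_mem_minpoly_rootSet ha).mp h'
  set n := f.natDegree
  have hn : 0 < n := minpoly.natDegree_pos ha
  set ε : ℝ := (δ / max ‖a‖ 1) ^ n / (n + 1)
  have hε : 0 < ε := by positivity
  have hdense : DenseRange (algebraMap ℚ ℚ_[q]) := by
    have : (algebraMap ℚ ℚ_[q] : ℚ → ℚ_[q]) = ((↑) : ℚ → ℚ_[q]) := funext fun r => eq_ratCast _ r
    rw [this]; exact Padic.denseRange_ratCast q
  obtain ⟨P, hPm, hPd, hPc⟩ :=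
    exists_monic_and_natDegree_eq_and_norm_map_algebraMap_coeff_sub_lt hdense hfm hε
  obtain ⟨b, hb, hab⟩ := exists_aroots_norm_sub_lt_of_norm_coeff_sub_lt (L := PadicAlgCl q) hε
    (minpoly.aeval ℚ_[q] a) hfm (hPm.map (algebraMap ℚ ℚ_[q]))
    ((natDegree_map _).trans hPd.symm) hPc (IsAlgClosed.splits _)
  have hab' : ‖a - b‖ < δ := by
    refine lt_of_lt_of_le hab (le_of_eq ?_)
    rw [show ((f.natDegree : ℝ) + 1) * ε = (δ / max ‖a‖ 1) ^ n by
      rw [mul_div_cancel₀]; positivity]
    rw [← Real.rpow_natCast, ← Real.rpow_mul (by positivity), mul_inv_cancel₀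
      (Nat.cast_ne_zero.mpr hn.ne'), Real.rpow_one, div_mul_cancel₀]
    positivity
  rw [mem_aroots, aeval_map_algebraMap] at hb
  obtain ⟨β, hβ⟩ := exists_emb_eq_of_root g hPm hb.2
  refine ⟨ℚ⟮β⟯, adjoin.finiteDimensional (Algebra.IsIntegral.isIntegral β), ?_⟩
  have hkr : a ∈ ℚ_[q]⟮b⟯ := IsKrasner.krasner (Irreducible.separable (minpoly.irreducible ha))
    (IsAlgClosed.splits _) (Algebra.IsIntegral.isIntegral b)
    fun a' h' hne => lt_of_lt_of_le hab' (hδle a' h' hne)
  have hb' : ℚ_[q]⟮b⟯ ≤ locField q g ℚ⟮β⟯ := by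
    rw [adjoin_simple_le_iff, ← hβ]
    exact emb_mem_locField (mem_adjoin_simple_self ℚ β)
  have hF : F = ℚ_[q]⟮a⟯ := by
    have h := congrArg lift hα
    rwa [lift_top, lift_adjoin, Set.image_singleton, eq_comm] at h
  rw [hF, adjoin_simple_le_iff]
  exact hb' hkr

/-- The local levels are the traces of the global levels. -/
theorem comap_levels_eq (g : GQ) (U : Subgroup (Gal' q)) :
    U ∈ (galLevels ℚ Qbar).comap (locHom q g) ↔ U ∈ LL q := by
  constructor
  · rintro ⟨V, ⟨K, hK, hKV⟩, hle, -⟩
    refine Levels.mem_of_le (fix_mem (locField q g K)) ?_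
    rw [fixingSubgroup_locField]
    exact (Subgroup.comap_mono hKV).trans hle
  · intro hU
    have := (LL q).finiteIndex hU
    obtain ⟨F, hF, hFU⟩ := hU
    obtain ⟨K, hK, hle⟩ := exists_le_locField g F
    refine ⟨K.fixingSubgroup, fixingSubgroup_mem_galLevels K, ?_, inferInstance⟩
    rw [← fixingSubgroup_locField]
    exact (fixingSubgroup_antitone hle).trans hFU

/-- Embeddings with the same unit ball on a subfield have the same norms there. -/
lemma norm_emb_eq [FiniteDimensional ℚ K] {g' : GQ}
    (h : ∀ a ∈ K, (‖emb q g a‖ ≤ 1 ↔ ‖emb q g' a‖ ≤ 1)) {a : Qbar} (ha : a ∈ K) :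
    ‖emb q g a‖ = ‖emb q g' a‖ := by
  rcases eq_or_ne a 0 with rfl | h0
  · simp
  set F := locField q g K
  have h0' : emb q g a ≠ 0 := (_root_.map_ne_zero _).mpr h0
  set k := ord F (emb q g a)
  have hk := norm_eq_zpow_ord F (emb_mem_locField ha) h0'
  set e := ramIdx F
  have he : ‖emb q g a‖ ^ e = ‖(q : PadicAlgCl q)‖ ^ k := by
    rw [hk, norm_q_eq F, ← zpow_natCast, ← zpow_natCast, ← zpow_mul, ← zpow_mul, mul_comm]
  set b : Qbar := a ^ e / (q : Qbar) ^ k
  have hb : b ∈ K := div_mem (pow_mem ha _) (zpow_mem (_root_.natCast_mem K q) _)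
  have hbn : ∀ g'' : GQ,
      ‖emb q g'' b‖ = ‖emb q g'' a‖ ^ e / ‖(q : PadicAlgCl q)‖ ^ k := fun g'' => by
    rw [map_div₀, map_pow, map_zpow₀, map_natCast, norm_div, norm_pow, norm_zpow]
  have h1 : ‖emb q g b‖ = 1 := by
    rw [hbn, he, div_self (zpow_ne_zero _ norm_q_pos.ne')]
  have h2 : ‖emb q g' b‖ = 1 := by
    refine le_antisymm ((h b hb).mp h1.le) ?_
    have := (h b⁻¹ (inv_mem hb)).mp (by rw [map_inv₀, norm_inv, h1, inv_one])
    rw [map_inv₀, norm_inv] at this
    have hb0 : 0 < ‖emb q g' b‖ := by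
      rw [norm_pos_iff, _root_.map_ne_zero]
      intro hb0
      rw [hb0, map_zero, norm_zero] at h1
      exact zero_ne_one h1
    exact (inv_le_one₀ hb0).mp this
  rw [hbn, div_eq_one_iff_eq (zpow_ne_zero _ norm_q_pos.ne')] at h2
  exact (pow_left_inj₀ (norm_nonneg _) (norm_nonneg _) (ramIdx_pos F).ne').mp (he.trans h2.symm)

/-- Embeddings with the same unit ball on a number field differ by the local and global groups. -/
theorem exists_locHom_mul [FiniteDimensional ℚ K] {g' : GQ}
    (h : ∀ a ∈ K, (‖emb q g a‖ ≤ 1 ↔ ‖emb q g' a‖ ≤ 1)) :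
    ∃ d : Gal' q, ∃ w ∈ K.fixingSubgroup, g' = g * locHom q g d * w := by
  obtain ⟨θ, hθ⟩ := Field.exists_primitive_element ℚ K
  set y := emb q g θ.1
  set y' := emb q g' θ.1
  have hy : IsIntegral ℚ_[q] y := Algebra.IsIntegral.isIntegral y
  set P := minpoly ℚ_[q] y
  have key : aeval y' P = 0 := by
    by_contra hne
    set M := max (max ‖y‖ ‖y'‖) 1
    have hM1 : 1 ≤ M := le_max_right _ _
    set ε := ‖aeval y' P‖ / M ^ P.natDegree
    have hε : 0 < ε := div_pos (norm_pos_iff.mpr hne) (pow_pos (by linarith) _)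
    have hdense : DenseRange (algebraMap ℚ ℚ_[q]) := by
      have : (algebraMap ℚ ℚ_[q] : ℚ → ℚ_[q]) = ((↑) : ℚ → ℚ_[q]) :=
        funext fun r => eq_ratCast _ r
      rw [this]; exact Padic.denseRange_ratCast q
    obtain ⟨Q, -, hQd, hQc⟩ := exists_monic_and_natDegree_eq_and_norm_map_algebraMap_coeff_sub_lt
      hdense (minpoly.monic hy) hε
    have hbound : ∀ z : PadicAlgCl q, ‖z‖ ≤ M → ‖aeval z Q - aeval z P‖ < ε * M ^ P.natDegree := by
      intro z hz
      rw [← aeval_map_algebraMap ℚ_[q] z Q, ← map_sub, aeval_eq_sum_range' (n := P.natDegree + 1)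
        (by
          refine Nat.lt_succ_of_le ((natDegree_sub_le _ _).trans ?_)
          rw [natDegree_map, ← hQd, max_self])]
      obtain ⟨i, hi, hle⟩ := IsUltrametricDist.exists_norm_finsetSum_le_of_nonempty
        (t := Finset.range (P.natDegree + 1)) Finset.nonempty_range_add_one
        (fun i => (Q.map (algebraMap ℚ ℚ_[q]) - P).coeff i • z ^ i)
      refine lt_of_le_of_lt hle ?_
      rw [norm_smul, norm_pow, coeff_sub]
      refine mul_lt_mul_of_lt_of_le_of_nonneg_of_pos (hQc i) ?_ (norm_nonneg _)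
        (pow_pos (by linarith) _)
      exact (pow_le_pow_left₀ (norm_nonneg z) hz i).trans
        (pow_le_pow_right₀ hM1 (Nat.le_of_lt_succ (Finset.mem_range.mp hi)))
    have h1 := hbound y ((le_max_left _ _).trans (le_max_left _ _))
    have h2 := hbound y' ((le_max_right _ _).trans (le_max_left _ _))
    rw [minpoly.aeval, sub_zero] at h1
    have hQθ : ‖aeval y Q‖ = ‖aeval y' Q‖ := by
      simp only [y, y', aeval_algHom_apply]
      refine norm_emb_eq h ?_
      rw [← IntermediateField.coe_val K, aeval_algHom_apply]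
      exact (aeval θ Q).2
    rw [hQθ] at h1
    have h3 : ‖aeval y' P‖ < ε * M ^ P.natDegree := by
      calc ‖aeval y' P‖ = ‖(aeval y' Q) - (aeval y' Q - aeval y' P)‖ := by rw [sub_sub_cancel]
        _ ≤ max ‖aeval y' Q‖ ‖aeval y' Q - aeval y' P‖ := by
          rw [sub_eq_add_neg (aeval y' Q)]
          exact (IsUltrametricDist.norm_add_le_max _ _).trans (by rw [norm_neg])
        _ < _ := max_lt h1 h2
    rw [div_mul_cancel₀ _ (pow_ne_zero _ (by linarith))] at h3
    exact lt_irrefl _ h3
  obtain ⟨d, hd⟩ := minpoly.exists_algEquiv_of_root' (Algebra.IsAlgebraic.isAlgebraic y) key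
  refine ⟨d, (locHom q g d)⁻¹ * g⁻¹ * g', ?_, by group⟩
  rw [IntermediateField.mem_fixingSubgroup_iff]
  intro x hx
  apply emb_injective (q := q) g
  apply d.injective
  rw [← emb_locHom, ← AlgEquiv.mul_apply, ← mul_assoc, ← mul_assoc, mul_inv_cancel, one_mul,
    ← emb_mul, mul_inv_cancel_left]
  set x' : K := ⟨x, hx⟩
  have hx' : x' ∈ ℚ⟮θ⟯ := hθ ▸ mem_top
  have : (emb q g').comp K.val = (d.toAlgHom.restrictScalars ℚ).comp ((emb q g).comp K.val) := by
    refine AlgHom.ext fun z => ?_
    have hz : z ∈ ℚ⟮θ⟯ := hθ ▸ mem_top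
    induction hz using adjoin_induction with
    | mem z hz => rw [Set.mem_singleton_iff] at hz; subst hz; exact hd.symm
    | algebraMap z => simp
    | add x y _ _ hx hy => simp only [map_add, hx, hy]
    | inv x _ hx => simp only [map_inv₀, hx]
    | mul x y _ _ hx hy => simp only [map_mul, hx, hy]
  exact DFunLike.congr_fun this x'

end FermatAgent.CFT.Global
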