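import Fermat.Agent.CFT.Global.Units
import Mathlib.NumberTheory.NumberField.InfinitePlace.TotallyRealComplex

/-!
Torsion of the groups of `T`-units, and degrees of totally complex fields.
-/

set_option autoImplicit false

noncomputable section

open scoped Classical NumberField

namespace FermatAgent.CFT.Global

open Coh Local GaloisBasic AddSubgroup NumberField

variable {K : IntermediateField ℚ Qbar}

/-- A field above a totally complex one is totally complex. -/
lemma isTotallyComplex_of_le {L : IntermediateField ℚ Qbar} (h : K ≤ L) [IsTotallyComplex K] :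
    IsTotallyComplex L := by
  refine ⟨fun v => InfinitePlace.not_isReal_iff_isComplex.mp fun hv => ?_⟩
  obtain ⟨φ, hφ, rfl⟩ := hv
  set ψ : K →+* ℂ := φ.comp (IntermediateField.inclusion h).toRingHom
  have hψ : ComplexEmbedding.IsReal ψ := by
    refine ComplexEmbedding.isReal_iff.mpr (RingHom.ext fun x => ?_)
    show (ComplexEmbedding.conjugate φ) (IntermediateField.inclusion h x) = _
    rw [ComplexEmbedding.isReal_iff.mp hφ]
    rfl
  have h1 : (InfinitePlace.mk ψ).IsReal := ⟨ψ, hψ, rfl⟩
  exact InfinitePlace.not_isReal_iff_isComplex.mpr (IsTotallyComplex.isComplex _) h1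

variable (K) [FiniteDimensional ℚ K]

/-- The degree of a totally complex field. -/
lemma finrank_eq_rank [IsTotallyComplex K] :
    Module.finrank ℚ K = 2 * (Units.rank K + 1) := by
  rw [IsTotallyComplex.finrank, Units.rank,
    Nat.sub_add_cancel Fintype.card_pos, InfinitePlace.card_eq_nrRealPlaces_add_nrComplexPlaces,
    IsTotallyComplex.nrRealPlaces_eq_zero, zero_add]

/-- The number of roots of unity. -/
def torsN : ℕ := Nat.card (Units.torsion K)

/-- The torsion order is positive. -/
lemma torsN_pos : 0 < torsN K := Nat.card_pos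

/-- Torsion units are killed by the torsion order. -/
lemma torsN_nsmul_eq_zero {T : Set (PK K)} {a : GM} (ha : a ∈ tUnits K T) {n : ℕ} (hn : 0 < n)
    (h : n • a = 0) : torsN K • a = 0 := by
  have ha' := (mem_tUnits.mp ha).1
  have h0 : a ∈ tUnits K ∅ := by
    refine mem_tUnits.mpr ⟨ha', fun P _ => ?_⟩
    have h1 : n • (⟨a, ha'⟩ : ↥(starK K)) = 0 := Subtype.ext h
    have h2 := congrFun (congrArg (ordHom K) h1) P
    rw [map_nsmul, Pi.smul_apply, ordHom_apply, map_zero, Pi.zero_apply, nsmul_eq_mul,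
      mul_eq_zero] at h2
    exact h2.resolve_left (Nat.cast_ne_zero.mpr hn.ne')
  rw [← range_unitEmb] at h0
  obtain ⟨u, rfl⟩ := h0
  have h3 : n • u = 0 := unitEmb_injective K (by rw [map_nsmul, h, map_zero])
  have h4 : Additive.toMul u ∈ Units.torsion K := by
    rw [Units.torsion, CommGroup.mem_torsion, isOfFinOrder_iff_pow_eq_one]
    exact ⟨n, hn, by rw [← toMul_nsmul, h3, toMul_zero]⟩
  have h5 : torsN K • u = 0 := by
    refine Additive.toMul.injective ?_
    rw [toMul_nsmul, toMul_zero]
    have := pow_card_eq_one' (G := Units.torsion K) (x := ⟨_, h4⟩)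
    exact congrArg Subtype.val this
  rw [← map_nsmul, h5, map_zero]

variable (p : ℕ) [hp : Fact p.Prime]

/-- The torsion of the units is finite. -/
lemma finite_nsmul_ker (T : Set (PK K)) {n : ℕ} (hn : 0 < n) :
    Finite ↥(tUnits K T ⊓ (nsmulAddMonoidHom n : GM →+ GM).ker) := by
  refine (Set.Finite.of_finite_image ?_ fun x _ y _ h => Ux.ext h :
    (↑(tUnits K T ⊓ (nsmulAddMonoidHom n : GM →+ GM).ker) : Set GM).Finite).to_subtype
  refine (Polynomial.nthRootsFinset n (1 : Qbar)).finite_toSet.subset ?_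
  rintro _ ⟨x, hx, rfl⟩
  rw [Finset.mem_coe, Polynomial.mem_nthRootsFinset hn, ← Ux.val_nsmul,
    show n • x = 0 from hx.2, Ux.val_zero]

variable (T : Finset (PK K))

/-- The index of `p`-th powers of units is not zero. -/
lemma pIndex_tUnits_ne_zero : pIndex p (tUnits K T) ≠ 0 := by
  rw [pIndex_tUnits]
  have : Finite ↥(tUnits K T ⊓ (nsmulAddMonoidHom p : GM →+ GM).ker) := finite_pTorsion _
  exact mul_ne_zero (pow_ne_zero _ hp.out.ne_zero) Nat.card_pos.ne'

/-- The `p`-index of multiples of the `T`-units which kill the torsion. -/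
lemma pIndex_nsmul_tUnits {w : ℕ} (hw : 0 < w)
    (htf : ∀ a ∈ tUnits K T, p • w • a = 0 → w • a = 0) :
    pIndex p ((tUnits K T).map (nsmulAddMonoidHom w)) = p ^ (Units.rank K + T.card) := by
  have := finite_nsmul_ker K (T : Set (PK K)) hw
  have h := pIndex_mul p (nsmulAddMonoidHom w : GM →+ GM) (tUnits K T)
  have h1 : pTors p ((tUnits K T).map (nsmulAddMonoidHom w)) = 1 := pTors_of_torsionFree p (by
    rintro _ ⟨a, ha, rfl⟩ h0
    exact htf a ha h0)
  rw [h1, mul_one, pIndex_tUnits, pTors_of_finite p (tUnits K T ⊓ _)] at h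
  have : Finite ↥(tUnits K T ⊓ (nsmulAddMonoidHom p : GM →+ GM).ker) := finite_pTorsion _
  have : Finite ↥(tUnits K T ⊓ (nsmulAddMonoidHom w : GM →+ GM).ker ⊓
      (nsmulAddMonoidHom p : GM →+ GM).ker) := finite_pTorsion _
  refine (Nat.eq_of_mul_eq_mul_left (Nat.mul_pos (Nat.card_pos (α := ↥(tUnits K T ⊓
    (nsmulAddMonoidHom w : GM →+ GM).ker ⊓ (nsmulAddMonoidHom p : GM →+ GM).ker)))
    (Nat.card_pos (α := ↥(tUnits K T ⊓ (nsmulAddMonoidHom p : GM →+ GM).ker)))) ?_)
  simp only [pTors] at h ⊢
  linarith [h]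

end FermatAgent.CFT.Global
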