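import Fermat.Agent.CFT.Global.Over
import Fermat.Agent.CFT.Global.Torsion
import Fermat.Agent.CFT.Coh.HerbrandMap
import Fermat.Agent.CFT.Field.Hilbert

/-!
The first inequality for a cyclic extension of prime degree of a totally complex field.

For a `GoodSet` of primes the Herbrand quotient of the units of the extension is computed from the
unit ranks (`hIdx_unitsL`), and that of the semilocal groups from local indices. Comparing them
along the diagonal gives `normClassIdx = p * normOneIdx` (`normClassIdx_eq`). If `normClassIdx ≤ p`,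
units which are local norms are norms (`exists_norm_of_le`).
-/

set_option autoImplicit false

noncomputable section

open scoped Classical

namespace FermatAgent.CFT.Global

open Coh Local GaloisBasic

/-- Every prime outside the set is principal modulo the set. -/
def PrincipalOutside {K : IntermediateField ℚ Qbar} [FiniteDimensional ℚ K] (T : Finset (PK K)) :
    Prop :=
  ∀ P ∉ T, ∃ c ∈ K, c ≠ 0 ∧ ordP P c = 1 ∧ ∀ P' ∉ T, P' ≠ P → ordP P' c = 0

variable {K : IntermediateField ℚ Qbar} [FiniteDimensional ℚ K] {p : ℕ} [hp : Fact p.Prime]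
  (χ : CycChar (galLevels ℚ Qbar) K.fixingSubgroup p)

/-- The character is unramified at a prime: no new absolute values. -/
def UnramAt (P : PK K) : Prop :=
  ∀ y ∈ fixedUx (charP χ P).ker, ∃ b ∈ starF (locK P), ‖b.val‖ = ‖y.val‖

/-- The hypotheses on a set of primes. -/
structure GoodSet (T : Finset (PK K)) : Prop where
  nonempty : T.Nonempty
  gen : PrincipalOutside T
  unram : ∀ P ∉ T, UnramAt χ P

/-- The product of the semilocal groups. -/
abbrev AmbT (p : ℕ) (T : Finset (PK K)) : Type := ∀ P : T, ZMod p → MM (qOf P.1)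

/-- The shift on the product. -/
def shiftT (p : ℕ) [NeZero p] (T : Finset (PK K)) : AmbT p T →+ AmbT p T := piEnd fun _ => shift

/-- The semilocal groups inside the product. -/
def semiT (T : Finset (PK K)) : AddSubgroup (AmbT p T) :=
  AddSubgroup.pi Set.univ fun P : T => semi (charP χ P.1)

/-- The diagonal map. -/
def diagT (σ : GQ) (T : Finset (PK K)) : GM →+ AmbT p T :=
  AddMonoidHom.pi fun P : T => diagAt σ (qOf P.1) (gOf P.1)

omit hp in
@[simp] lemma diagT_apply (σ : GQ) (T : Finset (PK K)) (a : GM) (P : T) :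
    diagT (p := p) σ T a P = diagAt σ (qOf P.1) (gOf P.1) a := rfl

/-- The `T`-units of the extension. -/
abbrev unitsL (σ : GQ) (T : Finset (PK K)) : AddSubgroup GM :=
  tUnits (extField χ) (primesOver χ σ T : Set (PK (extField χ)))

lemma diffEnd_shiftT (T : Finset (PK K)) :
    diffEnd (shiftT p T) = piEnd fun P : T => diffEnd (shift (p := p) (M := MM (qOf P.1))) :=
  AddMonoidHom.ext fun _ => rfl

/-- Iterated shifts act coordinatewise. -/
lemma iterate_shiftT (T : Finset (PK K)) (i : ℕ) (x : AmbT p T) (P : T) :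
    ((shiftT p T)^[i] x) P = (shift (p := p) (M := MM (qOf P.1)))^[i] (x P) := by
  induction i with
  | zero => rfl
  | succ i ih => rw [Function.iterate_succ_apply', Function.iterate_succ_apply', ← ih]; rfl

/-- The norm of the shift acts coordinatewise. -/
lemma traceEnd_shiftT (T : Finset (PK K)) :
    traceEnd (shiftT p T) p = piEnd fun P : T =>
      traceEnd (shift (p := p) (M := MM (qOf P.1))) p := by
  refine AddMonoidHom.ext fun x => funext fun P => ?_
  rw [piEnd_apply, traceEnd_apply, traceEnd_apply, Finset.sum_apply]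
  exact Finset.sum_congr rfl fun i _ => iterate_shiftT T i x P

/-- The primes with non trivial local character. -/
def inertPrimes (T : Finset (PK K)) : Finset (PK K) :=
  T.filter fun P => ¬ ∀ d ∈ (locK P).fixingSubgroup, charP χ P d = 0

lemma hIdx_semiT (T : Finset (PK K)) :
    hIdx (diffEnd (shiftT p T)) (traceEnd (shiftT p T) p) (semiT χ T) =
      p ^ (inertPrimes χ T).card := by
  rw [diffEnd_shiftT, traceEnd_shiftT, semiT, hIdx_pi, ← Finset.prod_const, inertPrimes,
    Finset.prod_filter, ← Finset.prod_coe_sort T fun P =>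
      if ¬ ∀ d ∈ (locK P).fixingSubgroup, charP χ P d = 0 then p else 1]
  refine Finset.prod_congr rfl fun P _ => ?_
  split_ifs with h
  · exact hIdx_semi_split _ h
  · obtain ⟨s, hs, hs1⟩ := (exists_generator_or_trivial _).resolve_left h
    exact hIdx_semi_inert _ hs hs1

lemma hIdx_semiT_swap (T : Finset (PK K)) :
    hIdx (traceEnd (shiftT p T) p) (diffEnd (shiftT p T)) (semiT χ T) = 1 := by
  rw [diffEnd_shiftT, traceEnd_shiftT, semiT, hIdx_pi]
  exact Finset.prod_eq_one fun P _ => hIdx_semi_swap _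

variable {T : Finset (PK K)}

omit hp in
/-- Enlarging preserves goodness. -/
lemma GoodSet.mono (h : GoodSet χ T) {T' : Finset (PK K)} (hT : T ⊆ T') : GoodSet χ T' :=
  ⟨h.nonempty.mono hT,
   fun P hP => by
     obtain ⟨c, hc, hc0, h1, h2⟩ := h.gen P fun h' => hP (hT h')
     exact ⟨c, hc, hc0, h1, fun P' hP' => h2 P' fun h' => hP' (hT h')⟩,
   fun P hP => h.unram P fun h' => hP (hT h')⟩

/-- Prescribed valuations outside the set. -/
lemma PrincipalOutside.exists_ord_eq (h : PrincipalOutside T) (n : PK K → ℤ)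
    (hn : {P | n P ≠ 0}.Finite) : ∃ c ∈ starK K, ∀ P ∉ T, ordP P c.val = n P := by
  set s := hn.toFinset.filter fun P => P ∉ T
  choose c hc hc0 hc1 hc2 using h
  let term : PK K → GM := fun P => if hP : P ∉ T then n P • Ux.mk (c P hP) (hc0 P hP) else 0
  have hmem : ∀ P, term P ∈ starK K := fun P => by
    simp only [term]
    split_ifs with hP
    · exact zero_mem _
    · exact zsmul_mem (mem_starK_of_mem K (a := Ux.mk (c P hP) (hc0 P hP)) (hc P hP)) _
  refine ⟨∑ P ∈ s, term P, sum_mem fun P _ => hmem P, fun P hP => ?_⟩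
  have e : ordP P (∑ P' ∈ s, term P').val = ∑ P' ∈ s, ordP P (term P').val := by
    have h1 := congrFun (map_sum (ordHom K) (fun P' => (⟨term P', hmem P'⟩ : ↥(starK K))) s) P
    rw [Finset.sum_apply] at h1
    simpa only [ordHom_apply, AddSubgroup.val_finsetSum] using h1
  rw [e]
  have hterm : ∀ P', (hP' : P' ∉ T) → ordP P (term P').val =
      n P' * ordP P (c P' hP') := fun P' hP' => by
    have hm := mem_starK_of_mem K (a := Ux.mk (c P' hP') (hc0 P' hP')) (hc P' hP')
    have h1 := congrFun (map_zsmul (ordHom K) (n P') ⟨_, hm⟩) P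
    rw [Pi.smul_apply, ordHom_apply, ordHom_apply, smul_eq_mul] at h1
    simp only [term, dif_pos hP']
    exact h1
  by_cases h0 : n P = 0
  · rw [h0]
    refine Finset.sum_eq_zero fun P' hP' => ?_
    have hP'T := (Finset.mem_filter.mp hP').2
    rw [hterm P' hP'T, hc2 P' hP'T P hP, mul_zero]
    rintro rfl
    exact (Finset.mem_filter.mp hP').1 |> hn.mem_toFinset.mp <| h0
  · rw [Finset.sum_eq_single_of_mem P (Finset.mem_filter.mpr ⟨hn.mem_toFinset.mpr h0, hP⟩)]
    · rw [hterm P hP, hc1 P hP, mul_one]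
    · intro P' hP' hne
      have hP'T := (Finset.mem_filter.mp hP').2
      rw [hterm P' hP'T, hc2 P' hP'T P hP hne.symm, mul_zero]

variable {σ : GQ} (hσ : σ ∈ K.fixingSubgroup) (hσ1 : χ σ = 1) (hT : GoodSet χ T)

/-- The action of the generator. -/
abbrev actG (σ : GQ) : GM →+ GM := DistribSMul.toAddMonoidHom GM σ

/-- Iterates of the action are powers. -/
lemma iterate_actG (σ : GQ) (i : ℕ) (a : GM) : (actG σ)^[i] a = σ ^ i • a :=
  smul_iterate_apply σ i a

include hσ hσ1

lemma smul_mem_unitsL {a : GM} (ha : a ∈ unitsL χ σ T) : σ • a ∈ unitsL χ σ T := by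
  rw [mem_tUnits_extField χ hσ hσ1] at ha ⊢
  refine ⟨fun s hs => smul_ker_fixed χ ha.1 hσ s hs, fun P hP i => ?_⟩
  rw [diagAt_smul χ hσ hσ1 ha.1, shift_apply]
  exact ha.2 P hP _

omit hσ1 in
/-- Units of the base are units of the extension. -/
lemma tUnits_le_unitsL (hσ1 : χ σ = 1) {a : GM} (ha : a ∈ tUnits K T) : a ∈ unitsL χ σ T := by
  rw [mem_tUnits_extField χ hσ hσ1]
  refine ⟨mem_fixedUx_ker χ (tUnits_le K _ ha), fun P hP i => ?_⟩
  rw [diagAt_apply, ← embUx_smul, (tUnits_le K _ ha) _ (pow_mem hσ _), val_embUx,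
    (isPoint_gOf P).norm_eq_one_iff (val_mem_of_mem_starK K (tUnits_le K _ ha)) a.val_ne_zero]
  exact (mem_tUnits.mp ha).2 P (by exact_mod_cast hP)

lemma mem_tUnits_of_fixed {a : GM} (ha : a ∈ unitsL χ σ T) (hfix : σ • a = a) : a ∈ tUnits K T := by
  rw [mem_tUnits_extField χ hσ hσ1] at ha
  have hK : a ∈ starK K := fun g hg => by
    rw [smul_eq_pow_smul χ hσ hσ1 ha.1 hg, ← iterate_actG]
    exact Function.iterate_fixed hfix _
  refine mem_tUnits.mpr ⟨hK, fun P hP => ?_⟩
  have h := ha.2 P (by exact_mod_cast hP) 0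
  rw [diagAt_apply, ZMod.val_zero, pow_zero, mul_one, val_embUx,
    (isPoint_gOf P).norm_eq_one_iff (val_mem_of_mem_starK K hK) a.val_ne_zero] at h
  exact h

lemma iterate_period_unitsL {a : GM} (ha : a ∈ unitsL χ σ T) : (actG σ)^[p] a = a := by
  rw [iterate_actG]
  exact ((mem_tUnits_extField χ hσ hσ1).mp ha).1 _ (pow_period_mem_ker χ hσ hσ1)

lemma map_trace_unitsL {a : GM} (ha : a ∈ unitsL χ σ T) :
    traceEnd (actG σ) p a ∈ unitsL χ σ T := by
  rw [traceEnd_apply]
  exact sum_mem fun i _ => iterate_mem (fun b hb => smul_mem_unitsL χ hσ hσ1 hb) ha i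

include hT in
/-- The units have no cohomology in degree minus one. -/
lemma hIdx_unitsL_swap :
    hIdx (traceEnd (actG σ) p) (diffEnd (actG σ)) (unitsL χ σ T) = 1 := by
  have : Fact (1 < p) := ⟨hp.out.one_lt⟩
  rw [hIdx, AddSubgroup.relIndex_eq_one]
  rintro a ⟨ha, htr⟩
  obtain ⟨ha1, ha2⟩ := (mem_tUnits_extField χ hσ hσ1).mp ha
  have hn : cycNorm σ p a = 0 := by
    rw [cycNorm_apply, ← show traceEnd (actG σ) p a = 0 from htr, traceEnd_apply]
    exact Finset.sum_congr rfl fun i _ => (iterate_actG σ i a).symm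
  obtain ⟨y, hy, hya⟩ := Ux.exists_smul_sub χ (fixingSubgroup_mem_galLevels K) hσ hσ1 ha1 hn
  -- the absolute values of `y` outside `T` are constant along the orbit
  have hconst : ∀ P ∉ T, ∀ i, ‖(diagAt (p := p) σ (qOf P) (gOf P) y i).val‖ =
      ‖(diagAt (p := p) σ (qOf P) (gOf P) y 0).val‖ := fun P hP i => by
    set φ := diagAt (p := p) σ (qOf P) (gOf P) y
    have hs : ∀ j, ‖(φ (j + 1)).val‖ = ‖(φ j).val‖ := fun j => by
      have h1 := ha2 P hP j
      rw [← hya, map_sub, Pi.sub_apply, diagAt_smul χ hσ hσ1 hy, shift_apply, Ux.val_sub,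
        norm_div, div_eq_one_iff_eq (norm_ne_zero_iff.mpr (Ux.val_ne_zero _))] at h1
      exact h1
    have : ∀ k : ℕ, ‖(φ (k : ZMod p)).val‖ = ‖(φ 0).val‖ := fun k => by
      induction k with
      | zero => rw [Nat.cast_zero]
      | succ k ih => rw [Nat.cast_succ, hs, ih]
    rw [← ZMod.natCast_zmod_val i]
    exact this i.val
  have hval : ∀ P ∉ T, ∃ b ∈ starF (locK P),
      ‖b.val‖ = ‖(diagAt (p := p) σ (qOf P) (gOf P) y 0).val‖ := fun P hP =>
    hT.unram P hP _ (apply_mem_fixedUx _ (diagAt_mem_semi χ hσ hσ1 hy (gOf P)) 0)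
  let n : PK K → ℤ := fun P => if hP : P ∈ T then 0 else ord (locK P) (hval P hP).choose.val
  have hn0 : ∀ P, ∀ hP : P ∉ T, ordP (primeOver χ σ P 0) y.val = 0 → n P = 0 := fun P hP h => by
    simp only [n, dif_neg hP]
    rw [ord_eq_zero_iff _ (mem_fixedUx_fixingSubgroup.mp (hval P hP).choose_spec.1)
      (Ux.val_ne_zero _),
      (hval P hP).choose_spec.2]
    exact (norm_diag_eq_one_iff χ hy P 0).mpr h
  have hfin : {P | n P ≠ 0}.Finite := by
    refine ((finite_ordP_ne_zero (mem_extField χ hy) y.val_ne_zero).image (below χ)).subset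
      fun P hP => ?_
    have hPT : P ∉ T := fun h => hP (dif_pos h)
    exact ⟨primeOver χ σ P 0, fun h => hP (hn0 P hPT h), below_primeOver χ hσ P 0⟩
  obtain ⟨c, hc, hcn⟩ := hT.gen.exists_ord_eq n hfin
  have hycU : y - c ∈ unitsL χ σ T := by
    rw [mem_tUnits_extField χ hσ hσ1]
    refine ⟨sub_mem hy (mem_fixedUx_ker χ hc), fun P hP i => ?_⟩
    have hc0 : c.val ≠ 0 := c.val_ne_zero
    have hnc : ‖(diagAt (p := p) σ (qOf P) (gOf P) c i).val‖ =
        ‖(hval P hP).choose.val‖ := by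
      have hbm := mem_fixedUx_fixingSubgroup.mp (hval P hP).choose_spec.1
      rw [diagAt_apply, ← embUx_smul, hc _ (pow_mem hσ _), val_embUx,
        norm_eq_zpow_ord (locK P) (emb_mem_locField (val_mem_of_mem_starK K hc))
          ((_root_.map_ne_zero _).mpr hc0),
        (isPoint_gOf P).ord_eq (val_mem_of_mem_starK K hc) hc0, hcn P hP,
        norm_eq_zpow_ord (locK P) hbm (Ux.val_ne_zero _)]
      simp only [n, dif_neg hP]
    rw [map_sub, Pi.sub_apply, Ux.val_sub, norm_div, hnc, (hval P hP).choose_spec.2, hconst P hP i,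
      div_self (norm_ne_zero_iff.mpr (Ux.val_ne_zero _))]
  refine ⟨y - c, hycU, ?_⟩
  rw [diffEnd_apply]
  show σ • (y - c) - (y - c) = a
  rw [smul_sub, hc σ hσ, ← hya]
  abel

include hT in
/-- The Herbrand quotient of the units. -/
theorem hIdx_unitsL [NumberField.IsTotallyComplex K] :
    hIdx (diffEnd (actG σ)) (traceEnd (actG σ) p) (unitsL χ σ T) * p =
      p ^ (inertPrimes χ T).card := by
  have := isTotallyComplex_of_le (le_extField χ)
  set U := unitsL χ σ T
  set w := torsN (extField χ)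
  have hw : 0 < w := torsN_pos _
  set π : GM →+ GM := nsmulAddMonoidHom w
  set D := diffEnd (actG σ)
  set N := traceEnd (actG σ) p
  have hUD : U.map D ≤ U := by
    rintro _ ⟨a, ha, rfl⟩; exact sub_mem (smul_mem_unitsL χ hσ hσ1 ha) ha
  have hUN : U.map N ≤ U := by
    rintro _ ⟨a, ha, rfl⟩; exact map_trace_unitsL χ hσ hσ1 ha
  have hDN : ∀ a ∈ U, D (N a) = 0 := fun a ha => by
    rw [diffEnd_traceEnd, iterate_period_unitsL χ hσ hσ1 ha, sub_self]
  have hND : ∀ a ∈ U, N (D a) = 0 := fun a ha => by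
    rw [traceEnd_diffEnd, iterate_period_unitsL χ hσ hσ1 ha, sub_self]
  have : Finite ↥(U ⊓ π.ker) := finite_nsmul_ker (extField χ) _ hw
  obtain ⟨hmap, hne⟩ := hIdx_map_of_finite π hDN hND hUD hUN
    (fun a _ => (map_nsmul D w a).symm) (fun a _ => (map_nsmul N w a).symm)
    (hIdx_unitsL_swap χ hσ hσ1 hT)
  set Y := U.map π
  have hwY : ∀ a ∈ U, p • w • a = 0 → w • a = 0 := fun a ha h =>
    torsN_nsmul_eq_zero _ ha (Nat.mul_pos hp.out.pos hw) (by rw [mul_nsmul']; exact h)
  have hYσ : ∀ a ∈ Y, actG σ a ∈ Y := by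
    rintro _ ⟨a, ha, rfl⟩
    exact ⟨σ • a, smul_mem_unitsL χ hσ hσ1 ha, (map_nsmul (actG σ) w a).symm⟩
  have hYp : ∀ a ∈ Y, (actG σ)^[p] a = a := by
    rintro _ ⟨a, ha, rfl⟩
    rw [show π a = w • a from rfl, iterate_map_nsmul, iterate_period_unitsL χ hσ hσ1 ha]
  have hYtf : ∀ a ∈ Y, p • a = 0 → a = 0 := by
    rintro _ ⟨a, ha, rfl⟩ h; exact hwY a ha h
  have hY := pIndex_nsmul_tUnits (extField χ) p (primesOver χ σ T) hw hwY
  -- the fixed points
  set Z := Y ⊓ D.ker
  set UK := tUnits K (T : Set (PK K))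
  have hZle : Z ≤ UK := by
    rintro _ ⟨⟨a, ha, rfl⟩, h0⟩
    exact mem_tUnits_of_fixed χ hσ hσ1 (nsmul_mem ha w) (sub_eq_zero.mp h0)
  have hleZ : UK.map π ≤ Z := by
    rintro _ ⟨a, ha, rfl⟩
    refine ⟨⟨a, tUnits_le_unitsL χ hσ hσ1 ha, rfl⟩, ?_⟩
    show σ • (w • a) - w • a = 0
    rw [(nsmul_mem (tUnits_le K _ ha) w : w • a ∈ starK K) σ hσ, sub_self]
  have hwK : ∀ a ∈ UK, p • w • a = 0 → w • a = 0 := fun a ha h =>
    hwY a (tUnits_le_unitsL χ hσ hσ1 ha) h
  have hZ : pIndex p Z = p ^ (NumberField.Units.rank K + T.card) := by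
    have h1 := pIndex_of_finiteIndex p hleZ (fun h0 => relIndex_nsmul_ne_zero
      (fun ℓ hℓ => by have : Fact ℓ.Prime := ⟨hℓ⟩; exact pIndex_tUnits_ne_zero K ℓ T) w hw
      (AddSubgroup.relIndex_eq_zero_of_le_right hZle h0))
    rw [pTors_of_torsionFree p (Y := UK.map π) (by rintro _ ⟨a, ha, rfl⟩ h; exact hwK a ha h),
      pTors_of_torsionFree p (Y := Z) (fun a ha => hYtf a ha.1),
      pIndex_nsmul_tUnits K p T hw hwK, one_mul, mul_one] at h1
    exact h1
  have hlat := hIdx_lattice (p := p) (σ := actG σ) hYσ hYp hYtf (by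
    show pIndex p Y ≠ 0
    rw [hY]; exact pow_ne_zero _ hp.out.ne_zero)
  change hIdx D N Y ^ (p - 1) * pIndex p Y = hIdx N D Y ^ (p - 1) * pIndex p Z ^ p at hlat
  rw [hY, hZ, card_primesOver χ hσ hσ1, ← pow_mul] at hlat
  -- counting
  set n := (inertPrimes χ T).card
  set s := (T.filter fun P => ∀ d ∈ (locK P).fixingSubgroup, charP χ P d = 0).card
  have hsn : T.card = s + n := (Finset.card_filter_add_card_filter_not _).symm
  have hsum : ∑ P ∈ T, fibreCard χ P = p * s + n := by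
    simp only [fibreCard]
    rw [Finset.sum_ite, Finset.sum_const, Finset.sum_const, smul_eq_mul, smul_eq_mul, mul_one,
      mul_comm s p]
    rfl
  have hdeg : NumberField.Units.rank (extField χ) + 1 = p * (NumberField.Units.rank K + 1) := by
    have h1 : Module.finrank ℚ (extField χ) = p * Module.finrank ℚ K := by
      rw [IntermediateField.finrank_eq_fixingSubgroup_index,
        IntermediateField.finrank_eq_fixingSubgroup_index, fixingSubgroup_extField,
        ← Subgroup.relIndex_mul_index χ.ker_le, χ.relIndex_ker hσ hσ1]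
    rw [finrank_eq_rank, finrank_eq_rank, mul_left_comm] at h1
    omega
  have hp1 : p - 1 + 1 = p := Nat.sub_add_cancel hp.out.pos
  have hpow : (hIdx D N Y * p) ^ (p - 1) = (hIdx N D Y * p ^ n) ^ (p - 1) := by
    rw [mul_pow, mul_pow, ← pow_mul]
    refine Nat.eq_of_mul_eq_mul_right (pow_pos hp.out.pos
      (NumberField.Units.rank (extField χ) + (p * s + n))) ?_
    rw [hsum, hsn] at hlat
    have hexp : (NumberField.Units.rank K + (s + n)) * p + (p - 1) =
        n * (p - 1) + (NumberField.Units.rank (extField χ) + (p * s + n)) := by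
      have e1 : n * (p - 1) + n = n * p := by rw [← mul_add_one, hp1]
      have e2 : (NumberField.Units.rank K + (s + n)) * p + p =
          p * (NumberField.Units.rank K + 1) + p * s + n * p := by ring
      omega
    calc hIdx D N Y ^ (p - 1) * p ^ (p - 1) *
          p ^ (NumberField.Units.rank (extField χ) + (p * s + n))
        = hIdx D N Y ^ (p - 1) * p ^ (NumberField.Units.rank (extField χ) + (p * s + n)) *
            p ^ (p - 1) := by ring
      _ = hIdx N D Y ^ (p - 1) *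
            p ^ ((NumberField.Units.rank K + (s + n)) * p + (p - 1)) := by
        rw [hlat, pow_add p ((NumberField.Units.rank K + (s + n)) * p), mul_assoc]
      _ = _ := by rw [hexp, pow_add, mul_assoc]
  have hroot := Nat.pow_left_injective (Nat.sub_ne_zero_of_lt hp.out.one_lt) hpow
  rw [← hmap, mul_right_comm, mul_comm (hIdx N D Y)] at hroot
  exact Nat.eq_of_mul_eq_mul_right (Nat.pos_of_ne_zero hne) hroot

/-- The diagonal image of the units. -/
abbrev diagUnits (σ : GQ) (T : Finset (PK K)) : AddSubgroup (AmbT p T) :=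
  (unitsL χ σ T).map (diagT σ T)

omit hσ hσ1 in
/-- The index of norms and units in the invariants of the classes. -/
abbrev normClassIdx (σ : GQ) (T : Finset (PK K)) : ℕ :=
  qIdx (diffEnd (shiftT p T)) (traceEnd (shiftT p T) p) (diagUnits χ σ T) (semiT χ T)

omit hσ hσ1 in
/-- The order of the classes of norm one modulo differences. -/
abbrev normOneIdx (σ : GQ) (T : Finset (PK K)) : ℕ :=
  qIdx (traceEnd (shiftT p T) p) (diffEnd (shiftT p T)) (diagUnits χ σ T) (semiT χ T)

/-- The diagonal lies in the semilocal groups. -/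
lemma diagT_mem_semiT {a : GM} (ha : a ∈ fixedUx χ.ker) : diagT σ T a ∈ semiT χ T :=
  fun P _ => diagAt_mem_semi χ hσ hσ1 ha (gOf P.1)

/-- The diagonal intertwines `σ - 1` and the shift. -/
lemma diagT_diff {a : GM} (ha : a ∈ fixedUx χ.ker) :
    diagT (p := p) σ T (diffEnd (actG σ) a) = diffEnd (shiftT p T) (diagT σ T a) := by
  funext P
  rw [diffEnd_apply, diffEnd_apply, map_sub, Pi.sub_apply, Pi.sub_apply]
  show diagAt σ _ _ (σ • a) - _ = _
  rw [diagAt_smul χ hσ hσ1 ha]
  rfl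

/-- The diagonal intertwines the norms. -/
lemma diagT_trace {a : GM} (ha : a ∈ fixedUx χ.ker) :
    diagT (p := p) σ T (traceEnd (actG σ) p a) = traceEnd (shiftT p T) p (diagT σ T a) := by
  rw [traceEnd_apply, traceEnd_apply, map_sum]
  refine Finset.sum_congr rfl fun i hi' => ?_
  clear hi'
  induction i with
  | zero => rfl
  | succ i ih =>
    have hi : (actG σ)^[i] a ∈ fixedUx χ.ker := by
      rw [iterate_actG]; exact fun s hs => smul_ker_fixed χ ha (pow_mem hσ i) s hs
    rw [Function.iterate_succ_apply', Function.iterate_succ_apply', ← ih]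
    funext P
    show diagAt σ _ _ (σ • _) = _
    rw [diagAt_smul χ hσ hσ1 hi]
    rfl

include hT in
/-- The first inequality. -/
theorem normClassIdx_eq [NumberField.IsTotallyComplex K] :
    normClassIdx χ σ T = p * normOneIdx χ σ T ∧ normClassIdx χ σ T ≠ 0 := by
  set DA := diffEnd (shiftT p T)
  set NA := traceEnd (shiftT p T) p
  set A := semiT χ T
  set U := unitsL χ σ T
  set UA := diagUnits χ σ T
  have hAsh : ∀ x ∈ A, shiftT p T x ∈ A := fun x hx P _ => shift_mem_semi _ (hx P trivial)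
  have hAD : A.map DA ≤ A := by rintro _ ⟨x, hx, rfl⟩; exact sub_mem (hAsh x hx) hx
  have hAN : A.map NA ≤ A := by
    rintro _ ⟨x, hx, rfl⟩
    rw [traceEnd_apply]
    exact sum_mem fun i _ => iterate_mem hAsh hx i
  have hper : ∀ x, (shiftT p T)^[p] x = x := fun x => funext fun P => by
    rw [iterate_shiftT, shift_period]
  have hDN : ∀ x ∈ A, DA (NA x) = 0 := fun x _ => by rw [diffEnd_traceEnd, hper, sub_self]
  have hND : ∀ x ∈ A, NA (DA x) = 0 := fun x _ => by rw [traceEnd_diffEnd, hper, sub_self]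
  have hfix : ∀ a ∈ U, a ∈ fixedUx χ.ker := fun a ha => ((mem_tUnits_extField χ hσ hσ1).mp ha).1
  have hUA : UA ≤ A := by
    rintro _ ⟨a, ha, rfl⟩; exact diagT_mem_semiT χ hσ hσ1 (hfix a ha)
  have hUD : U.map (diffEnd (actG σ)) ≤ U := by
    rintro _ ⟨a, ha, rfl⟩; exact sub_mem (smul_mem_unitsL χ hσ hσ1 ha) ha
  have hUN : U.map (traceEnd (actG σ) p) ≤ U := by
    rintro _ ⟨a, ha, rfl⟩; exact map_trace_unitsL χ hσ hσ1 ha
  have hinj : ∀ a ∈ U, diagT (p := p) σ T a = 0 → a = 0 := fun a _ h => by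
    obtain ⟨P, hP⟩ := hT.nonempty
    exact embUx_injective _ ((congrFun (congrFun h ⟨P, hP⟩) 0).trans (map_zero _).symm)
  have hUAD : UA.map DA ≤ UA := by
    rintro _ ⟨_, ⟨a, ha, rfl⟩, rfl⟩
    exact ⟨_, hUD ⟨a, ha, rfl⟩, diagT_diff χ hσ hσ1 (hfix a ha)⟩
  have hUAN : UA.map NA ≤ UA := by
    rintro _ ⟨_, ⟨a, ha, rfl⟩, rfl⟩
    exact ⟨_, hUN ⟨a, ha, rfl⟩, diagT_trace χ hσ hσ1 (hfix a ha)⟩
  have e1 := hIdx_map (diagT (p := p) σ T) hinj hUD hUN
    (fC := DA) (gC := NA) (fun a ha => diagT_diff χ hσ hσ1 (hfix a ha))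
    (fun a ha => diagT_trace χ hσ hσ1 (hfix a ha))
  have e2 := hIdx_map (diagT (p := p) σ T) hinj hUN hUD
    (fC := NA) (gC := DA) (fun a ha => diagT_trace χ hσ hσ1 (hfix a ha))
    (fun a ha => diagT_diff χ hσ hσ1 (hfix a ha))
  rw [hIdx_unitsL_swap χ hσ hσ1 hT] at e2
  have hmul := hIdx_mul hDN hND hAD hAN hUAD hUAN hUA
  rw [← e2, hIdx_semiT_swap, one_mul, mul_one, hIdx_semiT, ← hIdx_unitsL χ hσ hσ1 hT, ← e1] at hmul
  have hU0 : hIdx (diffEnd (actG σ)) (traceEnd (actG σ) p) U ≠ 0 := fun h0 => by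
    have h := hIdx_unitsL χ hσ hσ1 hT
    rw [h0, zero_mul] at h
    exact pow_ne_zero _ hp.out.ne_zero h.symm
  refine ⟨Nat.eq_of_mul_eq_mul_left (Nat.pos_of_ne_zero hU0) (hmul.trans (by ring)), ?_⟩
  have hsub : A ⊓ UA.comap DA ≤ (A ⊓ DA.ker) ⊔ UA := by
    rintro x ⟨hx, hxu⟩
    have h1 := AddSubgroup.relIndex_eq_one.mp (show hIdx NA DA UA = 1 from e2.symm)
      (show DA x ∈ UA ⊓ NA.ker from ⟨hxu, hND x hx⟩)
    obtain ⟨y, hy, hyx⟩ := h1
    rw [← sub_add_cancel x y]
    refine AddSubgroup.add_mem_sup (AddSubgroup.mem_inf.mpr ⟨A.sub_mem hx (hUA hy), ?_⟩) hy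
    show DA (x - y) = 0
    rw [map_sub, hyx, sub_self]
  have h2 : (A.map NA ⊔ UA).relIndex ((A ⊓ DA.ker) ⊔ UA) ≠ 0 := by
    have e3 : A ⊓ DA.ker ⊔ UA = (A ⊓ DA.ker) ⊔ (A.map NA ⊔ UA) := by
      rw [← sup_assoc, sup_eq_left.mpr (le_inf hAN ?_)]
      rintro _ ⟨x, hx, rfl⟩
      exact hDN x hx
    rw [e3, AddSubgroup.relIndex_sup_right]
    intro h0
    have h3 : hIdx DA NA A ≠ 0 := by rw [hIdx_semiT]; exact pow_ne_zero _ hp.out.ne_zero
    exact h3 (AddSubgroup.relIndex_eq_zero_of_le_left le_sup_left h0)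
  exact fun h0 => h2 (AddSubgroup.relIndex_eq_zero_of_le_right hsub h0)

include hT in
/-- The norm theorem for `T`-units, given the second inequality. -/
theorem exists_norm_of_le [NumberField.IsTotallyComplex K] (hle : normClassIdx χ σ T ≤ p) {a : GM}
    (ha : a ∈ tUnits K T)
    (hloc : ∀ P : T, embUx (qOf P.1) (gOf P.1) a ∈ (semi (charP χ P.1)).map
      (∑ j, Pi.evalAddMonoidHom (fun _ : ZMod p => MM (qOf P.1)) j)) :
    ∃ y ∈ fixedUx χ.ker, cycNorm σ p y = a := by
  obtain ⟨h1, h2⟩ := normClassIdx_eq χ hσ hσ1 hT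
  have hq : normOneIdx χ σ T = 1 := by
    have h3 : normOneIdx χ σ T ≠ 0 := fun h => h2 (by rw [h1, h, mul_zero])
    have := Nat.le_of_mul_le_mul_left (by rwa [mul_one, ← h1] : p * normOneIdx χ σ T ≤ p * 1)
      hp.out.pos
    omega
  set DA := diffEnd (shiftT p T)
  set NA := traceEnd (shiftT p T) p
  choose φ hφ hφa using hloc
  set x : AmbT p T := φ
  have hxA : x ∈ semiT χ T := fun P _ => hφ P
  have hNx : NA x = diagT σ T a := by
    funext P i
    show traceEnd (shiftT p T) p x P i = _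
    rw [traceEnd_shiftT, piEnd_apply, traceEnd_shift, diagT_apply, diagAt_apply, ← embUx_smul,
      (tUnits_le K _ ha) _ (pow_mem hσ _), ← hφa P, AddMonoidHom.finsetSum_apply]
    rfl
  have hmem : x ∈ semiT χ T ⊓ (diagUnits χ σ T).comap NA :=
    ⟨hxA, a, tUnits_le_unitsL χ hσ hσ1 ha, hNx.symm⟩
  obtain ⟨_, ⟨z, hz, rfl⟩, _, ⟨u, hu, rfl⟩, hsum⟩ :=
    AddSubgroup.mem_sup.mp (AddSubgroup.relIndex_eq_one.mp hq hmem)
  have hu' := ((mem_tUnits_extField χ hσ hσ1).mp hu).1
  have hper : (shiftT p T)^[p] z = z := funext fun P => by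
    rw [iterate_shiftT, shift_period]
  refine ⟨u, hu', ?_⟩
  have e : diagT (p := p) σ T a = diagT σ T (cycNorm σ p u) := by
    rw [← hNx, ← hsum, map_add, traceEnd_diffEnd, hper, sub_self, zero_add,
      ← diagT_trace χ hσ hσ1 hu', traceEnd_apply, cycNorm_apply]
    simp only [iterate_actG]
  obtain ⟨P, hP⟩ := hT.nonempty
  exact embUx_injective _ (congrFun (congrFun e ⟨P, hP⟩) 0).symm

end FermatAgent.CFT.Global
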