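import Fermat.Agent.CFT.Global.SDatum
import Fermat.Prelude.Def_GroupCohomology_ContinuousUnramified

/-!
The infinite place: for `p ≠ 2` all classes of its decomposition group of order two are trivial.
-/

set_option autoImplicit false

noncomputable section

open scoped Classical
open CategoryTheory groupCohomology ExtCitation

namespace FermatAgent.CFT.Global

open Coh Local GaloisBasic

variable {p : ℕ} [hp : Fact p.Prime]

/-- Complex conjugation moves the `p`-th root of unity. -/
lemma complexConjugation_zet_ne (hp2 : p ≠ 2) : complexConjugation (zet p) ≠ zet p := by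
  intro h
  have h1 : starRingEnd ℂ (complexEmbedding (zet p)) = complexEmbedding (zet p) := by
    rw [← complexEmbedding_complexConjugation, h]
  obtain ⟨r, hr⟩ := Complex.conj_eq_iff_real.mp h1
  have h2 : complexEmbedding (zet p) ^ p = 1 := by
    rw [← map_pow, (zet_spec p).pow_eq_one, map_one]
  rw [hr, ← Complex.ofReal_pow, Complex.ofReal_eq_one] at h2
  have h3 : r = 1 := by
    rcases (pow_eq_one_iff_of_ne_zero hp.out.ne_zero).mp h2 with h3 | h3
    · exact h3
    · exact absurd h3.2 (Nat.not_even_iff_odd.mpr (hp.out.odd_of_ne_two hp2))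
  rw [h3, Complex.ofReal_one] at hr
  exact (zet_spec p).ne_one hp.out.one_lt (RingHom.injective complexEmbedding.toRingHom
    (show complexEmbedding (zet p) = complexEmbedding 1 by rw [hr, map_one]))

lemma archimedean_cases (d : archimedeanDecomposition) : d = 1 ∨ d = archimedeanGen := by
  obtain ⟨k, hk⟩ := Subgroup.mem_zpowers_iff.mp d.2
  rcases Int.even_or_odd k with ⟨j, rfl⟩ | ⟨j, rfl⟩
  · refine Or.inl (Subtype.ext ?_)
    rw [← hk, ← two_mul, zpow_mul, zpow_two, complexConjugation_mul_self, one_zpow]
    rfl
  · refine Or.inr (Subtype.ext ?_)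
    rw [← hk, zpow_add_one, zpow_mul, zpow_two, complexConjugation_mul_self, one_zpow, one_mul]
    rfl

lemma archimedeanGen_mul_self : archimedeanGen * archimedeanGen = 1 :=
  Subtype.ext complexConjugation_mul_self

/-- Halving a doubled element. -/
lemma half_add (hp2 : p ≠ 2) {A : Type} [AddCommGroup A] [Module (ZMod p) A] (x : A) :
    (2 : ZMod p)⁻¹ • (x + x) = x := by
  have h2 : (2 : ZMod p) ≠ 0 := fun h => hp2 ((Nat.prime_dvd_prime_iff_eq hp.out Nat.prime_two).mp
    ((ZMod.natCast_eq_zero_iff 2 p).mp (by exact_mod_cast h)))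
  rw [← two_smul (ZMod p) x, smul_smul, inv_mul_cancel₀ h2, one_smul]

/-- Degree one classes are trivial at the infinite place. -/
lemma archimedean_H1 (hp2 : p ≠ 2) (A : Rep.{0, 0, 0} (ZMod p) archimedeanDecomposition)
    (c : cocycles₁ A) : (c : archimedeanDecomposition → A) ∈ coboundaries₁ A := by
  set a := c archimedeanGen
  refine ⟨-((2 : ZMod p)⁻¹ • a), funext fun d => ?_⟩
  rw [d₀₁_hom_apply]
  rcases archimedean_cases d with rfl | rfl
  · rw [map_one, Module.End.one_apply, sub_self, cocycles₁_map_one]
  · have h :=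
      (mem_cocycles₁_iff (c : archimedeanDecomposition → A)).mp c.2 archimedeanGen archimedeanGen
    rw [archimedeanGen_mul_self, cocycles₁_map_one] at h
    have e : A.ρ archimedeanGen a = -a := eq_neg_of_add_eq_zero_left h.symm
    rw [map_neg, map_smul, e, smul_neg, neg_neg, sub_neg_eq_add, ← smul_add, half_add hp2]

/-- Degree two classes are trivial at the infinite place. -/
lemma archimedean_H2 (hp2 : p ≠ 2) (A : Rep.{0, 0, 0} (ZMod p) archimedeanDecomposition)
    {f : archimedeanDecomposition × archimedeanDecomposition → A} (hf : f ∈ cocycles₂ A) :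
    f ∈ levelCoboundaries₂ archimedeanLoc A := by
  set γ := archimedeanGen
  refine (mem_levelCoboundaries₂_iff _ A f).mpr
    ⟨fun d => (2 : ZMod p)⁻¹ • (f (d, 1) + f (d, γ)), ⟨cycK p, inferInstance, fun g s hs => ?_⟩,
      funext fun ⟨g, h⟩ => ?_⟩
  · rcases archimedean_cases s with rfl | rfl
    · rw [mul_one]
    · exact absurd ((IntermediateField.mem_fixingSubgroup_iff _ _).mp hs _ (zet_mem_cycK p))
        (complexConjugation_zet_ne hp2)
  · have c1 := (mem_cocycles₂_iff f).mp hf g h 1
    have c2 := (mem_cocycles₂_iff f).mp hf g h γ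
    rw [d₁₂_hom_apply, map_smul, map_add, ← smul_sub, ← smul_add]
    rw [mul_one] at c1
    dsimp only
    have e : f (g, h) + f (g, h * γ) = f (g, 1) + f (g, γ) := by
      rcases archimedean_cases h with rfl | rfl
      · rw [one_mul]
      · rw [archimedeanGen_mul_self, add_comm]
    calc _ = (2 : ZMod p)⁻¹ • (f (g, h) + f (g, h)) := congrArg _ (by
            linear_combination (norm := abel) (-1 : ℤ) • c1 + (-1 : ℤ) • c2 - e)
      _ = f (g, h) := half_add hp2 _

end FermatAgent.CFT.Global
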