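import Fermat.Agent.CFT.Global.Rational

/-!
Invariants of global classes: finiteness of the bad places and the norm formula above a prime.

A class with unit values which is constant modulo an unramified field is locally trivial
(`pullAt_mem_B2_of_unramified`), so a class is trivial at all but finitely many rational primes
(`exists_finite_bad`). `invAt` is the invariant at a prime of the field; the local norms at the
primes above `q` add up to the global norm (`sum_fibre_eq_norm`), by matching cosets.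
-/

set_option autoImplicit false

noncomputable section

open scoped Classical

namespace FermatAgent.CFT.Global

open Coh Local GaloisBasic

variable {K : IntermediateField ℚ Qbar}

section Good

variable [FiniteDimensional ℚ K]

/-- The norms of finitely many elements are one outside a finite set of primes. -/
lemma exists_finite_norm_one_finset (s : Finset Qbar) :
    ∃ S : Finset ℕ, ∀ (q : ℕ) [Fact q.Prime], q ∉ S → ∀ g : GQ, ∀ x ∈ s, x ≠ 0 →
      ‖emb q g x‖ = 1 := by
  have h : ∀ x : Qbar, ∃ S : Finset ℕ, ∀ (q : ℕ) [Fact q.Prime], q ∉ S → ∀ g : GQ, x ≠ 0 →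
      ‖emb q g x‖ = 1 := fun x => by
    rcases eq_or_ne x 0 with hx | hx
    · exact ⟨∅, fun q _ _ _ h0 => absurd hx h0⟩
    · obtain ⟨S, hS⟩ := exists_finite_norm_one hx
      exact ⟨S, fun q _ hq g _ => hS q hq g⟩
  choose S hS using h
  exact ⟨s.biUnion S, fun q _ hq g x hx h0 =>
    hS x q (fun h' => hq (Finset.mem_biUnion.mpr ⟨x, hx, h'⟩)) g h0⟩

/-- Outside a finite set of primes a finite extension is unramified at every embedding. -/
lemma exists_unram_levels (M : IntermediateField ℚ Qbar) [FiniteDimensional ℚ M] (hKM : K ≤ M) :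
    ∃ S : Finset ℕ, ∀ (q : ℕ) [Fact q.Prime], q ∉ S → ∀ g : GQ, ∃ (m : ℕ) (_ : NeZero m),
      (unramChar (locField q g K) m).ker ≤ (locField q g M).fixingSubgroup := by
  obtain ⟨θ, hθ⟩ := Field.exists_primitive_element ℚ M
  set R := ((minpoly ℚ θ.1).rootSet Qbar).toFinset
  obtain ⟨S, hS⟩ := exists_finite_norm_one_finset
    (insert θ.1 ((R ×ˢ R).image fun z => z.1 - z.2))
  refine ⟨S, fun q _ hq g => ?_⟩
  set F := locField q g K
  set E := locField q g M
  obtain ⟨e, f, -, hf0, hf, -, -⟩ := exists_ramification (locField_mono (q := q) (g := g) hKM)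
  have : NeZero f := ⟨hf0.ne'⟩
  refine ⟨f, inferInstance, fun d hd => ?_⟩
  rw [fixingSubgroup_locField, Subgroup.mem_comap, IntermediateField.mem_fixingSubgroup_iff]
  intro x hx
  -- it is enough to fix the primitive element
  have hfixθ : locHom q g d θ.1 = θ.1 := by
    rcases eq_or_ne θ.1 0 with h0 | h0
    · rw [h0, map_zero]
    have hn1 : ‖emb q g θ.1‖ = 1 := hS q hq g θ.1 (Finset.mem_insert_self _ _) h0
    have hmem : emb q g θ.1 ∈ E := emb_mem_locField θ.2
    have hres : res (emb q g θ.1) ^ unramOrder F f = 1 := by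
      have h1 := (mem_resField_iff E).mp (res_mem_resField E hmem hn1.le)
      rw [hf, ← Nat.sub_add_cancel (one_lt_resCard_pow F f).le, pow_succ] at h1
      refine (mul_eq_right₀ ?_).mp h1
      rw [Ne, res_eq_zero_iff hn1.le, hn1]
      exact lt_irrefl 1
    have : NeZero (unramOrder F f) := ⟨(unramOrder_pos F f).ne'⟩
    obtain ⟨j, -, hj⟩ := (res_unramRoot_spec F f).eq_pow_of_pow_eq_one hres
    rw [← res_pow (norm_unramRoot F f).le] at hj
    have hρ1 : ‖unramRoot F f ^ j‖ ≤ 1 := by rw [norm_pow, norm_unramRoot, one_pow]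
    have hρ : d (unramRoot F f ^ j) = unramRoot F f ^ j := by
      rw [map_pow, apply_root F f hd.1 (unramRoot_spec F f).pow_eq_one,
        show (frobExp F f d).val = 0 by
          rw [show frobExp F f d = 0 from hd.2, ZMod.val_zero], pow_zero, pow_one]
    have h2 : res (d (emb q g θ.1)) = res (emb q g θ.1) := by
      rw [← hj, res_eq_res_iff (by rw [norm_apply, hn1]) hρ1, ← hρ, ← map_sub, norm_apply,
        ← res_eq_res_iff hn1.le hρ1]
      exact hj.symm
    by_contra hne
    have hroot : locHom q g d θ.1 ∈ R := by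
      rw [Set.mem_toFinset, Polynomial.mem_rootSet_of_ne
        (minpoly.ne_zero (Algebra.IsIntegral.isIntegral θ.1)), Polynomial.aeval_algHom_apply,
        minpoly.aeval, map_zero]
    have hroot' : θ.1 ∈ R := by
      rw [Set.mem_toFinset, Polynomial.mem_rootSet_of_ne
        (minpoly.ne_zero (Algebra.IsIntegral.isIntegral θ.1)), minpoly.aeval]
    have h3 := hS q hq g (locHom q g d θ.1 - θ.1) (Finset.mem_insert_of_mem
      (Finset.mem_image.mpr ⟨(_, _), Finset.mem_product.mpr ⟨hroot, hroot'⟩, rfl⟩))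
      (sub_ne_zero.mpr hne)
    rw [map_sub, emb_locHom] at h3
    exact ((res_eq_res_iff (by rw [norm_apply, hn1]) hn1.le).mp h2).ne h3
  have hmem : ∀ y : M, locHom q g d (y : Qbar) = y := fun y => by
    have hy : y ∈ IntermediateField.adjoin ℚ {θ} := hθ ▸ IntermediateField.mem_top
    induction hy using IntermediateField.adjoin_induction with
    | mem z hz => rw [Set.mem_singleton_iff] at hz; subst hz; exact hfixθ
    | algebraMap z => exact (locHom q g d).commutes z
    | add x y _ _ hx hy => rw [IntermediateField.coe_add, map_add, hx, hy]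
    | inv x _ hx => rw [IntermediateField.coe_inv, map_inv₀, hx]
    | mul x y _ _ hx hy => rw [IntermediateField.coe_mul, map_mul, hx, hy]
  exact hmem ⟨x, hx⟩

/-- A class with unit values, constant modulo a field unramified at a place, is trivial there. -/
theorem pullAt_mem_B2_of_unramified {q : ℕ} [Fact q.Prime] {M : IntermediateField ℚ Qbar}
    (hKM : K ≤ M) {g : GQ} {m : ℕ} [NeZero m]
    (hker : (unramChar (locField q g K) m).ker ≤ (locField q g M).fixingSubgroup)
    {f : GQ → GQ → GM} (hf : f ∈ LQ.Z2 K.fixingSubgroup GM)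
    (hc : ∀ a ∈ K.fixingSubgroup, ∀ b ∈ K.fixingSubgroup, ∀ s ∈ M.fixingSubgroup,
      ∀ t ∈ M.fixingSubgroup, f (a * s) (b * t) = f a b)
    (hval : ∀ a ∈ K.fixingSubgroup, ∀ b ∈ K.fixingSubgroup,
      f a b ∈ starK M ∧ ‖emb q g (f a b).val‖ = 1) :
    pullAt q g f ∈ (LL q).B2 (locField q g K).fixingSubgroup (MM q) := by
  set W := K.fixingSubgroup
  set a₀ := f 1 1
  set x₀ : GQ → GQ → GM := f - d1 fun _ => a₀
  have hd : (d1 fun _ : GQ => a₀) ∈ LQ.B2 W GM := Levels.d1_mem_B2 (Levels.const1_const a₀)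
  have hx₀ : x₀ ∈ LQ.Z2 W GM := sub_mem hf (Levels.B2_le_Z2 smooth_ux hd)
  have hsM : M.fixingSubgroup ≤ W := IntermediateField.fixingSubgroup_antitone hKM
  have hxeq : ∀ a b : GQ, x₀ a b = f a b - a • a₀ := fun a b => by
    show f a b - (a • a₀ - a₀ + a₀) = _
    rw [sub_add_cancel]
  have hxc : ∀ a ∈ W, ∀ b ∈ W, ∀ s ∈ M.fixingSubgroup, ∀ t ∈ M.fixingSubgroup,
      x₀ (a * s) (b * t) = x₀ a b := fun a ha b hb s hs t ht => by
    rw [hxeq, hxeq, hc a ha b hb s hs t ht, mul_smul, (hval 1 (one_mem W) 1 (one_mem W)).1 s hs]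
  have h0 : ∀ a ∈ W, x₀ a 1 = 0 := fun a ha => by
    have := hf.2 a ha 1 (one_mem W) 1 (one_mem W)
    rw [d2, mul_one, mul_one] at this
    rw [hxeq, ← neg_eq_zero, neg_sub, ← this]
    simp only [a₀]
    abel
  set F := locField q g K
  set σ := frob F m
  have hσ : σ ∈ F.fixingSubgroup := frob_mem F m
  have hkM : ∀ s ∈ (unramChar F m).ker, locHom q g s ∈ M.fixingSubgroup := fun s hs => by
    have := hker hs
    rwa [fixingSubgroup_locField, Subgroup.mem_comap] at this
  have hkE : ∀ a ∈ W, ∀ b ∈ W, ∀ s ∈ (unramChar F m).ker, ∀ d ∈ F.fixingSubgroup,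
      s • d • embUx q g (f a b) = d • embUx q g (f a b) := fun a ha b hb s hs d hd => by
    have hd' : d⁻¹ * s * d ∈ (unramChar F m).ker := by
      refine ⟨mul_mem (mul_mem (inv_mem hd) hs.1) hd, ?_⟩
      rw [(unramChar F m).map_mul (mul_mem (inv_mem hd) hs.1) hd,
        (unramChar F m).map_mul (inv_mem hd) hs.1, hs.2, add_zero, (unramChar F m).map_inv hd,
        neg_add_cancel]
    have : (d⁻¹ * s * d) • embUx q g (f a b) = embUx q g (f a b) := by
      rw [← embUx_locHom_smul, (hval a ha b hb).1 _ (hkM _ hd')]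
    conv_rhs => rw [← this]
    rw [← mul_smul, ← mul_smul]
    group
  have hx : pullAt q g x₀ ∈ (LL q).Z2 F.fixingSubgroup (MM q) := pullAt_mem_Z2 hx₀
  obtain ⟨hb, hcyc⟩ := inflated_eq_cyc_sum (unramChar F m) hσ (frobExp_frob F m) hx.2
    (fun d hd e he s hs t ht => by
      simp only [pullAt_apply, map_mul]
      rw [hxc _ (locHom_mem hd) _ (locHom_mem he) _ (hkM s hs) _ (hkM t ht)])
    (fun d hd => by rw [pullAt_apply, map_one, h0 _ (locHom_mem hd), map_zero])
    (fun d hd e he s hs => by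
      have h1 : s • embUx q g (f (locHom q g d) (locHom q g e)) =
          embUx q g (f (locHom q g d) (locHom q g e)) := by
        have := hkE _ (locHom_mem hd) _ (locHom_mem he) s hs 1 (one_mem _)
        rwa [one_smul] at this
      rw [pullAt_apply, hxeq, map_sub, smul_sub, h1, embUx_locHom_smul,
        hkE 1 (one_mem W) 1 (one_mem W) s hs d hd])
  set b := ∑ k ∈ Finset.range m, pullAt q g x₀ (σ ^ k) σ
  have hb' : b ∈ starF F := hb
  have hb1 : ‖b.val‖ = 1 := by
    rw [Ux.val_sum, norm_prod]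
    refine Finset.prod_eq_one fun k _ => ?_
    rw [pullAt_apply, hxeq, map_sub, embUx_locHom_smul, Ux.val_sub, Ux.val_smul, norm_div,
      norm_apply, val_embUx, val_embUx, (hval _ (locHom_mem (pow_mem hσ k)) _ (locHom_mem hσ)).2,
      (hval 1 (one_mem W) 1 (one_mem W)).2, div_one]
  have hbB : cyc (unramChar F m) b ∈ (LL q).B2 F.fixingSubgroup (MM q) := by
    refine (uCls_mem_B2_iff F hb').mpr ?_
    rw [show ordUx F b = 0 from
      (ord_eq_zero_iff F (mem_fixedUx_fixingSubgroup.mp hb') b.val_ne_zero).mpr hb1]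
    exact dvd_zero _
  have h1 := add_mem (add_mem hcyc hbB) (pullAt_mem_B2 (q := q) (g := g) (K := K) hd)
  rwa [sub_add_cancel, ← pullAt_add, sub_add_cancel] at h1

/-- A class is trivial at all but finitely many rational primes. -/
theorem exists_finite_bad {f : GQ → GQ → GM} (hf : f ∈ LQ.Z2 K.fixingSubgroup GM) :
    ∃ B : Finset ℕ, ∀ (q : ℕ) [Fact q.Prime], q ∉ B → ∀ g : GQ,
      pullAt q g f ∈ (LL q).B2 (locField q g K).fixingSubgroup (MM q) := by
  set W := K.fixingSubgroup
  obtain ⟨V, hV, hc⟩ := hf.1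
  set U := W ⊓ V
  have hU : U ∈ LQ := LQ.inf_mem (fixingSubgroup_mem_galLevels K) hV
  -- the values
  have := LQ.finiteIndex hU
  have : Finite (W ⧸ U.subgroupOf W) := Subgroup.finite_quotient_of_finiteIndex
  have := Fintype.ofFinite (W ⧸ U.subgroupOf W)
  set vals : Finset GM := (Finset.univ : Finset ((W ⧸ U.subgroupOf W) × (W ⧸ U.subgroupOf W))).image
    fun z => f (z.1.out : W) (z.2.out : W)
  have hval : ∀ g ∈ W, ∀ h ∈ W, f g h ∈ vals := fun g hg h hh => by
    refine Finset.mem_image.mpr ⟨(QuotientGroup.mk ⟨g, hg⟩, QuotientGroup.mk ⟨h, hh⟩),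
      Finset.mem_univ _, ?_⟩
    obtain ⟨s, hs⟩ := QuotientGroup.mk_out_eq_mul (U.subgroupOf W) (⟨g, hg⟩ : W)
    obtain ⟨t, ht⟩ := QuotientGroup.mk_out_eq_mul (U.subgroupOf W) (⟨h, hh⟩ : W)
    simp only [hs, ht, Subgroup.coe_mul]
    exact hc g hg h hh _ s.2 _ t.2
  -- a field containing everything
  obtain ⟨K₁, hK₁, hK₁U⟩ := hU
  set A := IntermediateField.adjoin ℚ ((vals.image Ux.val : Finset Qbar) : Set Qbar)
  have : FiniteDimensional ℚ A :=
    IntermediateField.finiteDimensional_adjoin fun x _ => Algebra.IsIntegral.isIntegral x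
  set M := K ⊔ K₁ ⊔ A
  have : FiniteDimensional ℚ ↥(K ⊔ K₁) := IntermediateField.finiteDimensional_sup _ _
  have : FiniteDimensional ℚ M := IntermediateField.finiteDimensional_sup _ _
  obtain ⟨S₁, hS₁⟩ := exists_finite_norm_one_finset (vals.image Ux.val)
  obtain ⟨S₂, hS₂⟩ := exists_unram_levels (K := K) M (le_sup_left.trans le_sup_left)
  refine ⟨S₁ ∪ S₂, fun q _ hq g => ?_⟩
  rw [Finset.mem_union, not_or] at hq
  obtain ⟨m, hm, hker⟩ := hS₂ q hq.2 g
  have hMU : M.fixingSubgroup ≤ U := fun s hs =>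
    hK₁U (IntermediateField.fixingSubgroup_antitone (le_sup_right.trans le_sup_left) hs)
  exact pullAt_mem_B2_of_unramified (le_sup_left.trans le_sup_left) hker hf
    (fun a ha b hb s hs t ht => hc a ha b hb s (hMU hs) t (hMU ht))
    fun a ha b hb =>
      have h := Finset.mem_image_of_mem Ux.val (hval a ha b hb)
      ⟨mem_starK_of_mem _ ((le_sup_right : A ≤ M) (IntermediateField.subset_adjoin ℚ _
        (Finset.mem_coe.mpr h))), hS₁ q hq.1 g _ h (Ux.val_ne_zero _)⟩

end Good

section Sum

variable [FiniteDimensional ℚ K]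

/-- The local invariant of a global class at a prime. -/
def invAt (f : GQ → GQ → GM) (P : PK K) : QZ := inv (locK P) (pullAt (qOf P) (gOf P) f)

/-- The invariant computed at an equal prime. -/
lemma invAt_eq_of_eq (f : GQ → GQ → GM) {P : PK K} {q : ℕ} [Fact q.Prime] (h : qOf P = q) :
    invAt f P = inv (locField q (gOf P) K) (pullAt q (gOf P) f) := by
  subst h
  rfl

/-- The chosen point at an equal prime is a point. -/
lemma isPoint_of_eq {P : PK K} {q : ℕ} [Fact q.Prime] (h : qOf P = q) : IsPoint P q (gOf P) := by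
  subst h
  exact isPoint_gOf P

/-- The invariant depends only on the class. -/
lemma invAt_congr {f f' : GQ → GQ → GM} (hf' : f' ∈ LQ.Z2 K.fixingSubgroup GM)
    (h : f - f' ∈ LQ.B2 K.fixingSubgroup GM) (P : PK K) : invAt f P = invAt f' P :=
  inv_congr _ (pullAt_mem_Z2 hf') (by rw [← pullAt_sub]; exact pullAt_mem_B2 h)

omit [FiniteDimensional ℚ ↥K] in
/-- Points are stable under the decomposition group and the field. -/
lemma isPoint_mul {P : PK K} {q : ℕ} [Fact q.Prime] {g : GQ} (h : IsPoint P q g) (d : Gal' q)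
    {w : GQ} (hw : w ∈ K.fixingSubgroup) : IsPoint P q (g * locHom q g d * w) := fun a => by
  rw [h a, emb_mul, emb_mul, (IntermediateField.mem_fixingSubgroup_iff K w).mp hw _ (a : K).2,
    emb_locHom, norm_apply]

/-- The primes above a rational prime form a finite set. -/
lemma finite_fibre (q : ℕ) [Fact q.Prime] : {P : PK K | qOf P = q}.Finite := by
  have := LQ.finiteIndex (fixingSubgroup_mem_galLevels K)
  have : Finite (GQ ⧸ K.fixingSubgroup) := Subgroup.finite_quotient_of_finiteIndex
  refine Set.Finite.of_finite_image (f := fun P => ((gOf P : GQ) : GQ ⧸ K.fixingSubgroup))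
    (Set.toFinite _) fun P hP P' hP' h => ?_
  have hw : (gOf P)⁻¹ * gOf P' ∈ K.fixingSubgroup := QuotientGroup.eq.mp h
  have h1 := isPoint_mul (isPoint_of_eq hP) 1 hw
  rw [map_one, mul_one, mul_inv_cancel_left] at h1
  exact h1.eq_primeAt.trans (isPoint_of_eq hP').eq_primeAt.symm

variable {q : ℕ} [hq : Fact q.Prime]

/-- The norm formula above a rational prime. -/
lemma sum_fibre_eq_norm {T : Finset (PK K)} (hT : ∀ P, P ∈ T ↔ qOf P = q) {b : GM}
    (hb : b ∈ starK K) [K.fixingSubgroup.FiniteIndex]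
    [∀ P : PK K, (locField q (gOf P) K).fixingSubgroup.FiniteIndex] :
    ∑ P ∈ T, ∑ x : Gal' q ⧸ (locField q (gOf P) K).fixingSubgroup,
        sec (locField q (gOf P) K).fixingSubgroup x • embUx q (gOf P) b =
      embUx q 1 (∑ y : GQ ⧸ K.fixingSubgroup, sec K.fixingSubgroup y • b) := by
  have hinv : ∀ h h' : GQ, (h : GQ ⧸ K.fixingSubgroup) = h' → embUx q h b = embUx q h' b :=
    fun h h' e => by
    rw [show h' = h * (h⁻¹ * h') by group, ← embUx_smul, hb _ (QuotientGroup.eq.mp e)]
  rw [map_sum, Finset.sum_sigma']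
  refine Finset.sum_bij (fun z _ => ((gOf z.1 * locHom q (gOf z.1)
    (sec (locField q (gOf z.1) K).fixingSubgroup z.2) : GQ) : GQ ⧸ K.fixingSubgroup))
    (fun _ _ => Finset.mem_univ _) ?_ ?_ ?_
  · rintro ⟨P, x⟩ hz ⟨P', x'⟩ hz' e
    rw [Finset.mem_sigma] at hz hz'
    have hP := isPoint_of_eq ((hT P).mp hz.1)
    have hP' := isPoint_of_eq ((hT P').mp hz'.1)
    set d := sec (locField q (gOf P) K).fixingSubgroup x
    set d' := sec (locField q (gOf P') K).fixingSubgroup x'
    have hw := QuotientGroup.eq.mp e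
    have h1 := isPoint_mul hP d hw
    rw [mul_inv_cancel_left] at h1
    have h2 : IsPoint P' q (gOf P' * locHom q (gOf P') d') := by
      simpa using isPoint_mul hP' d' (one_mem _)
    obtain rfl : P = P' := h1.eq_primeAt.trans h2.eq_primeAt.symm
    refine Sigma.ext rfl (heq_of_eq ?_)
    show x = x'
    refine (mk_sec _ x).symm.trans ((QuotientGroup.eq.mpr ?_).trans (mk_sec _ x'))
    have hmem : locHom q (gOf P) (d⁻¹ * d') ∈ K.fixingSubgroup := by
      rw [map_mul, map_inv]
      simpa [mul_assoc] using hw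
    exact fixingSubgroup_locField.symm.le hmem
  · intro y _
    set P := primeAt K q (sec K.fixingSubgroup y)
    have hP : IsPoint P q (sec K.fixingSubgroup y) := isPoint_primeAt
    have hPq : qOf P = q := hP.prime_eq (isPoint_gOf P)
    obtain ⟨d, w, hw, e⟩ := (isPoint_of_eq hPq).exists_mul hP
    refine ⟨⟨P, (d : Gal' q ⧸ _)⟩, Finset.mem_sigma.mpr ⟨(hT P).mpr hPq, Finset.mem_univ _⟩, ?_⟩
    conv_rhs => rw [← mk_sec K.fixingSubgroup y, e]
    rw [QuotientGroup.eq]
    set d' := sec (locField q (gOf P) K).fixingSubgroup (d : Gal' q ⧸ _)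
    have hd' : d'⁻¹ * d ∈ (locField q (gOf P) K).fixingSubgroup :=
      QuotientGroup.eq.mp (mk_sec _ _)
    rw [show (gOf P * locHom q (gOf P) d')⁻¹ * (gOf P * locHom q (gOf P) d * w) =
      locHom q (gOf P) (d'⁻¹ * d) * w by rw [map_mul, map_inv]; group]
    exact mul_mem (locHom_mem hd') hw
  · rintro ⟨P, x⟩ _
    rw [smul_embUx, embUx_smul, one_mul]
    exact hinv _ _ (mk_sec _ _).symm

end Sum

end FermatAgent.CFT.Global
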