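import Fermat.Agent.CFT.Global.Units
import Fermat.Agent.CFT.Local.Semilocal

/-!
Chosen embeddings at the primes of a number field, and the local modules attached to a cyclic
character of its Galois group.
-/

set_option autoImplicit false

noncomputable section

open scoped Classical

namespace FermatAgent.CFT.Global

open Coh Local GaloisBasic

variable {K : IntermediateField ℚ Qbar} [FiniteDimensional ℚ K]

/-- The rational prime below a prime. -/
def qOf (P : PK K) : ℕ := (exists_isPoint P).choose

instance fact_qOf (P : PK K) : Fact (qOf P).Prime := (exists_isPoint P).choose_spec.choose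

/-- A chosen embedding at a prime. -/
def gOf (P : PK K) : GQ := (exists_isPoint P).choose_spec.choose_spec.choose

/-- The chosen point of a prime. -/
lemma isPoint_gOf (P : PK K) : IsPoint P (qOf P) (gOf P) :=
  (exists_isPoint P).choose_spec.choose_spec.choose_spec

/-- The completion at a prime, inside the local algebraic closure. -/
abbrev locK (P : PK K) : IntermediateField ℚ_[qOf P] (PadicAlgCl (qOf P)) :=
  locField (qOf P) (gOf P) K

variable {q : ℕ} [hq : Fact q.Prime]

variable (q) in
/-- An embedding as a map of modules. -/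
def embUx (g : GQ) : GM →+ MM q where
  toFun a := Ux.mk (emb q g a.val) ((_root_.map_ne_zero _).mpr a.val_ne_zero)
  map_zero' := Ux.ext (map_one _)
  map_add' _ _ := Ux.ext (map_mul _ _ _)

/-- The value of a localised unit. -/
@[simp] lemma val_embUx (g : GQ) (a : GM) : (embUx q g a).val = emb q g a.val := rfl

/-- Localisation is injective. -/
lemma embUx_injective (g : GQ) : Function.Injective (embUx q g) := fun _ _ h =>
  Ux.ext (emb_injective g (congrArg Ux.val h))

/-- Localisation of a conjugate. -/
lemma embUx_smul (g h : GQ) (a : GM) : embUx q g (h • a) = embUx q (g * h) a := Ux.ext rfl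

/-- The local action on localised units. -/
lemma smul_embUx (g : GQ) (d : Gal' q) (a : GM) :
    d • embUx q g a = embUx q (g * locHom q g d) a := by
  refine Ux.ext ?_
  rw [Ux.val_smul, val_embUx, val_embUx, emb_mul, emb_locHom]

omit [FiniteDimensional ℚ ↥K] in
/-- Elements of the field localise into the local field. -/
lemma embUx_mem_starF {g : GQ} {a : GM} (ha : a ∈ starK K) :
    embUx q g a ∈ starF (locField q g K) :=
  mem_fixedUx_fixingSubgroup.mpr (emb_mem_locField (val_mem_of_mem_starK K ha))

/-- A character at an embedding. -/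
def charAt {n : ℕ} (χ : CycChar (galLevels ℚ Qbar) K.fixingSubgroup n) (q : ℕ) [Fact q.Prime]
    (g : GQ) : CycChar (LL q) (locField q g K).fixingSubgroup n where
  toFun d := χ (locHom q g d)
  map_mul' d hd d' hd' := by
    rw [fixingSubgroup_locField] at hd hd'
    rw [map_mul]
    exact χ.map_mul hd hd'
  const' := by
    obtain ⟨V, hV, h⟩ := χ.const'
    refine ⟨V.comap (locHom q g), (comap_levels_eq g _).mp (Levels.comap_mem _ _ hV),
      fun d hd s hs => ?_⟩
    rw [fixingSubgroup_locField] at hd hs
    show χ (locHom q g (d * s)) = χ (locHom q g d)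
    rw [map_mul]
    exact h _ hd _ ⟨hs.1, hs.2⟩

variable {p : ℕ} [hp : Fact p.Prime] (χ : CycChar (galLevels ℚ Qbar) K.fixingSubgroup p)

omit [FiniteDimensional ℚ ↥K] hp in
/-- The local character. -/
lemma charAt_apply (g : GQ) (d : Gal' q) : charAt χ q g d = χ (locHom q g d) := rfl

omit [FiniteDimensional ℚ ↥K] in
/-- Localisation lands in the group of the field. -/
lemma locHom_mem {g : GQ} {d : Gal' q} (hd : d ∈ (locField q g K).fixingSubgroup) :
    locHom q g d ∈ K.fixingSubgroup := by
  rwa [fixingSubgroup_locField, Subgroup.mem_comap] at hd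

/-- The local character at a prime. -/
abbrev charP (P : PK K) : CycChar (LL (qOf P)) (locK P).fixingSubgroup p := charAt χ (qOf P) (gOf P)

variable {σ : GQ}

/-- The family of conjugates of an element in the local algebraic closure. -/
def diagAt (σ : GQ) (q : ℕ) [Fact q.Prime] (g : GQ) : GM →+ (ZMod p → MM q) :=
  AddMonoidHom.pi fun i : ZMod p => embUx q (g * σ ^ i.val)

omit hp in
/-- The coordinates of the diagonal. -/
@[simp] lemma diagAt_apply (g : GQ) (a : GM) (i : ZMod p) :
    diagAt σ q g a i = embUx q (g * σ ^ i.val) a := rfl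

omit [FiniteDimensional ℚ ↥K] hp in
/-- Elements of the field are fixed by the kernel. -/
lemma mem_fixedUx_ker {a : GM} (ha : a ∈ starK K) : a ∈ fixedUx χ.ker := fun g hg => ha g hg.1

variable (hσ : σ ∈ K.fixingSubgroup) (hσ1 : χ σ = 1)

include hσ hσ1
omit [FiniteDimensional ℚ K]

/-- Localisations depend on the character only. -/
lemma embUx_eq_of_char {a : GM} (ha : a ∈ fixedUx χ.ker) (g : GQ) {h h' : GQ}
    (hh : h ∈ K.fixingSubgroup) (hh' : h' ∈ K.fixingSubgroup) (e : χ h = χ h') :
    embUx q (g * h) a = embUx q (g * h') a := by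
  rw [← embUx_smul, ← embUx_smul, smul_eq_pow_smul χ hσ hσ1 ha hh,
    smul_eq_pow_smul χ hσ hσ1 ha hh', e]

/-- The diagonal lies in the semilocal group. -/
lemma diagAt_mem_semi {a : GM} (ha : a ∈ fixedUx χ.ker) (g : GQ) :
    diagAt (p := p) σ q g a ∈ semi (charAt χ q g) := by
  intro d hd i
  have hd' := locHom_mem hd
  rw [diagAt_apply, diagAt_apply, ← embUx_smul g, ← embUx_smul g, smul_embUx, ← embUx_smul]
  refine congrArg (embUx q g) ?_
  rw [← mul_smul (locHom q g d)]
  rw [smul_eq_pow_smul χ hσ hσ1 ha (mul_mem hd' (pow_mem hσ i.val)), χ.map_mul hd' (pow_mem hσ _),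
    χ.map_pow hσ, hσ1, mul_one, ZMod.natCast_zmod_val, charAt_apply, add_comm i]

/-- The diagonal intertwines the generator and the shift. -/
lemma diagAt_smul {a : GM} (ha : a ∈ fixedUx χ.ker) (g : GQ) :
    diagAt (p := p) σ q g (σ • a) = shift (diagAt (p := p) σ q g a) := by
  funext i
  rw [shift_apply, diagAt_apply, diagAt_apply, embUx_smul, mul_assoc]
  refine embUx_eq_of_char χ hσ hσ1 ha g (mul_mem (pow_mem hσ _) hσ) (pow_mem hσ _) ?_
  rw [χ.map_mul (pow_mem hσ _) hσ, χ.map_pow hσ, χ.map_pow hσ, hσ1, mul_one, mul_one,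
    ZMod.natCast_zmod_val, ZMod.natCast_zmod_val]

end FermatAgent.CFT.Global
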