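import Fermat.Agent.CFT.Global.Capitulation

/-!
The obstruction of a class with values in roots of unity which is trivial in the multiplicative
group: a divisor modulo `p` away from `S`.
-/

set_option autoImplicit false

noncomputable section

open scoped Classical
open IntermediateField

namespace FermatAgent.CFT.Global

open Coh Local GaloisBasic

variable {p : ℕ} [hp : Fact p.Prime] {S : Finset Nat.Primes} {K : IntermediateField ℚ Qbar}
  [FiniteDimensional ℚ K]

lemma muG_eq (a : Mu (chiQ p)) :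
    muG p a = (Mu.val (chiQ p) a).val • zetaUx (zet_spec p) := Ux.ext (by
  rw [val_muToUx, Ux.val_nsmul, Ux.val_mk])

/-- The roots of unity are killed by `p`. -/
lemma nsmul_muG (a : Mu (chiQ p)) : p • muG p a = 0 := nsmul_muToUx (zet_spec p) a

/-- The divisor is an obstruction of the class. -/
def IsObs (S : Finset Nat.Primes) (K : IntermediateField ℚ Qbar) [FiniteDimensional ℚ K]
    (f : GQ → GQ → Mu (chiQ p)) (D : PK K → ZMod p) : Prop :=
  ∃ (M : IntermediateField ℚ Qbar) (β : GM) (c : GQ → GM),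
    M.IsUnramifiedOutside S ∧ K ≤ M ∧ β ∈ starK M ∧ (∀ a ∈ K.fixingSubgroup, c a ∈ starK M) ∧
    (∀ a ∈ K.fixingSubgroup, ∀ s ∈ M.fixingSubgroup, c (a * s) = c a) ∧
    (∀ a ∈ K.fixingSubgroup, ∀ b ∈ K.fixingSubgroup, muG p (f a b) = d1 c a b) ∧
    (∀ a ∈ K.fixingSubgroup, p • c a = d0 β a) ∧
    ∀ q : Nat.Primes, q ∉ S → ∀ g : GQ,
      ∃ n : ℤ, HasOrd (q : ℕ) g β n ∧ (n : ZMod p) = D (primeAt K (q : ℕ) g)

/-- Every level contains the group of a normal field unramified outside `S`. -/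
lemma exists_normal_field {U : Subgroup GQ} (hU : U ∈ LS S) :
    ∃ M : IntermediateField ℚ Qbar, M.IsUnramifiedOutside S ∧ M.fixingSubgroup ≤ U ∧
      M.fixingSubgroup.Normal := by
  obtain ⟨N, hN, hNn, hle⟩ := (LS S).exists_normal hU
  refine ⟨fixedField N, isUnramifiedOutside_of_mem hN, ?_, ?_⟩ <;>
    rw [fixingSubgroup_fixedField_of_mem (LS_le hN)]
  exacts [hle, hNn]

/-- Inclusion of groups reverses inclusion of fields. -/
lemma le_of_fixingSubgroup_le {K M : IntermediateField ℚ Qbar}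
    (h : M.fixingSubgroup ≤ K.fixingSubgroup) : K ≤ M := fun x hx =>
  mem_of_forall_fixing fun σ hσ => (IntermediateField.mem_fixingSubgroup_iff K σ).mp (h hσ) x hx

/-- The prime at a place depends on the prime number only. -/
lemma primeAt_congr {M : IntermediateField ℚ Qbar} [FiniteDimensional ℚ M] {r q : ℕ} [Fact r.Prime]
    [Fact q.Prime] (h : r = q) (g : GQ) : primeAt M r g = primeAt M q g := by
  subst h; rfl

/-- A hom of a level subgroup into roots of unity is given by a root. -/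
lemma exists_root_of_hom {M : IntermediateField ℚ Qbar} [FiniteDimensional ℚ M] (hζ : zet p ∈ M)
    (ψ : CycChar LQ M.fixingSubgroup p) :
    ∃ y : GM, p • y ∈ starK M ∧
      ∀ s ∈ M.fixingSubgroup, s • y - y = (ψ s).val • zetaUx (zet_spec p) := by
  by_cases h : ∀ s ∈ M.fixingSubgroup, ψ s = 0
  · exact ⟨0, by rw [smul_zero]; exact zero_mem _, fun s hs => by
      rw [smul_zero, sub_zero, h s hs, ZMod.val_zero, zero_smul]⟩
  push Not at h
  obtain ⟨s, hs, hne⟩ := h
  obtain ⟨y, hy⟩ := exists_isKummer (zet_spec p) (fixingSubgroup_mem_galLevels _)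
    (smul_zetaUx _ hζ) (ψ := ψ) (σ := s ^ (ψ s)⁻¹.val)
    (pow_mem hs _) (by rw [ψ.map_pow hs, ZMod.natCast_zmod_val, inv_mul_cancel₀ hne])
  exact ⟨y, hy.nsmul_mem (zet_spec p), hy⟩

variable (hpS : ExtCitation.pPrime p ∈ S) (hK : K.IsUnramifiedOutside S) (hζK : zet p ∈ K)
include hpS hK hζK

omit hpS hK [FiniteDimensional ℚ ↥K] in
/-- The field group lies in the kernel of the cyclotomic character. -/
lemma fix_le_ker : K.fixingSubgroup ≤ (chiQ p).ker := by
  rw [← fixingSubgroup_cycK]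
  refine fixingSubgroup_antitone ?_
  show ℚ⟮zet p⟯ ≤ K
  rw [adjoin_simple_le_iff]
  exact hζK

omit hpS hK [FiniteDimensional ℚ ↥K] in
/-- The field group fixes the twisted residues. -/
lemma smul_mu_eq {a : GQ} (ha : a ∈ K.fixingSubgroup) (x : Mu (chiQ p)) : a • x = x :=
  Mu.ext _ (by rw [Mu.val_smul, MonoidHom.mem_ker.mp (fix_le_ker hζK ha), Units.val_one, one_mul])

omit hpS hK hζK in
/-- For `β` with `β`-translates congruent modulo `p`, the order at a point depends modulo `p`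
only on the prime below. -/
lemma exists_hasOrd_primeAt {M : IntermediateField ℚ Qbar} [FiniteDimensional ℚ M]
    (hM : M.IsUnramifiedOutside S) {β : GM} (hy : β ∈ starK M) {c2 : GQ → GM}
    (hfix : ∀ a ∈ K.fixingSubgroup, c2 a ∈ starK M)
    (hpc : ∀ a ∈ K.fixingSubgroup, p • c2 a = d0 β a) (q : Nat.Primes) (hq : q ∉ S) (g : GQ) :
    ∃ n : ℤ, HasOrd (q : ℕ) g β n ∧ (n : ZMod p) =
      (ordP (primeAt M (qOf (primeAt K (q : ℕ) g)) (gOf (primeAt K (q : ℕ) g))) β.val :
        ZMod p) := by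
  obtain ⟨n, hn⟩ : ∃ n : ℤ, HasOrd (q : ℕ) g β n := ⟨_, hasOrd_ordP hM hq g hy⟩
  refine ⟨n, hn, ?_⟩
  set P := primeAt K (q : ℕ) g
  have hP : IsPoint P (q : ℕ) g := isPoint_primeAt
  have hPq : qOf P = (q : ℕ) := hP.prime_eq (isPoint_gOf P)
  obtain ⟨d, w, hw, hg⟩ := (isPoint_of_eq hPq).exists_mul hP
  have h0 : HasOrd (q : ℕ) (gOf P) β (ordP (primeAt M (qOf P) (gOf P)) β.val) := by
    have e : primeAt M (qOf P) (gOf P) = primeAt M (q : ℕ) (gOf P) := primeAt_congr hPq _
    rw [e]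
    exact hasOrd_ordP hM hq _ hy
  have hwβ : w • β = β + p • c2 w := by rw [hpc w hw, d0, add_sub_cancel]
  obtain ⟨k, hk⟩ : ∃ k : ℤ, HasOrd (q : ℕ) (gOf P * locHom (q : ℕ) (gOf P) d) (c2 w) k :=
    ⟨_, hasOrd_ordP hM hq _ (hfix w hw)⟩
  have hgd : HasOrd (q : ℕ) (gOf P * locHom (q : ℕ) (gOf P) d) β
      (ordP (primeAt M (qOf P) (gOf P)) β.val) := by
    unfold HasOrd at h0 ⊢
    rwa [emb_mul, emb_locHom, norm_apply]
  rw [hg, ← hasOrd_smul_iff, hwβ] at hn
  rw [hn.unique (hgd.add (hk.nsmul p))]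
  push_cast
  simp

/-- Classes trivial in the multiplicative group have an obstruction. -/
theorem exists_isObs {f : GQ → GQ → Mu (chiQ p)} (hf : f ∈ (LS S).Z2 K.fixingSubgroup (Mu (chiQ p)))
    (hfB : muClass f ∈ LQ.B2 K.fixingSubgroup GM) : ∃ D, IsObs S K f D := by
  set W := K.fixingSubgroup
  obtain ⟨c0, ⟨V0, hV0, hc0⟩, hfc⟩ :=
    mem_B2_of_muToUx (zet_spec p) (apply_zet p) (fixingSubgroup_mem_galLevels K) hfB
  obtain ⟨V, hV, hc⟩ := hf.1
  obtain ⟨M, hM, hMV, hMn⟩ := exists_normal_field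
    ((LS S).inf_mem hV ((LS S).inf_mem (fixingSubgroup_mem_LS hK) (ker_chiQ_mem_LS p hpS)))
  have := hM.1
  set N := M.fixingSubgroup
  have hNW : N ≤ W := fun s hs => (hMV hs).2.1
  have hKM : K ≤ M := le_of_fixingSubgroup_le hNW
  have hsmul : ∀ {a : GQ}, a ∈ W → ∀ x : Mu (chiQ p), a • x = x :=
    fun ha x => smul_mu_eq hζK ha x
  -- normalisation
  set κ : Mu (chiQ p) := f 1 1
  set f1 : GQ → GQ → Mu (chiQ p) := fun a b => f a b - κ
  have hf1r : ∀ a ∈ W, ∀ n ∈ N, f1 a n = 0 := fun a ha n hn => by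
    have e := hc a ha 1 (one_mem W) 1 (one_mem _) n ⟨hNW hn, (hMV hn).1⟩
    rw [mul_one, one_mul] at e
    have h := hf.2 a ha 1 (one_mem W) 1 (one_mem W)
    rw [d2, mul_one, mul_one, hsmul ha] at h
    show f a n - κ = 0
    rw [e, ← neg_eq_zero, neg_sub, ← h]
    simp only [κ]
    abel
  have hf1l : ∀ a ∈ W, ∀ n ∈ N, f1 n a = 0 := fun a ha n hn => by
    have e := hc 1 (one_mem W) a ha n ⟨hNW hn, (hMV hn).1⟩ 1 (one_mem _)
    rw [one_mul, mul_one] at e
    have h := hf.2 1 (one_mem W) 1 (one_mem W) a ha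
    rw [d2, one_mul, one_mul, one_smul] at h
    show f n a - κ = 0
    rw [e, ← h]
    simp only [κ]
    abel
  set c1 : GQ → GM := fun a => muG p (c0 a - κ)
  have hd1c1 : ∀ a ∈ W, ∀ b ∈ W, muG p (f1 a b) = d1 c1 a b := fun a ha b hb => by
    have h := hfc a ha b hb
    simp only [d1, hsmul ha] at h
    simp only [d1, c1, f1, ← muG_smul, ← map_sub, ← map_add, hsmul ha, h]
    congr 1
    abel
  let ψ : CycChar LQ N p :=
    { toFun := fun s => Mu.val (chiQ p) (c0 s - κ)
      map_mul' := fun s hs t ht => by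
        have h := hfc s (hNW hs) t (hNW ht)
        simp only [d1, hsmul (hNW hs)] at h
        have h0 := hf1r s (hNW hs) t ht
        simp only [f1, sub_eq_zero] at h0
        rw [← map_add]
        refine congrArg _ ?_
        rw [← sub_eq_zero]
        have : c0 t - c0 (s * t) + c0 s - κ = 0 := by rw [← h, h0, sub_self]
        rw [← neg_eq_zero, ← this]
        abel
      const' := ⟨V0, hV0, fun s hs t ht => by
        show Mu.val (chiQ p) (c0 (s * t) - κ) = _
        rw [hc0 s (hNW hs) t ⟨hNW ht.1, ht.2⟩]⟩ }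
  obtain ⟨y, hy, hys⟩ := exists_root_of_hom (hKM hζK) ψ
  set c2 : GQ → GM := fun a => c1 a - d0 y a
  have hd1c2 : ∀ a ∈ W, ∀ b ∈ W, muG p (f1 a b) = d1 c2 a b := fun a ha b hb => by
    rw [hd1c1 a ha b hb, show c2 = c1 - d0 y from rfl, d1_sub, d1_d0, sub_zero]
  have hc2N : ∀ n ∈ N, c2 n = 0 := fun n hn => by
    show muG p (c0 n - κ) - (n • y - y) = 0
    rw [hys n hn, muG_eq, sub_self]
  have hright : ∀ a ∈ W, ∀ n ∈ N, c2 (a * n) = c2 a := fun a ha n hn => by
    have h := hd1c2 a ha n (hNW hn)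
    rw [hf1r a ha n hn, map_zero, d1, hc2N n hn, smul_zero, zero_sub, eq_comm, neg_add_eq_zero] at h
    exact h
  have hfix : ∀ a ∈ W, ∀ n ∈ N, n • c2 a = c2 a := fun a ha n hn => by
    have h := hd1c2 n (hNW hn) a ha
    have hn' : a⁻¹ * n * a ∈ N := by
      have := hMn.conj_mem n hn a⁻¹
      rwa [inv_inv] at this
    rw [hf1l a ha n hn, map_zero, d1, hc2N n hn, add_zero, show n * a = a * (a⁻¹ * n * a) by group,
      hright a ha _ hn', eq_comm, sub_eq_zero] at h
    exact h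
  have hκ : muG p κ ∈ starK M := fun n hn => by rw [← muG_smul, hsmul (hNW hn)]
  set β : GM := -(p • y)
  have hpc : ∀ a ∈ W, p • c2 a = d0 β a := fun a _ => by
    show p • (muG p (c0 a - κ) - (a • y - y)) = a • -(p • y) - -(p • y)
    rw [nsmul_sub, nsmul_muG, nsmul_sub, smul_neg, smul_nsmul' a p y]
    abel
  set c : GQ → GM := fun a => c2 a + muG p κ
  have hcM : ∀ a ∈ W, c a ∈ starK M := fun a ha => add_mem (fun n hn => hfix a ha n hn) hκ
  let D : PK K → ZMod p := fun P =>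
    if (⟨qOf P, (fact_qOf P).out⟩ : Nat.Primes) ∈ S then 0 else
      (ordP (primeAt M (qOf P) (gOf P)) β.val : ZMod p)
  refine ⟨D, M, β, c, hM, hKM, neg_mem hy, hcM, fun a ha s hs => ?_, fun a ha b hb => ?_,
    fun a ha => ?_, fun q hq g => ?_⟩
  · show c2 (a * s) + _ = c2 a + _
    rw [hright a ha s hs]
  · have h := hd1c2 a ha b hb
    show muG p (f a b) = a • (c2 b + muG p κ) - (c2 (a * b) + muG p κ) + (c2 a + muG p κ)
    rw [smul_add, ← muG_smul, hsmul ha, show f a b = f1 a b + κ by simp [f1], map_add, h, d1]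
    abel
  · show p • (c2 a + muG p κ) = _
    rw [nsmul_add, nsmul_muG, add_zero, hpc a ha]
  · obtain ⟨n, hn, hnD⟩ := exists_hasOrd_primeAt hM (neg_mem hy)
      (fun a ha n hn => hfix a ha n hn) hpc q hq g
    refine ⟨n, hn, hnD.trans ?_⟩
    have hP : IsPoint (primeAt K (q : ℕ) g) (q : ℕ) g := isPoint_primeAt
    have hq' : (⟨qOf (primeAt K (q : ℕ) g), (fact_qOf _).out⟩ : Nat.Primes) = q :=
      Subtype.ext (hP.prime_eq (isPoint_gOf _))
    simp only [D]
    rw [if_neg (by rw [hq']; exact hq)]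

omit hK hζK in
/-- A principal obstruction vanishes. -/
theorem mem_B2_of_isObs (hK : K.IsUnramifiedOutside S) {f : GQ → GQ → Mu (chiQ p)}
    {D : PK K → ZMod p} (hD : IsObs S K f D) {a : GM} (ha : a ∈ starK K)
    (hDa : ∀ q : Nat.Primes, q ∉ S → ∀ g : GQ,
      D (primeAt K (q : ℕ) g) = (ordP (primeAt K (q : ℕ) g) a.val : ZMod p)) :
    f ∈ (LS S).B2 K.fixingSubgroup (Mu (chiQ p)) := by
  obtain ⟨M, β, c, hM, hKM, hβ, hcM, hcs, hfc, hpc, hord⟩ := hD
  have := hM.1
  set W := K.fixingSubgroup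
  set y := pRoot p (β - a)
  have hy : p • y = β - a := nsmul_pRoot _
  have haM : a ∈ starK M := fun s hs => ha s (fixingSubgroup_antitone hKM hs)
  obtain ⟨M', hM', hMM', hyM'⟩ := exists_field_of_pth hpS hM (y := y)
    (by rw [hy]; exact sub_mem hβ haM) fun q hq g => by
      obtain ⟨n, hn, hnD⟩ := hord q hq g
      have h2 := hn.sub (hasOrd_ordP hK hq g ha)
      rw [← hy] at h2
      rw [hDa q hq g, ← sub_eq_zero, ← Int.cast_sub, ZMod.intCast_zmod_eq_zero_iff_dvd] at hnD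
      obtain ⟨k, hk⟩ := hnD
      exact ⟨k, hk ▸ h2⟩
  set c' : GQ → GM := fun g => c g - d0 y g
  have hp0 : ∀ g ∈ W, p • c' g = 0 := fun g hg => by
    show p • (c g - (g • y - y)) = 0
    rw [nsmul_sub, hpc g hg, d0, nsmul_sub, ← smul_nsmul' g p y, hy, smul_sub, ha g hg]
    abel
  set inv' : GM → Mu (chiQ p) := Function.invFun (muG p)
  have hinv : ∀ g ∈ W, muG p (inv' (c' g)) = c' g := fun g hg =>
    Function.invFun_eq (exists_muToUx_eq (zet_spec p) (hp0 g hg))
  refine ⟨fun g => inv' (c' g), ⟨M'.fixingSubgroup, fixingSubgroup_mem_LS hM', fun g hg s hs => ?_⟩,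
    fun g hg k hk => muToUx_injective (zet_spec p) ?_⟩
  · refine congrArg inv' ?_
    show c (g * s) - ((g * s) • y - y) = c g - (g • y - y)
    rw [hcs g hg s (fixingSubgroup_antitone hMM' hs.2), mul_smul, hyM' s hs.2]
  · rw [Levels.map_d1 (muG p) (fun m => muG_smul p g m), hfc g hg k hk]
    simp only [d1, hinv g hg, hinv k hk, hinv _ (mul_mem hg hk)]
    simp only [c', d0, smul_sub, mul_smul]
    abel

omit hK hpS hζK in
/-- A cocycle with an obstruction is trivial in the units. -/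
lemma isObs_mem_B2 {f : GQ → GQ → Mu (chiQ p)} {D : PK K → ZMod p} (hD : IsObs S K f D) :
    muClass f ∈ LQ.B2 K.fixingSubgroup GM := by
  obtain ⟨M, β, c, hM, hKM, -, -, hcs, hfc, -, -⟩ := hD
  have := hM.1
  exact ⟨c, ⟨M.fixingSubgroup, fixingSubgroup_mem_galLevels M, fun a ha s hs => hcs a ha s hs.2⟩,
    fun a ha b hb => hfc a ha b hb⟩

omit hK hpS hζK in
/-- Obstructions add. -/
lemma IsObs.add {f f' : GQ → GQ → Mu (chiQ p)} {D D' : PK K → ZMod p} (h : IsObs S K f D)
    (h' : IsObs S K f' D') : IsObs S K (f + f') (D + D') := by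
  obtain ⟨M, β, c, hM, hKM, hβ, hcM, hcs, hfc, hpc, hord⟩ := h
  obtain ⟨M', β', c', hM', hKM', hβ', hcM', hcs', hfc', hpc', hord'⟩ := h'
  have hl : (M ⊔ M').fixingSubgroup ≤ M.fixingSubgroup := fixingSubgroup_antitone le_sup_left
  have hr : (M ⊔ M').fixingSubgroup ≤ M'.fixingSubgroup := fixingSubgroup_antitone le_sup_right
  refine ⟨M ⊔ M', β + β', c + c', hM.sup hM', hKM.trans le_sup_left,
    add_mem (fun s hs => hβ s (hl hs)) (fun s hs => hβ' s (hr hs)),
    fun a ha => add_mem (fun s hs => hcM a ha s (hl hs)) (fun s hs => hcM' a ha s (hr hs)),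
    fun a ha s hs => by
      show c (a * s) + c' (a * s) = _
      rw [hcs a ha s (hl hs), hcs' a ha s (hr hs)]; rfl,
    fun a ha b hb => by rw [d1_add, ← hfc a ha b hb, ← hfc' a ha b hb, ← map_add]; rfl,
    fun a ha => by
      show p • (c a + c' a) = a • (β + β') - (β + β')
      rw [nsmul_add, hpc a ha, hpc' a ha, d0, d0, smul_add]
      abel,
    fun q hq g => ?_⟩
  obtain ⟨n, hn, hnD⟩ := hord q hq g
  obtain ⟨n', hn', hnD'⟩ := hord' q hq g
  exact ⟨n + n', hn.add hn', by rw [Pi.add_apply, ← hnD, ← hnD']; push_cast; rfl⟩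

omit hK hpS hζK in
/-- Obstructions of multiples. -/
lemma IsObs.nsmul {f : GQ → GQ → Mu (chiQ p)} {D : PK K → ZMod p} (h : IsObs S K f D) (k : ℕ) :
    IsObs S K (k • f) ((k : ZMod p) • D) := by
  obtain ⟨M, β, c, hM, hKM, hβ, hcM, hcs, hfc, hpc, hord⟩ := h
  refine ⟨M, k • β, k • c, hM, hKM, nsmul_mem hβ k, fun a ha => nsmul_mem (hcM a ha) k,
    fun a ha s hs => by
      show k • c (a * s) = k • c a
      rw [hcs a ha s hs],
    fun a ha b hb => by
      show muG p (k • f a b) = a • (k • c b) - k • c (a * b) + k • c a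
      rw [map_nsmul, hfc a ha b hb, d1, nsmul_add, nsmul_sub, smul_nsmul' a k (c b)],
    fun a ha => by
      show p • k • c a = a • k • β - k • β
      rw [smul_comm, hpc a ha, d0, nsmul_sub, smul_nsmul' a k β],
    fun q hq g => ?_⟩
  obtain ⟨n, hn, hnD⟩ := hord q hq g
  exact ⟨k * n, hn.nsmul k, by rw [Pi.smul_apply, ← hnD, smul_eq_mul]; push_cast; rfl⟩

include hpS in
omit [FiniteDimensional ℚ ↥K] hK hζK in
/-- One field unramified outside `S` contains `p`-th roots of finitely many divisible elements. -/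
lemma exists_field_of_roots
    {M : IntermediateField ℚ Qbar} (hM : M.IsUnramifiedOutside S) (E : GQ → GM)
    (hEM : ∀ a, E a ∈ starK M)
    (hEs : ∀ a ∈ K.fixingSubgroup, ∀ s ∈ M.fixingSubgroup, E (a * s) = E a)
    (hdiv : ∀ a ∈ K.fixingSubgroup, ∀ q : Nat.Primes, q ∉ S → ∀ g : GQ,
      ∃ k : ℤ, HasOrd (q : ℕ) g (E a) (p * k)) :
    ∃ M' : IntermediateField ℚ Qbar, M'.IsUnramifiedOutside S ∧ M ≤ M' ∧
      ∀ a ∈ K.fixingSubgroup, pRoot p (E a) ∈ starK M' := by
  have := hM.1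
  set e : GQ → GM := fun a => pRoot p (E a)
  have hfin : (e '' (K.fixingSubgroup : Set GQ)).Finite :=
    Levels.Const1.finite_image (L := LQ) (U := K.fixingSubgroup)
      ⟨M.fixingSubgroup, fixingSubgroup_mem_galLevels M,
        fun a ha s hs => congrArg (pRoot p) (hEs a ha s hs.2)⟩
  suffices key : ∀ s : Finset GM, ↑s ⊆ e '' (K.fixingSubgroup : Set GQ) →
      ∃ M' : IntermediateField ℚ Qbar, M'.IsUnramifiedOutside S ∧ M ≤ M' ∧
        ∀ x ∈ s, x ∈ starK M' by
    obtain ⟨M', h1, h2, h3⟩ := key hfin.toFinset (by rw [Set.Finite.coe_toFinset])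
    exact ⟨M', h1, h2, fun a ha => h3 _ ((Set.Finite.mem_toFinset _).mpr ⟨a, ha, rfl⟩)⟩
  intro s
  induction s using Finset.induction with
  | empty => exact fun _ => ⟨M, hM, le_rfl, fun x hx => absurd hx (Finset.notMem_empty x)⟩
  | insert x s _ ih =>
    intro hs
    rw [Finset.coe_insert, Set.insert_subset_iff] at hs
    obtain ⟨M₁, h1, h2, h3⟩ := ih hs.2
    obtain ⟨a, ha, rfl⟩ := hs.1
    obtain ⟨M₂, k1, k2, k3⟩ := exists_field_of_pth hpS h1 (y := e a)
      (by rw [nsmul_pRoot]; exact fun n hn => hEM a n (fixingSubgroup_antitone h2 hn))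
      fun q hq g => by rw [nsmul_pRoot]; exact hdiv a ha q hq g
    refine ⟨M₂, k1, h2.trans k2, fun z hz => ?_⟩
    rcases Finset.mem_insert.mp hz with rfl | hz
    · exact k3
    · exact fun n hn => h3 z hz n (fixingSubgroup_antitone k2 hn)

omit hζK in
/-- Divisors, scaled by a number prime to `p`, are obstructions. -/
theorem exists_isObs_of_divisor : ∃ m : ℕ, ¬ p ∣ m ∧ ∀ D : PK K → ℤ, (Function.support D).Finite →
    ∃ f ∈ (LS S).Z2 K.fixingSubgroup (Mu (chiQ p)), IsObs S K f fun P => (m * D P : ℤ) := by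
  obtain ⟨m, hm, hcap⟩ := exists_capitulation hpS hK
  refine ⟨m, hm, fun D hD => ?_⟩
  obtain ⟨M0, C, hM0, hKM0, hC, hCo⟩ := hcap D hD
  obtain ⟨M, hM, hMle, hMn⟩ := exists_normal_field
    ((LS S).inf_mem (fixingSubgroup_mem_LS hM0) (fixingSubgroup_mem_LS hK))
  have := hM.1
  set W := K.fixingSubgroup
  set c : GQ → GM := fun a => pRoot p (d0 C a)
  have hcs : ∀ a ∈ W, ∀ s ∈ M.fixingSubgroup, c (a * s) = c a := fun a _ s hs => by
    refine congrArg (pRoot p) ?_
    show (a * s) • C - C = a • C - C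
    rw [mul_smul, hC s (hMle hs).1]
  have hCM : ∀ a : GQ, d0 C a ∈ starK M := fun a n hn => by
    show n • (a • C - C) = a • C - C
    have hn' : a⁻¹ * n * a ∈ M.fixingSubgroup := by
      have := hMn.conj_mem n hn a⁻¹
      rwa [inv_inv] at this
    rw [smul_sub, ← mul_smul, show n * a = a * (a⁻¹ * n * a) by group, mul_smul, hC _ (hMle hn').1,
      hC n (hMle hn).1]
  have hdiv : ∀ a ∈ W, ∀ q : Nat.Primes, q ∉ S → ∀ g : GQ,
      HasOrd (q : ℕ) g (d0 C a) 0 := fun a ha q hq g => by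
    have h1 := hCo q hq (g * a)
    rw [← hasOrd_smul_iff] at h1
    have e : primeAt K (q : ℕ) (g * a) = primeAt K (q : ℕ) g := by
      refine IsPoint.eq_primeAt fun x => ?_
      refine ((isPoint_primeAt (K := K) (q := (q : ℕ)) (g := g * a)) x).trans ?_
      rw [emb_mul, (IntermediateField.mem_fixingSubgroup_iff K a).mp ha _ (x : K).2]
    rw [e] at h1
    have := h1.sub (hCo q hq g)
    rwa [sub_self] at this
  -- a field containing all the values
  obtain ⟨M', hM', hMM', hcM'⟩ := exists_field_of_roots hpS hM (d0 C) hCM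
    (fun a _ s hs => by
      show (a * s) • C - C = a • C - C
      rw [mul_smul, hC s (hMle hs).1])
    fun a ha q hq g => ⟨0, by rw [mul_zero]; exact hdiv a ha q hq g⟩
  obtain ⟨M'', hM'', hM''le, hM''n⟩ := exists_normal_field (fixingSubgroup_mem_LS hM')
  have hs' : M''.fixingSubgroup ≤ M.fixingSubgroup :=
    hM''le.trans (fixingSubgroup_antitone hMM')
  have hp0 : ∀ a ∈ W, ∀ b ∈ W, p • d1 c a b = 0 := fun a ha b hb => by
    show p • (a • c b - c (a * b) + c a) = 0
    rw [nsmul_add, nsmul_sub, ← smul_nsmul' a p (c b), nsmul_pRoot, nsmul_pRoot, nsmul_pRoot]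
    exact d1_d0 C a b
  set inv' : GM → Mu (chiQ p) := Function.invFun (muG p)
  have hinv : ∀ a ∈ W, ∀ b ∈ W, muG p (inv' (d1 c a b)) = d1 c a b := fun a ha b hb =>
    Function.invFun_eq (exists_muToUx_eq (zet_spec p) (hp0 a ha b hb))
  have hKM : K ≤ M'' := le_of_fixingSubgroup_le fun s hs => (hMle (hs' hs)).2
  refine ⟨fun a b => inv' (d1 c a b), ⟨⟨M''.fixingSubgroup, fixingSubgroup_mem_LS hM'',
    fun a ha b hb s hs t ht => ?_⟩, fun a ha b hb j hj => muToUx_injective (zet_spec p) ?_⟩,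
    M'', C, c, hM'', hKM, fun n hn => hC n (hMle (hs' hn)).1,
    fun a ha n hn => hcM' a ha n (hM''le hn), fun a ha s hs => hcs a ha s (hs' hs), hinv,
    fun a _ => nsmul_pRoot _, fun q hq g => ⟨_, hCo q hq g, rfl⟩⟩
  · refine congrArg inv' ?_
    have hbt : b⁻¹ * s * b * t ∈ M.fixingSubgroup := by
      refine mul_mem ?_ (hs' ht.2)
      have := hMn.conj_mem s (hs' hs.2) b⁻¹
      rwa [inv_inv] at this
    show (a * s) • c (b * t) - c (a * s * (b * t)) + c (a * s) = a • c b - c (a * b) + c a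
    rw [hcs b hb t (hs' ht.2), hcs a ha s (hs' hs.2), mul_smul, hcM' b hb s (hM''le hs.2),
      show a * s * (b * t) = a * b * (b⁻¹ * s * b * t) by group,
      hcs _ (mul_mem ha hb) _ hbt]
  · rw [Levels.map_d2 (muG p) (fun m => muG_smul p a m), map_zero]
    simp only [d2, hinv b hb j hj, hinv _ (mul_mem ha hb) j hj, hinv a ha _ (mul_mem hb hj),
      hinv a ha b hb]
    exact d2_d1 c a b j

end FermatAgent.CFT.Global
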