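import Fermat.Agent.CFT.Global.Local

/-!
The primes of a cyclic extension of prime degree above those of the base field.
-/

set_option autoImplicit false

noncomputable section

open scoped Classical

namespace FermatAgent.CFT.Global

open Coh Local GaloisBasic

variable {K : IntermediateField ℚ Qbar} [FiniteDimensional ℚ K] {p : ℕ} [hp : Fact p.Prime]
  (χ : CycChar (galLevels ℚ Qbar) K.fixingSubgroup p)

section
omit hp

/-- The extension cut out by a character. -/
def extField : IntermediateField ℚ Qbar := IntermediateField.fixedField χ.ker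

lemma ker_mem_levels : χ.ker ∈ galLevels ℚ Qbar := χ.ker_mem (fixingSubgroup_mem_galLevels K)

instance finiteDimensional_extField : FiniteDimensional ℚ (extField χ) :=
  finiteDimensional_fixedField (ker_mem_levels χ)

/-- The group of the extension is the kernel of the character. -/
lemma fixingSubgroup_extField : (extField χ).fixingSubgroup = χ.ker :=
  fixingSubgroup_fixedField_of_mem (ker_mem_levels χ)

lemma starK_extField : starK (extField χ) = fixedUx χ.ker := by
  rw [starK, fixingSubgroup_extField]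

omit [FiniteDimensional ℚ K] in
/-- The base lies in the extension. -/
lemma le_extField : K ≤ extField χ := fun x hx g =>
  (IntermediateField.mem_fixingSubgroup_iff K g.1).mp (χ.ker_le g.2) x hx

/-- Kernel-invariant elements lie in the extension. -/
lemma mem_extField {a : GM} (ha : a ∈ fixedUx χ.ker) : a.val ∈ extField χ :=
  val_mem_of_mem_starK _ ((starK_extField χ).symm ▸ ha)

/-- The prime below a prime of the extension. -/
def below (Q : PK (extField χ)) : PK K := primeAt K (qOf Q) (gOf Q)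

/-- A point of a prime is a point of the prime below. -/
lemma isPoint_below {Q : PK (extField χ)} {q : ℕ} [Fact q.Prime] {g : GQ} (h : IsPoint Q q g) :
    IsPoint (below χ Q) q g := by
  intro a
  have hq : qOf Q = q := h.prime_eq (isPoint_gOf Q)
  set b : NumberField.RingOfIntegers (extField χ) :=
    ⟨⟨((a : K) : Qbar), le_extField χ (a : K).2⟩, by
      refine (isIntegral_algHom_iff (IsScalarTower.toAlgHom ℤ (extField χ) Qbar)
        (algebraMap (extField χ) Qbar).injective).mp ?_
      exact (NumberField.RingOfIntegers.isIntegral_coe a).map (IsScalarTower.toAlgHom ℤ K Qbar)⟩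
  exact (isPoint_gOf Q b).symm.trans (h b)

/-- The prime below, from a point. -/
lemma below_eq {Q : PK (extField χ)} {q : ℕ} [Fact q.Prime] {g : GQ} (h : IsPoint Q q g) :
    below χ Q = primeAt K q g :=
  (isPoint_below χ h).eq_primeAt

/-- The primes above a prime, indexed by the cyclic group. -/
def primeOver (σ : GQ) (P : PK K) (i : ZMod p) : PK (extField χ) :=
  primeAt (extField χ) (qOf P) (gOf P * σ ^ i.val)

lemma isPoint_primeOver (σ : GQ) (P : PK K) (i : ZMod p) :
    IsPoint (primeOver χ σ P i) (qOf P) (gOf P * σ ^ i.val) :=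
  isPoint_primeAt

end

variable {σ : GQ} (hσ : σ ∈ K.fixingSubgroup) (hσ1 : χ σ = 1)

omit hp in
include hσ in
/-- The primes over a prime lie over it. -/
lemma below_primeOver (P : PK K) (i : ZMod p) : below χ (primeOver χ σ P i) = P := by
  rw [below_eq χ (isPoint_primeOver χ σ P i)]
  refine (IsPoint.eq_primeAt fun a => ?_).symm
  rw [emb_mul, (IntermediateField.mem_fixingSubgroup_iff K _).mp (pow_mem hσ _) _ (a : K).2]
  exact isPoint_gOf P a

include hσ hσ1

lemma emb_extField_eq {q : ℕ} [Fact q.Prime] (g : GQ) {h h' : GQ} (hh : h ∈ K.fixingSubgroup)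
    (hh' : h' ∈ K.fixingSubgroup) (e : χ h = χ h') {x : Qbar} (hx : x ∈ extField χ) :
    emb q (g * h) x = emb q (g * h') x := by
  rcases eq_or_ne x 0 with rfl | h0
  · simp
  exact congrArg Ux.val (embUx_eq_of_char χ hσ hσ1 (q := q) (a := Ux.mk x h0)
    ((starK_extField χ) ▸ mem_starK_of_mem _ (a := Ux.mk x h0) hx) g hh hh' e)

lemma norm_emb_shift {q : ℕ} [Fact q.Prime] (g : GQ) {d : Gal' q}
    (hd : d ∈ (locField q g K).fixingSubgroup) (i : ZMod p) {x : Qbar} (hx : x ∈ extField χ) :
    ‖emb q (g * σ ^ (i + charAt χ q g d).val) x‖ = ‖emb q (g * σ ^ i.val) x‖ := by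
  rw [← emb_extField_eq χ hσ hσ1 g (mul_mem (locHom_mem hd) (pow_mem hσ i.val))
    (pow_mem hσ (i + charAt χ q g d).val) ?_ hx, emb_mul, AlgEquiv.mul_apply,
    emb_locHom, norm_apply,
    ← emb_mul]
  rw [χ.map_mul (locHom_mem hd) (pow_mem hσ _), χ.map_pow hσ, χ.map_pow hσ, hσ1, mul_one, mul_one,
    ZMod.natCast_zmod_val, ZMod.natCast_zmod_val, charAt_apply, add_comm]

/-- Every prime above is one of the indexed primes. -/
lemma exists_primeOver (Q : PK (extField χ)) : ∃ i, primeOver χ σ (below χ Q) i = Q := by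
  have h1 := isPoint_gOf Q
  set P := below χ Q
  have h2 : IsPoint P (qOf Q) (gOf Q) := isPoint_below χ h1
  have hq : qOf P = qOf Q := h2.prime_eq (isPoint_gOf P)
  revert h1 h2
  generalize gOf Q = g'
  revert hq
  generalize qOf Q = q', (fact_qOf Q) = fq
  intro hq
  subst hq
  intro h1 h2
  obtain ⟨d, w, hw, rfl⟩ := (isPoint_gOf P).exists_mul h2
  refine ⟨χ w, ?_⟩
  refine (IsPoint.eq_primeAt fun a => ?_).symm
  refine (h1 a).trans ?_
  set x : Qbar := ((a : extField χ) : Qbar)
  have hx : x ∈ extField χ := (a : extField χ).2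
  have e : ‖emb (qOf P) (gOf P * locHom (qOf P) (gOf P) d * w) x‖ =
      ‖emb (qOf P) (gOf P * σ ^ (χ w).val) x‖ := by
    rw [emb_mul, emb_mul, emb_locHom, norm_apply, ← emb_mul,
      emb_extField_eq χ hσ hσ1 (gOf P) hw (pow_mem hσ (χ w).val) ?_ hx]
    rw [χ.map_pow hσ, hσ1, mul_one, ZMod.natCast_zmod_val]
  rw [e]

lemma primeOver_eq_iff (P : PK K) (i j : ZMod p) :
    primeOver χ σ P i = primeOver χ σ P j ↔
      ∃ d ∈ (locK P).fixingSubgroup, j = i + charP χ P d := by
  constructor
  · intro h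
    have h1 := isPoint_primeOver χ σ P i
    have h2 : IsPoint (primeOver χ σ P i) (qOf P) (gOf P * σ ^ j.val) :=
      h ▸ isPoint_primeOver χ σ P j
    obtain ⟨d, w, hw, e⟩ := h1.exists_mul h2
    rw [fixingSubgroup_extField] at hw
    have e2 : gOf P * σ ^ i.val * locHom (qOf P) (gOf P * σ ^ i.val) d =
        gOf P * locHom (qOf P) (gOf P) d * σ ^ i.val := by
      rw [locHom_apply, locHom_apply]; group
    rw [e2, mul_assoc (gOf P), mul_assoc (gOf P), mul_right_inj] at e
    have hd' : locHom (qOf P) (gOf P) d ∈ K.fixingSubgroup := by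
      rw [show locHom (qOf P) (gOf P) d = σ ^ j.val * w⁻¹ * (σ ^ i.val)⁻¹ by rw [e]; group]
      exact mul_mem (mul_mem (pow_mem hσ _) (inv_mem hw.1)) (inv_mem (pow_mem hσ _))
    refine ⟨d, by rw [fixingSubgroup_locField]; exact hd', ?_⟩
    have h3 := congrArg (fun z : GQ => χ z) e
    simp only [χ.map_mul (mul_mem hd' (pow_mem hσ i.val)) hw.1, χ.map_mul hd' (pow_mem hσ i.val),
      χ.map_pow hσ, hσ1, hw.2, mul_one, add_zero, ZMod.natCast_zmod_val] at h3
    rw [h3, charAt_apply, add_comm]
  · rintro ⟨d, hd, rfl⟩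
    refine (IsPoint.eq_primeAt (P := primeOver χ σ P i) fun a => ?_)
    refine (isPoint_primeOver χ σ P i a).trans ?_
    rw [← norm_emb_shift χ hσ hσ1 (gOf P) hd i (a : extField χ).2]

omit hσ hσ1 in
variable (σ) in
/-- The primes above a finite set of primes. -/
def primesOver (T : Finset (PK K)) : Finset (PK (extField χ)) :=
  (T ×ˢ (Finset.univ : Finset (ZMod p))).image fun x => primeOver χ σ x.1 x.2

lemma mem_primesOver {T : Finset (PK K)} {Q : PK (extField χ)} :
    Q ∈ primesOver χ σ T ↔ below χ Q ∈ T := by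
  rw [primesOver, Finset.mem_image]
  constructor
  · rintro ⟨⟨P, i⟩, h, rfl⟩
    rw [below_primeOver χ hσ]
    exact (Finset.mem_product.mp h).1
  · intro h
    obtain ⟨i, hi⟩ := exists_primeOver χ hσ hσ1 Q
    exact ⟨(below χ Q, i), Finset.mem_product.mpr ⟨h, Finset.mem_univ _⟩, hi⟩

omit hσ hσ1 in
/-- The number of primes above a prime. -/
def fibreCard (P : PK K) : ℕ := if ∀ d ∈ (locK P).fixingSubgroup, charP χ P d = 0 then p else 1

/-- The number of primes over a finite set. -/
lemma card_primesOver (T : Finset (PK K)) :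
    (primesOver χ σ T).card = ∑ P ∈ T, fibreCard χ P := by
  rw [Finset.card_eq_sum_card_fiberwise (f := below χ) (t := T)
    fun Q hQ => (mem_primesOver χ hσ hσ1).mp hQ]
  refine Finset.sum_congr rfl fun P hP => ?_
  have e : (primesOver χ σ T).filter (fun Q => below χ Q = P) =
      Finset.univ.image (primeOver χ σ P) := by
    ext Q
    simp only [Finset.mem_filter, mem_primesOver χ hσ hσ1, Finset.mem_image, Finset.mem_univ,
      true_and]
    constructor
    · rintro ⟨-, rfl⟩; exact exists_primeOver χ hσ hσ1 Q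
    · rintro ⟨i, rfl⟩; exact ⟨by rwa [below_primeOver χ hσ], below_primeOver χ hσ P i⟩
  rw [e, fibreCard]
  split_ifs with h
  · rw [Finset.card_image_of_injective, Finset.card_univ, ZMod.card]
    intro i j hij
    obtain ⟨d, hd, e⟩ := (primeOver_eq_iff χ hσ hσ1 P i j).mp hij
    rw [e, h d hd, add_zero]
  · rw [Finset.card_eq_one]
    refine ⟨primeOver χ σ P 0, ?_⟩
    rw [Finset.eq_singleton_iff_unique_mem]
    refine ⟨Finset.mem_image_of_mem _ (Finset.mem_univ 0), fun Q hQ => ?_⟩
    obtain ⟨i, -, rfl⟩ := Finset.mem_image.mp hQ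
    obtain ⟨s, hs, hs1⟩ := (exists_generator_or_trivial (charP χ P)).resolve_left h
    refine ((primeOver_eq_iff χ hσ hσ1 P 0 i).mpr ⟨s ^ i.val, pow_mem hs _, ?_⟩).symm
    rw [(charP χ P).map_pow hs, hs1, mul_one, ZMod.natCast_zmod_val, zero_add]

omit hσ hσ1 hp in
/-- Being a unit on the diagonal, in terms of orders. -/
lemma norm_diag_eq_one_iff {a : GM} (ha : a ∈ fixedUx χ.ker) (P : PK K) (i : ZMod p) :
    ‖(diagAt (p := p) σ (qOf P) (gOf P) a i).val‖ = 1 ↔ ordP (primeOver χ σ P i) a.val = 0 := by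
  rw [diagAt_apply, val_embUx]
  exact (isPoint_primeOver χ σ P i).norm_eq_one_iff (mem_extField χ ha) a.val_ne_zero

/-- Units of the extension at the primes over a set. -/
lemma mem_tUnits_extField {T : Finset (PK K)} {a : GM} :
    a ∈ tUnits (extField χ) (primesOver χ σ T : Set (PK (extField χ))) ↔
      a ∈ fixedUx χ.ker ∧ ∀ P ∉ T, ∀ i, ‖(diagAt (p := p) σ (qOf P) (gOf P) a i).val‖ = 1 := by
  rw [mem_tUnits, starK_extField]
  constructor
  · rintro ⟨ha, h⟩
    refine ⟨ha, fun P hP i => (norm_diag_eq_one_iff χ ha P i).mpr (h _ fun hm => hP ?_)⟩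
    rw [Finset.mem_coe, mem_primesOver χ hσ hσ1, below_primeOver χ hσ] at hm
    exact hm
  · rintro ⟨ha, h⟩
    refine ⟨ha, fun Q hQ => ?_⟩
    rw [Finset.mem_coe, mem_primesOver χ hσ hσ1] at hQ
    obtain ⟨i, hi⟩ := exists_primeOver χ hσ hσ1 Q
    rw [← hi]
    exact (norm_diag_eq_one_iff χ ha _ i).mp (h _ hQ i)

end FermatAgent.CFT.Global
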