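import Fermat.Agent.CFT.Global.Embed
import Fermat.Agent.GaloisBasic.Inertia

/-!
Primes of number fields inside `ℚ̄` and the embeddings inducing them.

An embedding is a point of a prime (`IsPoint`) if it induces it; every prime has one
(`exists_isPoint`), and two of them differ by the local and global groups (`IsPoint.exists_mul`).
`ordP` is the valuation, equal to the local one at a point (`IsPoint.ord_eq`). Finiteness of the
class group makes almost all primes principal modulo finitely many (`exists_generator`) and some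
power of each prime principal (`exists_pos_ordP`).
-/

set_option autoImplicit false

noncomputable section

open scoped Classical NumberField Pointwise
open IsDedekindDomain WithZero

namespace FermatAgent.CFT.Global

open Coh Local GaloisBasic

variable (K : IntermediateField ℚ Qbar)

/-- The primes of a number field. -/
abbrev PK : Type := HeightOneSpectrum (𝓞 K)

instance numberField_of_finite [FiniteDimensional ℚ K] : NumberField K := {}

variable {q : ℕ} [hq : Fact q.Prime] {g : GQ} {K}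

/-- An embedding induces a prime. -/
def IsPoint (P : PK K) (q : ℕ) [Fact q.Prime] (g : GQ) : Prop :=
  ∀ a : 𝓞 K, a ∈ P.asIdeal ↔ ‖emb q g ((a : K) : Qbar)‖ < 1

/-- Algebraic integers have norm at most one at every place. -/
lemma norm_emb_integral (g : GQ) {x : Qbar} (hx : IsIntegral ℤ x) : ‖emb q g x‖ ≤ 1 :=
  mem_intRing.mp (zbar_mem ((intRing q).comap (emb q g).toRingHom) ⟨x, hx⟩ :)

/-- Integers of a field have norm at most one at every place. -/
lemma norm_emb_int (g : GQ) (a : 𝓞 K) : ‖emb q g ((a : K) : Qbar)‖ ≤ 1 :=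
  norm_emb_integral g ((NumberField.RingOfIntegers.isIntegral_coe a).map
    (IsScalarTower.toAlgHom ℤ K Qbar))

/-- The maximal ideal of the chosen place. -/
lemma mem_nonunits_padicPlace {x : Qbar} :
    x ∈ (padicPlace q).nonunits ↔ ‖padicEmbedding q x‖ < 1 := by
  rcases eq_or_ne x 0 with rfl | h0
  · simp
  · have hpos : 0 < ‖padicEmbedding q x‖ := norm_pos_iff.mpr ((_root_.map_ne_zero _).mpr h0)
    rw [ValuationSubring.mem_nonunits_iff, ← not_le, ← not_le]
    refine not_congr ?_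
    rw [← inv_le_one₀ (zero_lt_iff.mpr ((Valuation.ne_zero_iff _).mpr h0)), ← map_inv₀,
      ValuationSubring.valuation_le_one_iff, mem_padicPlace_iff, ← NNReal.coe_le_coe, coe_nnnorm,
      NNReal.coe_one, map_inv₀, norm_inv, inv_le_one₀ hpos]

/-- The chosen place lies over its prime. -/
lemma liesOverPrime_padicPlace : (padicPlace q).LiesOverPrime q := by
  rw [ValuationSubring.LiesOverPrime, mem_nonunits_padicPlace, map_natCast]
  exact norm_q_lt_one

/-- The prime has norm less than one at its places. -/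
lemma norm_emb_natCast_lt_one (g : GQ) : ‖emb q g (q : Qbar)‖ < 1 := by
  rw [map_natCast]; exact norm_q_lt_one

/-- Every prime comes from an embedding. -/
theorem exists_isPoint [FiniteDimensional ℚ K] (P : PK K) :
    ∃ (q : ℕ) (_ : Fact q.Prime) (g : GQ), IsPoint P q g := by
  have : P.asIdeal.IsMaximal := P.isMaximal
  obtain ⟨q, A, hq, hA, hPA⟩ := exists_center_centerIn_eq K P.asIdeal
  have : Fact q.Prime := ⟨hq⟩
  obtain ⟨σ, hσ⟩ := exists_smul_eq hq (liesOverPrime_padicPlace (q := q)) hA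
  refine ⟨q, ⟨hq⟩, σ⁻¹, fun a => ?_⟩
  rw [← hPA, centerIn, Ideal.mem_comap, ← hσ, center_smul,
    Ideal.mem_pointwise_smul_iff_inv_smul_mem, mem_center, mem_nonunits_padicPlace]
  rfl

/-- The prime attached to an embedding. -/
def primeAt (K : IntermediateField ℚ Qbar) [FiniteDimensional ℚ K] (q : ℕ) [Fact q.Prime]
    (g : GQ) : PK K where
  asIdeal :=
    { carrier := {a | ‖emb q g ((a : K) : Qbar)‖ < 1}
      zero_mem' := by simp
      add_mem' := fun {a b} ha hb => by
        simp only [Set.mem_ofPred_eq, map_add, IntermediateField.coe_add] at ha hb ⊢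
        exact (IsUltrametricDist.norm_add_le_max _ _).trans_lt (max_lt ha hb)
      smul_mem' := fun c a ha => by
        simp only [Set.mem_ofPred_eq, smul_eq_mul, map_mul, IntermediateField.coe_mul,
          norm_mul] at ha ⊢
        exact (mul_le_of_le_one_left (norm_nonneg _) (norm_emb_int g c)).trans_lt ha }
  isPrime := by
    refine ⟨(Ideal.ne_top_iff_one _).mpr fun h => ?_, fun {a b} h => ?_⟩
    · change ‖emb q g ((((1 : 𝓞 K) : K)) : Qbar)‖ < 1 at h
      simp at h
    · change ‖emb q g ((((a * b : 𝓞 K) : K)) : Qbar)‖ < 1 at h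
      simp only [map_mul, IntermediateField.coe_mul, norm_mul] at h
      by_contra hne
      push Not at hne
      change ¬ (‖emb q g ((a : K) : Qbar)‖ < 1) ∧ ¬ (‖emb q g ((b : K) : Qbar)‖ < 1) at hne
      rw [not_lt, not_lt] at hne
      exact absurd h (not_lt.mpr (one_le_mul_of_one_le_of_one_le hne.1 hne.2))
  ne_bot := by
    refine fun h => (Fact.out : q.Prime).ne_zero ?_
    have hm : (q : 𝓞 K) ∈ (⊥ : Ideal (𝓞 K)) := by
      rw [← h]
      show ‖emb q g (((q : 𝓞 K) : K) : Qbar)‖ < 1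
      simpa using norm_emb_natCast_lt_one (q := q) g
    exact_mod_cast (Ideal.mem_bot.mp hm)

/-- The prime at a place has the place as a point. -/
lemma isPoint_primeAt [FiniteDimensional ℚ K] : IsPoint (primeAt K q g) q g := fun _ => Iff.rfl

namespace IsPoint

variable [FiniteDimensional ℚ K] {P : PK K} (h : IsPoint P q g)

include h

/-- A prime with a point is the prime at it. -/
lemma eq_primeAt : P = primeAt K q g :=
  HeightOneSpectrum.ext (Ideal.ext fun a => h a)

omit [FiniteDimensional ℚ ↥K] in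
/-- A prime has points over one prime number only. -/
lemma prime_eq {q' : ℕ} [Fact q'.Prime] {g' : GQ} (h' : IsPoint P q' g') : q' = q := by
  by_contra hne
  have h1 : (q : 𝓞 K) ∈ P.asIdeal := (h _).mpr (by simpa using norm_emb_natCast_lt_one (q := q) g)
  have h2 : (q' : 𝓞 K) ∈ P.asIdeal :=
    (h' _).mpr (by simpa using norm_emb_natCast_lt_one (q := q') g')
  refine P.isPrime.ne_top ((Ideal.eq_top_iff_one _).mpr ?_)
  have hco : IsCoprime (q : 𝓞 K) (q' : 𝓞 K) := by
    refine Nat.Coprime.cast ((Nat.coprime_primes hq.out (Fact.out : q'.Prime)).mpr (Ne.symm hne))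
  obtain ⟨u, v, huv⟩ := hco
  rw [← huv]
  exact P.asIdeal.add_mem (P.asIdeal.mul_mem_left u h1) (P.asIdeal.mul_mem_left v h2)

omit [FiniteDimensional ℚ ↥K] in
/-- Elements outside the prime are units at its points. -/
lemma norm_eq_one_of_primeCompl {s : 𝓞 K} (hs : s ∈ P.asIdeal.primeCompl) :
    ‖emb q g ((s : K) : Qbar)‖ = 1 :=
  le_antisymm (norm_emb_int g s) (not_lt.mp fun hlt => hs ((h s).mpr hlt))

/-- Integrality at a prime, seen at a point. -/
lemma valuation_le_one_iff (x : K) : P.valuation K x ≤ 1 ↔ ‖emb q g (x : Qbar)‖ ≤ 1 := by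
  constructor
  · intro hv
    obtain ⟨s, hs, a, hsa⟩ : ∃ s ∈ P.asIdeal.primeCompl, ∃ a : 𝓞 K, (s : K) * x = (a : K) := by
      obtain ⟨a, s, hs⟩ := P.exists_primeCompl_mul_eq_of_integer x hv
      exact ⟨s, s.2, a, by rw [mul_comm]; exact hs⟩
    have := norm_emb_int (q := q) g a
    rw [← hsa, IntermediateField.coe_mul, map_mul, norm_mul,
      h.norm_eq_one_of_primeCompl hs, one_mul]
      at this
    exact this
  · intro hn
    by_contra hv
    rw [not_le] at hv
    have hx0 : x ≠ 0 := fun h0 => by rw [h0, map_zero] at hv; exact not_lt_zero hv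
    obtain ⟨a, s, hs'⟩ := P.exists_primeCompl_mul_eq_of_integer x⁻¹
      (by rw [map_inv₀]; exact inv_le_one_of_one_le₀ hv.le)
    have hs : x⁻¹ * ((s : 𝓞 K) : K) = (a : K) := hs'
    have ha : a ∈ P.asIdeal := by
      refine (HeightOneSpectrum.valuation_lt_one_iff_mem (v := P) (K := K) a).mp ?_
      show P.valuation K (algebraMap (𝓞 K) K a) < 1
      rw [← hs', map_mul, map_inv₀]
      exact mul_lt_one_of_nonneg_of_lt_one_left zero_le (inv_lt_one_of_one_lt₀ hv)
        (P.valuation_le_one _)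
    have h1 := (h a).mp ha
    rw [← hs, IntermediateField.coe_mul, map_mul, norm_mul, h.norm_eq_one_of_primeCompl s.2,
      mul_one, IntermediateField.coe_inv, map_inv₀, norm_inv] at h1
    have hpos : 0 < ‖emb q g (x : Qbar)‖ :=
      norm_pos_iff.mpr ((_root_.map_ne_zero _).mpr (by simpa using hx0))
    exact absurd hn (not_le.mpr ((inv_lt_one₀ hpos).mp h1))

/-- Being a unit at a prime, seen at a point. -/
lemma valuation_eq_one_iff (x : K) : P.valuation K x = 1 ↔ ‖emb q g (x : Qbar)‖ = 1 := by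
  rcases eq_or_ne x 0 with rfl | h0
  · simp
  have hv : P.valuation K x ≠ 0 := (Valuation.ne_zero_iff _).mpr h0
  have hpos : 0 < ‖emb q g (x : Qbar)‖ :=
    norm_pos_iff.mpr ((_root_.map_ne_zero _).mpr (by simpa using h0))
  have hi := h.valuation_le_one_iff x⁻¹
  rw [map_inv₀, inv_le_one₀ (zero_lt_iff.mpr hv), IntermediateField.coe_inv, map_inv₀, norm_inv,
    inv_le_one₀ hpos] at hi
  rw [le_antisymm_iff, le_antisymm_iff, h.valuation_le_one_iff, hi]

/-- Two embeddings inducing the same prime. -/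
theorem exists_mul {g' : GQ} (h' : IsPoint P q g') :
    ∃ d : Gal' q, ∃ w ∈ K.fixingSubgroup, g' = g * locHom q g d * w :=
  exists_locHom_mul fun a ha => by
    rw [← h.valuation_le_one_iff ⟨a, ha⟩, ← h'.valuation_le_one_iff ⟨a, ha⟩]

end IsPoint

variable [FiniteDimensional ℚ K]

/-- The valuation of an element of a number field, as an integer. -/
def ordP (P : PK K) (x : Qbar) : ℤ :=
  if h : x ∈ K then -(WithZero.log (P.valuation K ⟨x, h⟩)) else 0

/-- The order on the field is the valuation. -/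
lemma ordP_coe (P : PK K) (x : K) : ordP P (x : Qbar) = -(WithZero.log (P.valuation K x)) :=
  dif_pos x.2

/-- Orders are additive on products. -/
lemma ordP_mul (P : PK K) {x y : Qbar} (hx : x ∈ K) (hy : y ∈ K) (hx0 : x ≠ 0) (hy0 : y ≠ 0) :
    ordP P (x * y) = ordP P x + ordP P y := by
  show ordP P (((⟨x, hx⟩ : K) * ⟨y, hy⟩ : K) : Qbar) = _
  rw [ordP_coe, map_mul,
    log_mul ((Valuation.ne_zero_iff _).mpr fun h => hx0 (congrArg Subtype.val h))
    ((Valuation.ne_zero_iff _).mpr fun h => hy0 (congrArg Subtype.val h)), neg_add,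
    ← ordP_coe, ← ordP_coe]

lemma ordP_eq_zero_iff (P : PK K) {x : K} (h0 : x ≠ 0) :
    ordP P (x : Qbar) = 0 ↔ P.valuation K x = 1 := by
  have hv : P.valuation K x ≠ 0 := (Valuation.ne_zero_iff _).mpr h0
  rw [ordP_coe, neg_eq_zero, ← exp_eq_one, exp_log hv]

lemma zpow_ordP (P : PK K) {π : K} (hπ : P.valuation K π = exp (-1 : ℤ)) {x : K} (h0 : x ≠ 0) :
    P.valuation K (x / π ^ ordP P (x : Qbar)) = 1 := by
  have hv : P.valuation K x ≠ 0 := (Valuation.ne_zero_iff _).mpr h0
  rw [map_div₀, map_zpow₀, hπ, ← exp_zsmul, ordP_coe, smul_eq_mul, neg_mul_neg, mul_one, exp_log hv,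
    div_self hv]

/-- The local valuation is the valuation at the prime. -/
theorem IsPoint.ord_eq {P : PK K} (h : IsPoint P q g) {x : Qbar}
    (hx : x ∈ K) (h0 : x ≠ 0) : ord (locField q g K) (emb q g x) = ordP P x := by
  set F := locField q g K
  obtain ⟨π, hπ⟩ := P.valuation_exists_uniformizer K
  have hπ0 : π ≠ 0 := fun h0 => by rw [h0, map_zero] at hπ; exact exp_ne_zero hπ.symm
  have hπ0' : emb q g (π : Qbar) ≠ 0 := (_root_.map_ne_zero _).mpr (by simpa using hπ0)
  set c := ord F (emb q g (π : Qbar))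
  have key : ∀ y : K, y ≠ 0 → ord F (emb q g (y : Qbar)) = ordP P (y : Qbar) * c := fun y hy => by
    have h1 := (h.valuation_eq_one_iff _).mp (zpow_ordP P hπ hy)
    have hy' : emb q g (y : Qbar) ≠ 0 := (_root_.map_ne_zero _).mpr (by simpa using hy)
    simp only [IntermediateField.coe_div, map_div₀, norm_div] at h1
    rw [show ((π ^ ordP P (y : Qbar) : K) : Qbar) = (π : Qbar) ^ ordP P (y : Qbar) from
      map_zpow₀ (IntermediateField.val K) π _, map_zpow₀, norm_zpow] at h1
    refine ord_unique F (emb_mem_locField y.2) hy' ?_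
    rw [eq_of_div_eq_one h1, norm_eq_zpow_ord F (emb_mem_locField π.2) hπ0', ← zpow_mul, mul_comm]
  obtain ⟨a, ha, ha0, han⟩ := exists_emb_norm_eq (unif_mem F) (unif_ne_zero F)
  have h1 : ord F (emb q g a) = 1 :=
    ord_unique F (emb_mem_locField ha) ((_root_.map_ne_zero _).mpr ha0) (by rw [han, zpow_one])
  rw [key ⟨a, ha⟩ (fun hh => ha0 (congrArg Subtype.val hh))] at h1
  have hc : 1 ≤ c := by
    rw [one_le_ord_iff F (emb_mem_locField π.2) hπ0']
    refine lt_of_le_of_ne ((h.valuation_le_one_iff π).mp ?_) fun he => ?_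
    · rw [hπ, ← exp_zero, exp_le_exp]; omega
    · have h2 := (h.valuation_eq_one_iff π).mpr he
      rw [hπ, exp_eq_one] at h2
      omega
  have hc1 : c = 1 := le_antisymm (Int.le_of_dvd one_pos ⟨_, h1.symm.trans (mul_comm _ _)⟩) hc
  rw [key ⟨x, hx⟩ (fun hh => h0 (congrArg Subtype.val hh)), hc1, mul_one]

/-- Units at a point are elements of order zero. -/
lemma IsPoint.norm_eq_one_iff {P : PK K} (h : IsPoint P q g) {x : Qbar}
    (hx : x ∈ K) (h0 : x ≠ 0) : ‖emb q g x‖ = 1 ↔ ordP P x = 0 := by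
  rw [← h.ord_eq hx h0, ord_eq_zero_iff _ (emb_mem_locField hx) ((_root_.map_ne_zero _).mpr h0)]

/-- An element has zero valuation outside a finite set of primes. -/
lemma finite_ordP_ne_zero {x : Qbar} (hx : x ∈ K) (h0 : x ≠ 0) :
    {P : PK K | ordP P x ≠ 0}.Finite := by
  have hx0 : (⟨x, hx⟩ : K) ≠ 0 := fun h => h0 (congrArg Subtype.val h)
  refine ((HeightOneSpectrum.Support.finite (𝓞 K) (⟨x, hx⟩ : K)).union
    (HeightOneSpectrum.Support.finite (𝓞 K) (⟨x, hx⟩ : K)⁻¹)).subset fun P hP => ?_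
  have hne : P.valuation K ⟨x, hx⟩ ≠ 1 := fun h => hP ((ordP_eq_zero_iff P hx0).mpr h)
  rcases lt_or_gt_of_ne hne with h | h
  · right
    show 1 < P.valuation K (⟨x, hx⟩ : K)⁻¹
    rw [map_inv₀]
    exact (one_lt_inv₀ (zero_lt_iff.mpr ((Valuation.ne_zero_iff _).mpr hx0))).mpr h
  · exact Or.inl h

/-- Elements of trivial valuation everywhere are units. -/
lemma exists_unit_eq {x : Qbar} (hx : x ∈ K) (h0 : x ≠ 0) (h : ∀ P : PK K, ordP P x = 0) :
    ∃ u : (𝓞 K)ˣ, ((u : 𝓞 K) : K) = (⟨x, hx⟩ : K) := by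
  have hx0 : (⟨x, hx⟩ : K) ≠ 0 := fun h => h0 (congrArg Subtype.val h)
  have hv : ∀ P : PK K, P.valuation K (⟨x, hx⟩ : K) = 1 := fun P =>
    (ordP_eq_zero_iff P hx0).mp (h P)
  obtain ⟨a, ha⟩ := HeightOneSpectrum.mem_integers_of_valuation_le_one K _ fun P => (hv P).le
  obtain ⟨b, hb⟩ := HeightOneSpectrum.mem_integers_of_valuation_le_one K (⟨x, hx⟩ : K)⁻¹
    fun P => by rw [map_inv₀, hv P, inv_one]
  refine ⟨⟨a, b, ?_, ?_⟩, ha⟩ <;> apply NumberField.RingOfIntegers.coe_injective
  · rw [map_mul, map_one, ha, hb, mul_inv_cancel₀ hx0]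
  · rw [map_mul, map_one, ha, hb, inv_mul_cancel₀ hx0]

/-- Units have order zero. -/
lemma ordP_unit (P : PK K) (u : (𝓞 K)ˣ) : ordP P (((u : 𝓞 K) : K) : Qbar) = 0 := by
  rw [ordP_eq_zero_iff P (by
    rw [Ne, NumberField.RingOfIntegers.coe_eq_zero_iff]; exact u.ne_zero)]
  exact (HeightOneSpectrum.valuation_eq_one_iff_notMem (v := P) (K := K)).mpr
    fun h => P.isPrime.ne_top (Ideal.eq_top_of_isUnit_mem _ h u.isUnit)

/-- The order of an integer from the exact power of the prime. -/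
lemma ordP_int_eq (P : PK K) {a : 𝓞 K} (ha : a ≠ 0) {n : ℕ} (h1 : P.asIdeal ^ n ∣ Ideal.span {a})
    (h2 : ¬ P.asIdeal ^ (n + 1) ∣ Ideal.span {a}) : ordP P ((a : K) : Qbar) = n := by
  rw [ordP_coe, P.valuation_of_algebraMap]
  rw [← P.intValuation_le_pow_iff_dvd] at h1 h2
  have hne := P.intValuation_ne_zero a ha
  rw [not_le] at h2
  rw [← exp_log hne, exp_le_exp] at h1
  rw [← exp_log hne, exp_lt_exp] at h2
  push_cast at h2
  omega

/-- An integer prime to a prime has order zero there. -/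
lemma ordP_eq_zero_of_not_dvd (P : PK K) {a : 𝓞 K} (ha : a ≠ 0)
    (h : ¬ P.asIdeal ∣ Ideal.span {a}) : ordP P ((a : K) : Qbar) = 0 :=
  ordP_int_eq P ha (n := 0) (by rw [pow_zero, Ideal.one_eq_top]; exact Ideal.dvd_iff_le.mpr le_top)
    (by rwa [zero_add, pow_one])

/-- Divisibility between primes is equality. -/
lemma asIdeal_dvd_iff {P P' : PK K} : P.asIdeal ∣ P'.asIdeal ↔ P = P' := by
  refine ⟨fun h => HeightOneSpectrum.ext ?_, fun h => h ▸ dvd_rfl⟩
  exact (P'.isMaximal.eq_of_le P.isPrime.ne_top (Ideal.le_of_dvd h)).symm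

variable (K) in
/-- A finite set of primes beyond which every prime is principal. -/
theorem exists_generator :
    ∃ T₀ : Finset (PK K), ∀ P ∉ T₀, ∃ c ∈ K, c ≠ 0 ∧ ordP P c = 1 ∧
      ∀ P' ∉ T₀, P' ≠ P → ordP P' c = 0 := by
  choose I hI using fun C : ClassGroup (𝓞 K) => ClassGroup.mk0_surjective C
  have hfin : {P : PK K | ∃ C, P.asIdeal ∣ (I C : Ideal (𝓞 K))}.Finite := by
    rw [Set.ofPred_exists]
    exact Set.finite_iUnion fun C =>
      Ideal.finite_factors (nonZeroDivisors.ne_zero (I C).2)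
  refine ⟨hfin.toFinset, fun P hP => ?_⟩
  rw [Set.Finite.mem_toFinset] at hP
  simp only [Set.mem_ofPred_eq, not_exists] at hP
  set C := (ClassGroup.mk0 ⟨P.asIdeal, mem_nonZeroDivisors_of_ne_zero P.ne_bot⟩)⁻¹
  have hprod : ClassGroup.mk0 (⟨P.asIdeal, mem_nonZeroDivisors_of_ne_zero P.ne_bot⟩ * I C) = 1 := by
    rw [map_mul, hI, mul_inv_cancel]
  obtain ⟨c, hc⟩ := (ClassGroup.mk0_eq_one_iff ((⟨P.asIdeal,
    mem_nonZeroDivisors_of_ne_zero P.ne_bot⟩ : nonZeroDivisors (Ideal (𝓞 K))) * I C).2).mp hprod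
  change P.asIdeal * (I C : Ideal (𝓞 K)) = Ideal.span {c} at hc
  have hc0 : c ≠ 0 := fun h => by
    rw [h, Ideal.span_singleton_eq_bot.mpr rfl] at hc
    rcases Ideal.mul_eq_bot.mp hc with h' | h'
    · exact P.ne_bot h'
    · exact nonZeroDivisors.ne_zero (I C).2 h'
  refine ⟨((c : K) : Qbar), (c : K).2, by simpa using hc0, ?_, fun P' hP' hne => ?_⟩
  · refine ordP_int_eq P hc0 (n := 1) (by rw [pow_one, ← hc]; exact dvd_mul_right _ _) fun h =>
      hP C ?_
    rw [← hc, pow_succ, pow_one] at h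
    exact (mul_dvd_mul_iff_left P.ne_bot).mp h
  · rw [Set.Finite.mem_toFinset] at hP'
    simp only [Set.mem_ofPred_eq, not_exists] at hP'
    refine ordP_eq_zero_of_not_dvd P' hc0 fun h => ?_
    rw [← hc] at h
    rcases (Ideal.prime_of_isPrime P'.ne_bot P'.isPrime).dvd_or_dvd h with h' | h'
    · exact hne (asIdeal_dvd_iff.mp h')
    · exact hP' C h'

/-- Some power of a prime is principal. -/
theorem exists_pos_ordP (P : PK K) :
    ∃ c ∈ K, c ≠ 0 ∧ 0 < ordP P c ∧ ∀ P' : PK K, P' ≠ P → ordP P' c = 0 := by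
  set I : nonZeroDivisors (Ideal (𝓞 K)) := ⟨P.asIdeal, mem_nonZeroDivisors_of_ne_zero P.ne_bot⟩
  set h := Fintype.card (ClassGroup (𝓞 K))
  have hpow : ClassGroup.mk0 (I ^ h) = 1 := by rw [map_pow, pow_card_eq_one]
  obtain ⟨c, hc⟩ := (ClassGroup.mk0_eq_one_iff (I ^ h).2).mp hpow
  change P.asIdeal ^ h = Ideal.span {c} at hc
  have hc0 : c ≠ 0 := fun h0 => by
    rw [h0, Ideal.span_singleton_eq_bot.mpr rfl] at hc
    exact pow_ne_zero h P.ne_bot hc
  refine ⟨((c : K) : Qbar), (c : K).2, by simpa using hc0, ?_, fun P' hne => ?_⟩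
  · rw [ordP_int_eq P hc0 (n := h) (by rw [← hc]) (fun h' => ?_)]
    · exact_mod_cast Fintype.card_pos
    · rw [← hc] at h'
      exact absurd ((pow_dvd_pow_iff P.ne_bot (fun hu => P.isPrime.ne_top
        (Ideal.isUnit_iff.mp hu))).mp h') (by omega)
  · refine ordP_eq_zero_of_not_dvd P' hc0 fun h' => hne ?_
    rw [← hc] at h'
    exact asIdeal_dvd_iff.mp ((Ideal.prime_of_isPrime P'.ne_bot P'.isPrime).dvd_of_dvd_pow h')

end FermatAgent.CFT.Global
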