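import Fermat.Agent.CFT.Local.Tame
import Fermat.Agent.CFT.Global.Brauer

/-!
Reciprocity over `ℚ` for cyclotomic characters, and auxiliary characters with large local values.

`invQ` is the local invariant of a cyclic class and `Recip` says that a character is unramified
outside a finite set with invariants adding up to zero. For a character of prime conductor this is
checked on `-1` and on primes and extends by additivity (`cyclotomic_recip`). A prime modulo which
`q` has order a power of `p` (`exists_prime_order`) gives such a character large at `q`, and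
combinations one large at finitely many primes (`exists_recip`).
-/

set_option autoImplicit false

noncomputable section

open scoped Classical

namespace FermatAgent.CFT

namespace Coh

variable {Γ : Type*} [Group Γ] {L : Levels Γ} {W : Subgroup Γ}

/-- The reduction of a character. -/
def CycChar.castChar {N n : ℕ} [NeZero N] (χ : CycChar L W N) (h : n ∣ N) : CycChar L W n where
  toFun g := ((χ g).val : ZMod n)
  map_mul' g hg k hk := by
    have e : ∀ z : ZMod N, ((z.val : ℕ) : ZMod n) = ZMod.castHom h (ZMod n) z := fun z => by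
      rw [ZMod.castHom_apply, ZMod.natCast_val]
    rw [χ.map_mul hg hk, e, e, e, map_add]
  const' := χ.const'.comp fun z : ZMod N => ((z.val : ℕ) : ZMod n)

/-- A combination of two characters in the product of the moduli. -/
def CycChar.combine {m n : ℕ} [NeZero m] [NeZero n] (χ : CycChar L W m) (ψ : CycChar L W n)
    (c : ℕ) : CycChar L W (m * n) where
  toFun g := ((n * (χ g).val + c * m * (ψ g).val : ℕ) : ZMod (m * n))
  map_mul' g hg k hk := by
    rw [χ.map_mul hg hk, ψ.map_mul hg hk, ← Nat.cast_add, ← sub_eq_zero, ← Int.cast_natCast,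
      ← Int.cast_natCast (R := ZMod (m * n)) (_ + _ + _), ← Int.cast_sub,
      ZMod.intCast_zmod_eq_zero_iff_dvd]
    have e1 := val_add_val (χ g) (χ k)
    have e2 := val_add_val (ψ g) (ψ k)
    refine ⟨-(carry (χ g) (χ k) + c * carry (ψ g) (ψ k)), ?_⟩
    push_cast
    linear_combination -(n : ℤ) * e1 - (c : ℤ) * m * e2
  const' := (χ.const'.op ψ.const' fun a b =>
    ((n * a.val + c * m * b.val : ℕ) : ZMod (m * n)))

lemma CycChar.combine_apply {m n : ℕ} [NeZero m] [NeZero n] (χ : CycChar L W m) (ψ : CycChar L W n)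
    (c : ℕ) (g : Γ) :
    χ.combine ψ c g = ((n * (χ g).val + c * m * (ψ g).val : ℕ) : ZMod (m * n)) := rfl

variable {A : Type*} [AddCommGroup A] [DistribMulAction Γ A]

/-- The class of a combination of characters. -/
lemma cyc_combine_mem_B2 {m n : ℕ} [NeZero m] [NeZero n] (χ : CycChar L W m) (ψ : CycChar L W n)
    (ξ : CycChar L W (m * n)) (c : ℕ)
    (h : ∀ g ∈ W, ξ g = ((n * (χ g).val + c * m * (ψ g).val : ℕ) : ZMod (m * n))) {b : A}
    (hb : ∀ g ∈ W, g • b = b) :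
    cyc ξ b - (cyc χ b + c • cyc ψ b) ∈ L.B2 W A := by
  set Q : ZMod m → ZMod n → ℤ := fun x y => ((n * x.val + c * m * y.val) / (m * n) : ℕ)
  refine ⟨fun g => (-Q (χ g) (ψ g)) • b, χ.const'.op ψ.const' fun x y => (-Q x y) • b,
    fun g hg k hk => ?_⟩
  have key : ∀ x ∈ W, ((ξ x).val : ℤ) + (m * n : ℕ) * Q (χ x) (ψ x) =
      n * (χ x).val + c * m * (ψ x).val := fun x hx => by
    rw [h x hx, ZMod.val_natCast]
    simp only [Q]
    exact_mod_cast Nat.mod_add_div _ (m * n)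
  have e3 := val_add_val (ξ g) (ξ k)
  rw [← ξ.map_mul hg hk] at e3
  have e1 := val_add_val (χ g) (χ k)
  rw [← χ.map_mul hg hk] at e1
  have e2 := val_add_val (ψ g) (ψ k)
  rw [← ψ.map_mul hg hk] at e2
  have k1 := key g hg
  have k2 := key k hk
  have k3 := key _ (mul_mem hg hk)
  have e : carry (ξ g) (ξ k) - (carry (χ g) (χ k) + c * carry (ψ g) (ψ k)) =
      -Q (χ k) (ψ k) - -Q (χ (g * k)) (ψ (g * k)) + -Q (χ g) (ψ g) := by
    refine mul_left_cancel₀ (a := ((m * n : ℕ) : ℤ)) (by exact_mod_cast NeZero.ne (m * n)) ?_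
    push_cast at k1 k2 k3 e3 ⊢
    linear_combination -e3 + (n : ℤ) * e1 + (c : ℤ) * m * e2 + k1 + k2 - k3
  simp only [Pi.sub_apply, Pi.add_apply, Pi.smul_apply, cyc_apply, d1, smul_zsmul_comm, hb g hg]
  rw [← natCast_zsmul, ← mul_smul, ← add_smul, ← sub_smul, e]
  module

end Coh

namespace Global

open Coh Local GaloisBasic

instance fact_primes (q : Nat.Primes) : Fact (q : ℕ).Prime := ⟨q.2⟩

/-- An element has norm one at all but finitely many primes. -/
lemma exists_finite_norm_one {x : Qbar} (hx : x ≠ 0) :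
    ∃ S : Finset ℕ, ∀ (q : ℕ) [Fact q.Prime], q ∉ S → ∀ g : GQ, ‖emb q g x‖ = 1 := by
  have key : ∀ y : Qbar, ∃ d : ℤ, d ≠ 0 ∧ IsIntegral ℤ (d • y) := fun y =>
    ((IsFractionRing.isAlgebraic_iff ℤ ℚ Qbar).mpr (Algebra.IsAlgebraic.isAlgebraic y))
      |>.exists_integral_multiple
  obtain ⟨d, hd, hdi⟩ := key x
  obtain ⟨d', hd', hdi'⟩ := key x⁻¹
  refine ⟨d.natAbs.primeFactors ∪ d'.natAbs.primeFactors, fun q hq hqS g => ?_⟩
  rw [Finset.mem_union, not_or] at hqS
  have hle : ∀ (y : Qbar) (e : ℤ), e ≠ 0 → q ∉ e.natAbs.primeFactors → IsIntegral ℤ (e • y) →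
      ‖emb q g y‖ ≤ 1 := fun y e he hqe hi => by
    have h1 := norm_emb_integral (q := q) g hi
    rw [zsmul_eq_mul, map_mul, map_intCast, norm_mul] at h1
    have hn : ‖(e : PadicAlgCl q)‖ = 1 := by
      rw [← map_intCast (algebraMap ℚ_[q] (PadicAlgCl q)), norm_algebraMap',
        Padic.norm_intCast_eq_one_iff]
      refine Int.isCoprime_iff_gcd_eq_one.mpr ?_
      rw [Int.gcd_comm, Int.gcd, Int.natAbs_natCast]
      exact (Nat.Prime.coprime_iff_not_dvd hq.out).mpr fun h =>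
        hqe (Nat.mem_primeFactors.mpr ⟨hq.out, h, Int.natAbs_ne_zero.mpr he⟩)
    rwa [hn, one_mul] at h1
  refine le_antisymm (hle x d hd hqS.1 hdi) ?_
  have h2 := hle x⁻¹ d' hd' hqS.2 hdi'
  rwa [map_inv₀, norm_inv, inv_le_one₀ (norm_pos_iff.mpr ((_root_.map_ne_zero _).mpr hx))] at h2

section Rat

variable {n : ℕ} [NeZero n] (χ : CycChar LQ ⊤ n)

/-- The local character of a character of the absolute Galois group of `ℚ`. -/
def locQ (q : ℕ) [Fact q.Prime] : CycChar (LL q) ⊤ n where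
  toFun d := χ (locHom q 1 d)
  map_mul' d _ d' _ := by rw [map_mul]; exact χ.map_mul trivial trivial
  const' := by
    obtain ⟨V, hV, h⟩ := χ.const'
    refine ⟨V.comap (locHom q 1), (comap_levels_eq 1 _).mp (Levels.comap_mem _ _ hV),
      fun d _ s hs => ?_⟩
    show χ (locHom q 1 (d * s)) = χ (locHom q 1 d)
    rw [map_mul]
    exact h _ trivial _ ⟨trivial, hs.2⟩

section
omit [NeZero n]

/-- A character takes the same values on conjugate local groups. -/
lemma char_locHom (q : ℕ) [Fact q.Prime] (g : GQ) (d : Gal' q) :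
    χ (locHom q g d) = χ (locHom q 1 d) := by
  rw [locHom_apply, locHom_one, χ.map_mul trivial trivial, χ.map_mul trivial trivial,
    χ.map_inv trivial]
  abel

/-- The local character on the base field. -/
abbrev locBot (q : ℕ) [Fact q.Prime] : CycChar (LL q) (botF q).fixingSubgroup n :=
  (locQ χ q).restrict le_top

/-- The local invariant at a rational prime of a cyclic class over `ℚ`. -/
def invQ (q : Nat.Primes) (b : GM) : QZ :=
  inv (botF q) (cyc (locBot χ q) (embUx q 1 b))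

/-- Localisation fixes rational integers. -/
lemma embUx_natCast (q : ℕ) [Fact q.Prime] (r : ℕ) (h0 : (r : Qbar) ≠ 0) :
    (embUx q 1 (Ux.mk (r : Qbar) h0)).val = (r : PadicAlgCl q) := by
  rw [val_embUx, Ux.val_mk, map_natCast]

lemma invQ_mk (q : ℕ) [hq : Fact q.Prime] (χ : CycChar LQ ⊤ n) (b : GM) :
    invQ χ ⟨q, hq.out⟩ b = inv (botF q) (cyc (locBot χ q) (embUx q 1 b)) := rfl

/-- Reciprocity over `ℚ` for a character, unramified outside a finite set. -/
structure Recip (L : Finset ℕ) : Prop where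
  unram : ∀ (q : ℕ) [Fact q.Prime], q ∉ L →
    ∃ a : ZMod n, ∀ d : Gal' q, χ (locHom q 1 d) = a * frobExp (botF q) n d
  sum_eq : ∀ b ∈ starK (⊥ : IntermediateField ℚ Qbar), ∑ᶠ q : Nat.Primes, invQ χ q b = 0

/-- Rational elements localise into the base field. -/
lemma embUx_mem_bot {b : GM} (hb : b ∈ starK (⊥ : IntermediateField ℚ Qbar)) (q : ℕ) [Fact q.Prime]
    (g : GQ) : embUx q g b ∈ starF (botF q) := by
  refine mem_fixedUx_fixingSubgroup.mpr ?_
  obtain ⟨r, hr⟩ := IntermediateField.mem_bot.mp (val_mem_of_mem_starK _ hb)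
  rw [val_embUx, ← hr, AlgHom.commutes, IsScalarTower.algebraMap_apply ℚ ℚ_[q] (PadicAlgCl q)]
  exact IntermediateField.algebraMap_mem _ _

end

/-- The local invariant of an unramified character. -/
lemma invQ_eq_of_unram {q : Nat.Primes} {a : ZMod n}
    (ha : ∀ d : Gal' q, χ (locHom q 1 d) = a * frobExp (botF q) n d) {b : GM}
    (hb : b ∈ starK (⊥ : IntermediateField ℚ Qbar)) :
    invQ χ q b = qz ((a.val : ℤ) * ordUx (botF q) (embUx q 1 b)) n :=
  inv_cyc_of_unram (botF q) (locBot χ q) a.val (fun d _ => by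
    rw [Int.cast_natCast, ZMod.natCast_zmod_val]; exact ha d) (embUx_mem_bot hb q 1)

omit [NeZero n] in
/-- Local units have order zero. -/
lemma ordUx_eq_zero_of_norm {q : ℕ} [Fact q.Prime] {b : MM q} (hb : b ∈ starF (botF q))
    (h : ‖b.val‖ = 1) : ordUx (botF q) b = 0 :=
  (ord_eq_zero_iff _ (mem_fixedUx_fixingSubgroup.mp hb) b.val_ne_zero).mpr h

variable {χ}

/-- Almost all local invariants of an element vanish. -/
lemma Recip.finite_support {L : Finset ℕ} (hχ : ∀ (q : ℕ) [Fact q.Prime], q ∉ L →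
      ∃ a : ZMod n, ∀ d : Gal' q, χ (locHom q 1 d) = a * frobExp (botF q) n d)
    {b : GM} (hb : b ∈ starK (⊥ : IntermediateField ℚ Qbar)) :
    (Function.support fun q : Nat.Primes => invQ χ q b).Finite := by
  obtain ⟨S, hS⟩ := exists_finite_norm_one b.val_ne_zero
  refine ((L ∪ S).finite_toSet.preimage Subtype.val_injective.injOn).subset fun q hq => ?_
  rw [Set.mem_preimage, Finset.mem_coe, Finset.mem_union]
  by_contra h
  rw [not_or] at h
  have : Fact (q : ℕ).Prime := ⟨q.2⟩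
  obtain ⟨a, ha⟩ := hχ (q : ℕ) h.1
  refine hq ?_
  show invQ χ q b = 0
  rw [invQ_eq_of_unram χ ha hb, ordUx_eq_zero_of_norm (embUx_mem_bot hb q 1) (hS q h.2 1), mul_zero,
    qz_zero]

lemma invQ_add (q : Nat.Primes) {a b : GM} (ha : a ∈ starK (⊥ : IntermediateField ℚ Qbar))
    (hb : b ∈ starK (⊥ : IntermediateField ℚ Qbar)) :
    invQ χ q (a + b) = invQ χ q a + invQ χ q b := by
  rw [invQ, map_add]
  exact inv_cyc_add (botF q) (locBot χ q) (embUx_mem_bot ha q 1) (embUx_mem_bot hb q 1)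

variable {m : ℕ} [NeZero m] {ψ : CycChar LQ ⊤ m}

lemma invQ_combine (q : Nat.Primes) (c : ℕ) {b : GM}
    (hb : b ∈ starK (⊥ : IntermediateField ℚ Qbar)) :
    invQ (χ.combine ψ c) q b = invQ χ q b + c • invQ ψ q b := by
  have hb' := embUx_mem_bot hb q 1
  have h := cyc_combine_mem_B2 (locBot χ q) (locBot ψ q) (locBot (χ.combine ψ c) q) c
    (fun d _ => rfl) hb'
  rw [invQ, inv_congr (botF q)
    (add_mem (cyc_mem_Z2' _ (locBot χ q) hb') (nsmul_mem (cyc_mem_Z2' _ (locBot ψ q) hb') c)) h,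
    inv_add (botF q) (cyc_mem_Z2' _ (locBot χ q) hb')
      (nsmul_mem (cyc_mem_Z2' _ (locBot ψ q) hb') c),
    inv_nsmul (botF q) (cyc_mem_Z2' _ (locBot ψ q) hb')]
  rfl

omit [NeZero m] in
lemma frobExp_cast_val {q : ℕ} [Fact q.Prime] {M : ℕ} [NeZero M] (h : n ∣ M) (d : Gal' q) :
    (((frobExp (botF q) M d).val : ℕ) : ZMod n) = frobExp (botF q) n d :=
  (frobExp_cast (botF q) n M h (mem_fix_bot d)).symm

theorem Recip.combine {L L' : Finset ℕ} (hχ : Recip χ L) (hψ : Recip ψ L') (c : ℕ) :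
    Recip (χ.combine ψ c) (L ∪ L') := by
  refine ⟨fun q _ hq => ?_, fun b hb => ?_⟩
  · rw [Finset.mem_union, not_or] at hq
    obtain ⟨a, ha⟩ := hχ.unram q hq.1
    obtain ⟨a', ha'⟩ := hψ.unram q hq.2
    have : NeZero (n * m) := ⟨mul_ne_zero (NeZero.ne n) (NeZero.ne m)⟩
    refine ⟨((m * a.val + c * n * a'.val : ℕ) : ZMod (n * m)), fun d => ?_⟩
    rw [CycChar.combine_apply, ha d, ha' d]
    set x := (frobExp (botF q) (n * m) d).val
    have e1 : a * frobExp (botF q) n d = ((a.val * x : ℕ) : ZMod n) := by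
      rw [Nat.cast_mul, frobExp_cast_val (dvd_mul_right n m), ZMod.natCast_zmod_val]
    have e2 : a' * frobExp (botF q) m d = ((a'.val * x : ℕ) : ZMod m) := by
      rw [Nat.cast_mul, frobExp_cast_val (dvd_mul_left m n), ZMod.natCast_zmod_val]
    rw [e1, e2, ZMod.val_natCast, ZMod.val_natCast,
      show frobExp (botF q) (n * m) d = ((x : ℕ) : ZMod (n * m)) from
        (ZMod.natCast_zmod_val _).symm,
      ← Nat.cast_mul, ZMod.natCast_eq_natCast_iff, add_mul, mul_assoc m a.val x,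
      mul_assoc (c * n) a'.val x]
    refine Nat.ModEq.add ?_ ?_
    · rw [← Nat.mul_mod_mul_left, mul_comm m n]
      exact Nat.mod_modEq _ _
    · rw [mul_assoc, mul_assoc]
      refine Nat.ModEq.mul_left c ?_
      rw [← Nat.mul_mod_mul_left]
      exact Nat.mod_modEq _ _
  · simp only [invQ_combine _ c hb]
    rw [finsum_add_distrib (Recip.finite_support hχ.unram hb)
      ((Recip.finite_support hψ.unram hb).subset fun q hq h0 => hq (by simp [h0])),
      ← smul_finsum' c (Recip.finite_support hψ.unram hb), hχ.sum_eq b hb, hψ.sum_eq b hb]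
    simp

end Rat

/-- A prime is a unit at the other primes. -/
lemma norm_natCast_prime_of_ne {r q : ℕ} [Fact q.Prime] (hr : r.Prime) (hne : r ≠ q) :
    ‖(r : PadicAlgCl q)‖ = 1 := by
  rw [← map_natCast (algebraMap ℚ_[q] (PadicAlgCl q)), norm_algebraMap',
    Padic.norm_natCast_eq_one_iff]
  exact (Nat.coprime_primes Fact.out hr).mpr (Ne.symm hne)

section Cyclotomic

variable {ℓ : ℕ} [hl : Fact ℓ.Prime] {N : ℕ} [NeZero N]

omit [NeZero N] in
/-- Every unit modulo `ℓ` is a power of a generator. -/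
private lemma exists_pow_eq (hN : N + 1 = ℓ) {g₀ : (ZMod ℓ)ˣ} (hg₀ : orderOf g₀ = N)
    (a : (ZMod ℓ)ˣ) : ∃ i : ℕ, g₀ ^ i = a := by
  have hcard : Nat.card (ZMod ℓ)ˣ = orderOf g₀ := by
    rw [Nat.card_eq_fintype_card, ZMod.card_units_eq_totient, Nat.totient_prime hl.out, hg₀]
    omega
  have hmem : a ∈ Subgroup.zpowers g₀ := by
    rw [Subgroup.eq_top_of_card_eq (Subgroup.zpowers g₀) (by rw [Nat.card_zpowers, hcard])]
    trivial
  exact Submonoid.mem_powers_iff _ _ |>.mp (mem_powers_iff_mem_zpowers.mpr hmem)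

omit [NeZero N] in
/-- The character of a root of unity of prime order, with values in the exponents of a generator. -/
theorem exists_cyclotomic_char (hN : N + 1 = ℓ) {g₀ : (ZMod ℓ)ˣ} (hg₀ : orderOf g₀ = N) {ζ : Qbar}
    (hζ : IsPrimitiveRoot ζ ℓ) :
    ∃ χ : CycChar LQ ⊤ N, ∀ σ : GQ,
      σ ζ = ζ ^ (((g₀ ^ (χ σ).val : (ZMod ℓ)ˣ) : ZMod ℓ)).val := by
  have hgen := exists_pow_eq hN hg₀
  choose i hi using hgen
  have hmul : ∀ a b, ((i (a * b) : ℕ) : ZMod N) = (i a : ZMod N) + i b := fun a b => by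
    rw [← Nat.cast_add, ZMod.natCast_eq_natCast_iff, ← hg₀, ← pow_eq_pow_iff_modEq, hi, pow_add,
      hi, hi]
  have : FiniteDimensional ℚ (IntermediateField.adjoin ℚ ({ζ} : Set Qbar)) :=
    IntermediateField.adjoin.finiteDimensional (Algebra.IsIntegral.isIntegral ζ)
  refine ⟨⟨fun σ => (i (hζ.autToPow ℚ σ) : ZMod N), fun σ _ τ _ => ?_, ?_⟩, fun σ => ?_⟩
  · rw [map_mul]; exact hmul _ _
  · refine ⟨(IntermediateField.adjoin ℚ ({ζ} : Set Qbar)).fixingSubgroup,
      fixingSubgroup_mem_galLevels _, fun σ _ s hs => ?_⟩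
    have h1 : hζ.autToPow ℚ s = 1 := by
      refine Units.ext (ZMod.val_injective ℓ (hζ.pow_inj (ZMod.val_lt _) (ZMod.val_lt _) ?_))
      have : Fact (1 < ℓ) := ⟨hl.out.one_lt⟩
      rw [hζ.autToPow_spec ℚ s, Units.val_one, ZMod.val_one, pow_one]
      exact (IntermediateField.mem_fixingSubgroup_iff _ s).mp hs.2 ζ
        (IntermediateField.mem_adjoin_simple_self ℚ ζ)
    show (i (hζ.autToPow ℚ (σ * s)) : ZMod N) = i (hζ.autToPow ℚ σ)
    rw [map_mul, h1, mul_one]
  · have e : g₀ ^ ((i (hζ.autToPow ℚ σ) : ZMod N)).val = hζ.autToPow ℚ σ := by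
      rw [← hi (hζ.autToPow ℚ σ), pow_eq_pow_iff_modEq, hg₀, hi, ZMod.val_natCast]
      exact Nat.mod_modEq _ _
    show σ ζ = _
    rw [e, hζ.autToPow_spec ℚ σ]

variable (hN : N + 1 = ℓ) {g₀ : (ZMod ℓ)ˣ} (hg₀ : orderOf g₀ = N) {ζ : Qbar}
  (hζ : IsPrimitiveRoot ζ ℓ) (χ : CycChar LQ ⊤ N)
  (hχ : ∀ σ : GQ, σ ζ = ζ ^ (((g₀ ^ (χ σ).val : (ZMod ℓ)ˣ) : ZMod ℓ)).val)
  {n h : ℕ} [NeZero n] (hNn : N = h * n)

omit [NeZero N] in
include hN hg₀ in
/-- The Teichmüller representative of the generator. -/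
private lemma exists_teichmuller : ∃ ω : MM ℓ, ω ∈ starF (botF ℓ) ∧ N • ω = 0 ∧
    res ω.val = ((g₀ : ZMod ℓ).val : Res' ℓ) := by
  have hN1 : unramOrder (botF ℓ) 1 = N := by rw [unramOrder, resCard_bot, pow_one]; omega
  have hg : ((g₀ : ZMod ℓ).val : Res' ℓ) ^ unramOrder (botF ℓ) 1 = 1 := by
    rw [hN1, ← map_natCast (ZMod.castHom (dvd_refl ℓ) (Res' ℓ)), ZMod.natCast_zmod_val, ← map_pow,
      ← Units.val_pow_eq_pow_val, ← hg₀, pow_orderOf_eq_one, Units.val_one, map_one]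
  have : NeZero (unramOrder (botF ℓ) 1) := ⟨(unramOrder_pos (botF ℓ) 1).ne'⟩
  obtain ⟨j, -, hj⟩ := (res_unramRoot_spec (botF ℓ) 1).eq_pow_of_pow_eq_one hg
  rw [← res_pow (norm_unramRoot (botF ℓ) 1).le] at hj
  have hρ1 : ‖unramRoot (botF ℓ) 1 ^ j‖ = 1 := by rw [norm_pow, norm_unramRoot, one_pow]
  refine ⟨Ux.mk (unramRoot (botF ℓ) 1 ^ j) (norm_pos_iff.mp (hρ1.symm ▸ one_pos)),
    fun d hd => Ux.ext ?_, Ux.ext ?_, hj⟩
  · rw [Ux.val_smul, Ux.val_mk, map_pow,
      apply_root (botF ℓ) 1 hd (unramRoot_spec (botF ℓ) 1).pow_eq_one,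
      Subsingleton.elim (frobExp (botF ℓ) 1 d) 0, ZMod.val_zero, pow_zero, pow_one]
  · rw [Ux.val_nsmul, Ux.val_mk, Ux.val_zero, ← hN1, ← pow_mul, mul_comm, pow_mul,
      (unramRoot_spec (botF ℓ) 1).pow_eq_one, one_pow]

include hNn in
/-- The invariant of the reduced character at the conductor. -/
private lemma inv_castChar {b : MM ℓ} (hb : b ∈ starF (botF ℓ)) :
    inv (botF ℓ) (cyc (locBot (χ.castChar (Dvd.intro_left h hNn.symm)) ℓ) b) =
      h • inv (botF ℓ) (cyc (locBot χ ℓ) b) := by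
  rw [← inv_nsmul (botF ℓ) (cyc_mem_Z2' _ (locBot χ ℓ) hb)]
  exact inv_congr (botF ℓ) (nsmul_mem (cyc_mem_Z2' _ (locBot χ ℓ) hb) h)
    (cyc_cast_mem_B2 (locBot χ ℓ) (locBot _ ℓ) hNn (fun d _ => rfl) hb)

omit [NeZero N] in
include hχ in
/-- The action of the local Galois group at the conductor on the root of unity. -/
private lemma apply_emb_zeta (d : Gal' ℓ) : d (emb ℓ 1 ζ) =
    emb ℓ 1 ζ ^ (((g₀ ^ (locBot χ ℓ d).val : (ZMod ℓ)ˣ) : ZMod ℓ)).val := by
  rw [← emb_locHom, hχ, map_pow]; rfl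

include hN hg₀ hζ hχ hNn

/-- Away from the conductor the character is the exponent of Frobenius. -/
lemma cyclotomic_unram {q : ℕ} [Fact q.Prime] (hq : q ≠ ℓ) {i : ℕ}
    (hi : ((g₀ ^ i : (ZMod ℓ)ˣ) : ZMod ℓ) = (q : ZMod ℓ)) (d : Gal' q) :
    (χ.castChar (Dvd.intro_left h hNn.symm)) (locHom q 1 d) =
      (i : ZMod n) * frobExp (botF q) n d := by
  have hq0 : (q : ZMod ℓ) ≠ 0 := fun h0 => hq
    ((Nat.prime_dvd_prime_iff_eq hl.out Fact.out).mp ((ZMod.natCast_eq_zero_iff q ℓ).mp h0)).symm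
  have hdvd : ℓ ∣ unramOrder (botF q) N := by
    rw [unramOrder, resCard_bot, ← ZMod.natCast_eq_zero_iff,
      Nat.cast_sub (Nat.one_le_pow _ _ (Fact.out : q.Prime).pos), Nat.cast_pow, Nat.cast_one,
      show N = ℓ - 1 by omega, ZMod.pow_card_sub_one_eq_one hq0, sub_self]
  have hz : emb q 1 ζ ^ unramOrder (botF q) N = 1 := by
    obtain ⟨r, hr⟩ := hdvd
    rw [hr, pow_mul, ← map_pow, hζ.pow_eq_one, map_one, one_pow]
  set j := (frobExp (botF q) N d).val
  have h1 := apply_root (botF q) N (mem_fix_bot d) hz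
  rw [resCard_bot, ← emb_locHom, hχ, map_pow] at h1
  have : NeZero ℓ := ⟨hl.out.ne_zero⟩
  have hζ' := hζ.map_of_injective (emb_injective (q := q) 1)
  have h2 : (((g₀ ^ (χ (locHom q 1 d)).val : (ZMod ℓ)ˣ) : ZMod ℓ)) = ((q ^ j : ℕ) : ZMod ℓ) := by
    have h4 := (isOfFinOrder_iff_pow_eq_one.mpr
      ⟨ℓ, hl.out.pos, hζ'.pow_eq_one⟩).pow_eq_pow_iff_modEq.mp h1
    rw [← hζ'.eq_orderOf, ← ZMod.natCast_eq_natCast_iff, ZMod.natCast_zmod_val] at h4
    exact h4
  have h3 : g₀ ^ (χ (locHom q 1 d)).val = g₀ ^ (i * j) := by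
    refine Units.ext ?_
    rw [h2, pow_mul, Units.val_pow_eq_pow_val, hi, Nat.cast_pow]
  rw [pow_eq_pow_iff_modEq, hg₀] at h3
  show (((χ (locHom q 1 d)).val : ℕ) : ZMod n) = _
  rw [(ZMod.natCast_eq_natCast_iff _ _ n).mpr (h3.of_dvd (Dvd.intro_left h hNn.symm)), Nat.cast_mul,
    frobExp_cast_val (Dvd.intro_left h hNn.symm)]

/-- The invariant of a unit at the conductor. -/
private lemma inv_castChar_unit {b : MM ℓ} (hb : b ∈ starF (botF ℓ)) (h1 : ‖b.val‖ = 1) (i : ℕ)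
    (hi : res b.val = ((g₀ : ZMod ℓ).val : Res' ℓ) ^ i) :
    inv (botF ℓ) (cyc (locBot (χ.castChar (Dvd.intro_left h hNn.symm)) ℓ) b) = qz (-i) n := by
  obtain ⟨ω, hω, hωN, hωres⟩ := exists_teichmuller hN hg₀
  rw [inv_castChar χ hNn hb, inv_cyc_unit (hζ.map_of_injective (emb_injective (q := ℓ) 1)) hN
    (locBot χ ℓ) hg₀ (apply_emb_zeta χ hχ) hω hωN hωres hb h1 i hi,
    ← natCast_zsmul, ← qz_mul, hNn]
  have : NeZero h := ⟨fun h0 => NeZero.ne N (by rw [hNn, h0, zero_mul])⟩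
  exact qz_mul_right

/-- The reduced character is unramified away from the conductor. -/
private lemma exists_unram_exp {q : ℕ} [Fact q.Prime] (hq : q ∉ ({ℓ} : Finset ℕ)) :
    ∃ a : ZMod n, ∀ d : Gal' q,
      (χ.castChar (Dvd.intro_left h hNn.symm)) (locHom q 1 d) = a * frobExp (botF q) n d := by
  rw [Finset.mem_singleton] at hq
  have hq0 : (q : ZMod ℓ) ≠ 0 := fun h0 => hq
    ((Nat.prime_dvd_prime_iff_eq hl.out Fact.out).mp ((ZMod.natCast_eq_zero_iff q ℓ).mp h0)).symm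
  obtain ⟨i, hi⟩ := exists_pow_eq hN hg₀ (Units.mk0 _ hq0)
  exact ⟨(i : ZMod n), fun d => cyclotomic_unram hN hg₀ hζ χ hχ hNn hq
    (by rw [hi, Units.val_mk0]) d⟩

/-- The invariant of a local unit away from the conductor vanishes. -/
private lemma invQ_eq_zero_of_norm {q : Nat.Primes} (hq : (q : ℕ) ≠ ℓ) {b : GM}
    (hb : b ∈ starK (⊥ : IntermediateField ℚ Qbar)) (h1 : ‖(embUx q 1 b).val‖ = 1) :
    invQ (χ.castChar (Dvd.intro_left h hNn.symm)) q b = 0 := by
  obtain ⟨a, ha⟩ := exists_unram_exp hN hg₀ hζ χ hχ hNn (q := q) (by simpa using hq)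
  rw [invQ_eq_of_unram _ ha hb, ordUx_eq_zero_of_norm (embUx_mem_bot hb q 1) h1, mul_zero, qz_zero]

/-- The invariant at a prime other than the conductor of that prime. -/
private lemma invQ_natCast_self {r : ℕ} (hr : r.Prime) (hrl : r ≠ ℓ) (h0 : (r : Qbar) ≠ 0) {i : ℕ}
    (hi : ((g₀ ^ i : (ZMod ℓ)ˣ) : ZMod ℓ) = (r : ZMod ℓ)) :
    invQ (χ.castChar (Dvd.intro_left h hNn.symm)) ⟨r, hr⟩ (Ux.mk (r : Qbar) h0) = qz i n := by
  have : Fact r.Prime := ⟨hr⟩
  have hb : Ux.mk (r : Qbar) h0 ∈ starK (⊥ : IntermediateField ℚ Qbar) :=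
    mem_starK_of_mem _ (natCast_mem _ r)
  have ho : ordUx (botF r) (embUx r 1 (Ux.mk (r : Qbar) h0)) = 1 := by
    rw [show embUx r 1 (Ux.mk (r : Qbar) h0) = Ux.mk (r : PadicAlgCl r) q_ne_zero from
      Ux.ext (embUx_natCast r r h0), ordUx, Ux.val_mk, ord_q]
    have he := finrank_eq (botF r)
    rw [IntermediateField.finrank_bot] at he
    rw [(mul_eq_one.mp he.symm).1, Nat.cast_one]
  have ha : ∀ d : Gal' r, (locBot (χ.castChar (Dvd.intro_left h hNn.symm)) r) d =
      (i : ZMod n) * frobExp (botF r) n d := fun d => cyclotomic_unram hN hg₀ hζ χ hχ hNn hrl hi d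
  rw [invQ_mk, inv_cyc_of_unram (botF r) _ ((i : ZMod n).val : ℤ)
    (fun d _ => by rw [Int.cast_natCast, ZMod.natCast_zmod_val]; exact ha d)
    (embUx_mem_bot hb r 1), ho, mul_one, ← sub_eq_zero, ← qz_sub,
    qz_eq_zero_iff, ← ZMod.intCast_zmod_eq_zero_iff_dvd]
  simp

/-- The invariants of a prime add up to zero. -/
private lemma finsum_invQ_prime {r : ℕ} (hr : r.Prime) (h0 : (r : Qbar) ≠ 0) :
    ∑ᶠ q, invQ (χ.castChar (Dvd.intro_left h hNn.symm)) q (Ux.mk (r : Qbar) h0) = 0 := by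
  have : Fact r.Prime := ⟨hr⟩
  have hb : Ux.mk (r : Qbar) h0 ∈ starK (⊥ : IntermediateField ℚ Qbar) :=
    mem_starK_of_mem _ (natCast_mem _ r)
  have hother : ∀ q : Nat.Primes, (q : ℕ) ≠ r → (q : ℕ) ≠ ℓ →
      invQ (χ.castChar (Dvd.intro_left h hNn.symm)) q (Ux.mk (r : Qbar) h0) = 0 := fun q hq hql =>
    invQ_eq_zero_of_norm hN hg₀ hζ χ hχ hNn hql hb (by
      rw [embUx_natCast]
      exact norm_natCast_prime_of_ne hr (Ne.symm hq))
  by_cases hrl : r = ℓ
  · subst hrl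
    refine finsum_eq_zero_of_forall_eq_zero fun q => ?_
    by_cases hq : (q : ℕ) = r
    · obtain rfl : q = ⟨r, hr⟩ := Subtype.ext hq
      rw [invQ_mk, show embUx r 1 (Ux.mk (r : Qbar) h0) = Ux.mk (r : PadicAlgCl r) q_ne_zero from
        Ux.ext (embUx_natCast r r h0),
        inv_castChar χ hNn (mem_fixedUx_fixingSubgroup.mpr (natCast_mem _ r)),
        inv_cyc_prime (hζ.map_of_injective (emb_injective (q := r) 1)) hN (locBot χ r) hg₀
          (apply_emb_zeta χ hχ), smul_zero]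
    · exact hother q hq hq
  let qr : Nat.Primes := ⟨r, hr⟩
  let qℓ : Nat.Primes := ⟨ℓ, hl.out⟩
  have hr0 : (r : ZMod ℓ) ≠ 0 := fun h0 => hrl
    ((Nat.prime_dvd_prime_iff_eq hl.out hr).mp ((ZMod.natCast_eq_zero_iff r ℓ).mp h0)).symm
  obtain ⟨i, hi⟩ := exists_pow_eq hN hg₀ (Units.mk0 _ hr0)
  have h2 : invQ (χ.castChar (Dvd.intro_left h hNn.symm)) qℓ (Ux.mk (r : Qbar) h0) =
      qz (-i) n := by
    rw [invQ_mk]
    refine inv_castChar_unit hN hg₀ hζ χ hχ hNn (embUx_mem_bot hb ℓ 1) ?_ i ?_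
    · rw [embUx_natCast]; exact norm_natCast_prime_of_ne hr hrl
    · rw [embUx_natCast, res_natCast, ← map_natCast (ZMod.castHom (dvd_refl ℓ) (Res' ℓ)),
        ← map_natCast (ZMod.castHom (dvd_refl ℓ) (Res' ℓ)) (g₀ : ZMod ℓ).val,
        ZMod.natCast_zmod_val, ← map_pow, ← Units.val_pow_eq_pow_val, hi, Units.val_mk0]
  rw [finsum_eq_sum_of_support_subset (s := ({qr, qℓ} : Finset Nat.Primes)) _ (fun q hq => by
    refine Finset.mem_coe.mpr (Finset.mem_insert.mpr ?_)
    by_contra hc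
    rw [not_or] at hc
    exact hq (hother q (fun e => hc.1 (Subtype.ext e))
      fun e => hc.2 (Finset.mem_singleton.mpr (Subtype.ext e)))),
    Finset.sum_pair (show qr ≠ qℓ from fun e => hrl (congrArg Subtype.val e)), h2,
    invQ_natCast_self hN hg₀ hζ χ hχ hNn hr hrl h0 (i := i) (by rw [hi, Units.val_mk0]),
    ← qz_add, add_neg_cancel, qz_zero]

variable (hh : 2 ∣ h)

include hh

/-- The invariants of minus one add up to zero. -/
private lemma finsum_invQ_neg_one :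
    ∑ᶠ q, invQ (χ.castChar (Dvd.intro_left h hNn.symm)) q
      (Ux.mk (-1 : Qbar) (neg_ne_zero.mpr one_ne_zero)) = 0 := by
  set b := Ux.mk (-1 : Qbar) (neg_ne_zero.mpr one_ne_zero)
  have hb : b ∈ starK (⊥ : IntermediateField ℚ Qbar) :=
    mem_starK_of_mem _ (neg_mem (one_mem _))
  refine finsum_eq_zero_of_forall_eq_zero fun q => ?_
  have hval : (embUx q 1 b).val = -1 := by rw [val_embUx, Ux.val_mk, map_neg, map_one]
  by_cases hq : (q : ℕ) = ℓ
  · obtain rfl : q = ⟨ℓ, hl.out⟩ := Subtype.ext hq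
    rw [invQ, inv_castChar_unit hN hg₀ hζ χ hχ hNn (embUx_mem_bot hb ℓ 1)
      (by rw [hval, norm_neg, norm_one]) (N / 2) ?_, qz_eq_zero_iff, dvd_neg, hNn]
    · obtain ⟨r, rfl⟩ := hh
      rw [mul_assoc, Nat.mul_div_cancel_left _ two_pos]
      exact ⟨r, by push_cast; ring⟩
    · have h2 : (g₀ : ZMod ℓ) ^ (N / 2) = -1 := by
        have hN2 : N / 2 * 2 = N := Nat.div_mul_cancel (hNn ▸ hh.mul_right n)
        have hsq : ((g₀ : ZMod ℓ) ^ (N / 2)) ^ 2 = 1 := by
          rw [← pow_mul, hN2, ← Units.val_pow_eq_pow_val, ← hg₀, pow_orderOf_eq_one, Units.val_one]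
        refine (sq_eq_one_iff.mp hsq).resolve_left fun h => ?_
        rw [← Units.val_pow_eq_pow_val, Units.val_eq_one, ← orderOf_dvd_iff_pow_eq_one, hg₀] at h
        have := NeZero.ne N
        have := Nat.le_of_dvd (by omega) h
        omega
      rw [hval, ← map_natCast (ZMod.castHom (dvd_refl ℓ) (Res' ℓ)), ZMod.natCast_zmod_val,
        ← map_pow, h2, map_neg, map_one]
      have h3 := res_add (q := ℓ) (x := (-1 : PadicAlgCl ℓ)) (y := 1) (by rw [norm_neg, norm_one])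
        norm_one.le
      rw [neg_add_cancel, res_zero, res_one, eq_comm, add_eq_zero_iff_eq_neg] at h3
      exact h3
  · exact invQ_eq_zero_of_norm hN hg₀ hζ χ hχ hNn hq hb (by rw [hval, norm_neg, norm_one])

/-- Reciprocity for a cyclotomic character. -/
theorem cyclotomic_recip : Recip (χ.castChar (Dvd.intro_left h hNn.symm)) {ℓ} := by
  set ξ := χ.castChar (Dvd.intro_left h hNn.symm)
  have hun : ∀ (q : ℕ) [Fact q.Prime], q ∉ ({ℓ} : Finset ℕ) →
      ∃ a : ZMod n, ∀ d : Gal' q, ξ (locHom q 1 d) = a * frobExp (botF q) n d :=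
    fun q _ hq => exists_unram_exp hN hg₀ hζ χ hχ hNn hq
  refine ⟨hun, ?_⟩
  -- the subgroup where the sum vanishes
  let H : AddSubgroup GM :=
    { carrier := {b | b ∈ starK (⊥ : IntermediateField ℚ Qbar) ∧ ∑ᶠ q, invQ ξ q b = 0}
      zero_mem' := ⟨zero_mem _, finsum_eq_zero_of_forall_eq_zero fun q => by
        rw [invQ, map_zero, cyc_zero]; exact (inv_eq_zero_iff _ (zero_mem _)).mpr (zero_mem _)⟩
      add_mem' := fun {a b} ha hb => ⟨add_mem ha.1 hb.1, by
        simp only [invQ_add _ ha.1 hb.1]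
        rw [finsum_add_distrib (Recip.finite_support hun ha.1) (Recip.finite_support hun hb.1),
          ha.2, hb.2, add_zero]⟩
      neg_mem' := fun {a} ha => ⟨neg_mem ha.1, by
        have e : ∀ q, invQ ξ q (-a) = -invQ ξ q a := fun q => by
          refine eq_neg_of_add_eq_zero_left ?_
          rw [← invQ_add q (neg_mem ha.1) ha.1, neg_add_cancel, invQ, map_zero, cyc_zero]
          exact (inv_eq_zero_iff _ (zero_mem _)).mpr (zero_mem _)
        simp only [e, finsum_neg_distrib, ha.2, neg_zero]⟩ }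
  have hnat : ∀ a : ℕ, ∀ h0 : (a : Qbar) ≠ 0, Ux.mk (a : Qbar) h0 ∈ H := by
    intro a
    induction a using Nat.recOnMul with
    | zero => intro h0; simp at h0
    | one =>
      intro h0
      rw [show Ux.mk ((1 : ℕ) : Qbar) h0 = 0 from Ux.ext (by simp)]
      exact zero_mem H
    | prime r hr =>
      exact fun h0 => ⟨mem_starK_of_mem _ (natCast_mem _ r),
        finsum_invQ_prime hN hg₀ hζ χ hχ hNn hr h0⟩
    | mul a c ha hc =>
      intro h0
      rw [Nat.cast_mul, mul_ne_zero_iff] at h0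
      have := add_mem (ha h0.1) (hc h0.2)
      rwa [show Ux.mk (a : Qbar) h0.1 + Ux.mk (c : Qbar) h0.2 = Ux.mk ((a * c : ℕ) : Qbar) _ from
        Ux.ext (by simp)] at this
  have hneg : Ux.mk (-1 : Qbar) (neg_ne_zero.mpr one_ne_zero) ∈ H :=
    ⟨mem_starK_of_mem _ (neg_mem (one_mem _)), finsum_invQ_neg_one hN hg₀ hζ χ hχ hNn hh⟩
  intro b hb
  obtain ⟨r, hr⟩ := IntermediateField.mem_bot.mp (val_mem_of_mem_starK _ hb)
  have hr0 : r ≠ 0 := fun h0 => b.val_ne_zero (by rw [← hr, h0, map_zero])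
  suffices hbH : b ∈ H from hbH.2
  have hint : ∀ z : ℤ, ∀ h0 : (z : Qbar) ≠ 0, Ux.mk (z : Qbar) h0 ∈ H := fun z h0 => by
    rcases Int.natAbs_eq z with e | e
    · rw [show Ux.mk (z : Qbar) h0 = Ux.mk ((z.natAbs : ℕ) : Qbar) (by
        rw [← Int.cast_natCast, ← e]; exact h0) from Ux.ext (by
          rw [Ux.val_mk, Ux.val_mk, ← Int.cast_natCast z.natAbs, ← e])]
      exact hnat _ _
    · have hz : ((z.natAbs : ℕ) : Qbar) ≠ 0 := fun h1 => h0 (by
        rw [e, Int.cast_neg, Int.cast_natCast, h1, neg_zero])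
      rw [show Ux.mk (z : Qbar) h0 = Ux.mk (-1 : Qbar) (neg_ne_zero.mpr one_ne_zero) +
        Ux.mk ((z.natAbs : ℕ) : Qbar) hz from Ux.ext (by
          rw [Ux.val_add, Ux.val_mk, Ux.val_mk, Ux.val_mk]
          rw [neg_one_mul, ← Int.cast_natCast z.natAbs, ← Int.cast_neg, ← e])]
      exact add_mem hneg (hnat _ hz)
  have hd : (r.den : Qbar) ≠ 0 := Nat.cast_ne_zero.mpr r.den_nz
  have hnum : (r.num : Qbar) ≠ 0 := Int.cast_ne_zero.mpr (Rat.num_ne_zero.mpr hr0)
  have he : b = Ux.mk (r.num : Qbar) hnum - Ux.mk (r.den : Qbar) hd := Ux.ext (by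
    rw [Ux.val_sub, Ux.val_mk, Ux.val_mk, ← hr]
    simp only [eq_ratCast]
    exact Rat.cast_def r)
  rw [he]
  exact sub_mem (hint _ hnum) (hnat _ hd)

end Cyclotomic

section Exists

variable {p : ℕ} [hp : Fact p.Prime]

/-- A prime modulo which a given number has order a large power of `p`. -/
theorem exists_prime_order (a M : ℕ) (ha : 2 ≤ a) (hM : 2 ≤ M) :
    ∃ ℓ : ℕ, ℓ.Prime ∧ ℓ ≠ p ∧ orderOf (a : ZMod ℓ) = p ^ M := by
  obtain ⟨M', rfl⟩ : ∃ M', M = M' + 2 := ⟨M - 2, by omega⟩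
  set x := a ^ p ^ (M' + 1)
  have hx : 2 ≤ x := by
    calc 2 ≤ a := ha
      _ ≤ x := Nat.le_self_pow (pow_ne_zero _ hp.out.ne_zero) a
  set s := ∑ i ∈ Finset.range p, x ^ i
  have hsp : p < s := by
    have h1 : ∑ i ∈ Finset.range p, 1 < s := Finset.sum_lt_sum
      (fun i _ => Nat.one_le_pow _ _ (by omega))
      ⟨1, Finset.mem_range.mpr hp.out.one_lt, by rw [pow_one]; omega⟩
    simpa using h1
  have hex : ∃ ℓ : ℕ, ℓ.Prime ∧ ℓ ≠ p ∧ ℓ ∣ s := by
    by_contra hno
    push Not at hno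
    have hs : s = p ^ s.primeFactorsList.length := by
      refine Nat.eq_prime_pow_of_unique_prime_dvd (by omega) fun {d} hd hds => ?_
      by_contra hne
      exact hno d hd hne hds
    set t := s.primeFactorsList.length
    have ht : 2 ≤ t := by
      by_contra hlt
      have : p ^ t ≤ p ^ 1 := Nat.pow_le_pow_right hp.out.pos (by omega)
      rw [← hs, pow_one] at this
      omega
    have hps : p ^ 2 ∣ s := hs ▸ pow_dvd_pow p ht
    have hpx : p ∣ x - 1 := by
      have hz : ((x : ZMod p) - 1) * 0 = (x : ZMod p) ^ p - 1 := by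
        have h0 : (s : ZMod p) = 0 :=
          (ZMod.natCast_eq_zero_iff s p).mpr ((dvd_pow_self p two_ne_zero).trans hps)
        rw [← mul_geom_sum]
        congr 1
        rw [← h0]
        simp [s]
      rw [mul_zero, ZMod.pow_card, eq_comm, sub_eq_zero] at hz
      rw [← ZMod.natCast_eq_zero_iff, Nat.cast_sub (by omega), hz, Nat.cast_one, sub_self]
    rcases hp.out.eq_two_or_odd' with h2 | hodd
    · subst h2
      have hxs : x = (a ^ 2 ^ M') ^ 2 := by rw [← pow_mul, ← pow_succ]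
      have hs2 : s = x + 1 := by simp [s, Finset.sum_range_succ]; omega
      rw [hs2, hxs] at hps
      have h4 : (((a ^ 2 ^ M') ^ 2 + 1 : ℕ) : ZMod 4) = 0 := (ZMod.natCast_eq_zero_iff _ 4).mpr hps
      push_cast at h4
      revert h4
      generalize (a : ZMod 4) ^ 2 ^ M' = z
      revert z
      decide
    · obtain ⟨b, hb⟩ := hpx
      have hxb : (x : ℤ) = 1 + p * b := by
        have : x = 1 + p * b := by omega
        exact_mod_cast this
      have h := odd_sq_dvd_geom_sum₂_sub (R := ℤ) 1 (b : ℤ) hodd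
      simp only [one_pow, mul_one, ← hxb] at h
      have h2 : ((p : ℤ) ^ 2) ∣ ∑ i ∈ Finset.range p, (x : ℤ) ^ i := by
        have := Int.natCast_dvd_natCast.mpr hps
        push_cast [s] at this
        exact this
      have h3 : ((p : ℤ) ^ 2) ∣ (p : ℤ) := by simpa using dvd_sub h2 h
      have h4 : p ^ 2 ∣ p := by exact_mod_cast h3
      have := Nat.le_of_dvd hp.out.pos h4
      nlinarith [hp.out.two_le]
  obtain ⟨ℓ, hℓ, hne, hℓs⟩ := hex
  have : Fact ℓ.Prime := ⟨hℓ⟩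
  refine ⟨ℓ, hℓ, hne, orderOf_eq_prime_pow ?_ ?_⟩
  · intro h
    have h1 : (x : ZMod ℓ) = 1 := by rw [Nat.cast_pow]; exact h
    have h2 : (s : ZMod ℓ) = (p : ZMod ℓ) := by simp [s, h1]
    rw [(ZMod.natCast_eq_zero_iff s ℓ).mpr hℓs, eq_comm, ZMod.natCast_eq_zero_iff] at h2
    exact hne ((Nat.prime_dvd_prime_iff_eq hℓ hp.out).mp h2)
  · have h2 : ((x : ZMod ℓ) - 1) * (s : ZMod ℓ) = (x : ZMod ℓ) ^ p - 1 := by
      simp [s, mul_geom_sum]
    rw [(ZMod.natCast_eq_zero_iff s ℓ).mpr hℓs, mul_zero, eq_comm, sub_eq_zero, Nat.cast_pow,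
      ← pow_mul, ← pow_succ] at h2
    exact h2

/-- A reciprocity character of `p`-power modulus with a large value at the Frobenius of a prime. -/
theorem exists_recip_single (q : ℕ) [Fact q.Prime] (avoid : Finset ℕ) (e : ℕ) :
    ∃ (A : ℕ) (χ : CycChar LQ ⊤ (p ^ A)) (L : Finset ℕ), Recip χ L ∧ Disjoint L avoid ∧
      ∀ d : Gal' q, frobExp (botF q) (p ^ A) d = 1 → p ^ e • χ (locHom q 1 d) ≠ 0 := by
  have hq2 := (Fact.out : q.Prime).two_le
  set M := max (e + 2) (avoid.sup id + q + 1)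
  obtain ⟨ℓ, hℓ, hℓp, hord⟩ := exists_prime_order (p := p) q M hq2
    ((by omega : 2 ≤ e + 2).trans (le_max_left _ _))
  have : Fact ℓ.Prime := ⟨hℓ⟩
  obtain ⟨N, hN⟩ : ∃ N, N + 1 = ℓ := ⟨ℓ - 1, Nat.sub_add_cancel hℓ.one_le⟩
  have hN0 : NeZero N := ⟨by have := hℓ.two_le; omega⟩
  have := hN0
  obtain ⟨g₀, hg₀'⟩ := IsCyclic.exists_generator (α := (ZMod ℓ)ˣ)
  have hg₀ : orderOf g₀ = N := by
    rw [orderOf_eq_card_of_forall_mem_zpowers hg₀', Nat.card_eq_fintype_card,
      ZMod.card_units_eq_totient, Nat.totient_prime hℓ]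
    omega
  have : NeZero (ℓ : Qbar) := ⟨Nat.cast_ne_zero.mpr hℓ.ne_zero⟩
  obtain ⟨ζ, hζ⟩ := HasEnoughRootsOfUnity.exists_primitiveRoot Qbar ℓ
  obtain ⟨χ, hχ⟩ := exists_cyclotomic_char hN hg₀ hζ
  have hq0 : (q : ZMod ℓ) ≠ 0 := fun h => by
    rw [h, orderOf_zero] at hord
    exact pow_ne_zero M hp.out.ne_zero hord.symm
  obtain ⟨i, hi⟩ := mem_powers_iff_mem_zpowers.mpr (hg₀' (Units.mk0 _ hq0))
  simp only at hi
  have hordi : orderOf (g₀ ^ i) = p ^ M := by
    rw [hi, ← orderOf_units, Units.val_mk0, hord]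
  have hMdvd : p ^ M ∣ N := by
    rw [← hordi, ← hg₀]; exact orderOf_pow_dvd _
  obtain ⟨v, m, hm, hNv⟩ := Nat.exists_eq_pow_mul_and_not_dvd (NeZero.ne N) p hp.out.ne_one
  have hMv : M ≤ v := by
    refine (Nat.pow_dvd_pow_iff_le_right hp.out.one_lt).mp ?_
    refine (Nat.Coprime.dvd_of_dvd_mul_right ?_ (hNv ▸ hMdvd))
    exact Nat.Coprime.pow_left M ((Nat.Prime.coprime_iff_not_dvd hp.out).mpr hm)
  have hM1 : e + 2 ≤ M := le_max_left _ _
  have hM2 : avoid.sup id + q + 1 ≤ M := le_max_right _ _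
  have hℓM : M < ℓ := by
    have h1 := Nat.le_of_dvd (Nat.pos_of_ne_zero (NeZero.ne N)) hMdvd
    have h2 := M.lt_pow_self hp.out.one_lt
    omega
  have hNn : N = p * m * p ^ (v - 1) := by
    conv_lhs => rw [hNv, ← Nat.sub_add_cancel (show 1 ≤ v by omega), pow_succ]
    ring
  have h2 : 2 ∣ p * m := by
    rcases hp.out.eq_two_or_odd' with h | h
    · exact h ▸ dvd_mul_right p m
    · have hev : 2 ∣ N := by
        have hodd : Odd ℓ := hℓ.odd_of_ne_two fun h2 => by omega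
        obtain ⟨r, hr⟩ := hodd
        exact ⟨r, by omega⟩
      rw [hNn] at hev
      exact (Nat.Coprime.dvd_of_dvd_mul_right
        (Nat.Coprime.pow_right _ (Nat.coprime_two_left.mpr h)) hev)
  have : NeZero (p ^ (v - 1)) := ⟨pow_ne_zero _ hp.out.ne_zero⟩
  refine ⟨v - 1, _, {ℓ}, cyclotomic_recip hN hg₀ hζ χ hχ hNn h2, ?_, fun d hd => ?_⟩
  · rw [Finset.disjoint_singleton_left]
    intro hmem
    have := Finset.le_sup (f := id) hmem
    simp only [id_eq] at this
    omega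
  rw [cyclotomic_unram hN hg₀ hζ χ hχ hNn (q := q) (fun h => by omega)
    (i := i) (by rw [hi, Units.val_mk0]) d, hd, mul_one, nsmul_eq_mul, ← Nat.cast_mul]
  intro h0
  rw [ZMod.natCast_eq_zero_iff] at h0
  have hmi : m ∣ i := by
    have h1 : N ∣ i * p ^ M := by
      rw [← hg₀]
      refine orderOf_dvd_of_pow_eq_one ?_
      rw [pow_mul, ← hordi, pow_orderOf_eq_one]
    rw [hNv] at h1
    refine (Nat.Coprime.pow_right M ?_).dvd_of_dvd_mul_right
      (dvd_trans (dvd_mul_left m (p ^ v)) h1)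
    exact ((Nat.Prime.coprime_iff_not_dvd hp.out).mpr hm).symm
  have hN' : N ∣ p ^ (e + 1) * i := by
    rw [hNv]
    refine Nat.Coprime.mul_dvd_of_dvd_of_dvd (Nat.Coprime.pow_left v
      ((Nat.Prime.coprime_iff_not_dvd hp.out).mpr hm)) ?_ (dvd_mul_of_dvd_right hmi _)
    rw [← Nat.sub_add_cancel (show 1 ≤ v by omega), pow_succ, pow_succ', mul_comm (p ^ (v - 1)) p,
      mul_assoc]
    exact mul_dvd_mul_left p h0
  have : p ^ M ∣ p ^ (e + 1) := by
    rw [← hordi]
    refine orderOf_dvd_of_pow_eq_one ?_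
    rw [← pow_mul, mul_comm, ← orderOf_dvd_iff_pow_eq_one, hg₀]
    exact hN'
  have := (Nat.pow_dvd_pow_iff_le_right hp.out.one_lt).mp this
  omega

/-- There is a reciprocity character of the given modulus with large values at the given primes. -/
def GoodChar (p n : ℕ) [NeZero n] (avoid : Finset ℕ) (Q : Finset Nat.Primes) (e : ℕ) : Prop :=
  ∃ (χ : CycChar LQ ⊤ n) (L : Finset ℕ), Recip χ L ∧ Disjoint L avoid ∧
    ∀ q ∈ Q, ∀ d : Gal' q, frobExp (botF q) n d = 1 → p ^ e • χ (locHom q 1 d) ≠ 0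

omit hp in
lemma GoodChar.congr {n n' : ℕ} [NeZero n] [NeZero n'] (h : n = n') {avoid : Finset ℕ}
    {Q : Finset Nat.Primes} {e : ℕ} (hg : GoodChar p n avoid Q e) : GoodChar p n' avoid Q e := by
  subst h
  exact hg

/-- Reciprocity characters with large values at finitely many primes. -/
theorem exists_recip (avoid : Finset ℕ) (Q : Finset Nat.Primes) (hQ : ∀ q ∈ Q, (q : ℕ) ∈ avoid) :
    ∀ e : ℕ, ∃ A : ℕ, haveI : NeZero (p ^ A) := ⟨pow_ne_zero A hp.out.ne_zero⟩
      GoodChar p (p ^ A) avoid Q e := by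
  have hne : ∀ A : ℕ, NeZero (p ^ A) := fun A => ⟨pow_ne_zero A hp.out.ne_zero⟩
  induction Q using Finset.induction with
  | empty =>
    intro e
    let χ : CycChar LQ ⊤ (p ^ 0) :=
      ⟨fun _ => 0, fun _ _ _ _ => (add_zero 0).symm, ⊤, LQ.top_mem, fun _ _ _ _ => rfl⟩
    have : Subsingleton (ZMod (p ^ 0)) := by rw [pow_zero]; infer_instance
    refine ⟨0, χ, ∅, ⟨fun q _ _ => ⟨0, fun d => Subsingleton.elim _ _⟩, fun b hb => ?_⟩, by simp,
      fun q hq => absurd hq (Finset.notMem_empty q)⟩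
    refine finsum_eq_zero_of_forall_eq_zero fun q => ?_
    rw [invQ_eq_of_unram χ (a := 0) (fun d => Subsingleton.elim _ _) hb, ZMod.val_zero,
      Nat.cast_zero, zero_mul, qz_zero]
  | insert a Q ha ih =>
    intro e
    set K := (insert a Q).card + 1
    obtain ⟨A, χ, L, hχ, hL, hgood⟩ := ih (fun q hq => hQ q (Finset.mem_insert_of_mem hq)) (e + K)
    obtain ⟨B, ψ, L', hψ, hL', hψa⟩ := exists_recip_single (p := p) (a : ℕ) avoid (e + K)
    set F : (q : Nat.Primes) → Gal' q := fun q => frob (botF q) (p ^ (A + B))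
    have hfr : ∀ {m : ℕ} [NeZero m] (q : Nat.Primes), m ∣ p ^ (A + B) →
        frobExp (botF q) m (F q) = 1 := fun {m} _ q hm => by
      rw [frobExp_cast (botF q) m _ hm (frob_mem _ _), frobExp_frob]
      rw [ZMod.natCast_val, ← ZMod.castHom_apply (h := hm), map_one]
    set x : Nat.Primes → ℕ := fun q => (χ (locHom q 1 (F q))).val
    set y : Nat.Primes → ℕ := fun q => (ψ (locHom q 1 (F q))).val
    -- each prime rules out at most one coefficient
    have hbad : ∀ q ∈ insert a Q, ∀ c₁ c₂ : ℕ, c₁ < c₂ → c₂ ≤ K →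
        p ^ (A + B) ∣ p ^ e * (p ^ B * x q + c₁ * p ^ A * y q) →
        p ^ (A + B) ∣ p ^ e * (p ^ B * x q + c₂ * p ^ A * y q) → False := by
      intro q hq c₁ c₂ h12 hc2 h1 h2
      have h3 : p ^ (A + B) ∣ p ^ e * ((c₂ - c₁) * p ^ A * y q) := by
        have h := Nat.dvd_sub h2 h1
        rwa [← Nat.mul_sub, Nat.add_sub_add_left, ← Nat.sub_mul, ← Nat.sub_mul] at h
      have h4 : p ^ B ∣ p ^ e * (c₂ - c₁) * y q := by
        refine (Nat.mul_dvd_mul_iff_left (pow_pos hp.out.pos A)).mp ?_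
        rw [← pow_add]
        convert h3 using 1
        ring
      obtain ⟨v, m, hm, hcm⟩ := Nat.exists_eq_pow_mul_and_not_dvd
        (show c₂ - c₁ ≠ 0 by omega) p hp.out.ne_one
      have hvK : v ≤ K := by
        have h5 : p ^ v ≤ c₂ - c₁ := Nat.le_of_dvd (by omega) (hcm ▸ dvd_mul_right _ m)
        have := v.lt_pow_self hp.out.one_lt
        omega
      have h5 : p ^ B ∣ p ^ (e + K) * y q := by
        rw [hcm] at h4
        have h6 : p ^ B ∣ (p ^ e * p ^ v * y q) * m := by convert h4 using 1; ring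
        have h7 := (Nat.Coprime.pow_left B
          ((Nat.Prime.coprime_iff_not_dvd hp.out).mpr hm)).dvd_of_dvd_mul_right h6
        rw [← pow_add] at h7
        exact h7.trans (mul_dvd_mul_right (pow_dvd_pow p (by omega)) _)
      rcases Finset.mem_insert.mp hq with rfl | hqQ
      · refine hψa (F q) (hfr q (pow_dvd_pow p (Nat.le_add_left B A))) ?_
        rwa [← ZMod.natCast_zmod_val (ψ (locHom q 1 (F q))), nsmul_eq_mul, ← Nat.cast_mul,
          ZMod.natCast_eq_zero_iff]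
      · refine hgood q hqQ (F q) (hfr q (pow_dvd_pow p (Nat.le_add_right A B))) ?_
        rw [← ZMod.natCast_zmod_val (χ (locHom q 1 (F q))), nsmul_eq_mul, ← Nat.cast_mul,
          ZMod.natCast_eq_zero_iff]
        refine (Nat.mul_dvd_mul_iff_left (pow_pos hp.out.pos B)).mp ?_
        have h8 : p ^ (A + B) ∣ p ^ (e + K) * (p ^ B * x q + c₁ * p ^ A * y q) :=
          h1.trans (mul_dvd_mul_right (pow_dvd_pow p (Nat.le_add_right e K)) _)
        have h9 : p ^ (A + B) ∣ p ^ (e + K) * (c₁ * p ^ A * y q) := by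
          have := mul_dvd_mul_left (p ^ A * c₁) h5
          rw [show p ^ A * c₁ * (p ^ (e + K) * y q) = p ^ (e + K) * (c₁ * p ^ A * y q) by ring]
            at this
          refine dvd_trans ?_ this
          rw [pow_add, mul_assoc]
          exact mul_dvd_mul_left _ (dvd_mul_left _ _)
        rw [mul_add, ← Nat.dvd_add_iff_left h9] at h8
        rw [← pow_add, add_comm B A]
        convert h8 using 1
        ring
    -- a coefficient ruled out by no prime
    set bad : Nat.Primes → Finset ℕ := fun q => (Finset.range (K + 1)).filter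
      fun c => p ^ (A + B) ∣ p ^ e * (p ^ B * x q + c * p ^ A * y q)
    obtain ⟨c, hc, hcb⟩ : ∃ c ∈ Finset.range (K + 1), c ∉ (insert a Q).biUnion bad := by
      refine Finset.exists_mem_notMem_of_card_lt_card (lt_of_le_of_lt (Finset.card_biUnion_le.trans
        (Finset.sum_le_card_nsmul _ _ 1 fun q hq => Finset.card_le_one.mpr fun c₁ h₁ c₂ h₂ =>
          ?_)) ?_)
      · simp only [bad, Finset.mem_filter, Finset.mem_range] at h₁ h₂
        by_contra hne
        rcases Nat.lt_or_gt_of_ne hne with h | h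
        · exact hbad q hq c₁ c₂ h (by omega) h₁.2 h₂.2
        · exact hbad q hq c₂ c₁ h (by omega) h₂.2 h₁.2
      · rw [Finset.card_range, smul_eq_mul, mul_one]
        omega
    have hR := hχ.combine hψ c
    refine ⟨A + B, GoodChar.congr (pow_add p A B).symm ?_⟩
    refine ⟨χ.combine ψ c, L ∪ L', hR, Finset.disjoint_union_left.mpr ⟨hL, hL'⟩,
      fun q hq d hd h0 => hcb (Finset.mem_biUnion.mpr ⟨q, hq, Finset.mem_filter.mpr ⟨hc, ?_⟩⟩)⟩
    have hdisj := Finset.disjoint_union_left.mpr ⟨hL, hL'⟩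
    obtain ⟨a', ha'⟩ := hR.unram q (Finset.disjoint_right.mp hdisj (hQ q hq))
    have hval : (χ.combine ψ c) (locHom q 1 (F q)) = (χ.combine ψ c) (locHom q 1 d) := by
      rw [ha' (F q), ha' d, hd, hfr q (dvd_of_eq (pow_add p A B).symm)]
    rw [← hval, CycChar.combine_apply, nsmul_eq_mul, ← Nat.cast_mul, ZMod.natCast_eq_zero_iff,
      ← pow_add] at h0
    exact h0

end Exists

end Global

end FermatAgent.CFT
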