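import Fermat.Agent.CFT.Global.Invariant

/-!
The local invariants of a global class add up to zero (`sum_invAt_eq_zero`).

An auxiliary cyclotomic character, large at the bad primes, splits a class of prime power exponent
(`exists_recip_split`), which is then cyclic for the restricted character (`exists_cyc_restrict`).
Its invariants are those of a norm to `ℚ`, so reciprocity over `ℚ` applies
(`sum_invAt_of_primePow`); coprime exponents give the general case.
-/

set_option autoImplicit false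

noncomputable section

open scoped Classical

namespace FermatAgent.CFT

namespace Coh

/-- A character with values divisible by a number, divided by it. -/
lemma exists_char_div {Γ : Type*} [Group Γ] {L : Levels Γ} {W : Subgroup Γ} {m n : ℕ} [NeZero m]
    [NeZero n] (χ : CycChar L W (m * n)) (h : ∀ g ∈ W, m ∣ (χ g).val) :
    ∃ ψ : CycChar L W n, ∀ g ∈ W, (χ g).val = m * (ψ g).val := by
  have hval : ∀ g ∈ W, (χ g).val = m * ((((χ g).val / m : ℕ) : ZMod n)).val := fun g hg => by
    rw [ZMod.val_natCast,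
      Nat.mod_eq_of_lt ((Nat.div_lt_iff_lt_mul (Nat.pos_of_ne_zero (NeZero.ne m))).mpr
      (lt_of_lt_of_eq (ZMod.val_lt _) (mul_comm m n))), Nat.mul_div_cancel' (h g hg)]
  refine ⟨⟨fun g => (((χ g).val / m : ℕ) : ZMod n), fun g hg k hk => ?_,
    χ.const'.comp fun x => (((x.val / m : ℕ)) : ZMod n)⟩, hval⟩
  rw [← Nat.cast_add, ← Nat.add_div_of_dvd_right (h g hg), χ.map_mul hg hk]
  rcases Nat.lt_or_ge ((χ g).val + (χ k).val) (m * n) with h1 | h1
  · rw [ZMod.val_add_of_lt h1]
  · rw [ZMod.val_add_of_le h1, ZMod.natCast_eq_natCast_iff]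
    have h2 : ((χ g).val + (χ k).val) / m = ((χ g).val + (χ k).val - m * n) / m + n := by
      rw [← Nat.add_mul_div_left _ _ (Nat.pos_of_ne_zero (NeZero.ne m)), Nat.sub_add_cancel h1]
    rw [h2]
    exact (Nat.add_mod_right _ _).symm

end Coh

namespace Global

open Coh Local GaloisBasic

variable {K : IntermediateField ℚ Qbar} [FiniteDimensional ℚ K] {p : ℕ} [hp : Fact p.Prime]

/-- A class of exponent `p ^ k` is trivial over a field whose local degree is divisible by
`p ^ k`. -/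
lemma pullAt_mem_B2_of_relIndex {K' : IntermediateField ℚ Qbar}
    [FiniteDimensional ℚ K'] (h : K ≤ K')
    {f : GQ → GQ → GM} (hf : f ∈ LQ.Z2 K.fixingSubgroup GM) {N : ℕ}
    (hN : N • f ∈ LQ.B2 K.fixingSubgroup GM) {q : ℕ} [Fact q.Prime] {g : GQ}
    (hdvd : N ∣ (locField q g K').fixingSubgroup.relIndex (locField q g K).fixingSubgroup) :
    pullAt q g f ∈ (LL q).B2 (locField q g K').fixingSubgroup (MM q) := by
  have hle := locField_mono (q := q) (g := g) h
  have hx := pullAt_mem_Z2 (q := q) (g := g) hf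
  rw [← inv_eq_zero_iff _ (Levels.Z2_mono (IntermediateField.fixingSubgroup_le hle) hx),
    inv_restrict hle hx]
  obtain ⟨r, hr⟩ := hdvd
  rw [hr, mul_comm, mul_smul, ← inv_nsmul _ hx, ← pullAt_nsmul,
    (inv_eq_zero_iff _ (pullAt_mem_Z2 (nsmul_mem hf N))).mpr (pullAt_mem_B2 hN), smul_zero]

omit [FiniteDimensional ℚ K] in
lemma char_restrict_locHom {n : ℕ} (χ : CycChar LQ ⊤ n) (q : ℕ) [Fact q.Prime] (g : GQ)
    (d : Gal' q) : (χ.restrict (le_top : K.fixingSubgroup ≤ ⊤)) (locHom q g d) = χ (locHom q 1 d) :=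
  char_locHom χ q g d

omit [FiniteDimensional ℚ ↥K] in
/-- A character of large order on a local group has kernel of large index there. -/
lemma pow_dvd_relIndex {A k : ℕ} (χ : CycChar LQ ⊤ (p ^ A)) {q : ℕ} [Fact q.Prime]
    (g : GQ) {d : Gal' q}
    (hd : d ∈ (locField q g K).fixingSubgroup)
    (hne : p ^ (k - 1) • χ (locHom q 1 d) ≠ 0)
    {K' : IntermediateField ℚ Qbar}
    (hK' : K'.fixingSubgroup = (χ.restrict (le_top : K.fixingSubgroup ≤ ⊤)).ker) :
    p ^ k ∣ (locField q g K').fixingSubgroup.relIndex (locField q g K).fixingSubgroup := by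
  set W := (locField q g K).fixingSubgroup
  let φ : W →* Multiplicative (ZMod (p ^ A)) :=
    MonoidHom.mk' (fun d => Multiplicative.ofAdd (χ (locHom q 1 (d : Gal' q)))) fun a b => by
      rw [← ofAdd_add, ← χ.map_mul trivial trivial, ← map_mul]; rfl
  have hker : φ.ker = ((locField q g K').fixingSubgroup).subgroupOf W := by
    ext ⟨a, ha⟩
    rw [MonoidHom.mem_ker, Subgroup.mem_subgroupOf, fixingSubgroup_locField,
      Subgroup.mem_comap, hK',
      CycChar.mem_ker, char_restrict_locHom, and_iff_right (locHom_mem ha)]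
    exact ofAdd_eq_one
  rw [Subgroup.relIndex, ← hker, Subgroup.index_ker]
  have hmem : φ ⟨d, hd⟩ ∈ φ.range := ⟨_, rfl⟩
  have hdvd := orderOf_dvd_natCard (⟨_, hmem⟩ : φ.range)
  rw [Subgroup.orderOf_mk] at hdvd
  refine dvd_trans ?_ hdvd
  show p ^ k ∣ orderOf (Multiplicative.ofAdd (χ (locHom q 1 d)))
  rw [orderOf_ofAdd_eq_addOrderOf]
  obtain ⟨t, -, ht⟩ :=
    (Nat.dvd_prime_pow hp.out).mp (show addOrderOf (χ (locHom q 1 d)) ∣ p ^ A from
      addOrderOf_dvd_iff_nsmul_eq_zero.mpr (by rw [nsmul_eq_mul, ZMod.natCast_self, zero_mul]))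
  rw [ht]
  refine pow_dvd_pow p ?_
  by_contra hlt
  exact hne (addOrderOf_dvd_iff_nsmul_eq_zero.mp (ht ▸ pow_dvd_pow p (by omega)))

variable [NumberField.IsTotallyComplex K]

/-- An auxiliary cyclotomic extension splitting a class. -/
lemma exists_recip_split {f : GQ → GQ → GM} (hf : f ∈ LQ.Z2 K.fixingSubgroup GM) {k : ℕ}
    (hk : p ^ k • f ∈ LQ.B2 K.fixingSubgroup GM) :
    ∃ (A : ℕ) (_ : NeZero (p ^ A)) (χ : CycChar LQ ⊤ (p ^ A)) (L : Finset ℕ), Recip χ L ∧
      f ∈ LQ.B2 (χ.restrict (le_top : K.fixingSubgroup ≤ ⊤)).ker GM := by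
  obtain ⟨B, hB⟩ := exists_finite_bad hf
  set d := Module.finrank ℚ K
  obtain ⟨A, χ, L, hχ, hL, hgood⟩ :=
    exists_recip (p := p) B (B.subtype Nat.Prime : Finset Nat.Primes)
      (fun q hq => Finset.mem_subtype.mp hq) (k + d)
  have hA : NeZero (p ^ A) := ⟨pow_ne_zero _ hp.out.ne_zero⟩
  refine ⟨A, hA, χ, L, hχ, ?_⟩
  set χ' := χ.restrict (le_top : K.fixingSubgroup ≤ ⊤)
  set K' := IntermediateField.fixedField χ'.ker
  have hker : χ'.ker ∈ LQ := χ'.ker_mem (fixingSubgroup_mem_galLevels K)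
  have : FiniteDimensional ℚ K' := finiteDimensional_fixedField hker
  have hK' : K'.fixingSubgroup = χ'.ker := fixingSubgroup_fixedField_of_mem hker
  have hle : K ≤ K' := le_fixedField χ'.ker_le
  have := isTotallyComplex_of_le hle
  rw [← hK']
  refine mem_B2_of_locTriv (p := p) (k := k) (Levels.Z2_mono (hK' ▸ χ'.ker_le) hf)
    (Levels.B2_mono (hK' ▸ χ'.ker_le) hk) fun q hq g => ?_
  by_cases hqB : q ∈ B
  swap
  · exact Levels.B2_mono (IntermediateField.fixingSubgroup_le (locField_mono hle)) (hB q hqB g)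
  refine pullAt_mem_B2_of_relIndex hle hf hk ?_
  -- a Frobenius power in the local group
  set F := locField q g K
  obtain ⟨i, hi0, hid, hi⟩ : ∃ i, 0 < i ∧ i ≤ d ∧ frob (botF q) (p ^ A) ^ i ∈ F.fixingSubgroup := by
    have : F.fixingSubgroup.FiniteIndex := (LL q).finiteIndex (Local.fix_mem F)
    obtain ⟨i, h1, h2, h3⟩ := Subgroup.exists_pow_mem_of_index_ne_zero
      (Subgroup.FiniteIndex.index_ne_zero (H := F.fixingSubgroup)) (frob (botF q) (p ^ A))
    refine ⟨i, h1, h2.trans ?_, h3⟩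
    have := LQ.finiteIndex (fixingSubgroup_mem_galLevels K)
    rw [fixingSubgroup_locField, Subgroup.index_comap]
    refine le_trans ?_ (le_of_eq ((Subgroup.relIndex_top_right K.fixingSubgroup).trans
      (IntermediateField.finrank_eq_fixingSubgroup_index _ K).symm))
    exact Subgroup.relIndex_le_of_le_right le_top (by
      rw [Subgroup.relIndex_top_right]; exact Subgroup.FiniteIndex.index_ne_zero)
  refine pow_dvd_relIndex χ g hi (fun h0 => ?_) hK'
  obtain ⟨v, m, hm, him⟩ := Nat.exists_eq_pow_mul_and_not_dvd hi0.ne' p hp.out.ne_one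
  refine hgood ⟨q, hq.out⟩ (Finset.mem_subtype.mpr hqB) (frob (botF q) (p ^ A))
    (frobExp_frob _ _) ?_
  set c := χ (locHom q 1 (frob (botF q) (p ^ A)))
  have h1 : ((p ^ (k - 1) * i * c.val : ℕ) : ZMod (p ^ A)) = 0 := by
    rw [Nat.cast_mul, Nat.cast_mul, ZMod.natCast_zmod_val, ← h0, map_pow, χ.map_pow trivial,
      nsmul_eq_mul, mul_assoc]
  rw [ZMod.natCast_eq_zero_iff, him] at h1
  have h2 : p ^ A ∣ p ^ (k - 1) * p ^ v * c.val := by
    refine
      (Nat.Coprime.pow_left A ((Nat.Prime.coprime_iff_not_dvd hp.out).mpr hm)).dvd_of_dvd_mul_right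
        (h1.trans (dvd_of_eq (by ring)))
  have hv : v ≤ d := by
    have h5 : p ^ v ≤ i := Nat.le_of_dvd hi0 (him ▸ dvd_mul_right _ m)
    have := v.lt_pow_self hp.out.one_lt
    omega
  show p ^ (k + d) • c = 0
  rw [← ZMod.natCast_zmod_val c, nsmul_eq_mul, ← Nat.cast_mul, ZMod.natCast_eq_zero_iff]
  refine h2.trans ?_
  rw [← pow_add]
  exact mul_dvd_mul_right (pow_dvd_pow p (by omega)) _

omit [NumberField.IsTotallyComplex K] in
/-- A class is cyclic for the restriction of a reciprocity character. -/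
lemma exists_cyc_restrict {n : ℕ} [NeZero n] (hn : ∃ A, n = p ^ A) (χ : CycChar LQ ⊤ n)
    {f : GQ → GQ → GM} (hf : f ∈ LQ.Z2 K.fixingSubgroup GM)
    (hfk : f ∈ LQ.B2 (χ.restrict (le_top : K.fixingSubgroup ≤ ⊤)).ker GM) :
    ∃ b ∈ starK K, f - cyc (χ.restrict (le_top : K.fixingSubgroup ≤ ⊤)) b ∈
      LQ.B2 K.fixingSubgroup GM := by
  obtain ⟨A, rfl⟩ := hn
  set W := K.fixingSubgroup
  set χ' := χ.restrict (le_top : W ≤ ⊤)
  -- the image of the character
  let P : ℕ → Prop := fun j => ∀ g ∈ W, p ^ j ∣ (χ' g).val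
  by_cases hall : ∀ g ∈ W, χ' g = 0
  · refine ⟨0, zero_mem _, ?_⟩
    have hkerW : χ'.ker = W := le_antisymm χ'.ker_le fun g hg => ⟨hg, hall g hg⟩
    rw [cyc_zero, sub_zero]
    exact hkerW ▸ hfk
  push Not at hall
  obtain ⟨g₁, hg₁, hne⟩ := hall
  have hbound : ∀ j, P j → j < A := fun j hj => by
    by_contra hge
    refine hne ((ZMod.val_eq_zero _).mp (Nat.eq_zero_of_dvd_of_lt
      ((pow_dvd_pow p (not_lt.mp hge)).trans (hj g₁ hg₁)) (ZMod.val_lt _)))
  have hP0 : P 0 := fun g _ => by rw [pow_zero]; exact one_dvd _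
  set j := Nat.findGreatest P A
  have hj : P j := Nat.findGreatest_spec (P := P) (Nat.zero_le A) hP0
  have hjA := hbound j hj
  have hjmax : ¬ P (j + 1) := fun h => by
    have := Nat.le_findGreatest (P := P) (hbound _ h).le h
    omega
  obtain ⟨g₂, hg₂, hg₂'⟩ : ∃ g ∈ W, ¬ p ^ (j + 1) ∣ (χ' g).val := by
    by_contra hno
    push Not at hno
    exact hjmax hno
  have : NeZero (p ^ j) := ⟨pow_ne_zero _ hp.out.ne_zero⟩
  have : NeZero (p ^ (A - j)) := ⟨pow_ne_zero _ hp.out.ne_zero⟩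
  have hsplit : p ^ A = p ^ j * p ^ (A - j) := by rw [← pow_add, Nat.add_sub_cancel' hjA.le]
  -- the divided character
  let χ₁ : CycChar LQ W (p ^ j * p ^ (A - j)) := χ'.castChar (hsplit ▸ dvd_rfl)
  have hχ₁ : ∀ g, (χ₁ g).val = (χ' g).val := fun g => by
    show ((((χ' g).val : ℕ)) : ZMod (p ^ j * p ^ (A - j))).val = _
    rw [ZMod.val_natCast, Nat.mod_eq_of_lt (hsplit ▸ ZMod.val_lt _)]
  obtain ⟨ψ, hψ⟩ := exists_char_div χ₁ fun g hg => by rw [hχ₁]; exact hj g hg
  have hψ' : ∀ g ∈ W, (χ' g).val = p ^ j * (ψ g).val := fun g hg => by rw [← hχ₁, hψ g hg]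
  have hunit : IsUnit (ψ g₂) := by
    rw [← ZMod.natCast_zmod_val (ψ g₂), ZMod.isUnit_iff_coprime]
    refine Nat.Coprime.pow_right _ ((Nat.Prime.coprime_iff_not_dvd hp.out).mpr ?_).symm
    intro hd
    refine hg₂' ?_
    rw [hψ' g₂ hg₂, pow_succ]
    exact mul_dvd_mul_left _ hd
  obtain ⟨u, hu⟩ := hunit.exists_left_inv
  set σ := g₂ ^ u.val
  have hσ : σ ∈ W := pow_mem hg₂ _
  have hσ1 : ψ σ = 1 := by rw [ψ.map_pow hg₂, ZMod.natCast_zmod_val, hu]
  have hkereq : ψ.ker = χ'.ker := by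
    ext g
    refine and_congr_right fun hg => ?_
    rw [← ZMod.val_eq_zero (χ' g), ← ZMod.val_eq_zero (ψ g), hψ' g hg, mul_eq_zero,
      or_iff_right (pow_ne_zero _ hp.out.ne_zero)]
  obtain ⟨b, hb, hfb⟩ := exists_cyc ψ (fixingSubgroup_mem_galLevels K) smooth_ux hσ hσ1
    (Ux.hilbert90 ψ (fixingSubgroup_mem_galLevels K)) hf (hkereq.symm ▸ hfk)
  refine ⟨b, hb, Levels.B2_congr hfb fun g hg h hh => ?_⟩
  show f g h - carry (χ' g) (χ' h) • b = f g h - carry (ψ g) (ψ h) • b
  have e : carry (χ' g) (χ' h) = carry (ψ g) (ψ h) := by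
    simp only [carry, hψ' g hg, hψ' h hh, hsplit, ← mul_add]
    rw [Nat.mul_div_mul_left _ _ (pow_pos hp.out.pos j)]
  rw [e]

omit [NumberField.IsTotallyComplex K] hp in
/-- Almost all local invariants of a class vanish. -/
lemma finite_invAt_support {f : GQ → GQ → GM} (hf : f ∈ LQ.Z2 K.fixingSubgroup GM) :
    (Function.support fun P : PK K => invAt f P).Finite := by
  obtain ⟨B, hB⟩ := exists_finite_bad hf
  have hfin : ∀ q : ℕ, {P : PK K | qOf P = q}.Finite := fun q => by
    by_cases hq : q.Prime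
    · have : Fact q.Prime := ⟨hq⟩
      exact finite_fibre q
    · exact Set.finite_empty.subset fun P (hP : qOf P = q) => hq (hP ▸ (fact_qOf P).out)
  refine (Set.Finite.biUnion B.finite_toSet fun q _ => hfin q).subset fun P hP => ?_
  simp only [Set.mem_iUnion, Set.mem_ofPred_eq, Finset.mem_coe, exists_prop, exists_eq_right']
  by_contra h
  exact hP ((inv_eq_zero_iff _ (pullAt_mem_Z2 hf)).mpr (hB (qOf P) h (gOf P)))

omit [NumberField.IsTotallyComplex K] hp in
/-- For a restricted character unramified outside a finite set, the invariants of a cyclic class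
add up to the invariants of the norm. -/
lemma sum_invAt_cyc_eq {n : ℕ} [NeZero n] {χ : CycChar LQ ⊤ n} {L : Finset ℕ}
    (hL : ∀ (q : ℕ) [Fact q.Prime], q ∉ L →
      ∃ a : ZMod n, ∀ d : Gal' q, χ (locHom q 1 d) = a * frobExp (botF q) n d)
    {b : GM} (hb : b ∈ starK K) :
    haveI := LQ.finiteIndex (fixingSubgroup_mem_galLevels K)
    ∑ y : GQ ⧸ K.fixingSubgroup, sec K.fixingSubgroup y • b ∈
        starK (⊥ : IntermediateField ℚ Qbar) ∧
      ∑ᶠ P : PK K, invAt (cyc (χ.restrict (le_top : K.fixingSubgroup ≤ ⊤)) b) P =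
        ∑ᶠ q : Nat.Primes, invQ χ q (∑ y : GQ ⧸ K.fixingSubgroup, sec K.fixingSubgroup y • b) := by
  have := LQ.finiteIndex (fixingSubgroup_mem_galLevels K)
  set N := ∑ y : GQ ⧸ K.fixingSubgroup, sec K.fixingSubgroup y • b
  have hN : N ∈ starK (⊥ : IntermediateField ℚ Qbar) := fun g _ => by
    simp only [N, Finset.smul_sum]
    refine Fintype.sum_equiv (MulAction.toPerm g) _ _ fun y => ?_
    rw [MulAction.toPerm_apply, ← mul_smul]
    have e : g * sec K.fixingSubgroup y =
        sec K.fixingSubgroup (g • y) * secCocycle K.fixingSubgroup g (g • y) := by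
      have h2 := mul_sec K.fixingSubgroup g (g • y)
      rwa [inv_smul_smul] at h2
    rw [e, mul_smul, hb _ (secCocycle_mem _ g (g • y))]
  set f := cyc (χ.restrict (le_top : K.fixingSubgroup ≤ ⊤)) b
  have hf : f ∈ LQ.Z2 K.fixingSubgroup GM := cyc_mem_Z2 _ hb
  set S₁ := (Recip.finite_support hL hN).toFinset
  set S₂ : Finset Nat.Primes :=
    (finite_invAt_support hf).toFinset.image fun P => ⟨qOf P, (fact_qOf P).out⟩
  set Q := S₁ ∪ S₂
  let fib : Nat.Primes → Finset (PK K) := fun q => (finite_fibre (K := K) (q : ℕ)).toFinset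
  have hfib : ∀ q P, P ∈ fib q ↔ qOf P = (q : ℕ) := fun q P => Set.Finite.mem_toFinset _
  refine ⟨hN, ?_⟩
  rw [finsum_eq_sum_of_support_subset (s := Q.biUnion fib) _ (fun P hP => by
    refine Finset.mem_coe.mpr (Finset.mem_biUnion.mpr ⟨⟨qOf P, (fact_qOf P).out⟩,
      Finset.mem_union_right _
        (Finset.mem_image_of_mem _ ((Set.Finite.mem_toFinset _).mpr hP)), ?_⟩)
    exact (hfib _ P).mpr rfl)]
  refine (Finset.sum_biUnion fun q _ q' _ hne => Finset.disjoint_left.mpr fun P h1 h2 =>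
      hne (Subtype.ext (((hfib q P).mp h1).symm.trans ((hfib q' P).mp h2)))).trans ?_
  have key : ∀ q : Nat.Primes, ∑ P ∈ fib q, invAt f P = invQ χ q N := fun q => by
    have : ∀ P : PK K, (locField (q : ℕ) (gOf P) K).fixingSubgroup.FiniteIndex :=
      fun P => (LL (q : ℕ)).finiteIndex (Local.fix_mem _)
    have e1 : ∀ P ∈ fib q, invAt f P = inv (botF q) (cyc (locBot χ q)
        (∑ x : Gal' q ⧸ (locField (q : ℕ) (gOf P) K).fixingSubgroup,
          sec (locField (q : ℕ) (gOf P) K).fixingSubgroup x • embUx q (gOf P) b)) := fun P hP => by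
      rw [invAt_eq_of_eq f ((hfib q P).mp hP)]
      refine Eq.trans ?_ (inv_cyc_restrict (locField (q : ℕ) (gOf P) K) (locQ χ q)
        (embUx_mem_starF hb))
      refine congrArg _ (funext fun d => funext fun e => ?_)
      show embUx q (gOf P) (carry _ _ • b) = carry _ _ • embUx q (gOf P) b
      rw [map_zsmul]
      congr 2
      · exact char_restrict_locHom χ q (gOf P) d
      · exact char_restrict_locHom χ q (gOf P) e
    rw [Finset.sum_congr rfl e1, invQ, ← sum_fibre_eq_norm (hfib q) hb]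
    have hS : ∀ P : PK K, (∑ x : Gal' q ⧸ (locField (q : ℕ) (gOf P) K).fixingSubgroup,
        sec (locField (q : ℕ) (gOf P) K).fixingSubgroup x • embUx q (gOf P) b) ∈
          starF (botF q) := by
      intro P g _
      rw [Finset.smul_sum]
      refine Fintype.sum_equiv (MulAction.toPerm g) _ _ fun y => ?_
      rw [MulAction.toPerm_apply, ← mul_smul]
      have e : g * sec (locField (q : ℕ) (gOf P) K).fixingSubgroup y =
          sec (locField (q : ℕ) (gOf P) K).fixingSubgroup (g • y) *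
            secCocycle (locField (q : ℕ) (gOf P) K).fixingSubgroup g (g • y) := by
        have h2 := mul_sec (locField (q : ℕ) (gOf P) K).fixingSubgroup g (g • y)
        rwa [inv_smul_smul] at h2
      exact (congrArg (· • embUx (q : ℕ) (gOf P) b) e).trans ((mul_smul _ _ _).trans
        (congrArg _ (embUx_mem_starF hb _ (secCocycle_mem _ g (g • y)))))
    induction fib q using Finset.induction with
    | empty =>
      rw [Finset.sum_empty, Finset.sum_empty, cyc_zero]
      exact ((inv_eq_zero_iff _ (zero_mem _)).mpr (zero_mem _)).symm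
    | insert a s ha ih =>
      rw [Finset.sum_insert ha, Finset.sum_insert ha, ih,
        inv_cyc_add (botF q) (locBot χ q) (hS a) (sum_mem fun P _ => hS P)]
  refine (Finset.sum_congr rfl fun q _ => key q).trans
    (finsum_eq_sum_of_support_subset _ fun q hq =>
      Finset.mem_coe.mpr (Finset.mem_union_left _ ((Set.Finite.mem_toFinset _).mpr hq))).symm

omit [NumberField.IsTotallyComplex K] hp in
/-- Reciprocity for the cyclic classes of a restricted reciprocity character. -/
lemma sum_invAt_cyc {n : ℕ} [NeZero n] {χ : CycChar LQ ⊤ n} {L : Finset ℕ} (hχ : Recip χ L) {b : GM}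
    (hb : b ∈ starK K) :
    ∑ᶠ P : PK K, invAt (cyc (χ.restrict (le_top : K.fixingSubgroup ≤ ⊤)) b) P = 0 :=
  have h := sum_invAt_cyc_eq hχ.unram hb
  h.2.trans (hχ.sum_eq _ h.1)

/-- Reciprocity for a class of prime power exponent. -/
theorem sum_invAt_of_primePow {f : GQ → GQ → GM} (hf : f ∈ LQ.Z2 K.fixingSubgroup GM) {k : ℕ}
    (hk : p ^ k • f ∈ LQ.B2 K.fixingSubgroup GM) : ∑ᶠ P : PK K, invAt f P = 0 := by
  obtain ⟨A, hA, χ, L, hχ, hfk⟩ := exists_recip_split hf hk
  obtain ⟨b, hb, hfb⟩ := exists_cyc_restrict (p := p) ⟨A, rfl⟩ χ hf hfk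
  rw [finsum_congr fun P => invAt_congr (cyc_mem_Z2 _ hb) hfb P]
  exact sum_invAt_cyc hχ hb

omit [NumberField.IsTotallyComplex K] hp in
/-- Local invariants are additive. -/
lemma invAt_add {f f' : GQ → GQ → GM} (hf : f ∈ LQ.Z2 K.fixingSubgroup GM)
    (hf' : f' ∈ LQ.Z2 K.fixingSubgroup GM) (P : PK K) :
    invAt (f + f') P = invAt f P + invAt f' P := by
  rw [invAt, pullAt_add, inv_add _ (pullAt_mem_Z2 hf) (pullAt_mem_Z2 hf')]
  rfl

omit [NumberField.IsTotallyComplex K] hp in
/-- Every class has finite exponent. -/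
lemma exists_nsmul_mem_B2 {f : GQ → GQ → GM} (hf : f ∈ LQ.Z2 K.fixingSubgroup GM) :
    ∃ n ≠ 0, n • f ∈ LQ.B2 K.fixingSubgroup GM := by
  set W := K.fixingSubgroup
  obtain ⟨N, hN, -, -, hfN⟩ := exists_normal_mem_B2 (fixingSubgroup_mem_galLevels K) smooth_ux hf
  have := LQ.finiteIndex hN
  exact ⟨N.relIndex W, Subgroup.FiniteIndex.index_ne_zero (H := N.subgroupOf W),
    relIndex_nsmul_mem_B2 hN smooth_ux hf hfN⟩

omit hp in
/-- The local invariants of a global class add up to zero. -/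
theorem sum_invAt_eq_zero {f : GQ → GQ → GM} (hf : f ∈ LQ.Z2 K.fixingSubgroup GM) :
    ∑ᶠ P : PK K, invAt f P = 0 := by
  suffices key : ∀ n : ℕ, n ≠ 0 → ∀ f ∈ LQ.Z2 K.fixingSubgroup GM,
      n • f ∈ LQ.B2 K.fixingSubgroup GM → ∑ᶠ P : PK K, invAt f P = 0 by
    obtain ⟨n, hn, hnf⟩ := exists_nsmul_mem_B2 hf
    exact key n hn f hf hnf
  intro n
  induction n using Nat.recOnPrimeCoprime with
  | zero => exact fun h => absurd rfl h
  | prime_pow r k hr =>
    intro _ f hf hk
    have : Fact r.Prime := ⟨hr⟩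
    exact sum_invAt_of_primePow hf hk
  | coprime a c ha hc hac iha ihc =>
    intro _ f hf hnf
    obtain ⟨u, v, huv⟩ : IsCoprime (a : ℤ) c := Int.isCoprime_iff_gcd_eq_one.mpr hac
    have h1 : c • ((u * a) • f) ∈ LQ.B2 K.fixingSubgroup GM := by
      rw [← natCast_zsmul, ← mul_smul,
        show (c : ℤ) * (u * a) = u * ((a * c : ℕ) : ℤ) by push_cast; ring,
        mul_smul, natCast_zsmul]
      exact zsmul_mem hnf u
    have h2 : a • ((v * c) • f) ∈ LQ.B2 K.fixingSubgroup GM := by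
      rw [← natCast_zsmul, ← mul_smul,
        show (a : ℤ) * (v * c) = v * ((a * c : ℕ) : ℤ) by push_cast; ring,
        mul_smul, natCast_zsmul]
      exact zsmul_mem hnf v
    have hua := zsmul_mem hf (u * a)
    have hvc := zsmul_mem hf (v * c)
    have hsplit : f = (u * a) • f + (v * c) • f := by rw [← add_smul, huv, one_smul]
    rw [hsplit, finsum_congr fun P => invAt_add hua hvc P,
      finsum_add_distrib (finite_invAt_support hua) (finite_invAt_support hvc),
      ihc (by omega) _ hua h1, iha (by omega) _ hvc h2, add_zero]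

end Global

end FermatAgent.CFT
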