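import Fermat.Agent.CFT.Global.SRealize
import Fermat.Agent.CFT.Coh.Step
import Fermat.Agent.CFT.Local.CharDuality

/-!
Corestriction from a cyclic layer: classes whose obstruction is orthogonal to the character.

`exists_cor_of_orthogonal`: let `D` be an obstruction (`IsObs`) of a class with values in roots of
unity which is orthogonal to the character `χ` of a cyclic layer whenever `χ` is split above `S`.
Then, up to a coboundary, the class is a corestriction (`corMu`) of a class of the layer which is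
invisible in the multiplicative group.
The proof replaces the divisor by a combination of primes split in `χ` with the same pairing against
all split characters (`exists_split_combination`), using Kummer theory and a prime split in one
character and inert in another (`exists_prime_split_inert`).
-/

set_option autoImplicit false

noncomputable section

open scoped Classical
open IntermediateField

namespace FermatAgent.CFT.Global

open Coh Local GaloisBasic

variable {p : ℕ} [hp : Fact p.Prime] {S : Finset Nat.Primes} {K : IntermediateField ℚ Qbar}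
  [FiniteDimensional ℚ K]

/-- A multiple of a character. -/
def smulChar (k : ZMod p) (α : CycChar LQ K.fixingSubgroup p) : CycChar LQ K.fixingSubgroup p where
  toFun g := k * α g
  map_mul' g hg h hh := by rw [α.map_mul hg hh, mul_add]
  const' := by
    obtain ⟨V, hV, hc⟩ := α.const'
    exact ⟨V, hV, fun g hg s hs => congrArg (k * ·) (hc g hg s hs)⟩

omit [FiniteDimensional ℚ K] in
@[simp] lemma smulChar_apply (k : ZMod p) (α : CycChar LQ K.fixingSubgroup p) (g : GQ) :
    smulChar k α g = k * α g := rfl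

lemma IsSplitChar.add {α β : CycChar LQ K.fixingSubgroup p} (hα : IsSplitChar S α)
    (hβ : IsSplitChar S β) : IsSplitChar S (α.addChar β) := fun P => by
  obtain ⟨⟨a, ha⟩, ha0⟩ := hα P
  obtain ⟨⟨b, hb⟩, hb0⟩ := hβ P
  exact ⟨⟨a + b, fun d hd => by rw [CycChar.addChar_apply, ha d hd, hb d hd, add_mul]⟩,
    fun h d hd => by rw [CycChar.addChar_apply, ha0 h d hd, hb0 h d hd]; simp⟩

lemma IsSplitChar.smul (k : ZMod p) {α : CycChar LQ K.fixingSubgroup p} (hα : IsSplitChar S α) :
    IsSplitChar S (smulChar k α) := fun P => by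
  obtain ⟨⟨a, ha⟩, ha0⟩ := hα P
  exact ⟨⟨k * a, fun d hd => by rw [smulChar_apply, ha d hd, mul_assoc]⟩,
    fun h d hd => by rw [smulChar_apply, ha0 h d hd]; simp⟩

lemma IsSplitChar.congr {α β : CycChar LQ K.fixingSubgroup p} (hα : IsSplitChar S α)
    (h : ∀ g ∈ K.fixingSubgroup, α g = β g) : IsSplitChar S β := fun P => by
  obtain ⟨⟨a, ha⟩, ha0⟩ := hα P
  exact ⟨⟨a, fun d hd => by rw [← h _ (locHom_mem hd), ha d hd]⟩,
    fun hP d hd => by rw [← h _ (locHom_mem hd), ha0 hP d hd]⟩

/-- The Frobenius of a prime inside the base group. -/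
def frobW (p : ℕ) [Fact p.Prime] (P : PK K) : K.fixingSubgroup :=
  ⟨locHom (qOf P) (gOf P) (frob (locK P) p), locHom_mem (frob_mem _ _)⟩

section Separate

variable (hpS : ExtCitation.pPrime p ∈ S) (hζK : zet p ∈ K)
include hpS hζK

/-- A prime split in one character and inert in another, away from `S`. -/
theorem exists_prime_split_inert (χ α : CycChar LQ K.fixingSubgroup p) (hα : IsSplitChar S α)
    {g : GQ} (hg : g ∈ K.fixingSubgroup) (hχg : χ g = 0) (hαg : α g ≠ 0) :
    ∃ P : PK K, qP P ∉ S ∧ (∀ d ∈ (locK P).fixingSubgroup, χ (locHom (qOf P) (gOf P) d) = 0) ∧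
      α (frobW p P) ≠ 0 := by
  obtain ⟨y, hy, hys⟩ := exists_root_of_hom hζK χ
  obtain ⟨y', hy', hys'⟩ := exists_root_of_hom hζK α
  have hk : IsKummer (zet_spec p) χ y := hys
  have hk' : IsKummer (zet_spec p) α y' := hys'
  set T := above K S ∪
    (finite_ordP_ne_zero (val_mem_of_mem_starK K hy) (p • y).val_ne_zero).toFinset ∪
    (finite_ordP_ne_zero (val_mem_of_mem_starK K hy') (p • y').val_ne_zero).toFinset
  obtain ⟨P, hPT, hsplit, hinert⟩ := exists_prime_separating (zet_spec p) hζK hy hy' hg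
    ((hk.eq_zero_iff (zet_spec p) hg).mp hχg)
    (fun h => hαg ((hk'.eq_zero_iff (zet_spec p) hg).mpr h)) (S := T) fun P hP => by
      simp only [T, Finset.mem_union, mem_above, Set.Finite.mem_toFinset, Set.mem_ofPred_eq,
        not_or, not_not] at hP
      exact ⟨fun h => hP.1.1 (show qP P ∈ S from (show qP P = ExtCitation.pPrime p from
        Subtype.ext h) ▸ hpS), hP.1.2, hP.2⟩
  have hPS : qP P ∉ S := fun h =>
    hPT (Finset.mem_union_left _ (Finset.mem_union_left _ (mem_above.mpr h)))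
  obtain ⟨c, hc⟩ := (hα P).1
  refine ⟨P, hPS, (hk.split_iff (zet_spec p) hζK (q := qOf P) (g := gOf P)).mpr hsplit, ?_⟩
  show α (locHom (qOf P) (gOf P) (frob (locK P) p)) ≠ 0
  have : NeZero p := ⟨hp.out.ne_zero⟩
  rw [hc.eq_of_frob]
  refine fun h0 => hinert ((hk'.split_iff (zet_spec p) hζK (q := qOf P) (g := gOf P)).mp
    fun d hd => ?_)
  show α (locHom (qOf P) (gOf P) d) = 0
  rw [hc d hd, h0, zero_mul]

/-- Orthogonality is achieved by primes split in the character. -/
theorem exists_split_combination (hK : K.IsUnramifiedOutside S)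
    (χ : CycChar LQ K.fixingSubgroup p) {σ : GQ} (hσ : σ ∈ K.fixingSubgroup) (hσ1 : χ σ = 1)
    (D : PK K → ZMod p) (s : Finset (PK K))
    (hχ : IsSplitChar S χ → ∑ P ∈ s, D P * χ (frobW p P) = 0) :
    ∃ (t : Finset (PK K)) (k : PK K → ZMod p),
      (∀ P ∈ t, qP P ∉ S ∧ ∀ d ∈ (locK P).fixingSubgroup, χ (locHom (qOf P) (gOf P) d) = 0) ∧
      ∀ α : CycChar LQ K.fixingSubgroup p, IsSplitChar S α →
        ∑ P ∈ s, D P * α (frobW p P) = ∑ P ∈ t, k P * α (frobW p P) := by
  have : NeZero p := ⟨hp.out.ne_zero⟩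
  obtain ⟨U', hU', hU'n, hU'K, hV⟩ := exists_split_level hpS hK hζK
  have := hU'n
  have := (LS S).finiteIndex hU'
  have : (U'.subgroupOf K.fixingSubgroup).FiniteIndex :=
    ⟨fun h => Subgroup.FiniteIndex.index_ne_zero
      (H := U')
      (Nat.eq_zero_of_zero_dvd (h ▸ Subgroup.relIndex_dvd_index_of_normal U' K.fixingSubgroup))⟩
  have : Finite (K.fixingSubgroup ⧸ U'.subgroupOf K.fixingSubgroup) :=
    Subgroup.finite_quotient_of_finiteIndex
  let Sp : AddSubgroup (K.fixingSubgroup → ZMod p) :=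
    { carrier := {f | ∃ α : CycChar LQ K.fixingSubgroup p, IsSplitChar S α ∧ ∀ w, f w = α w.1}
      zero_mem' := ⟨smulChar 0 (χ.restrict le_rfl),
        fun P => ⟨⟨0, fun d _ => by simp⟩, fun _ d _ => by simp⟩, fun w => by simp⟩
      add_mem' := by
        rintro f g ⟨α, hα, hf⟩ ⟨β, hβ, hg⟩
        exact ⟨α.addChar β, hα.add hβ, fun w => by rw [Pi.add_apply, hf, hg, CycChar.addChar_apply]⟩
      neg_mem' := by
        rintro f ⟨α, hα, hf⟩
        exact ⟨smulChar (-1) α, hα.smul _, fun w => by simp [hf]⟩ }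
  have : Finite Sp := Finite.of_injective
    (fun f (x : K.fixingSubgroup ⧸ U'.subgroupOf K.fixingSubgroup) => f.1 (Quotient.out x))
    fun f f' h => Subtype.ext (funext fun w => by
      obtain ⟨α, hα, hf⟩ := f.2
      obtain ⟨β, hβ, hf'⟩ := f'.2
      set w0 : K.fixingSubgroup :=
        Quotient.out (w : K.fixingSubgroup ⧸ U'.subgroupOf K.fixingSubgroup)
      have hu : (w0⁻¹ * w : K.fixingSubgroup) ∈ U'.subgroupOf K.fixingSubgroup :=
        QuotientGroup.eq.mp
          (Quotient.out_eq (w : K.fixingSubgroup ⧸ U'.subgroupOf K.fixingSubgroup))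
      rw [Subgroup.mem_subgroupOf] at hu
      have e : (w : GQ) = w0.1 * ((w0⁻¹ * w : K.fixingSubgroup) : GQ) := by simp
      have h0 : f.1 w0 = f'.1 w0 := congrFun h _
      rw [hf, hf'] at h0 ⊢
      rw [e, α.map_mul w0.2 (w0⁻¹ * w : K.fixingSubgroup).2,
        β.map_mul w0.2 (w0⁻¹ * w : K.fixingSubgroup).2, hV α hα _ hu, hV β hβ _ hu, h0])
  have : Fintype Sp := Fintype.ofFinite _
  -- the relevant primes
  let good : PK K → Prop := fun P =>
    qP P ∉ S ∧ ∀ d ∈ (locK P).fixingSubgroup, χ (locHom (qOf P) (gOf P) d) = 0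
  let bad := Finset.univ.filter fun f : Sp => ∃ P, good P ∧ f.1 (frobW p P) ≠ 0
  let pick : ∀ f ∈ bad, PK K := fun f hf => ((Finset.mem_filter.mp hf).2).choose
  have hpick : ∀ f (hf : f ∈ bad), good (pick f hf) ∧ f.1 (frobW p (pick f hf)) ≠ 0 :=
    fun f hf => ((Finset.mem_filter.mp hf).2).choose_spec
  set t := bad.attach.image fun f => pick f.1 f.2
  let ev : Sp →+ (t → ZMod p) :=
    AddMonoidHom.mk' (fun f P => f.1 (frobW p P.1)) fun _ _ => rfl
  let L : Sp →+ ZMod p := AddMonoidHom.mk' (fun f => ∑ P ∈ s, D P * f.1 (frobW p P)) fun f g => by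
    rw [← Finset.sum_add_distrib]
    exact Finset.sum_congr rfl fun P _ => mul_add _ _ _
  obtain ⟨θ', hθ'⟩ := exists_factor (p := p) (fun x => funext fun P => by simp) ev L fun f hf => by
    have hnb : f ∉ bad := fun hb => (hpick f hb).2 (congrFun hf ⟨_, Finset.mem_image.mpr
      ⟨⟨f, hb⟩, Finset.mem_attach _ _, rfl⟩⟩)
    simp only [bad, Finset.mem_filter, Finset.mem_univ, true_and, not_exists, not_and,
      not_not] at hnb
    obtain ⟨α, hα, hfα⟩ := f.2
    have hmult : ∀ g ∈ K.fixingSubgroup, α g = α σ * χ g := fun g hg => by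
      obtain ⟨w, hw, e⟩ := χ.exists_mul_eq hσ hσ1 hg
      have h0 : α w = 0 := by
        by_contra h0
        obtain ⟨P, hPS, hsp, hne⟩ := exists_prime_split_inert hpS hζK χ α hα hw.1 hw.2 h0
        exact hne ((hfα _).symm.trans (hnb P ⟨hPS, hsp⟩))
      conv_lhs => rw [e]
      rw [α.map_mul (pow_mem hσ _) hw.1, h0, add_zero, α.map_pow hσ,
        ZMod.natCast_zmod_val, mul_comm]
    show ∑ P ∈ s, D P * f.1 (frobW p P) = 0
    simp only [hfα, hmult _ (frobW p _).2]
    by_cases h0 : α σ = 0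
    · simp [h0]
    have hχs : IsSplitChar S χ := (hα.smul (α σ)⁻¹).congr fun g hg => by
      rw [smulChar_apply, hmult g hg, ← mul_assoc, inv_mul_cancel₀ h0, one_mul]
    rw [Finset.sum_congr rfl fun P _ => mul_left_comm (D P) (α σ) (χ (frobW p P)), ← Finset.mul_sum,
      hχ hχs, mul_zero]
  refine ⟨t, fun P => if hP : P ∈ t then θ' (Pi.single ⟨P, hP⟩ 1) else 0, fun P hP => ?_,
    fun α hα => ?_⟩
  · obtain ⟨f, -, rfl⟩ := Finset.mem_image.mp hP
    exact (hpick f.1 f.2).1
  · have h := (hθ' ⟨fun w => α w.1, α, hα, fun _ => rfl⟩).symm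
    change ∑ P ∈ s, D P * α (frobW p P) = θ' (fun P : t => α (frobW p P.1)) at h
    rw [h, ← Finset.sum_coe_sort t fun P => (if hP : P ∈ t then θ' (Pi.single ⟨P, hP⟩ 1) else 0) *
      α (frobW p P)]
    conv_lhs => rw [← Finset.univ_sum_single (fun P : t => α (frobW p P.1)), map_sum]
    refine Finset.sum_congr rfl fun P _ => ?_
    rw [dif_pos P.2, show (Pi.single P (α (frobW p P.1)) : t → ZMod p) =
        (α (frobW p P.1)).val • Pi.single P 1 by
      rw [← Pi.single_smul, nsmul_eq_mul, ZMod.natCast_zmod_val, mul_one], map_nsmul, nsmul_eq_mul,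
      ZMod.natCast_zmod_val, mul_comm]

end Separate

omit [FiniteDimensional ℚ ↥K] in
lemma one_mem_overOne {K' : IntermediateField ℚ Qbar}
    [K'.fixingSubgroup.FiniteIndex] (h : K'.fixingSubgroup ≤ K.fixingSubgroup) :
    ((1 : GQ) : GQ ⧸ K'.fixingSubgroup) ∈ overOne h := by
  unfold overOne
  exact Finset.mem_filter.mpr ⟨Finset.mem_univ _, Ind.proj_coe h 1⟩

section Layer

variable (χ : CycChar LQ K.fixingSubgroup p)

omit hp in
/-- The inclusion of the layer. -/
lemma layer_le : (extField χ).fixingSubgroup ≤ K.fixingSubgroup := by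
  rw [fixingSubgroup_extField]; exact χ.ker_le

instance finiteIndex_fixingSubgroup_extField : (extField χ).fixingSubgroup.FiniteIndex :=
  LQ.finiteIndex (fixingSubgroup_mem_galLevels _)

/-- The corestriction of a class with values in the induced module of the layer. -/
def corMu (X : GQ → GQ → Ind (extField χ).fixingSubgroup (Mu (chiQ p))) (a b : GQ) : Mu (chiQ p) :=
  Ind.fibreSum (layer_le χ) (X a b) ((1 : GQ) : GQ ⧸ K.fixingSubgroup)

/-- The corestricted residue is additive. -/
lemma corMu_add (X Y : GQ → GQ → Ind (extField χ).fixingSubgroup (Mu (chiQ p))) :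
    corMu χ (X + Y) = corMu χ X + corMu χ Y := by
  funext a b
  simp only [corMu, Pi.add_apply, map_add, Ind.add_apply]

/-- The corestricted residue commutes with multiples. -/
lemma corMu_nsmul (k : ℕ) (X : GQ → GQ → Ind (extField χ).fixingSubgroup (Mu (chiQ p))) :
    corMu χ (k • X) = k • corMu χ X := by
  funext a b
  simp only [corMu, Pi.smul_apply, map_nsmul]
  exact map_nsmul (Ind.eval ((1 : GQ) : GQ ⧸ K.fixingSubgroup)) k _

/-- Corestrictions of cocycles are cocycles. -/
lemma corMu_mem_Z2 {X : GQ → GQ → Ind (extField χ).fixingSubgroup (Mu (chiQ p))}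
    (hX : X ∈ (LS S).Z2 ⊤ (Ind (extField χ).fixingSubgroup (Mu (chiQ p)))) :
    corMu χ X ∈ (LS S).Z2 K.fixingSubgroup (Mu (chiQ p)) :=
  eval_mem_Z2 (Levels.map_mem_Z2 _ (fun g _ => Ind.fibreSum_smul (layer_le χ) g) hX)

/-- The push-down of a prime split in the layer. -/
lemma pushDiv_single {P : PK K}
    (hP : ∀ d ∈ (locK P).fixingSubgroup, χ (locHom (qOf P) (gOf P) d) = 0) (P' : PK K) :
    pushDiv (layer_le χ) (fun Q => if Q = primeAt (extField χ) (qOf P) (gOf P) then
      (1 : ZMod p) else 0)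
      (qOf P') (gOf P') = if P' = P then 1 else 0 := by
  set W' := (extField χ).fixingSubgroup
  set Q := primeAt (extField χ) (qOf P) (gOf P)
  show ∑ x ∈ overOne (layer_le χ), (if primeAt (extField χ) (qOf P') (gOf P' * sec W' x) = Q
    then (1 : ZMod p) else 0) = _
  have hQ : IsPoint Q (qOf P) (gOf P) := isPoint_primeAt
  have hbelow : below χ Q = P := (below_eq χ hQ).trans (isPoint_gOf P).eq_primeAt.symm
  have hne : ∀ x ∈ overOne (layer_le χ),
      primeAt (extField χ) (qOf P') (gOf P' * sec W' x) = Q → P' = P := fun x hx h => by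
    have h1 : IsPoint Q (qOf P') (gOf P' * sec W' x) := h ▸ isPoint_primeAt
    have h2 := isPoint_mul (isPoint_gOf P') 1 (sec_mem_of_overOne (layer_le χ) hx)
    rw [map_one, mul_one] at h2
    rw [← hbelow, below_eq χ h1, ← h2.eq_primeAt]
  by_cases hPP : P' = P
  · subst hPP
    rw [if_pos rfl, Finset.sum_eq_single ((1 : GQ) : GQ ⧸ W')]
    · rw [sec_one, mul_one, if_pos rfl]
    · intro x hx hx1
      rw [if_neg]
      intro h
      have h1 : IsPoint Q (qOf P') (gOf P' * sec W' x) := h ▸ isPoint_primeAt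
      obtain ⟨d, w, hw, e⟩ := hQ.exists_mul h1
      rw [mul_assoc, mul_right_inj] at e
      have hs := sec_mem_of_overOne (layer_le χ) hx
      have hw' : w ∈ χ.ker := fixingSubgroup_extField χ ▸ hw
      have hd : d ∈ (locK P').fixingSubgroup := by
        rw [show locK P' = locField (qOf P') (gOf P') K from rfl, fixingSubgroup_locField,
          Subgroup.mem_comap, eq_mul_inv_iff_mul_eq.mpr e.symm]
        exact mul_mem hs (inv_mem hw'.1)
      refine hx1 ?_
      rw [← mk_sec W' x, QuotientGroup.eq, mul_one]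
      refine inv_mem ?_
      show sec W' x ∈ (extField χ).fixingSubgroup
      rw [fixingSubgroup_extField, e]
      exact ⟨mul_mem (locHom_mem hd) hw'.1, by
        rw [χ.eq_of_ker (locHom_mem hd) hw', hP d hd]⟩
    · intro h
      exact (h (one_mem_overOne (layer_le χ))).elim
  · rw [if_neg hPP, Finset.sum_eq_zero]
    exact fun x hx => if_neg fun h => hPP (hne x hx h)

/-- An obstruction orthogonal to a split layer is met by corestrictions of invisible classes. -/
theorem exists_cor_of_orthogonal [NumberField.IsTotallyComplex K]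
    (hpS : ExtCitation.pPrime p ∈ S) (hK : K.IsUnramifiedOutside S) (hζK : zet p ∈ K)
    (hker : χ.ker ∈ LS S) {σ : GQ} (hσ : σ ∈ K.fixingSubgroup) (hσ1 : χ σ = 1)
    {f : GQ → GQ → Mu (chiQ p)} {D : PK K → ZMod p} (hD : IsObs S K f D) (s : Finset (PK K))
    (hsS : ∀ P ∈ s, qP P ∉ S) (hsupp : ∀ P, qP P ∉ S → D P ≠ 0 → P ∈ s)
    (hχ : IsSplitChar S χ → ∑ P ∈ s, D P * χ (frobW p P) = 0) :
    ∃ X ∈ (LS S).Z2 ⊤ (Ind (extField χ).fixingSubgroup (Mu (chiQ p))),
      (fun a b => Ind.map (muG p) (X a b)) ∈ LQ.B2 ⊤ (Ind (extField χ).fixingSubgroup GM) ∧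
      f - corMu χ X ∈ (LS S).B2 K.fixingSubgroup (Mu (chiQ p)) := by
  have : NeZero p := ⟨hp.out.ne_zero⟩
  obtain ⟨t, k, ht, hk⟩ := exists_split_combination hpS hζK hK χ hσ hσ1 D s hχ
  set K' := extField χ
  have hW' : K'.fixingSubgroup ∈ LS S := (fixingSubgroup_extField χ).symm ▸ hker
  have hK' : K'.IsUnramifiedOutside S := LS_mem_of_isUnramifiedOutside hW'
  have hζK' : zet p ∈ K' := le_extField χ hζK
  obtain ⟨m, hm, hdiv⟩ := exists_isObs_of_divisor hpS hK'
  have hm0 : (m : ZMod p) ≠ 0 := fun h => hm ((ZMod.natCast_eq_zero_iff m p).mp h)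
  set Qof : PK K → PK K' := fun P => primeAt K' (qOf P) (gOf P)
  set D2 : PK K' → ℤ := fun Q => ∑ P ∈ t, if Q = Qof P then (((m : ZMod p)⁻¹ * k P).val : ℤ) else 0
  obtain ⟨g, hg, hgD⟩ := hdiv D2 ((t.image Qof).finite_toSet.subset fun Q hQ => by
    by_contra h
    exact hQ (Finset.sum_eq_zero fun P hP => if_neg fun e =>
      h (Finset.mem_coe.mpr (Finset.mem_image.mpr ⟨P, hP, e.symm⟩))))
  set X := indFun2 K'.fixingSubgroup g
  have hXZ : X ∈ (LS S).Z2 ⊤ (Ind K'.fixingSubgroup (Mu (chiQ p))) := indFun2_mem_Z2 hW' hg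
  have hpush : (fun P => pushDiv (layer_le χ) (fun Q => ((m * D2 Q : ℤ) : ZMod p))
      (qOf P) (gOf P)) =
      fun P => if P ∈ t then k P else 0 := by
    funext P
    have hcast : ∀ Q, ((m * D2 Q : ℤ) : ZMod p) =
        ∑ P₀ ∈ t, k P₀ * (if Q = Qof P₀ then (1 : ZMod p) else 0) := fun Q => by
      simp only [D2, Int.cast_mul, Int.cast_natCast, Int.cast_sum, Finset.mul_sum]
      refine Finset.sum_congr rfl fun P₀ _ => ?_
      split_ifs
      · rw [Int.cast_natCast, ZMod.natCast_zmod_val, mul_inv_cancel_left₀ hm0, mul_one]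
      · rw [Int.cast_zero, mul_zero, mul_zero]
    simp only [pushDiv, hcast]
    rw [Finset.sum_comm, ← Finset.sum_ite_eq t P k]
    refine Finset.sum_congr rfl fun P₀ hP₀ => ?_
    rw [← Finset.mul_sum]
    refine (congrArg (k P₀ * ·) (pushDiv_single χ (ht P₀ hP₀).2 P)).trans ?_
    rw [mul_ite, mul_one, mul_zero]
  have hobs : IsObs S K (corMu χ X) (fun P => if P ∈ t then k P else 0) := by
    rw [← hpush]
    have hcor : corMu χ X = fun a b => ∑ x ∈ overOne (layer_le χ),
        indFun2 K'.fixingSubgroup g a b x :=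
      funext fun a => funext fun b => Ind.fibreSum_apply (layer_le χ) _ _
    rw [hcor]
    exact isObs_pushDiv (layer_le χ) hgD
  refine ⟨X, hXZ, map_indFun2_mem_B2 (isObs_mem_B2 hgD), ?_⟩
  have hsub := IsObs.add hD (IsObs.nsmul hobs (p - 1))
  have hp1 : ((p - 1 : ℕ) : ZMod p) = -1 := by
    rw [Nat.cast_sub hp.out.one_le, ZMod.natCast_self, Nat.cast_one, zero_sub]
  obtain ⟨a, ha, haD⟩ := exists_ord_of_orthogonal hζK hpS
    (D := D + ((p - 1 : ℕ) : ZMod p) • fun P => if P ∈ t then k P else 0) (s ∪ t)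
    (fun P hP => (Finset.mem_union.mp hP).elim (hsS P) fun h => (ht P h).1)
    (fun P hPS h0 => by
      by_cases hPt : P ∈ t
      · exact Finset.mem_union_right _ hPt
      · refine Finset.mem_union_left _ (hsupp P hPS ?_)
        simpa [hPt] using h0)
    fun α hα => by
      simp only [Pi.add_apply, Pi.smul_apply, smul_eq_mul, hp1, add_mul, Finset.sum_add_distrib,
        neg_mul, one_mul, Finset.sum_neg_distrib]
      show ∑ P ∈ s ∪ t, D P * α (frobW p P) +
        -∑ P ∈ s ∪ t, (if P ∈ t then k P else 0) * α (frobW p P) = 0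
      rw [← Finset.sum_subset Finset.subset_union_left fun P hP hPs => by
          have hPS := (ht P ((Finset.mem_union.mp hP).resolve_left hPs)).1
          rw [show D P = 0 from not_not.mp fun h => hPs (hsupp P hPS h), zero_mul],
        hk α hα]
      simp only [ite_mul, zero_mul, Finset.sum_ite_mem, Finset.inter_eq_right.mpr
        (Finset.subset_union_right : t ⊆ s ∪ t), add_neg_cancel]
  refine Levels.B2_congr (mem_B2_of_isObs hpS hK hsub ha fun q hq g => (haD _ ?_).symm)
    fun u _ v _ => ?_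
  · have : Fact (q : ℕ).Prime := ⟨q.2⟩
    rwa [show qP (primeAt K (q : ℕ) g) = q from
      Subtype.ext ((isPoint_primeAt (K := K)).prime_eq (isPoint_gOf _))]
  · refine Mu.ext _ ?_
    simp only [Pi.sub_apply, Pi.add_apply, Pi.smul_apply, map_sub, map_add, map_nsmul,
      nsmul_eq_mul, hp1]
    ring

end Layer

end FermatAgent.CFT.Global
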