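import Fermat.Agent.CFT.Global.SCorSurj

/-!
Corestriction is surjective in degree two for the steps of index `p`.
-/

set_option autoImplicit false

noncomputable section

open scoped Classical
open IntermediateField

namespace FermatAgent.CFT.Global

open Coh Local GaloisBasic

variable {p : ℕ} [hp : Fact p.Prime] {S : Finset Nat.Primes} {K : IntermediateField ℚ Qbar}
  [FiniteDimensional ℚ K] [K.fixingSubgroup.FiniteIndex]

/-- Every class on the base is a corestriction from the layer. -/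
theorem exists_cor [NumberField.IsTotallyComplex K] (χ : CycChar LQ K.fixingSubgroup p)
    (hpS : ExtCitation.pPrime p ∈ S) (hp2 : p ≠ 2) (hK : K.IsUnramifiedOutside S) (hζK : zet p ∈ K)
    (hker : χ.ker ∈ LS S) {σ : GQ} (hσ : σ ∈ K.fixingSubgroup) (hσ1 : χ σ = 1)
    {g : GQ → GQ → Mu (chiQ p)} (hg : g ∈ (LS S).Z2 K.fixingSubgroup (Mu (chiQ p))) :
    ∃ X ∈ (LS S).Z2 ⊤ (Ind (extField χ).fixingSubgroup (Mu (chiQ p))),
      g - corMu χ X ∈ (LS S).B2 K.fixingSubgroup (Mu (chiQ p)) := by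
  have : NeZero p := ⟨hp.out.ne_zero⟩
  have hle : (extField χ).fixingSubgroup ≤ K.fixingSubgroup := layer_le χ
  have hW' : (extField χ).fixingSubgroup ∈ LS S := (fixingSubgroup_extField χ).symm ▸ hker
  have hKχ : K.fixingSubgroup ≤ (chiQ p).ker := fix_le_ker hζK
  have hG0 := indFun2_mem_Z2 (fixingSubgroup_mem_LS hK) hg
  -- the invisible residual
  obtain ⟨θ', hθd, hθ'⟩ := exists_fibreFam_transfer hpS hle (famEval hG0) fun _ hψ =>
    famEval_diag hpS hp2 hG0 _ hψ
  obtain ⟨XA, hXA, hXAθ⟩ := exists_realize hpS hp2 (extField χ).fixingSubgroup hW' (hle.trans hKχ)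
    θ' hθd
  have hFX : (fun a b => Ind.fibreSum hle (XA a b)) ∈
      (LS S).Z2 ⊤ (Ind K.fixingSubgroup (Mu (chiQ p))) :=
    Levels.map_mem_Z2 _ (fun g _ φ => Ind.fibreSum_smul hle g φ) hXA
  have hG' := sub_mem hG0 hFX
  have hev : ∀ e, famEval hG' e = 0 := fun e => by
    have h1 : famEval hFX e = famEval hG0 e := (hXAθ (fibreFam hle e)).symm.trans (hθ' e)
    have h2 := famEval_add hG' hFX e
    simp only [famEval_apply, sub_add_cancel] at h2
    rw [← famEval_apply hG0, ← famEval_apply hG', ← famEval_apply hFX, h1] at h2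
    exact (add_eq_right.mp h2.symm)
  set f := g - corMu χ XA
  have hf : f ∈ (LS S).Z2 K.fixingSubgroup (Mu (chiQ p)) := sub_mem hg (corMu_mem_Z2 χ hXA)
  have hfB : muClass f ∈ LQ.B2 K.fixingSubgroup GM :=
    Levels.B2_congr (muClass_mem_B2_of_evals hpS hK hG' hev) fun a ha b hb => by
      show muG p (g a b - corMu χ XA a b) = muG p _
      simp only [Pi.sub_apply, Ind.sub_apply, indFun2_one_coset _ _ ha hb]
      rfl
  obtain ⟨D, hD⟩ := exists_isObs hpS hK hζK hf hfB
  obtain ⟨s, hsS, hsupp⟩ := hD.exists_support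
  by_cases hχ : IsSplitChar S χ
  · obtain ⟨Y, hY, DY, t, hDY, htS, htsupp, hne⟩ :=
      exists_cor_pairing_ne_zero χ hpS hp2 hK hζK hker hσ hσ1 hχ
    set j : ℕ := (-(∑ P ∈ s, D P * χ (frobW p P)) / ∑ P ∈ t, DY P * χ (frobW p P)).val
    obtain ⟨X, hX, -, hB⟩ := exists_cor_of_orthogonal χ hpS hK hζK hker hσ hσ1
      (IsObs.add hD (IsObs.nsmul hDY j)) (s ∪ t)
      (fun P hP => (Finset.mem_union.mp hP).elim (hsS P) (htS P))
      (fun P hPS h0 => by
        by_contra hP
        rw [Finset.mem_union, not_or] at hP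
        refine h0 ?_
        simp only [Pi.add_apply, Pi.smul_apply]
        rw [show D P = 0 from not_not.mp fun h => hP.1 (hsupp P hPS h),
          show DY P = 0 from not_not.mp fun h => hP.2 (htsupp P hPS h), smul_zero, add_zero])
      fun _ => by
        simp only [Pi.add_apply, Pi.smul_apply, smul_eq_mul, add_mul, Finset.sum_add_distrib,
          mul_assoc, ← Finset.mul_sum]
        rw [← Finset.sum_subset Finset.subset_union_left fun P hP hPs => by
            rw [show D P = 0 from not_not.mp fun h => hPs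
              (hsupp P ((Finset.mem_union.mp hP).elim (hsS P) (htS P)) h), zero_mul],
          ← Finset.sum_subset Finset.subset_union_right fun P hP hPs => by
            rw [show DY P = 0 from not_not.mp fun h => hPs
              (htsupp P ((Finset.mem_union.mp hP).elim (hsS P) (htS P)) h), zero_mul],
          show ((j : ℕ) : ZMod p) = _ from ZMod.natCast_zmod_val _, div_mul_cancel₀ _ hne,
          add_neg_cancel]
    refine ⟨XA + X - j • Y, sub_mem (add_mem hXA hX) (nsmul_mem hY j),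
      Levels.B2_congr hB fun a _ b _ => ?_⟩
    rw [corMu_sub, corMu_add, corMu_nsmul]
    simp only [f, Pi.sub_apply, Pi.add_apply, Pi.smul_apply]
    abel
  · obtain ⟨X, hX, -, hB⟩ := exists_cor_of_orthogonal χ hpS hK hζK hker hσ hσ1 hD s hsS hsupp
      fun h => absurd h hχ
    refine ⟨XA + X, add_mem hXA hX, Levels.B2_congr hB fun a _ b _ => ?_⟩
    rw [corMu_add]
    simp only [f, Pi.sub_apply, Pi.add_apply]
    abel

/-- Transport of a class on `Δ` to the image of `Δ`. -/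
lemma of_invFun_mem_Z2 {Δ : Type} [Group Δ] {e : Δ →* GQ} {K : IntermediateField ℚ Qbar}
    {pre : GQ → Δ} (hpre : ∀ x ∈ K.fixingSubgroup, e (pre x) = x) (hpre' : ∀ d, pre (e d) = d)
    (hsmul : ∀ a ∈ K.fixingSubgroup, ∀ m : Mu (chiQ p), a • m = m) {f : Δ → Δ → Triv Δ (ZMod p)}
    (hf : f ∈ ((LS S).comap e).Z2 ⊤ (Triv Δ (ZMod p))) :
    (fun a b => Mu.of (chiQ p) (f (pre a) (pre b))) ∈
      (LS S).Z2 K.fixingSubgroup (Mu (chiQ p)) := by
  obtain ⟨⟨V', ⟨W, hW, hWV, -⟩, hc⟩, hcoc⟩ := hf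
  have hmul : ∀ x ∈ K.fixingSubgroup, ∀ y ∈ K.fixingSubgroup, pre (x * y) = pre x * pre y :=
    fun x hx y hy => by rw [← hpre' (pre x * pre y), map_mul, hpre x hx, hpre y hy]
  refine ⟨⟨W, hW, fun a ha b hb s hs t ht => congrArg (Mu.of (chiQ p)) ?_⟩,
    fun a ha b hb c hc' => ?_⟩
  · have hin : ∀ s ∈ K.fixingSubgroup ⊓ W, pre s ∈ ⊤ ⊓ V' := fun s hs =>
      ⟨Subgroup.mem_top _, hWV (show e (pre s) ∈ W from (hpre s hs.1).symm ▸ hs.2)⟩
    rw [hmul a ha s hs.1, hmul b hb t ht.1]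
    exact hc _ (Subgroup.mem_top _) _ (Subgroup.mem_top _) _ (hin s hs) _ (hin t ht)
  · have h := congrArg (Mu.of (chiQ p)) (hcoc (pre a) (Subgroup.mem_top _) (pre b)
      (Subgroup.mem_top _) (pre c) (Subgroup.mem_top _))
    simp only [d2, Triv.smul_eq] at h ⊢
    rw [hsmul a ha]
    simp only [hmul a ha b hb, hmul b hb c hc']
    exact h

/-- Summing over the cosets of `V` is summing over the cosets of its image in the image of `Δ`. -/
lemma sum_image_cosets {Γ Δ : Type*} [Group Γ] [Group Δ] {e : Δ →* Γ} (he : Function.Injective e)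
    (V : Subgroup Δ) [V.FiniteIndex] {N U : Subgroup Γ} [N.FiniteIndex] (hN : N = V.map e)
    (hU : U = e.range) (hNU : N ≤ U) {emb : Δ ⧸ V → Γ ⧸ N} (hemb : ∀ x : Δ, emb x = (e x : Γ ⧸ N))
    {M : Type*} [AddCommMonoid M] (ψ : Γ ⧸ N → M) :
    ∑ c, ψ (emb c) = ∑ x ∈ Finset.univ.filter (fun x => Ind.proj hNU x = ((1 : Γ) : Γ ⧸ U)),
      ψ x := by
  refine Finset.sum_bij (fun c _ => emb c) (fun c _ => ?_) (fun a _ b _ hab => ?_)
    (fun c hc => ?_) fun c _ => rfl
  · induction c using QuotientGroup.induction_on with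
    | _ x =>
      simp only [Finset.mem_filter, Finset.mem_univ, true_and, hemb]
      show ((e x : Γ) : Γ ⧸ U) = ((1 : Γ) : Γ ⧸ U)
      rw [QuotientGroup.eq, mul_one, hU]
      exact inv_mem ⟨x, rfl⟩
  · induction a using QuotientGroup.induction_on with
    | _ x =>
      induction b using QuotientGroup.induction_on with
      | _ y =>
        rw [hemb, hemb, QuotientGroup.eq, hN, ← map_inv, ← map_mul] at hab
        rw [QuotientGroup.eq]
        exact (Subgroup.mem_map_iff_mem he).mp hab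
  · induction c using QuotientGroup.induction_on with
    | _ x =>
      have hx : ((x : Γ) : Γ ⧸ U) = ((1 : Γ) : Γ ⧸ U) := (Finset.mem_filter.mp hc).2
      rw [QuotientGroup.eq, mul_one, inv_mem_iff, hU] at hx
      obtain ⟨d, rfl⟩ := hx
      exact ⟨(d : Δ ⧸ V), Finset.mem_univ _, hemb d⟩

/-- The steps of index `p` for the levels unramified outside `S`. -/
theorem stepSurj_LS (hpS : ExtCitation.pPrime p ∈ S) (hp2 : p ≠ 2) {U : Subgroup GQ}
    (hU : U ≤ (chiQ p).ker) : StepSurj (LS S) p U := by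
  refine stepSurj_of_ker (chiQ p) (ker_chiQ_mem_LS p hpS) hU ?_
  intro Δ _ e he hr hrχ V _ hVn hVp hVL _ f hf
  have : NeZero p := ⟨hp.out.ne_zero⟩
  obtain ⟨K, hK, hKW⟩ : ∃ K : IntermediateField ℚ Qbar, K.IsUnramifiedOutside S ∧
      K.fixingSubgroup = e.range :=
    ⟨fixedField e.range, isUnramifiedOutside_of_mem hr, fixingSubgroup_fixedField_of_mem (LS_le hr)⟩
  have := hK.1
  have := LQ.finiteIndex (fixingSubgroup_mem_galLevels K)
  have hcK : cycK p ≤ K := le_of_fixingSubgroup_le (by rw [fixingSubgroup_cycK, hKW]; exact hrχ)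
  have hζK : zet p ∈ K := hcK (zet_mem_cycK p)
  have := isTotallyComplex_cycK p hp2
  have : NumberField.IsTotallyComplex K := isTotallyComplex_of_le hcK
  have hKχ : K.fixingSubgroup ≤ (chiQ p).ker := fix_le_ker hζK
  -- the image of the subgroup
  set N := V.map e
  have hNK : N ≤ K.fixingSubgroup := hKW ▸ Subgroup.map_le_range e V
  have hNL : N ∈ LS S := by
    obtain ⟨W, hW, hWV, -⟩ := hVL
    refine Levels.mem_of_le ((LS S).inf_mem hW hr) ?_
    rintro _ ⟨hx, ⟨d, rfl⟩⟩
    exact ⟨d, hWV hx, rfl⟩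
  have : (N.subgroupOf K.fixingSubgroup).Normal := ⟨fun n hn x => by
    obtain ⟨v, hv, hvn⟩ := (Subgroup.mem_subgroupOf.mp hn : (n : GQ) ∈ V.map e)
    obtain ⟨d, hd⟩ : (x : GQ) ∈ e.range := hKW ▸ x.2
    rw [Subgroup.mem_subgroupOf]
    refine ⟨d * v * d⁻¹, hVn.conj_mem v hv d, ?_⟩
    rw [map_mul, map_mul, map_inv, hvn, hd]
    rfl⟩
  have hidx : N.relIndex K.fixingSubgroup = p := by
    rw [hKW, MonoidHom.range_eq_map, show N = V.map e from rfl,
      Subgroup.relIndex_map_map_of_injective _ _ he, Subgroup.relIndex_top_right, hVp]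
  obtain ⟨χ, σ, hσ, hσ1, hker⟩ := exists_cycChar_of_index_prime (L := LQ) hNK (LS_le hNL) hidx
  have hW'N : (extField χ).fixingSubgroup = N := (fixingSubgroup_extField χ).trans hker
  -- the class on the image
  have hsurj : ∀ x ∈ K.fixingSubgroup, ∃ d : Δ, e d = x := fun x hx => by
    rw [hKW] at hx
    exact hx
  let pre : GQ → Δ := Function.invFun e
  have hpre : ∀ x ∈ K.fixingSubgroup, e (pre x) = x := fun x hx => Function.invFun_eq (hsurj x hx)
  have hpre' : ∀ d, pre (e d) = d := Function.leftInverse_invFun he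
  have heK : ∀ d, e d ∈ K.fixingSubgroup := fun d => hKW ▸ ⟨d, rfl⟩
  have hsmul : ∀ a ∈ K.fixingSubgroup, ∀ m : Mu (chiQ p), a • m = m := fun a ha m =>
    smul_mu_eq hζK ha m
  set g : GQ → GQ → Mu (chiQ p) := fun a b => Mu.of (chiQ p) (f (pre a) (pre b))
  have hg : g ∈ (LS S).Z2 K.fixingSubgroup (Mu (chiQ p)) := of_invFun_mem_Z2 hpre hpre' hsmul hf
  obtain ⟨X, hX, hgX⟩ := exists_cor χ hpS hp2 hK hζK (hker ▸ hNL) hσ hσ1 hg
  -- transfer back
  let emb : Δ ⧸ V → GQ ⧸ (extField χ).fixingSubgroup := Quotient.map' e fun a b hab => by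
    rw [QuotientGroup.leftRel_apply] at hab ⊢
    rw [hW'N, ← map_inv, ← map_mul]
    exact ⟨_, hab, rfl⟩
  have hemb : ∀ (d : Δ) c, emb (d • c) = e d • emb c := fun d c => by
    induction c using QuotientGroup.induction_on with
    | _ x =>
      show ((e (d * x) : GQ) : GQ ⧸ (extField χ).fixingSubgroup) = ((e d * e x : GQ) : _)
      rw [map_mul]
  let Φ : Ind (extField χ).fixingSubgroup (Mu (chiQ p)) →+ Ind V (Triv Δ (ZMod p)) :=
    { toFun := fun φ => Ind.mk V fun c => Mu.val (chiQ p) (φ (emb c))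
      map_zero' := Ind.ext fun c => map_zero (Mu.val (chiQ p))
      map_add' := fun φ ψ => Ind.ext fun c => map_add (Mu.val (chiQ p)) (φ (emb c)) (ψ (emb c)) }
  have hΦ : ∀ (d : Δ) φ, Φ (e d • φ) = d • Φ φ := fun d φ => Ind.ext fun c => by
    show Mu.val (chiQ p) (e d • φ ((e d)⁻¹ • emb c)) = Mu.val (chiQ p) (φ (emb (d⁻¹ • c)))
    rw [hsmul _ (heK d), hemb, map_inv]
  have htot : ∀ φ, Ind.total (Φ φ) =
      Mu.val (chiQ p)
        (Ind.fibreSum (layer_le χ) φ ((1 : GQ) : GQ ⧸ K.fixingSubgroup)) := fun φ => by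
    refine Eq.trans ?_ (map_sum (Mu.val (chiQ p)) (fun x => φ x)
      (Finset.univ.filter fun x => Ind.proj (layer_le χ) x =
        ((1 : GQ) : GQ ⧸ K.fixingSubgroup))).symm
    exact sum_image_cosets he V hW'N hKW (layer_le χ) (fun _ => rfl) fun x =>
      Mu.val (chiQ p) (φ x)
  refine ⟨fun a b => Φ (X (e a) (e b)), ⟨?_, fun a _ b _ c _ => ?_⟩, ?_⟩
  · obtain ⟨W, hW, hc⟩ := hX.1
    exact ⟨W.comap e, (LS S).comap_mem e hW, fun a _ b _ s hs t ht => congrArg Φ (by
      rw [map_mul, map_mul]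
      exact hc _ (Subgroup.mem_top _) _ (Subgroup.mem_top _) _ ⟨Subgroup.mem_top _, hs.2⟩ _
        ⟨Subgroup.mem_top _, ht.2⟩)⟩
  · have h := congrArg Φ (hX.2 (e a) (Subgroup.mem_top _) (e b) (Subgroup.mem_top _) (e c)
      (Subgroup.mem_top _))
    simp only [d2, map_add, map_sub, map_zero, hΦ, ← map_mul] at h ⊢
    exact h
  · obtain ⟨η, ⟨W, hW, hc⟩, hη⟩ := hgX
    refine ⟨fun a => Mu.val (chiQ p) (η (e a)), ⟨W.comap e, (LS S).comap_mem e hW,
      fun a _ s hs => congrArg (Mu.val (chiQ p)) (by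
        rw [map_mul]
        exact hc _ (heK a) _ ⟨heK s, hs.2⟩)⟩, fun a _ b _ => ?_⟩
    have h := congrArg (Mu.val (chiQ p)) (hη (e a) (heK a) (e b) (heK b))
    simp only [d1, hsmul _ (heK a), ← map_mul, map_add, map_sub, Pi.sub_apply, g, hpre', Mu.val_of,
      corMu] at h
    show f a b - Ind.total (Φ (X (e a) (e b))) = _
    rw [htot]
    exact h

/-- Corestriction is surjective in degree two for levels unramified outside `S`. -/
theorem corSurj_LS (hpS : ExtCitation.pPrime p ∈ S) (hp2 : p ≠ 2) (W : Subgroup GQ) [W.FiniteIndex]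
    (hWn : W.Normal) (hW : W ∈ LS S) (hWχ : W ≤ (chiQ p).ker) (M : Type) [AddCommGroup M]
    [Module (ZMod p) M] [Finite M] [DistribMulAction GQ M] (htriv : ∀ g ∈ W, ∀ m : M, g • m = m) :
    CorSurj (LS S) W M :=
  corSurj_of_step hWn hW (stepSurj_LS hpS hp2 hWχ) M htriv

end FermatAgent.CFT.Global
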