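import Fermat.Agent.CFT.Global.SCorObs

/-!
Corestriction from a cyclic layer is surjective in degree two on classes unramified outside `S`.

Used for surjectivity of corestriction: `exists_cor_pairing_ne_zero` gives, for a layer cut out by a
character `χ` split above `S`, a class of the layer whose corestriction has an obstruction pairing
non-trivially with `χ`.
Classes whose total local evaluation `famEval` vanishes on all local families are invisible in the
multiplicative group (`muClass_mem_B2_of_evals`), and classes with vanishing push-down evaluate to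
zero on families agreeing on its kernel with one functional equivariant there
(`famEval_eq_zero_of_push`). The functionals of coset representatives (`repChar`, `wFun`) are not
sums of a global functional and one pulled back from the base (`repChar_ne_add`), so some class
evaluates non-trivially on them.
-/

set_option autoImplicit false

noncomputable section

open scoped Classical
open IntermediateField

namespace FermatAgent.CFT.Global

open Coh Local GaloisBasic

variable {p : ℕ} [hp : Fact p.Prime] {S : Finset Nat.Primes}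

section Eval

variable {U : Subgroup GQ}

/-- The total evaluation on local families. -/
def famEval {G : GQ → GQ → Ind U (Mu (chiQ p))} (hG : G ∈ (LS S).Z2 ⊤ (Ind U (Mu (chiQ p)))) :
    LocFam p S U →+ ZMod p :=
  AddMonoidHom.mk' (fun e => ∑ v : S, (locDatum p ((v : Nat.Primes) : ℕ)).eval
      (M := Res (localGaloisToGlobal ((v : Nat.Primes) : ℕ)) (Ind U (Mu (chiQ p))))
      (pullR ((v : Nat.Primes) : ℕ) G) (e v).1) fun e e' => by
    rw [← Finset.sum_add_distrib]
    exact Finset.sum_congr rfl fun v _ => (locDatum p ((v : Nat.Primes) : ℕ)).eval_add_right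
      (pullR_mem_Z2 (Levels.Z2_le (fun W => LS_le) hG)) (e v).2 (e' v).2

/-- The total evaluation as a sum of local evaluations. -/
lemma famEval_apply {G : GQ → GQ → Ind U (Mu (chiQ p))}
    (hG : G ∈ (LS S).Z2 ⊤ (Ind U (Mu (chiQ p)))) (e : LocFam p S U) :
    famEval hG e = ∑ v : S, (locDatum p ((v : Nat.Primes) : ℕ)).eval
      (M := Res (localGaloisToGlobal ((v : Nat.Primes) : ℕ)) (Ind U (Mu (chiQ p))))
      (pullR ((v : Nat.Primes) : ℕ) G) (e v).1 := rfl

/-- The evaluation vanishes on global functionals. -/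
lemma famEval_diag (hpS : ExtCitation.pPrime p ∈ S) (hp2 : p ≠ 2)
    {G : GQ → GQ → Ind U (Mu (chiQ p))} (hG : G ∈ (LS S).Z2 ⊤ (Ind U (Mu (chiQ p))))
    (ψ : Ind U (Mu (chiQ p)) →+ ZMod p)
    (hψ : ψ ∈ eqHom (chiQ p) (MonoidHom.id GQ) (Ind U (Mu (chiQ p)))) :
    famEval hG
      (fun v => ⟨ψ, fun d m => hψ (localGaloisToGlobal ((v : Nat.Primes) : ℕ) d) m⟩) = 0 := by
  have h := sum_locDatum_inv hpS hp2
    (Levels.map_mem_Z2 ((Mu.of (chiQ p)).comp ψ) (fun g _ => mu_smul_of_mem (chiQ p) hψ g) hG)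
  rw [famEval_apply]
  exact h

end Eval

variable {K : IntermediateField ℚ Qbar} [FiniteDimensional ℚ K]

/-- Classes without local invariants are invisible in the multiplicative group. -/
theorem muClass_mem_B2_of_evals [K.fixingSubgroup.FiniteIndex] [NumberField.IsTotallyComplex K]
    (hpS : ExtCitation.pPrime p ∈ S) (hK : K.IsUnramifiedOutside S)
    {G : GQ → GQ → Ind K.fixingSubgroup (Mu (chiQ p))}
    (hG : G ∈ (LS S).Z2 ⊤ (Ind K.fixingSubgroup (Mu (chiQ p))))
    (h : ∀ e : LocFam p S K.fixingSubgroup, famEval hG e = 0) :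
    muClass (fun a b => G a b ((1 : GQ) : GQ ⧸ K.fixingSubgroup)) ∈ LQ.B2 K.fixingSubgroup GM := by
  have hev := eval_mem_Z2 hG
  refine mem_B2_of_locTriv_prime (p := p) (muClass_mem_Z2 (fun W => LS_le) hev)
    (Levels.B2_congr (zero_mem _) fun a _ b _ => nsmul_muG _) fun q _ g => ?_
  by_cases hq : (⟨q, Fact.out⟩ : Nat.Primes) ∈ S
  swap
  · exact pullAt_muClass_mem_B2 hpS hK hev hq g
  have hGQ := Levels.Z2_le (fun W => LS_le) hG
  refine pullAt_mem_B2_of_pullR hGQ ?_ g
  obtain ⟨N, hN, hNn, hNle⟩ := (LS S).exists_normal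
    ((LS S).inf_mem (fixingSubgroup_mem_LS hK) (ker_chiQ_mem_LS p hpS))
  set N' := N.comap (localGaloisToGlobal q)
  have hN' : N' ∈ LL q := (comap_levels_eq (1 : GQ) _).mp
    (by rw [locHom_one]; exact LQ.comap_mem _ (LS_le hN))
  have := (LL q).finiteIndex hN'
  let : Module (ZMod p) (Res (localGaloisToGlobal q) (Ind K.fixingSubgroup (Mu (chiQ p)))) :=
    AddCommGroup.zmodModule fun φ => by
      change p • (show Ind K.fixingSubgroup (Mu (chiQ p)) from φ) = 0
      exact Ind.ext fun c => by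
        rw [show (p • (show Ind K.fixingSubgroup (Mu (chiQ p)) from φ)) c =
          p • (show Ind K.fixingSubgroup (Mu (chiQ p)) from φ) c from map_nsmul (Ind.eval c) p _]
        rw [Ind.zero_apply]
        exact Mu.ext _ (by rw [map_nsmul, nsmul_eq_mul, ZMod.natCast_self, zero_mul, map_zero])
  have : Finite (Res (localGaloisToGlobal q) (Ind K.fixingSubgroup (Mu (chiQ p)))) :=
    inferInstanceAs (Finite (Ind K.fixingSubgroup (Mu (chiQ p))))
  refine (locDatum p q).mem_B2_of_eval (W := N') (hNn.comap _) hN' (fun d hd => ?_)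
    (fun d hd φ => ?_)
    (pullR_mem_Z2 hGQ) fun n hn => ?_
  · exact (hNle hd).2
  · refine Ind.ext (M := Mu (chiQ p)) (U := K.fixingSubgroup) fun c => ?_
    show localGaloisToGlobal q d • (show Ind K.fixingSubgroup (Mu (chiQ p)) from φ)
        ((localGaloisToGlobal q d)⁻¹ • c) = (show Ind K.fixingSubgroup (Mu (chiQ p)) from φ) c
    rw [smul_coset_of_mem _ hNn (hNle.trans inf_le_left) (inv_mem hd)]
    exact Mu.ext _ (by
      rw [Mu.val_smul, show chiQ p (localGaloisToGlobal q d) = 1 from (hNle hd).2, Units.val_one,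
        one_mul])
  · set v₀ : S := ⟨⟨q, Fact.out⟩, hq⟩
    have h1 := h (Pi.single v₀ ⟨n, hn⟩)
    rw [famEval_apply, Finset.sum_eq_single v₀] at h1
    · rw [Pi.single_eq_same] at h1
      exact h1
    · intro v _ hv
      rw [Pi.single_eq_of_ne hv]
      refine Eq.trans ?_ ((locDatum p ((v : Nat.Primes) : ℕ)).inv_zero (LL _).top_mem)
      show (locDatum p ((v : Nat.Primes) : ℕ)).inv ⊤ _ = _
      congr 1
    · exact fun h => absurd (Finset.mem_univ _) h

/-- Obstructions have finite support away from `S`. -/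
lemma IsObs.exists_support {f : GQ → GQ → Mu (chiQ p)} {D : PK K → ZMod p} (hD : IsObs S K f D) :
    ∃ s : Finset (PK K), (∀ P ∈ s, qP P ∉ S) ∧ ∀ P, qP P ∉ S → D P ≠ 0 → P ∈ s := by
  obtain ⟨M, β, c, hM, hKM, hβ, -, -, -, -, hord⟩ := hD
  have := hM.1
  obtain ⟨t, ht⟩ := finite_hasOrd_ne_zero (K := K) hKM hM hβ
  refine ⟨t.filter fun P => qP P ∉ S, fun P hP => (Finset.mem_filter.mp hP).2,
    fun P hPS hD0 => Finset.mem_filter.mpr ⟨by
      by_contra hPt
      obtain ⟨n, hn, hnD⟩ := hord (qP P) hPS (gOf P)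
      rw [hn.unique (ht P hPS hPt), Int.cast_zero] at hnD
      exact hD0 (by rw [(isPoint_gOf P).eq_primeAt]; exact hnD.symm), hPS⟩⟩

variable [K.fixingSubgroup.FiniteIndex]

section Weight

omit [FiniteDimensional ℚ K]

/-- The functional with given coefficients. -/
def wFun (C : GQ ⧸ K.fixingSubgroup → ZMod p) : Ind K.fixingSubgroup (Mu (chiQ p)) →+ ZMod p :=
  AddMonoidHom.mk' (fun φ => ∑ x, C x * Mu.val (chiQ p) (φ x)) fun φ ψ => by
    rw [← Finset.sum_add_distrib]
    exact Finset.sum_congr rfl fun x _ => by rw [Ind.add_apply, map_add, mul_add]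

lemma wFun_apply (C : GQ ⧸ K.fixingSubgroup → ZMod p) (φ : Ind K.fixingSubgroup (Mu (chiQ p))) :
    wFun C φ = ∑ x, C x * Mu.val (chiQ p) (φ x) := rfl

lemma wFun_smul (C : GQ ⧸ K.fixingSubgroup → ZMod p) (g : GQ)
    (φ : Ind K.fixingSubgroup (Mu (chiQ p))) :
    wFun C (g • φ) = (chiQ p g : ZMod p) * wFun (fun x => C (g • x)) φ := by
  rw [wFun_apply, wFun_apply, Finset.mul_sum]
  refine (Fintype.sum_equiv (MulAction.toPerm g) _ _ fun x => ?_).symm
  rw [MulAction.toPerm_apply, Ind.smul_apply, inv_smul_smul, Mu.val_smul, mul_left_comm]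

lemma wFun_indSingle (C : GQ ⧸ K.fixingSubgroup → ZMod p) (x : GQ ⧸ K.fixingSubgroup)
    (a : Mu (chiQ p)) : wFun C (indSingle x a) = C x * Mu.val (chiQ p) a := by
  rw [wFun_apply, Finset.sum_eq_single x (fun y _ hy => by
    rw [indSingle_apply, if_neg hy, map_zero, mul_zero]) (fun h => absurd (Finset.mem_univ _) h),
    indSingle_apply, if_pos rfl]

lemma wFun_proj {K' : IntermediateField ℚ Qbar} [K'.fixingSubgroup.FiniteIndex]
    (hle : K'.fixingSubgroup ≤ K.fixingSubgroup) (k : GQ ⧸ K.fixingSubgroup → ZMod p)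
    (φ : Ind K'.fixingSubgroup (Mu (chiQ p))) :
    wFun (fun x => k (Ind.proj hle x)) φ = wFun k (Ind.fibreSum hle φ) := by
  rw [wFun_apply, wFun_apply, ← Finset.sum_fiberwise Finset.univ (Ind.proj hle)]
  refine Finset.sum_congr rfl fun d _ => ?_
  refine Eq.trans ?_ (congrArg (k d * ·)
    (map_sum (Mu.val (chiQ p)) (fun x => φ x) (Finset.univ.filter fun x =>
      Ind.proj hle x = d)).symm)
  show _ = k d * _
  rw [Finset.mul_sum]
  exact Finset.sum_congr rfl fun x hx => by rw [(Finset.mem_filter.mp hx).2]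

lemma wFun_sub (C C' : GQ ⧸ K.fixingSubgroup → ZMod p) (φ : Ind K.fixingSubgroup (Mu (chiQ p))) :
    wFun (fun x => C x - C' x) φ = wFun C φ - wFun C' φ := by
  rw [wFun_apply, wFun_apply, wFun_apply, ← Finset.sum_sub_distrib]
  exact Finset.sum_congr rfl fun x _ => sub_mul _ _ _

omit [K.fixingSubgroup.FiniteIndex] in
lemma fibreSum_indSingle {K' : IntermediateField ℚ Qbar} [K'.fixingSubgroup.FiniteIndex]
    (hle : K'.fixingSubgroup ≤ K.fixingSubgroup) (x : GQ ⧸ K'.fixingSubgroup) (a : Mu (chiQ p)) :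
    Ind.fibreSum hle (indSingle x a) = indSingle (Ind.proj hle x) a := Ind.ext fun d => by
  rw [Ind.fibreSum_apply, indSingle_apply]
  simp only [indSingle_apply]
  rw [Finset.sum_ite_eq']
  simp only [Finset.mem_filter, Finset.mem_univ, true_and]
  by_cases hd : Ind.proj hle x = d
  · rw [if_pos hd, if_pos hd.symm]
  · rw [if_neg hd, if_neg (Ne.symm hd)]

end Weight

variable {K' : IntermediateField ℚ Qbar} [FiniteDimensional ℚ K'] [K'.fixingSubgroup.FiniteIndex]
  (hle : K'.fixingSubgroup ≤ K.fixingSubgroup)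

omit [FiniteDimensional ℚ ↥K] [FiniteDimensional ℚ ↥K'] in
include hle in
/-- Classes with vanishing push-down are orthogonal to families equivariant on its kernel. -/
theorem famEval_eq_zero_of_push (hpS : ExtCitation.pPrime p ∈ S) (hp2 : p ≠ 2)
    (hK : K.IsUnramifiedOutside S) (hK' : K'.IsUnramifiedOutside S)
    {z : GQ → GQ → Ind K'.fixingSubgroup (Mu (chiQ p))}
    (hz : z ∈ (LS S).Z2 ⊤ (Ind K'.fixingSubgroup (Mu (chiQ p))))
    (hB : (fun a b => Ind.fibreSum hle (z a b) ((1 : GQ) : GQ ⧸ K.fixingSubgroup)) ∈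
      (LS S).B2 K.fixingSubgroup (Mu (chiQ p)))
    (e : LocFam p S K'.fixingSubgroup) (ψ : Ind K'.fixingSubgroup (Mu (chiQ p)) →+ ZMod p)
    (hψ : ∀ (g : GQ) φ, Ind.fibreSum hle φ = 0 → ψ (g • φ) = (chiQ p g : ZMod p) * ψ φ)
    (heψ : ∀ (v : S) φ, Ind.fibreSum hle φ = 0 → (e v).1 φ = ψ φ) :
    famEval hz e = 0 := by
  have hsm : (LS S).Smooth (Mu (chiQ p)) := fun a => ⟨(chiQ p).ker, ker_chiQ_mem_LS p hpS,
    fun g hg => Mu.ext _ (by rw [Mu.val_smul, MonoidHom.mem_ker.mp hg, Units.val_one, one_mul])⟩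
  have hfib : ∀ (g : GQ) φ, Ind.fibreSum hle (g • φ) = g • Ind.fibreSum (M := Mu (chiQ p)) hle φ :=
    fun g φ => Ind.fibreSum_smul hle g φ
  have hW := fixingSubgroup_mem_LS hK
  obtain ⟨η, hη, hzη⟩ := mem_B2_of_eval_mem_B2 hW (smooth_ind hW hsm)
    (Levels.map_mem_Z2 _ (fun g _ φ => hfib g φ) hz) hB
  let lift : Ind K.fixingSubgroup (Mu (chiQ p)) →+ Ind K'.fixingSubgroup (Mu (chiQ p)) :=
    AddMonoidHom.mk'
      (fun φ => ∑ d, indSingle ((sec K.fixingSubgroup d : GQ) : GQ ⧸ K'.fixingSubgroup) (φ d))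
      fun φ φ' => by
        rw [← Finset.sum_add_distrib]
        exact Finset.sum_congr rfl fun d _ => map_add _ _ _
  have hlift : ∀ φ, Ind.fibreSum hle (lift φ) = φ := fun φ => by
    show Ind.fibreSum hle (∑ d, indSingle _ (φ d)) = φ
    rw [map_sum]
    conv_rhs => rw [← sum_indSingle φ]
    exact Finset.sum_congr rfl fun d _ => by rw [fibreSum_indSingle, Ind.proj_coe, mk_sec]
  set η' : GQ → Ind K'.fixingSubgroup (Mu (chiQ p)) := fun a => lift (η a)
  have hd : d1 η' ∈ (LS S).B2 ⊤ (Ind K'.fixingSubgroup (Mu (chiQ p))) :=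
    Levels.d1_mem_B2 (hη.comp lift)
  set Z := z - d1 η'
  have hW' := fixingSubgroup_mem_LS hK'
  have hZ : Z ∈ (LS S).Z2 ⊤ (Ind K'.fixingSubgroup (Mu (chiQ p))) :=
    sub_mem hz (Levels.B2_le_Z2 (smooth_ind hW' hsm) hd)
  have hZ0 : ∀ a b, Ind.fibreSum hle (Z a b) = 0 := fun a b => by
    show Ind.fibreSum hle (z a b - (a • lift (η b) - lift (η (a * b)) + lift (η a))) = 0
    rw [map_sub, map_add, map_sub, hfib, hlift, hlift, hlift, sub_eq_zero]
    exact hzη a trivial b trivial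
  set f : GQ → GQ → Mu (chiQ p) := fun a b => Mu.of (chiQ p) (ψ (Z a b))
  have hf : f ∈ (LS S).Z2 ⊤ (Mu (chiQ p)) := by
    refine ⟨hZ.1.comp fun φ => Mu.of (chiQ p) (ψ φ), fun a ha b hb c hc => ?_⟩
    have h := congrArg (fun φ => Mu.of (chiQ p) (ψ φ)) (hZ.2 a ha b hb c hc)
    simp only [d2, map_add, map_sub, map_zero] at h ⊢
    rw [hψ a _ (hZ0 b c)] at h
    rw [show a • f b c = Mu.of (chiQ p) ((chiQ p a : ZMod p) * ψ (Z b c)) from
      Mu.ext _ (by rw [Mu.val_smul, Mu.val_of, Mu.val_of])]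
    exact h
  refine Eq.trans ?_ (sum_locDatum_inv hpS hp2 hf)
  rw [famEval_apply]
  refine Finset.sum_congr rfl fun v _ => ?_
  have hLQ : ∀ {F : GQ → GQ → Ind K'.fixingSubgroup (Mu (chiQ p))}, F ∈ (LS S).Z2 ⊤ _ →
      pullR ((v : Nat.Primes) : ℕ) F ∈ (LL _).Z2 ⊤ _ :=
    fun hF => pullR_mem_Z2 (Levels.Z2_le (fun W => LS_le) hF)
  rw [(locDatum p ((v : Nat.Primes) : ℕ)).eval_congr (hLQ hz) (hLQ hZ) ?_ (e v).2]
  · show (locDatum p ((v : Nat.Primes) : ℕ)).inv ⊤ _ = _
    congr 1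
    funext a b
    show Mu.of _ ((e v).1 (Z _ _)) = Mu.of _ (Mu.val (chiQ p) (Mu.of (chiQ p) (ψ (Z _ _))))
    rw [Mu.val_of, heψ v _ (hZ0 _ _)]
  · refine Levels.B2_congr (pullR_mem_B2 (Levels.B2_le (fun W => LS_le) hd)) fun a _ b _ => ?_
    show Res.of _ _ (z _ _) - Res.of _ _ (z _ _ - d1 η' _ _) = Res.of _ _ (d1 η' _ _)
    rw [← map_sub, sub_sub_cancel]

/-- The evaluation is additive in the class. -/
lemma famEval_add {U : Subgroup GQ} {G G' : GQ → GQ → Ind U (Mu (chiQ p))}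
    (hG : G ∈ (LS S).Z2 ⊤ (Ind U (Mu (chiQ p)))) (hG' : G' ∈ (LS S).Z2 ⊤ (Ind U (Mu (chiQ p))))
    (e : LocFam p S U) : famEval (add_mem hG hG') e = famEval hG e + famEval hG' e := by
  rw [famEval_apply, famEval_apply, famEval_apply, ← Finset.sum_add_distrib]
  refine Finset.sum_congr rfl fun v _ => ?_
  rw [← (locDatum p ((v : Nat.Primes) : ℕ)).eval_add
    (pullR_mem_Z2 (Levels.Z2_le (fun W => LS_le) hG))
    (pullR_mem_Z2 (Levels.Z2_le (fun W => LS_le) hG')) (e v).2]
  rfl

section Split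

variable (χ : CycChar LQ K.fixingSubgroup p)

section
omit [K.fixingSubgroup.FiniteIndex]

/-- The corestricted residue commutes with differences. -/
lemma corMu_sub (X Y : GQ → GQ → Ind (extField χ).fixingSubgroup (Mu (chiQ p))) :
    corMu χ (X - Y) = corMu χ X - corMu χ Y := by
  funext a b
  simp only [corMu, Pi.sub_apply, map_sub, Ind.sub_apply]

lemma split_apply (hχ : IsSplitChar S χ) (q : ℕ) [Fact q.Prime] (P : PK K) (e : qOf P = q)
    (hq : qP P ∈ S) (d : Gal' q) (hd : locHom q (gOf P) d ∈ K.fixingSubgroup) :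
    χ (locHom q (gOf P) d) = 0 := by
  subst e
  have h := (hχ P).2 hq d (by rw [show locK P = locField (qOf P) (gOf P) K from rfl,
    fixingSubgroup_locField, Subgroup.mem_comap]; exact hd)
  rwa [zero_mul] at h

/-- Representatives of cosets compatible with the decomposition groups. -/
lemma exists_local_rep (hχ : IsSplitChar S χ) (v : S) :
    ∃ r : GQ ⧸ K.fixingSubgroup → GQ, (∀ x, ((r x : GQ) : GQ ⧸ K.fixingSubgroup) = x) ∧
      ∀ (d : Gal' ((v : Nat.Primes) : ℕ)) x, ∃ w ∈ K.fixingSubgroup, χ w = 0 ∧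
        localGaloisToGlobal ((v : Nat.Primes) : ℕ) d * r x =
          r (localGaloisToGlobal ((v : Nat.Primes) : ℕ) d • x) * w := by
  set q := ((v : Nat.Primes) : ℕ)
  set P : GQ ⧸ K.fixingSubgroup → PK K := fun x => primeAt K q (sec K.fixingSubgroup x)
  have eP : ∀ x, qOf (P x) = q := fun x => (isPoint_primeAt (K := K)).prime_eq (isPoint_gOf (P x))
  have h0 : ∀ x, ∃ d : Gal' q,
      ((localGaloisToGlobal q d * gOf (P x) : GQ) : GQ ⧸ K.fixingSubgroup) = x := fun x => by
    obtain ⟨d, w, hw, e⟩ := (isPoint_of_eq (eP x)).exists_mul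
      (isPoint_primeAt (K := K) (q := q) (g := sec K.fixingSubgroup x))
    refine ⟨d, ?_⟩
    conv_rhs => rw [← mk_sec K.fixingSubgroup x, e]
    rw [QuotientGroup.eq, locHom_apply]
    convert hw using 1
    group
  choose d0 hd0 using h0
  refine ⟨fun x => localGaloisToGlobal q (d0 x) * gOf (P x), hd0, fun d x => ?_⟩
  set y := localGaloisToGlobal q d • x
  have hPy : P y = P x := by
    obtain ⟨u, hu, e⟩ := exists_sec_smul (K' := K) (localGaloisToGlobal q d) x
    show primeAt K q (sec K.fixingSubgroup y) = _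
    rw [eq_mul_inv_iff_mul_eq.mpr e.symm, primeAt_mul_left d _ (inv_mem hu)]
  set w := locHom q (gOf (P x)) ((d0 y)⁻¹ * (d * d0 x))
  have e1 : localGaloisToGlobal q d * (localGaloisToGlobal q (d0 x) * gOf (P x)) =
      localGaloisToGlobal q (d0 y) * gOf (P y) * w := by
    simp only [w, hPy, locHom_apply, map_mul, map_inv]
    group
  have hw : w ∈ K.fixingSubgroup := by
    have h1 : ((localGaloisToGlobal q d * (localGaloisToGlobal q (d0 x) * gOf (P x)) : GQ) :
        GQ ⧸ K.fixingSubgroup) = y := by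
      rw [← smul_eq_mul (localGaloisToGlobal q d), ← MulAction.Quotient.smul_coe, hd0]
    rw [e1] at h1
    have h2 := h1.trans (hd0 y).symm
    rw [QuotientGroup.eq, mul_inv_rev, mul_assoc, inv_mul_cancel, mul_one] at h2
    exact inv_mem_iff.mp h2
  have hqS : qP (P x) ∈ S := by
    rw [show qP (P x) = (v : Nat.Primes) from Subtype.ext (eP x)]
    exact v.2
  exact ⟨w, hw, split_apply χ hχ q (P x) (eP x) hqS _ hw, e1⟩

end

/-- The character on representatives of a coset of the layer, measured from representatives `r'` of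
the cosets below it. -/
private def repChar (r' : GQ ⧸ K.fixingSubgroup → GQ)
    (x : GQ ⧸ (extField χ).fixingSubgroup) : ZMod p :=
  χ ((r' (Ind.proj (layer_le χ) x))⁻¹ * sec (extField χ).fixingSubgroup x)

variable {r' r'' : GQ ⧸ K.fixingSubgroup → GQ}

omit hp [K.fixingSubgroup.FiniteIndex] in
private lemma rep_inv_mul_mem (hr' : ∀ x, ((r' x : GQ) : GQ ⧸ K.fixingSubgroup) = x)
    (x : GQ ⧸ (extField χ).fixingSubgroup) :
    (r' (Ind.proj (layer_le χ) x))⁻¹ * sec (extField χ).fixingSubgroup x ∈ K.fixingSubgroup := by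
  rw [← QuotientGroup.eq, hr']
  conv_lhs => rw [← mk_sec (extField χ).fixingSubgroup x, Ind.proj_coe]

omit [K.fixingSubgroup.FiniteIndex] in
/-- Translation shifts the character on representatives by the character of the discrepancy. -/
private lemma repChar_smul (hr' : ∀ x, ((r' x : GQ) : GQ ⧸ K.fixingSubgroup) = x) (g : GQ)
    (x : GQ ⧸ (extField χ).fixingSubgroup) {w : GQ} (hw : w ∈ K.fixingSubgroup)
    (e : g * r' (Ind.proj (layer_le χ) x) = r' (g • Ind.proj (layer_le χ) x) * w) :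
    repChar χ r' (g • x) = χ w + repChar χ r' x := by
  unfold repChar
  obtain ⟨u, hu, es⟩ := exists_sec_smul (K' := (extField χ)) g x
  have hu' : u⁻¹ ∈ χ.ker := fixingSubgroup_extField χ ▸ inv_mem hu
  rw [Ind.proj_smul, eq_mul_inv_iff_mul_eq.mpr es.symm,
    show (r' (g • Ind.proj (layer_le χ) x))⁻¹ * (g * sec (extField χ).fixingSubgroup x * u⁻¹) =
      w * ((r' (Ind.proj (layer_le χ) x))⁻¹ * sec (extField χ).fixingSubgroup x) * u⁻¹ by
    rw [show r' (g • Ind.proj (layer_le χ) x) = g * r' (Ind.proj (layer_le χ) x) * w⁻¹ from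
      eq_mul_inv_iff_mul_eq.mpr e.symm]
    group, χ.eq_of_ker (mul_mem hw (rep_inv_mul_mem χ hr' x)) hu',
    χ.map_mul hw (rep_inv_mul_mem χ hr' x)]

omit [K.fixingSubgroup.FiniteIndex] in
/-- Along `σ` the character on representatives grows by one, so it is not the sum of an
equivariant functional and one pulled back from the base. -/
private lemma repChar_ne_add {σ : GQ} (hσ : σ ∈ K.fixingSubgroup) (hσ1 : χ σ = 1)
    (hKχ : K.fixingSubgroup ≤ (chiQ p).ker)
    (hr' : ∀ x, ((r' x : GQ) : GQ ⧸ K.fixingSubgroup) = x)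
    (ψ₀ : eqHom (chiQ p) (MonoidHom.id GQ) (Ind (extField χ).fixingSubgroup (Mu (chiQ p))))
    (k : GQ ⧸ K.fixingSubgroup → ZMod p) :
    ¬ ∀ x, repChar χ r' x = ψ₀.1 (indSingle x (Mu.of _ 1)) + k (Ind.proj (layer_le χ) x) := by
  intro hx
  have : Fact (1 < p) := ⟨hp.out.one_lt⟩
  set o := ((1 : GQ) : GQ ⧸ (extField χ).fixingSubgroup)
  have hσfix : σ • Ind.proj (layer_le χ) o = Ind.proj (layer_le χ) o := by
    rw [Ind.proj_coe, Ind.smul_one_coset hσ]
  have hψσ : ψ₀.1 (indSingle (σ • o) (Mu.of _ 1)) = ψ₀.1 (indSingle o (Mu.of _ 1)) := by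
    have hχσ : chiQ p σ = 1 := hKχ hσ
    have h1 := ψ₀.2 σ (indSingle o (Mu.of _ 1))
    rw [smul_indSingle, MonoidHom.id_apply, hχσ, Units.val_one, one_mul] at h1
    rw [← h1]
    congr 2
    exact Mu.ext _ (by rw [Mu.val_smul, hχσ, Units.val_one, one_mul])
  have h1 := hx (σ • o)
  rw [hψσ, Ind.proj_smul, hσfix, ← hx o] at h1
  have hC : repChar χ r' (σ • o) = 1 + repChar χ r' o := by
    set c := r' (Ind.proj (layer_le χ) o)
    have hc : c ∈ K.fixingSubgroup := by
      have := hr' (Ind.proj (layer_le χ) o)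
      rw [Ind.proj_coe, QuotientGroup.eq, mul_one] at this
      exact inv_mem_iff.mp this
    have e2 : σ * c = r' (σ • Ind.proj (layer_le χ) o) * (c⁻¹ * σ * c) := by
      rw [hσfix]
      simp only [c]
      group
    rw [repChar_smul χ hr' σ o (mul_mem (mul_mem (inv_mem hc) hσ) hc) e2,
      χ.map_mul (mul_mem (inv_mem hc) hσ) hc, χ.map_mul (inv_mem hc) hσ, χ.map_inv hc, hσ1]
    ring
  rw [hC, add_eq_right] at h1
  exact one_ne_zero h1

/-- On the kernel of the push-down the functional of representatives does not depend on them. -/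
private lemma wFun_repChar_eq (hr' : ∀ x, ((r' x : GQ) : GQ ⧸ K.fixingSubgroup) = x)
    (hr'' : ∀ x, ((r'' x : GQ) : GQ ⧸ K.fixingSubgroup) = x)
    {φ : Ind (extField χ).fixingSubgroup (Mu (chiQ p))}
    (hφ0 : Ind.fibreSum (layer_le χ) φ = 0) :
    wFun (repChar χ r') φ = wFun (repChar χ r'') φ := by
  have hdiff : ∀ x, repChar χ r' x - repChar χ r'' x =
      χ ((r' (Ind.proj (layer_le χ) x))⁻¹ * r'' (Ind.proj (layer_le χ) x)) := fun x => by
    have hw : (r' (Ind.proj (layer_le χ) x))⁻¹ * r'' (Ind.proj (layer_le χ) x) ∈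
        K.fixingSubgroup := by
      rw [← QuotientGroup.eq, hr', hr'']
    show χ _ - χ _ = _
    rw [show (r' (Ind.proj (layer_le χ) x))⁻¹ * sec (extField χ).fixingSubgroup x =
      ((r' (Ind.proj (layer_le χ) x))⁻¹ * r'' (Ind.proj (layer_le χ) x)) *
        ((r'' (Ind.proj (layer_le χ) x))⁻¹ * sec (extField χ).fixingSubgroup x) by group,
      χ.map_mul hw (rep_inv_mul_mem χ hr'' x), add_sub_cancel_right]
  have h1 := wFun_sub (repChar χ r') (repChar χ r'') φ
  simp only [hdiff] at h1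
  rwa [wFun_proj (layer_le χ) (fun c => χ ((r' c)⁻¹ * r'' c)) φ, hφ0, map_zero, eq_comm,
    sub_eq_zero] at h1

/-- On the kernel of the push-down the functional of the chosen representatives is equivariant. -/
private lemma wFun_repChar_sec_smul (g : GQ) {φ : Ind (extField χ).fixingSubgroup (Mu (chiQ p))}
    (hφ0 : Ind.fibreSum (layer_le χ) φ = 0) :
    wFun (repChar χ (sec K.fixingSubgroup)) (g • φ) =
      (chiQ p g : ZMod p) * wFun (repChar χ (sec K.fixingSubgroup)) φ := by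
  obtain ⟨k, hk⟩ : ∃ k : GQ ⧸ K.fixingSubgroup → ZMod p, ∀ x,
      repChar χ (sec K.fixingSubgroup) (g • x) - repChar χ (sec K.fixingSubgroup) x =
        k (Ind.proj (layer_le χ) x) :=
    ⟨fun c => χ ((sec K.fixingSubgroup (g • c))⁻¹ * g * sec K.fixingSubgroup c), fun x => by
      obtain ⟨u, hu, eu⟩ := exists_sec_smul (K' := K) g (Ind.proj (layer_le χ) x)
      rw [repChar_smul χ (mk_sec K.fixingSubgroup) g x hu eu, add_sub_cancel_right]
      congr 1
      rw [mul_assoc, eu, inv_mul_cancel_left]⟩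
  rw [wFun_smul]
  congr 1
  have h1 := wFun_sub (fun x => repChar χ (sec K.fixingSubgroup) (g • x))
    (repChar χ (sec K.fixingSubgroup)) φ
  simp only [hk] at h1
  rwa [wFun_proj (layer_le χ) k φ, hφ0, map_zero, eq_comm, sub_eq_zero] at h1

/-- For a layer split above `S` some corestriction has an obstruction seen by the character. -/
theorem exists_cor_pairing_ne_zero [NumberField.IsTotallyComplex K]
    (hpS : ExtCitation.pPrime p ∈ S) (hp2 : p ≠ 2) (hK : K.IsUnramifiedOutside S) (hζK : zet p ∈ K)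
    (hker : χ.ker ∈ LS S) {σ : GQ} (hσ : σ ∈ K.fixingSubgroup) (hσ1 : χ σ = 1)
    (hχ : IsSplitChar S χ) :
    ∃ Y ∈ (LS S).Z2 ⊤ (Ind (extField χ).fixingSubgroup (Mu (chiQ p))),
      ∃ (DY : PK K → ZMod p) (s : Finset (PK K)), IsObs S K (corMu χ Y) DY ∧
        (∀ P ∈ s, qP P ∉ S) ∧ (∀ P, qP P ∉ S → DY P ≠ 0 → P ∈ s) ∧
        ∑ P ∈ s, DY P * χ (frobW p P) ≠ 0 := by
  have : NeZero p := ⟨hp.out.ne_zero⟩
  have hW'k : (extField χ).fixingSubgroup = χ.ker := fixingSubgroup_extField χ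
  have hle : (extField χ).fixingSubgroup ≤ K.fixingSubgroup := layer_le χ
  have hW' : (extField χ).fixingSubgroup ∈ LS S := hW'k ▸ hker
  have hK' : (extField χ).IsUnramifiedOutside S := LS_mem_of_isUnramifiedOutside hW'
  have hKχ : K.fixingSubgroup ≤ (chiQ p).ker := fix_le_ker hζK
  choose r hr hreq using exists_local_rep χ hχ
  -- the family
  have hCeq : ∀ (v : S) (d : Gal' ((v : Nat.Primes) : ℕ)) x,
      repChar χ (r v) (localGaloisToGlobal ((v : Nat.Primes) : ℕ) d • x) = repChar χ (r v) x :=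
    fun v d x => by
      obtain ⟨w, hw, hw0, e⟩ := hreq v d (Ind.proj hle x)
      rw [repChar_smul χ (hr v) _ x hw e, hw0, zero_add]
  let e : LocFam p S (extField χ).fixingSubgroup := fun v => ⟨wFun (repChar χ (r v)), fun d φ => by
    rw [wFun_smul]
    simp only [hCeq]⟩
  -- a functional separating the family
  let dg : eqHom (chiQ p) (MonoidHom.id GQ)
      (Ind (extField χ).fixingSubgroup (Mu (chiQ p))) →+ LocFam p S (extField χ).fixingSubgroup :=
    AddMonoidHom.mk'
      (fun ψ v => ⟨ψ.1, fun d m => ψ.2 (localGaloisToGlobal ((v : Nat.Primes) : ℕ) d) m⟩)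
      fun _ _ => rfl
  let R : LocFam p S K.fixingSubgroup →+ LocFam p S (extField χ).fixingSubgroup := AddMonoidHom.mk'
    (fun e v => eqHomComp (chiQ p) _ (Ind.fibreSum (M := Mu (chiQ p)) hle)
      (fun g m => Ind.fibreSum_smul hle g m) (e v))
    fun e e' => funext fun v => map_add _ _ _
  have hne : e ∉ dg.range ⊔ R.range := by
    intro hmem'
    obtain ⟨_, ⟨ψ₀, rfl⟩, _, ⟨e₁, rfl⟩, h⟩ := AddSubgroup.mem_sup.mp hmem'
    set v₀ : S := ⟨_, hpS⟩
    refine repChar_ne_add χ hσ hσ1 hKχ (hr v₀) ψ₀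
      (fun c => (e₁ v₀).1 (indSingle c (Mu.of _ 1))) fun x => ?_
    have h1 := DFunLike.congr_fun (congrArg Subtype.val (congrFun h v₀)) (indSingle x (Mu.of _ 1))
    change ψ₀.1 (indSingle x _) + (e₁ v₀).1 (Ind.fibreSum hle (indSingle x _)) =
      wFun (repChar χ (r v₀)) (indSingle x _) at h1
    rw [fibreSum_indSingle, wFun_indSingle, Mu.val_of, mul_one] at h1
    exact h1.symm
  obtain ⟨φ, hφ⟩ := exists_hom_ne_zero (p := p)
    (A := LocFam p S (extField χ).fixingSubgroup ⧸ (dg.range ⊔ R.range))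
    (fun y => by
      obtain ⟨y, rfl⟩ := QuotientAddGroup.mk_surjective y
      rw [← QuotientAddGroup.mk_nsmul, nsmul_fam, QuotientAddGroup.mk_zero])
    (d := (e : LocFam p S (extField χ).fixingSubgroup ⧸ (dg.range ⊔ R.range))) fun h =>
      hne ((QuotientAddGroup.eq_zero_iff e).mp h)
  have hθ0 : ∀ x ∈ dg.range ⊔ R.range, φ.comp (QuotientAddGroup.mk' _) x = 0 := fun x hx => by
    rw [AddMonoidHom.comp_apply, QuotientAddGroup.mk'_apply,
      (QuotientAddGroup.eq_zero_iff x).mpr hx,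
      map_zero]
  obtain ⟨Y, hY, hYθ⟩ := exists_realize hpS hp2 (extField χ).fixingSubgroup hW' (hle.trans hKχ)
    (φ.comp (QuotientAddGroup.mk' (dg.range ⊔ R.range)))
    fun ψ hψ => hθ0 _ (AddSubgroup.mem_sup_left ⟨⟨ψ, hψ⟩, rfl⟩)
  have hG : (fun a b => Ind.fibreSum hle (Y a b)) ∈
      (LS S).Z2 ⊤ (Ind K.fixingSubgroup (Mu (chiQ p))) :=
    Levels.map_mem_Z2 _ (fun g _ φ => Ind.fibreSum_smul hle g φ) hY
  have hBY : muClass (corMu χ Y) ∈ LQ.B2 K.fixingSubgroup GM :=
    muClass_mem_B2_of_evals hpS hK hG fun e₁ => by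
      rw [famEval_apply]
      exact (hYθ (R e₁)).symm.trans (hθ0 _ (AddSubgroup.mem_sup_right ⟨e₁, rfl⟩))
  obtain ⟨DY, hDY⟩ := exists_isObs hpS hK hζK (corMu_mem_Z2 χ hY) hBY
  obtain ⟨s, hsS, hsupp⟩ := hDY.exists_support
  refine ⟨Y, hY, DY, s, hDY, hsS, hsupp, fun h0 => hφ ?_⟩
  obtain ⟨X, hX, hXinv, hYX⟩ :=
    exists_cor_of_orthogonal χ hpS hK hζK hker hσ hσ1 hDY s hsS hsupp fun _ => h0
  have hz : Y - X ∈ (LS S).Z2 ⊤ (Ind (extField χ).fixingSubgroup (Mu (chiQ p))) := sub_mem hY hX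
  rw [← corMu_sub] at hYX
  have hz0 : famEval hz e = 0 :=
    famEval_eq_zero_of_push hle hpS hp2 hK hK' hz hYX e (wFun (repChar χ (sec K.fixingSubgroup)))
      (fun g φ => wFun_repChar_sec_smul χ g)
      fun v φ => wFun_repChar_eq χ (hr v) (mk_sec K.fixingSubgroup)
  have hXe : famEval hX e = 0 := by
    rw [famEval_apply]
    exact Finset.sum_eq_zero fun v _ =>
      eval_eq_zero_of_map_mem_B2 _ (Levels.Z2_le (fun V => LS_le) hX) hXinv (e v).2
  have hadd := famEval_add hz hX e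
  simp only [famEval_apply, sub_add_cancel] at hadd
  rw [← famEval_apply hz, ← famEval_apply hX, hz0, hXe, add_zero, ← hYθ e] at hadd
  exact hadd

end Split

end FermatAgent.CFT.Global
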