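import Fermat.Agent.CFT.Global.SKill

/-!
A cyclotomic layer unramified outside `S` and nonsplit above `S`.
-/

set_option autoImplicit false

noncomputable section

open scoped Classical
open IntermediateField

namespace FermatAgent.CFT.Global

open Coh Local GaloisBasic

variable {p : ℕ} [hp : Fact p.Prime]

/-- A finite extension contains only boundedly many roots of unity of `p`-power order. -/
lemma exists_root_bound {q : ℕ} [Fact q.Prime] (F : IntermediateField ℚ_[q] (PadicAlgCl q))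
    [FiniteDimensional ℚ_[q] F] :
    ∃ N : ℕ, ∀ A, N ≤ A → ∀ z : PadicAlgCl q, IsPrimitiveRoot z (p ^ A) → z ∉ F := by
  obtain ⟨a, ha⟩ := exists_small F p
  refine ⟨(nearF F a).relIndex (unitsF F), fun A hA z hz hzF => ?_⟩
  set N := (nearF F a).relIndex (unitsF F)
  have hpA : p ^ A ≠ 0 := pow_ne_zero _ hp.out.ne_zero
  set x : MM q := Ux.mk z (hz.ne_zero hpA)
  have hx : x ∈ unitsF F := (mem_unitsF F).mpr ⟨hzF, by
    rw [Ux.val_mk]; exact norm_eq_one_of_pow_eq_one hpA hz.pow_eq_one⟩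
  have hN : N • x ∈ nearF F a := by
    have h := AddSubgroup.nsmul_index_mem ((nearF F a).addSubgroupOf (unitsF F)) ⟨x, hx⟩
    exact AddSubgroup.mem_addSubgroupOf.mp h
  have hall : ∀ j, ∀ w ∈ nearF F a, p ^ j • w = 0 → w = 0 := fun j => by
    induction j with
    | zero => intro w _ h; simpa using h
    | succ j ih =>
      intro w hw h
      refine ih w hw (nearUx_torsionFree (p := p) ha (nsmul_mem hw _).2 ?_)
      rw [← mul_nsmul', ← pow_succ']; exact h
  have h0 := hall A _ hN (by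
    rw [smul_comm, show p ^ A • x = 0 from Ux.ext (by
      rw [Ux.val_nsmul, Ux.val_mk, hz.pow_eq_one, Ux.val_zero]), smul_zero])
  have h1 := congrArg Ux.val h0
  rw [Ux.val_nsmul, Ux.val_mk, Ux.val_zero] at h1
  have h2 := Nat.le_of_dvd (Nat.pos_of_ne_zero (relIndex_nearF_unitsF F a))
    (hz.dvd_of_pow_eq_one N h1)
  have h3 := A.lt_pow_self hp.out.one_lt
  omega

omit hp in
/-- A power of an element moving a root fixes the next lower root. -/
lemma exists_pow_move {z : Qbar} (hz0 : z ≠ 0) :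
    ∀ (i : ℕ) (h : GQ), (∀ ω : Qbar, ω ^ p ^ 2 = 1 → h ω = ω) →
      h (z ^ p ^ i) = z ^ p ^ i → h z ≠ z →
        ∃ n : ℕ, (h ^ n) z ≠ z ∧ (h ^ n) (z ^ p) = z ^ p := fun i => by
  induction i with
  | zero => intro h _ hfix hmv; exact absurd (by simpa using hfix) hmv
  | succ i ih =>
    intro g hg2 hg hg'
    by_cases hgi : g (z ^ p ^ i) = z ^ p ^ i
    · exact ih g hg2 hgi hg'
    rcases i with _ | m
    · exact ⟨1, by simpa using hg', by simpa using hg⟩
    set v := z ^ p ^ m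
    have hv0 : v ≠ 0 := pow_ne_zero _ hz0
    have hvp : v ^ p = z ^ p ^ (m + 1) := by rw [← pow_mul, ← pow_succ]
    have hvp2 : v ^ p ^ 2 = z ^ p ^ (m + 1 + 1) := by rw [← pow_mul, ← pow_add]
    set ε := g v / v
    have hε1 : ε ^ p ^ 2 = 1 := by
      rw [div_pow, ← map_pow, hvp2, hg, div_self (pow_ne_zero _ hz0)]
    have hit : ∀ k : ℕ, (g ^ k) v = ε ^ k * v := fun k => by
      induction k with
      | zero => simp
      | succ k ihk =>
        rw [pow_succ', AlgEquiv.mul_apply, ihk, map_mul, map_pow, hg2 ε hε1, pow_succ,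
          mul_assoc (ε ^ k), div_mul_cancel₀ _ hv0]
    have hεp : ε ^ p ≠ 1 := fun h1 => hgi (by
      rw [← hvp, map_pow]
      have h3 : (g v) ^ p / v ^ p = 1 := by rw [← div_pow]; exact h1
      exact (div_eq_one_iff_eq (pow_ne_zero p hv0)).mp h3)
    have hgz : (g ^ p) z ≠ z := fun h1 => hεp (by
      have h3 : (g ^ p) v = v := by rw [map_pow, h1]
      rw [hit] at h3
      exact mul_right_cancel₀ hv0 (h3.trans (one_mul v).symm))
    obtain ⟨n, hn1, hn2⟩ := ih (g ^ p) (fun ω hω => by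
        have : ∀ k : ℕ, (g ^ k) ω = ω := fun k => by
          induction k with
          | zero => simp
          | succ k ihk => rw [pow_succ', AlgEquiv.mul_apply, ihk, hg2 ω hω]
        exact this p) (by
        rw [← hvp, map_pow, hit, mul_pow, ← pow_mul ε p p, ← sq, hε1, one_mul]) hgz
    exact ⟨p * n, by rw [pow_mul]; exact hn1, by rw [pow_mul]; exact hn2⟩

/-- Fixing a root of unity is invariant under conjugation. -/
lemma apply_conj_root {m : ℕ} [NeZero m] {w : Qbar} (hw : IsPrimitiveRoot w m) (g s : GQ)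
    (hs : s w = w) : (g * s * g⁻¹) w = w := by
  obtain ⟨i, -, hi⟩ :=
    hw.eq_pow_of_pow_eq_one (ξ := g⁻¹ w) (by rw [← map_pow, hw.pow_eq_one, map_one])
  rw [AlgEquiv.mul_apply, AlgEquiv.mul_apply, ← hi, map_pow s, hs, hi, ← AlgEquiv.mul_apply,
    mul_inv_cancel, AlgEquiv.one_apply]

variable {S : Finset Nat.Primes} (hpS : ExtCitation.pPrime p ∈ S)
include hpS

/-- Roots of unity of `p`-power order are unramified outside `S`. -/
lemma exists_field_root : ∀ (j : ℕ) (z : GM), p ^ j • z = 0 →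
    ∃ M : IntermediateField ℚ Qbar, M.IsUnramifiedOutside S ∧ z ∈ starK M := by
  intro j
  induction j with
  | zero =>
    intro z hz
    rw [pow_zero, one_smul] at hz
    exact ⟨⊥, IntermediateField.isUnramifiedOutside_bot S, hz ▸ zero_mem _⟩
  | succ j ih =>
    intro z hz
    obtain ⟨M, hM, hzM⟩ := ih (p • z) (by rw [← mul_nsmul', ← pow_succ]; exact hz)
    obtain ⟨M', hM', -, h⟩ := exists_field_of_pth hpS hM (y := z) hzM fun q hq g => ⟨0, by
      have : Fact (q : ℕ).Prime := ⟨q.2⟩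
      rw [mul_zero, hasOrd_zero_iff]
      refine norm_eq_one_of_pow_eq_one (pow_ne_zero j hp.out.ne_zero) ?_
      rw [← map_pow, ← Ux.val_nsmul, ← mul_nsmul', ← pow_succ, hz, Ux.val_zero, map_one]⟩
    exact ⟨M', hM', h⟩

/-- A layer with a character of order `p` unramified outside `S` and nonsplit above `S`. -/
theorem exists_layer {U : Subgroup GQ} [hUn : U.Normal] (hU : U ∈ LS S) (hUχ : U ≤ (chiQ p).ker) :
    ∃ (K : IntermediateField ℚ Qbar) (_ : FiniteDimensional ℚ K)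
      (χ : CycChar LQ K.fixingSubgroup p),
      K.IsUnramifiedOutside S ∧ K.fixingSubgroup.Normal ∧ K.fixingSubgroup ≤ U ∧ χ.ker ∈ LS S ∧
      (∀ P : PK K, qP P ∉ S → UnramAt χ P) ∧
      ∀ P : PK K, qP P ∈ S → ∃ d ∈ (locK P).fixingSubgroup, χ (locHom (qOf P) (gOf P) d) ≠ 0 := by
  have : NeZero p := ⟨hp.out.ne_zero⟩
  have hroot : ∀ A : ℕ, ∃ z : Qbar, IsPrimitiveRoot z (p ^ A) := fun A => by
    have : NeZero (p ^ A) := ⟨pow_ne_zero _ hp.out.ne_zero⟩
    exact HasEnoughRootsOfUnity.exists_primitiveRoot Qbar (p ^ A)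
  obtain ⟨ω₂, hω₂⟩ := hroot 2
  have hω0 : ω₂ ≠ 0 := hω₂.ne_zero (pow_ne_zero _ hp.out.ne_zero)
  obtain ⟨M₂, hM₂, hωM⟩ := exists_field_root hpS 2 (Ux.mk ω₂ hω0)
    (Ux.ext (by rw [Ux.val_nsmul, Ux.val_mk, hω₂.pow_eq_one, Ux.val_zero]))
  set W₂ := U ⊓ MulAction.stabilizer GQ ω₂
  have hW₂ : W₂ ∈ LS S := Levels.mem_of_le ((LS S).inf_mem hU (fixingSubgroup_mem_LS hM₂))
    fun s hs => ⟨hs.1, MulAction.mem_stabilizer_iff.mpr (congrArg Ux.val (hωM s hs.2))⟩
  set K₂ := fixedField W₂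
  have hK₂ := isUnramifiedOutside_of_mem hW₂
  have := hK₂.1
  have hK₂W : K₂.fixingSubgroup = W₂ := fixingSubgroup_fixedField_of_mem (LS_le hW₂)
  choose N hN using fun q : S => exists_root_bound (p := p)
    (q := ((q : Nat.Primes) : ℕ)) (locField ((q : Nat.Primes) : ℕ) 1 K₂)
  set A := 2 + Finset.univ.sup N
  obtain ⟨z, hz⟩ := hroot A
  have hz0 : z ≠ 0 := hz.ne_zero (pow_ne_zero _ hp.out.ne_zero)
  have hpz : p ^ A • (Ux.mk z hz0 : GM) = 0 :=
    Ux.ext (by rw [Ux.val_nsmul, Ux.val_mk, hz.pow_eq_one, Ux.val_zero])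
  set y : GM := Ux.mk z hz0
  obtain ⟨M, hM, hyM⟩ :=
    exists_field_root hpS (A + 1) (y) (by rw [pow_succ', mul_nsmul', hpz, smul_zero])
  set W := W₂ ⊓ MulAction.stabilizer GQ (z ^ p)
  have hWn : W.Normal := ⟨fun s hs g => by
    have : NeZero (p ^ 2) := ⟨pow_ne_zero _ hp.out.ne_zero⟩
    have : NeZero (p ^ (A - 1)) := ⟨pow_ne_zero _ hp.out.ne_zero⟩
    refine ⟨⟨hUn.conj_mem s hs.1.1 g, MulAction.mem_stabilizer_iff.mpr
      (apply_conj_root hω₂ g s (MulAction.mem_stabilizer_iff.mp hs.1.2))⟩,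
      MulAction.mem_stabilizer_iff.mpr (apply_conj_root (m := p ^ (A - 1)) ?_ g s
        (MulAction.mem_stabilizer_iff.mp hs.2))⟩
    exact hz.pow (Nat.pos_of_ne_zero (pow_ne_zero _ hp.out.ne_zero)) (by
      rw [← pow_succ']; congr 1; omega)⟩
  have hWle : W₂ ⊓ M.fixingSubgroup ≤ W := fun s hs => ⟨hs.1, MulAction.mem_stabilizer_iff.mpr (by
    show s (z ^ p) = z ^ p
    rw [map_pow, show s z = z from congrArg Ux.val (hyM s hs.2)])⟩
  have hW : W ∈ LS S := Levels.mem_of_le ((LS S).inf_mem hW₂ (fixingSubgroup_mem_LS hM)) hWle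
  set K := fixedField W
  have hK := isUnramifiedOutside_of_mem hW
  have := hK.1
  have hKW : K.fixingSubgroup = W := fixingSubgroup_fixedField_of_mem (LS_le hW)
  have hcK : cycK p ≤ K := le_of_fixingSubgroup_le (by
    rw [fixingSubgroup_cycK, hKW]; exact fun s hs => hUχ hs.1.1)
  have hζK : zet p ∈ K := hcK (zet_mem_cycK p)
  have hpy : p • y ∈ starK K := fun s hs => Ux.ext (by
    rw [hKW] at hs
    rw [Ux.val_smul, Ux.val_nsmul, Ux.val_mk]
    exact hs.2)
  set χ := kumChar (zet_spec p) (smul_zetaUx _ hζK) y hpy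
  have hk : IsKummer (zet_spec p) χ y := isKummer_kumChar _ _ _ _
  refine ⟨K, hK.1, χ, hK, hKW ▸ hWn, hKW ▸ fun s hs => hs.1.1, ?_, fun P hP => ?_, fun P hP => ?_⟩
  · refine Levels.mem_of_le ((LS S).inf_mem hW₂ (fixingSubgroup_mem_LS hM)) fun s hs => ?_
    have hsK : s ∈ K.fixingSubgroup := hKW ▸ hWle hs
    exact ⟨hsK, (hk.eq_zero_iff (zet_spec p) hsK).mpr (hyM s hs.2)⟩
  · refine hk.unramAt (zet_spec p) hζK
      (fun hq => hP (by convert hpS using 1; exact Subtype.ext hq)) ?_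
    rw [← norm_embUx_eq_one (hpy), val_embUx, Ux.val_nsmul, Ux.val_mk, map_pow, norm_pow,
      norm_eq_one_of_pow_eq_one (pow_ne_zero A hp.out.ne_zero)
        (by rw [← map_pow, hz.pow_eq_one, map_one]), one_pow]
  · set q := qOf P
    set F₂ := locField q 1 K₂
    have hzF : emb q 1 z ∉ F₂ := hN ⟨qP P, hP⟩ A (le_trans (Finset.le_sup (Finset.mem_univ _))
      (Nat.le_add_left _ 2)) _ (hz.map_of_injective (emb_injective 1))
    obtain ⟨d, hd, hdz⟩ : ∃ d ∈ F₂.fixingSubgroup, d (emb q 1 z) ≠ emb q 1 z := by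
      by_contra hno
      push Not at hno
      exact hzF ((mem_fixedUx_fixingSubgroup
        (a := Ux.mk (emb q 1 z) ((_root_.map_ne_zero _).mpr hz0))).mp fun d hd => Ux.ext (hno d hd))
    set h := localGaloisToGlobal q d
    have hh : h ∈ W₂ := by
      have := locHom_mem hd
      rwa [locHom_one, hK₂W] at this
    have hhz : h z ≠ z := fun e => hdz (by
      rw [← emb_locHom, locHom_one]; exact congrArg _ e)
    obtain ⟨n, hn1, hn2⟩ := exists_pow_move (p := p) hz0 A h (fun ω hω => by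
      have : NeZero (p ^ 2) := ⟨pow_ne_zero _ hp.out.ne_zero⟩
      obtain ⟨i, -, rfl⟩ := hω₂.eq_pow_of_pow_eq_one hω
      rw [map_pow, show h ω₂ = ω₂ from MulAction.mem_stabilizer_iff.mp hh.2])
      (by rw [hz.pow_eq_one, map_one]) hhz
    have hmem : h ^ n ∈ W := ⟨pow_mem hh n, MulAction.mem_stabilizer_iff.mpr hn2⟩
    have hloc : locHom q (gOf P) (d ^ n) = (gOf P)⁻¹ * h ^ n * gOf P := by
      rw [locHom_apply, map_pow]
    have hlW : locHom q (gOf P) (d ^ n) ∈ K.fixingSubgroup := by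
      rw [hKW, hloc]
      simpa using hWn.conj_mem _ hmem (gOf P)⁻¹
    refine ⟨d ^ n, by rw [fixingSubgroup_locField]; exact hlW, fun h0 => hn1 ?_⟩
    have h1 := congrArg Ux.val ((hk.eq_zero_iff (zet_spec p) hlW).mp h0)
    rw [Ux.val_smul, Ux.val_mk, hloc] at h1
    have : NeZero (p ^ A) := ⟨pow_ne_zero _ hp.out.ne_zero⟩
    have h2 := apply_conj_root hz (gOf P) _ h1
    rwa [show gOf P * ((gOf P)⁻¹ * h ^ n * gOf P) * (gOf P)⁻¹ = h ^ n by group] at h2

end FermatAgent.CFT.Global
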