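import Fermat.Agent.CFT.Global.Reciprocity
import Fermat.Prelude.Def_GroupCohomology_ContinuousUnramified

/-!
Levels unramified outside a finite set of primes; their local fields at the remaining places are
unramified.
-/

set_option autoImplicit false

noncomputable section

open scoped Classical Pointwise

namespace FermatAgent.CFT.Global

open Coh Local GaloisBasic

variable (S : Finset Nat.Primes)

lemma isUnramifiedOutside_normalClosure {M : IntermediateField ℚ Qbar}
    (hM : M.IsUnramifiedOutside S) :
    (IntermediateField.normalClosure ℚ M Qbar).IsUnramifiedOutside S := by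
  have := hM.1
  refine ⟨inferInstance, fun q hq A hA σ hσ => ?_⟩
  set N := IntermediateField.normalClosure ℚ M Qbar
  have : M.fixingSubgroup.normalCore.Normal := Subgroup.normalCore_normal _
  have hcore : σ ∈ M.fixingSubgroup.normalCore := fun τ =>
    hM.2 q hq _ (liesOverPrime_smul τ hA) (conj_mem_inertiaSubgroupIn q.2 hA hσ τ)
  have hle : N ≤ IntermediateField.fixedField (Subgroup.zpowers σ) := by
    refine normalClosure_le_iff.mpr fun φ => ?_
    rintro _ ⟨y, rfl⟩
    obtain ⟨τ, hτ⟩ : ∃ τ : GQ, ∀ z : M, τ (z : Qbar) = φ z :=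
      ⟨AlgEquiv.ofBijective (φ.liftNormal Qbar) (AlgHom.normal_bijective ℚ Qbar Qbar _),
        fun z => AlgHom.liftNormal_commutes φ Qbar z⟩
    have h1 : σ • φ y = φ y := by
      have := (IntermediateField.mem_fixingSubgroup_iff M _).mp (hcore τ⁻¹) _ y.2
      rw [inv_inv, AlgEquiv.mul_apply, AlgEquiv.mul_apply, hτ] at this
      have h2 := congrArg τ this
      rw [← AlgEquiv.mul_apply, mul_inv_cancel, AlgEquiv.one_apply, hτ] at h2
      exact h2
    rintro ⟨g, hg⟩
    exact MulAction.mem_stabilizer_iff.mp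
      ((Subgroup.zpowers_le (H := MulAction.stabilizer GQ (φ y))).mpr
        (MulAction.mem_stabilizer_iff.mpr h1) hg)
  rw [IntermediateField.mem_fixingSubgroup_iff]
  exact fun x hx => hle hx ⟨σ, Subgroup.mem_zpowers σ⟩

/-- The levels unramified outside a finite set of primes. -/
def LS : Levels GQ where
  carrier := {U | ∃ F : IntermediateField ℚ Qbar, F.IsUnramifiedOutside S ∧ F.fixingSubgroup ≤ U}
  top_mem' := ⟨⊥, IntermediateField.isUnramifiedOutside_bot S, le_top⟩
  inf_mem' := by
    rintro U V ⟨F, hF, hFU⟩ ⟨G, hG, hGV⟩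
    exact ⟨F ⊔ G, hF.sup hG, by
      rw [IntermediateField.fixingSubgroup_sup]; exact inf_le_inf hFU hGV⟩
  normalCore_mem' := by
    rintro U ⟨F, hF, hFU⟩
    have := hF.1
    refine ⟨_, isUnramifiedOutside_normalClosure S hF, ?_⟩
    have : (IntermediateField.normalClosure ℚ F Qbar).fixingSubgroup.Normal :=
      (InfiniteGalois.normal_iff_isGalois _).mpr ⟨⟩
    exact Subgroup.normal_le_normalCore.mpr
      ((IntermediateField.fixingSubgroup_antitone F.le_normalClosure).trans hFU)
  finiteIndex' := by
    rintro U ⟨F, hF, hFU⟩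
    have := hF.1
    have := LQ.finiteIndex (fixingSubgroup_mem_galLevels F)
    exact Subgroup.finiteIndex_of_le hFU
  mem_of_le' := by
    rintro U V ⟨F, hF, hFU⟩ hUV
    exact ⟨F, hF, hFU.trans hUV⟩

variable {S}

/-- The levels at `S` are levels. -/
lemma LS_le {U : Subgroup GQ} (hU : U ∈ LS S) : U ∈ LQ := by
  obtain ⟨F, hF, hFU⟩ := hU
  exact ⟨F, hF.1, hFU⟩

/-- Groups of fields unramified outside `S` are levels at `S`. -/
lemma fixingSubgroup_mem_LS {F : IntermediateField ℚ Qbar} (hF : F.IsUnramifiedOutside S) :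
    F.fixingSubgroup ∈ LS S := ⟨F, hF, le_rfl⟩

/-- Fixed fields of levels at `S` are unramified outside `S`. -/
lemma isUnramifiedOutside_of_mem {U : Subgroup GQ} (hU : U ∈ LS S) :
    (IntermediateField.fixedField U).IsUnramifiedOutside S := by
  obtain ⟨F, hF, hFU⟩ := hU
  refine hF.of_le fun x hx => ?_
  rw [← InfiniteGalois.fixedField_fixingSubgroup F]
  exact fun g => hx ⟨g.1, hFU g.2⟩

/-- A field whose group is a level at `S` is unramified outside `S`. -/
lemma LS_mem_of_isUnramifiedOutside {F : IntermediateField ℚ Qbar}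
    (h : F.fixingSubgroup ∈ LS S) : F.IsUnramifiedOutside S := by
  have := isUnramifiedOutside_of_mem h
  rwa [InfiniteGalois.fixedField_fixingSubgroup] at this

variable {q : ℕ} [hq : Fact q.Prime]

/-- Elements acting trivially on the unramified extension act trivially on residues. -/
lemma res_apply_of_mem_ker {F E : IntermediateField ℚ_[q] (PadicAlgCl q)}
    [FiniteDimensional ℚ_[q] F] [FiniteDimensional ℚ_[q] E] {f : ℕ} [NeZero f]
    (hf : resCard E = resCard F ^ f) {d : Gal' q} (hd : d ∈ (unramChar F f).ker)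
    {y : PadicAlgCl q} (hy : y ∈ E) (h1 : ‖y‖ ≤ 1) : ‖d y - y‖ < 1 := by
  refine (res_eq_res_iff (by rwa [norm_apply]) h1).mp ?_
  rw [res_apply_pow dvd_rfl hf hd.1 hy h1, show frobExp F f d = 0 from hd.2, ZMod.val_zero,
    pow_zero, pow_one]

/-- Away from `S`, fields unramified outside `S` have unramified local fields. -/
theorem exists_unramChar_ker_le {M : IntermediateField ℚ Qbar} (hM : M.IsUnramifiedOutside S)
    (hqS : (⟨q, hq.out⟩ : Nat.Primes) ∉ S) {K : IntermediateField ℚ Qbar} [FiniteDimensional ℚ K]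
    (hKM : K ≤ M) (g : GQ) : ∃ (m : ℕ) (_ : NeZero m),
      (unramChar (locField q g K) m).ker ≤ (locField q g M).fixingSubgroup := by
  have := hM.1
  set N := IntermediateField.normalClosure ℚ M Qbar
  have hN := isUnramifiedOutside_normalClosure S hM
  have := hN.1
  have : FiniteDimensional ℚ N := hN.1
  have : Normal ℚ N := normalClosure.normal ℚ M Qbar
  set F := locField q g K
  set E := locField q g N
  obtain ⟨e, f, -, hf0, hf, -, -⟩ :=
    exists_ramification (locField_mono (q := q) (g := g) (hKM.trans M.le_normalClosure))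
  have : NeZero f := ⟨hf0.ne'⟩
  refine ⟨f, inferInstance, fun d hd => ?_⟩
  rw [fixingSubgroup_locField, Subgroup.mem_comap]
  refine IntermediateField.fixingSubgroup_antitone M.le_normalClosure ?_
  set A : ValuationSubring Qbar := g⁻¹ • padicPlace q
  have hA : A.LiesOverPrime q := liesOverPrime_smul _ liesOverPrime_padicPlace
  set τ := AlgEquiv.restrictNormalHom N (locHom q g d)
  have hτ : ∀ c : NumberField.RingOfIntegers N, τ • c - c ∈ centerIn N A := fun c => by
    rw [centerIn, Ideal.mem_comap, map_sub, coe_restrictNormal_smul, center_smul,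
      Ideal.mem_pointwise_smul_iff_inv_smul_mem, inv_inv, smul_sub, mem_center,
      mem_nonunits_padicPlace]
    show ‖padicEmbedding q (g (locHom q g d ((c : N) : Qbar)) - g ((c : N) : Qbar))‖ < 1
    rw [map_sub]
    change ‖emb q g (locHom q g d ((c : N) : Qbar)) - emb q g ((c : N) : Qbar)‖ < 1
    rw [emb_locHom]
    exact res_apply_of_mem_ker hf hd (emb_mem_locField (c : N).2) (norm_emb_int g c)
  obtain ⟨σ, hσ, hστ⟩ := exists_mem_inertiaSubgroupIn_restrictNormal_eq N hq.out hA τ hτ
  have h1 : τ = 1 := by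
    rw [← hστ]
    exact (restrictNormalHom_eq_one_iff N σ).mpr (hN.2 ⟨q, hq.out⟩ hqS A hA hσ)
  exact (restrictNormalHom_eq_one_iff N _).mp h1

end FermatAgent.CFT.Global
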