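import Fermat.Agent.CFT.Global.SInvariants
import Fermat.Agent.CFT.Global.IndEval
import Fermat.Agent.CFT.Coh.Datum

/-!
Realisation of functionals on local families by global classes.
-/

set_option autoImplicit false

noncomputable section

open scoped Classical
open IntermediateField

namespace FermatAgent.CFT.Global

open Coh Local GaloisBasic

variable {p : ℕ} [hp : Fact p.Prime] {S : Finset Nat.Primes}

/-- The families of local functionals at the places of `S`. -/
abbrev LocFam (p : ℕ) [Fact p.Prime] (S : Finset Nat.Primes) (U : Subgroup GQ) : Type :=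
  ∀ v : S, eqHom (chiQ p) (localGaloisToGlobal ((v : Nat.Primes) : ℕ)) (Ind U (Mu (chiQ p)))

/-- Local families are killed by `p`. -/
lemma nsmul_fam {U : Subgroup GQ} (e : LocFam p S U) : p • e = 0 :=
  funext fun v => Subtype.ext (AddMonoidHom.ext fun m => by simp)

/-- The summation along fibres is surjective. -/
lemma fibreSum_surjective {U' U : Subgroup GQ} [U'.FiniteIndex] [U.FiniteIndex] (h : U' ≤ U)
    {M : Type} [AddCommGroup M] :
    Function.Surjective (Ind.fibreSum (M := M) h) := fun φ => by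
  refine ⟨∑ d, indSingle ((sec U d : GQ) : GQ ⧸ U') (φ d), ?_⟩
  rw [map_sum]
  conv_rhs => rw [← sum_indSingle φ]
  refine Finset.sum_congr rfl fun d _ => Ind.ext fun d' => ?_
  rw [Ind.fibreSum_apply, indSingle_apply]
  simp only [indSingle_apply]
  rw [Finset.sum_ite_eq']
  simp only [Finset.mem_filter, Finset.mem_univ, true_and, Ind.proj_coe, mk_sec]
  by_cases hd : d = d'
  · rw [if_pos hd, if_pos hd.symm]
  · rw [if_neg hd, if_neg (Ne.symm hd)]

variable {K : IntermediateField ℚ Qbar} [FiniteDimensional ℚ K] [K.fixingSubgroup.FiniteIndex]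

/-- The local functional supported at a prime. -/
def primeFun (p : ℕ) [Fact p.Prime] (K : IntermediateField ℚ Qbar) [FiniteDimensional ℚ K]
    [K.fixingSubgroup.FiniteIndex] (P : PK K) (q : ℕ) [Fact q.Prime] :
    Ind K.fixingSubgroup (Mu (chiQ p)) →+ ZMod p :=
  AddMonoidHom.mk' (fun φ => ∑ x, if primeAt K q (sec K.fixingSubgroup x) = P
    then Mu.val (chiQ p) (φ x) else 0) fun φ ψ => by
    rw [← Finset.sum_add_distrib]
    refine Finset.sum_congr rfl fun x _ => ?_
    split_ifs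
    · exact map_add _ _ _
    · exact (add_zero 0).symm

lemma primeFun_apply (P : PK K) (q : ℕ) [Fact q.Prime] (φ : Ind K.fixingSubgroup (Mu (chiQ p))) :
    primeFun p K P q φ = ∑ x, if primeAt K q (sec K.fixingSubgroup x) = P
      then Mu.val (chiQ p) (φ x) else 0 := rfl

lemma primeFun_mem (P : PK K) (q : ℕ) [Fact q.Prime] :
    primeFun p K P q ∈ eqHom (chiQ p) (localGaloisToGlobal q)
      (Ind K.fixingSubgroup (Mu (chiQ p))) := by
  intro d φ
  rw [primeFun_apply, primeFun_apply, Finset.mul_sum]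
  refine (Fintype.sum_equiv (MulAction.toPerm (localGaloisToGlobal q d)) _ _ fun x => ?_).symm
  obtain ⟨u, hu, e⟩ := exists_sec_smul (K' := K) (localGaloisToGlobal q d) x
  have hp' : primeAt K q (sec K.fixingSubgroup (localGaloisToGlobal q d • x)) =
      primeAt K q (sec K.fixingSubgroup x) := by
    rw [eq_mul_inv_iff_mul_eq.mpr e.symm, primeAt_mul_left d _ (inv_mem hu)]
  rw [MulAction.toPerm_apply, hp', Ind.smul_apply, inv_smul_smul, Mu.val_smul]
  split_ifs
  · rfl
  · exact mul_zero _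

/-- The family supported at a prime. -/
def primeFam (p : ℕ) [Fact p.Prime] (S : Finset Nat.Primes) (K : IntermediateField ℚ Qbar)
    [FiniteDimensional ℚ K] [K.fixingSubgroup.FiniteIndex] (P : PK K) :
    LocFam p S K.fixingSubgroup :=
  fun v => ⟨primeFun p K P ((v : Nat.Primes) : ℕ), primeFun_mem P _⟩

/-- The coefficient of a family at a prime. -/
def famCoef (e : LocFam p S K.fixingSubgroup) (P : PK K) : ZMod p :=
  if h : qP P ∈ S then coefAt (e ⟨qP P, h⟩).1 ((gOf P : GQ) : GQ ⧸ K.fixingSubgroup) else 0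

/-- A family is determined by its coefficients. -/
lemma sum_primeFam (e : LocFam p S K.fixingSubgroup) :
    ∑ P ∈ above K S, (famCoef e P).val • primeFam p S K P = e := by
  funext v
  refine Subtype.ext (AddMonoidHom.ext fun φ => ?_)
  rw [Finset.sum_apply, AddSubgroup.val_finsetSum, AddMonoidHom.finsetSum_apply, apply_eq_sum]
  show ∑ P ∈ above K S, (famCoef e P).val • primeFun p K P ((v : Nat.Primes) : ℕ) φ = _
  simp only [primeFun_apply, Finset.smul_sum, smul_ite, smul_zero]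
  rw [Finset.sum_comm]
  refine Finset.sum_congr rfl fun x _ => ?_
  set q := ((v : Nat.Primes) : ℕ)
  set P := primeAt K q (sec K.fixingSubgroup x)
  have eP : qOf P = q := (isPoint_primeAt (K := K)).prime_eq (isPoint_gOf P)
  have hPv : qP P = (v : Nat.Primes) := Subtype.ext eP
  rw [Finset.sum_ite_eq, if_pos (mem_above.mpr (hPv ▸ v.2)), nsmul_eq_mul, ZMod.natCast_zmod_val,
    mul_comm]
  congr 1
  obtain ⟨d, w, hw, hsec⟩ := (isPoint_of_eq eP).exists_mul
    (isPoint_primeAt (K := K) (q := q) (g := sec K.fixingSubgroup x))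
  have hx : x = localGaloisToGlobal q d • ((gOf P : GQ) : GQ ⧸ K.fixingSubgroup) := by
    rw [MulAction.Quotient.smul_coe, smul_eq_mul, ← mk_sec K.fixingSubgroup x, hsec, locHom_apply,
      ← mul_assoc, ← mul_assoc, mul_inv_cancel, one_mul, eq_comm, QuotientGroup.eq,
      inv_mul_cancel_left]
    exact hw
  have htr : ∀ v' : S, v' = v → coefAt (e v').1 ((gOf P : GQ) : GQ ⧸ K.fixingSubgroup) =
      coefAt (e v).1 ((gOf P : GQ) : GQ ⧸ K.fixingSubgroup) := by rintro _ rfl; rfl
  rw [famCoef, dif_pos (hPv ▸ v.2), htr ⟨qP P, hPv ▸ v.2⟩ (Subtype.ext hPv)]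
  conv_rhs => rw [hx, coefAt_smul _ (e v).2]

/-- The evaluation of a class on a family in terms of invariants. -/
lemma sum_eval_eq (hKn : K.fixingSubgroup.Normal) (hKχ : K.fixingSubgroup ≤ (chiQ p).ker)
    {F : GQ → GQ → Ind K.fixingSubgroup (Mu (chiQ p))}
    (hF : F ∈ LQ.Z2 ⊤ (Ind K.fixingSubgroup (Mu (chiQ p)))) (a : PK K → ZMod p)
    (ha : ∀ P ∈ above K S, invAt (muClass fun u v => F u v ((1 : GQ) : GQ ⧸ K.fixingSubgroup)) P =
      qz ((a P).val : ℤ) p) (e : LocFam p S K.fixingSubgroup) :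
    ∑ v : S, (locDatum p ((v : Nat.Primes) : ℕ)).eval
        (M := Res (localGaloisToGlobal ((v : Nat.Primes) : ℕ)) (Ind K.fixingSubgroup (Mu (chiQ p))))
        (pullR ((v : Nat.Primes) : ℕ) F) (e v).1 =
      ∑ P ∈ above K S, famCoef e P * a P := by
  have h1 : ∀ v : S, (locDatum p ((v : Nat.Primes) : ℕ)).eval
      (M := Res (localGaloisToGlobal ((v : Nat.Primes) : ℕ)) (Ind K.fixingSubgroup (Mu (chiQ p))))
      (pullR ((v : Nat.Primes) : ℕ) F) (e v).1 =
        ∑ P ∈ (above K S).filter (fun P => qP P = (v : Nat.Primes)),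
          famCoef e P * a P := fun v => by
    rw [eval_eq_sum_invAt _ hKn hKχ hF
      (T := (above K S).filter (fun P => qP P = (v : Nat.Primes))) (fun P => ?_) a
      (fun P hP => ha P (Finset.mem_filter.mp hP).1) (e v).2]
    · refine Finset.sum_congr rfl fun P hP => ?_
      have hPv := (Finset.mem_filter.mp hP).2
      congr 1
      rw [famCoef, dif_pos (hPv ▸ v.2)]
      have htr : ∀ v' : S, v' = v → coefAt (e v').1 ((gOf P : GQ) : GQ ⧸ K.fixingSubgroup) =
          coefAt (e v).1 ((gOf P : GQ) : GQ ⧸ K.fixingSubgroup) := by rintro _ rfl; rfl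
      exact (htr ⟨qP P, hPv ▸ v.2⟩ (Subtype.ext hPv)).symm
    · rw [Finset.mem_filter, mem_above]
      exact ⟨fun h => congrArg Subtype.val h.2,
        fun h => ⟨(show qP P = (v : Nat.Primes) from Subtype.ext h).symm ▸ v.2, Subtype.ext h⟩⟩
  rw [Finset.sum_congr rfl fun v _ => h1 v,
    Finset.sum_coe_sort S fun v => ∑ P ∈ (above K S).filter (fun P => qP P = v), famCoef e P * a P]
  exact Finset.sum_fiberwise_of_maps_to (fun P hP => mem_above.mp hP) _

/-- Families pulled back along the summation over fibres. -/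
def fibreFam {U' U : Subgroup GQ} [U'.FiniteIndex] (hle : U' ≤ U) :
    LocFam p S U →+ LocFam p S U' :=
  AddMonoidHom.mk' (fun e v => eqHomComp (chiQ p) _ (Ind.fibreSum (M := Mu (chiQ p)) hle)
      (fun g m => Ind.fibreSum_smul hle g m) (e v))
    fun _ _ => funext fun _ => map_add _ _ _

/-- A functional killing the diagonal extends along `fibreFam` to one killing the diagonal. -/
lemma exists_fibreFam_transfer {U' U : Subgroup GQ} [U'.FiniteIndex] [U.FiniteIndex]
    (hpS : ExtCitation.pPrime p ∈ S) (hle : U' ≤ U) (θ : LocFam p S U →+ ZMod p)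
    (hθ : ∀ ψ (hψ : ψ ∈ eqHom (chiQ p) (MonoidHom.id GQ) (Ind U (Mu (chiQ p)))),
      θ (fun v => ⟨ψ, fun d m => hψ (localGaloisToGlobal ((v : Nat.Primes) : ℕ) d) m⟩) = 0) :
    ∃ θ' : LocFam p S U' →+ ZMod p,
      (∀ ψ (hψ : ψ ∈ eqHom (chiQ p) (MonoidHom.id GQ) (Ind U' (Mu (chiQ p)))),
        θ' (fun v => ⟨ψ, fun d m => hψ (localGaloisToGlobal ((v : Nat.Primes) : ℕ) d) m⟩) = 0) ∧
      ∀ e, θ' (fibreFam hle e) = θ e := by
  let dg : eqHom (chiQ p) (MonoidHom.id GQ) (Ind U' (Mu (chiQ p))) →+ LocFam p S U' :=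
    AddMonoidHom.mk'
      (fun ψ v => ⟨ψ.1, fun d m => ψ.2 (localGaloisToGlobal ((v : Nat.Primes) : ℕ) d) m⟩)
      fun _ _ => rfl
  obtain ⟨θ', hθ'⟩ := exists_factor (p := p) (fun x => by
      obtain ⟨x, rfl⟩ := QuotientAddGroup.mk'_surjective _ x
      rw [← map_nsmul, nsmul_fam, map_zero])
    ((QuotientAddGroup.mk' dg.range).comp (fibreFam hle)) θ fun e he => by
      obtain ⟨ψ, hψ⟩ := (QuotientAddGroup.eq_zero_iff _).mp he
      have hval : ∀ (v : S) φ, (e v).1 (Ind.fibreSum hle φ) = ψ.1 φ := fun v φ =>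
        (DFunLike.congr_fun (congrArg Subtype.val (congrFun hψ v)) φ).symm
      set v₀ : S := ⟨_, hpS⟩
      have hmem : (e v₀).1 ∈ eqHom (chiQ p) (MonoidHom.id GQ) (Ind U (Mu (chiQ p))) := fun g x => by
        obtain ⟨φ, rfl⟩ := fibreSum_surjective hle x
        rw [MonoidHom.id_apply, ← Ind.fibreSum_smul, hval, hval]
        exact ψ.2 g φ
      have : e = fun (v : S) =>
          (⟨(e v₀).1, fun d m => hmem (localGaloisToGlobal ((v : Nat.Primes) : ℕ) d) m⟩ :
          eqHom (chiQ p) (localGaloisToGlobal ((v : Nat.Primes) : ℕ)) (Ind U (Mu (chiQ p)))) :=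
        funext fun v => Subtype.ext (AddMonoidHom.ext fun x => by
          obtain ⟨φ, rfl⟩ := fibreSum_surjective hle x
          rw [hval v]
          exact (hval v₀ φ).symm)
      rw [this]
      exact hθ _ hmem
  exact ⟨θ'.comp (QuotientAddGroup.mk' dg.range), fun ψ hψ =>
    (congrArg θ' ((QuotientAddGroup.eq_zero_iff _).mpr ⟨⟨ψ, hψ⟩, rfl⟩)).trans (map_zero θ'),
    hθ'⟩

/-- Realisation of functionals on local families by global classes. -/
theorem exists_realize (hpS : ExtCitation.pPrime p ∈ S) (hp2 : p ≠ 2) (U : Subgroup GQ)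
    [U.FiniteIndex] (hU : U ∈ LS S) (hUχ : U ≤ (chiQ p).ker)
    (θ : LocFam p S U →+ ZMod p)
    (hθ : ∀ ψ (hψ : ψ ∈ eqHom (chiQ p) (MonoidHom.id GQ) (Ind U (Mu (chiQ p)))),
      θ (fun v => ⟨ψ, fun d m => hψ (localGaloisToGlobal ((v : Nat.Primes) : ℕ) d) m⟩) = 0) :
    ∃ F ∈ (LS S).Z2 ⊤ (Ind U (Mu (chiQ p))), ∀ e : LocFam p S U,
      θ e = ∑ v : S, (locDatum p ((v : Nat.Primes) : ℕ)).eval
        (M := Res (localGaloisToGlobal ((v : Nat.Primes) : ℕ)) (Ind U (Mu (chiQ p))))
        (pullR ((v : Nat.Primes) : ℕ) F) (e v).1 := by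
  have : NeZero p := ⟨hp.out.ne_zero⟩
  obtain ⟨N, hN, hNn, hNU⟩ := (LS S).exists_normal hU
  have := hNn
  obtain ⟨K, hKfd, χ, hK, hKn, hleN, hker, hunr, hns⟩ := exists_layer hpS hN (hNU.trans hUχ)
  have hle : K.fixingSubgroup ≤ U := hleN.trans hNU
  have := hKfd
  have := (LS S).finiteIndex (fixingSubgroup_mem_LS hK)
  have hKχ : K.fixingSubgroup ≤ (chiQ p).ker := hle.trans hUχ
  have hcK : cycK p ≤ K := le_of_fixingSubgroup_le (by rw [fixingSubgroup_cycK]; exact hKχ)
  have hζK : zet p ∈ K := hcK (zet_mem_cycK p)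
  have := isTotallyComplex_cycK p hp2
  have : NumberField.IsTotallyComplex K := isTotallyComplex_of_le hcK
  obtain ⟨θ', hθd, hθ'⟩ := exists_fibreFam_transfer hpS hle θ hθ
  set a : PK K → ZMod p := fun P => θ' (primeFam p S K P)
  have hasum : ∑ P ∈ above K S, a P = 0 := by
    let one : eqHom (chiQ p) (MonoidHom.id GQ) (Ind K.fixingSubgroup (Mu (chiQ p))) :=
      ⟨AddMonoidHom.mk' (fun φ => ∑ x, Mu.val (chiQ p) (φ x)) fun φ ψ => by
          rw [← Finset.sum_add_distrib]
          exact Finset.sum_congr rfl fun x _ => map_add _ _ _,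
        fun g φ => by
          show ∑ x, Mu.val (chiQ p) ((g • φ) x) = (chiQ p g : ZMod p) * ∑ x, Mu.val (chiQ p) (φ x)
          rw [Finset.mul_sum]
          refine (Fintype.sum_equiv (MulAction.toPerm g) _ _ fun x => ?_).symm
          rw [MulAction.toPerm_apply, Ind.smul_apply, inv_smul_smul, Mu.val_smul]⟩
    have hsum : ∑ P ∈ above K S, primeFam p S K P = fun (v : S) => ⟨one.1, fun d m =>
        one.2 (localGaloisToGlobal ((v : Nat.Primes) : ℕ) d) m⟩ := by
      funext v
      refine Subtype.ext (AddMonoidHom.ext fun φ => ?_)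
      rw [Finset.sum_apply, AddSubgroup.val_finsetSum, AddMonoidHom.finsetSum_apply]
      show ∑ P ∈ above K S, primeFun p K P ((v : Nat.Primes) : ℕ) φ = ∑ x, Mu.val (chiQ p) (φ x)
      simp only [primeFun_apply]
      rw [Finset.sum_comm]
      refine Finset.sum_congr rfl fun x _ => ?_
      rw [Finset.sum_ite_eq, if_pos]
      rw [mem_above]
      convert v.2
      exact Subtype.ext ((isPoint_primeAt (K := K)).prime_eq (isPoint_gOf _))
    have h := hθd one.1 one.2
    rwa [← hsum, map_sum] at h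
  obtain ⟨m, hm, hlift⟩ := exists_mu_lift hpS χ hker hunr
  have hm0 : (m : ZMod p) ≠ 0 := fun h => hm ((ZMod.natCast_eq_zero_iff m p).mp h)
  obtain ⟨b, hb, hbS, hboff⟩ := exists_invCh_prescribed hpS hζK χ hns
    (fun P => a P * (m : ZMod p)⁻¹) (by rw [← Finset.sum_mul, hasum, zero_mul])
  obtain ⟨f, hf, hfinv⟩ := hlift b hb hboff
  set F' := indFun2 K.fixingSubgroup f
  have hF' : F' ∈ (LS S).Z2 ⊤ (Ind K.fixingSubgroup (Mu (chiQ p))) :=
    indFun2_mem_Z2 (fixingSubgroup_mem_LS hK) hf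
  have ha : ∀ P ∈ above K S,
      invAt (muClass fun u v => F' u v ((1 : GQ) : GQ ⧸ K.fixingSubgroup)) P =
      qz ((a P).val : ℤ) p := fun P hP => by
    rw [invAt_congr (muClass_mem_Z2 (fun W => LS_le) hf)
        (Levels.B2_congr (zero_mem _) fun g hg k hk => by
      simp only [Pi.sub_apply, F', muClass, indFun2_one_coset _ _ hg hk, sub_self, Pi.zero_apply]),
      hfinv]
    obtain ⟨z, hz⟩ := exists_qz (nsmul_invCh χ P hb)
    have hz' := hbS P (mem_above.mp hP)
    rw [hz, qzRes_qz] at hz'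
    rw [hz, ← natCast_zsmul, ← qz_mul, ← sub_eq_zero, ← qz_sub, qz_eq_zero_iff,
      ← ZMod.intCast_zmod_eq_zero_iff_dvd]
    push_cast
    rw [hz', ZMod.natCast_zmod_val, mul_comm (a P), ← mul_assoc, mul_inv_cancel₀ hm0,
      one_mul, sub_self]
  refine ⟨fun g k => Ind.fibreSum hle (F' g k),
    Levels.map_mem_Z2 _ (fun g _ φ => Ind.fibreSum_smul hle g φ) hF', fun e => ?_⟩
  rw [← hθ' e]
  refine Eq.trans ?_ (sum_eval_eq hKn hKχ (Levels.Z2_le (fun W => LS_le) hF') a ha
    (fibreFam hle e)).symm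
  conv_lhs => rw [← sum_primeFam (fibreFam hle e), map_sum]
  refine Finset.sum_congr rfl fun P _ => ?_
  rw [map_nsmul, nsmul_eq_mul, ZMod.natCast_zmod_val]

end FermatAgent.CFT.Global
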